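import Fermat.Agent.LT3.Per.HeckeB

/-!
# Coefficients along integers

For coefficients satisfying the Hecke relations of a system of eigenvalues `lam`, `normC` makes the
relations independent of the class of the frequency, and for `m` prime to `3E` the coefficient at
`m η` is `gN lam m / m` times the one at `η`; at a split prime the weight is the product of the two
Chebyshev polynomials. `Vn` is the case of an `Auto`.
-/

set_option autoImplicit false
open Matrix QuadraticAlgebra MeasureTheory Filter NumberField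
open scoped Classical

namespace Fermat.LT3
open Fermat.LT

/-- Chebyshev polynomials of the second kind at `a / 2`. -/
def Ucheb (a : ℝ) : ℕ → ℝ
  | 0 => 1
  | 1 => a
  | (k + 2) => a * Ucheb a (k + 1) - Ucheb a k

/-- The quadratic invariant of the recursion. -/
lemma Ucheb_inv (a : ℝ) : ∀ k,
    Ucheb a (k + 1) ^ 2 - a * Ucheb a (k + 1) * Ucheb a k + Ucheb a k ^ 2 = 1
  | 0 => by simp [Ucheb]; ring
  | k + 1 => by
    have h := Ucheb_inv a k
    rw [show Ucheb a (k + 1 + 1) = a * Ucheb a (k + 1) - Ucheb a k from rfl]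
    linear_combination h

/-- For `|a| ≤ 2` the Chebyshev values grow at most linearly. -/
lemma abs_Ucheb_le {a : ℝ} (ha : |a| ≤ 2) : ∀ k, |Ucheb a k| ≤ (k : ℝ) + 1
  | 0 => by simp [Ucheb]
  | k + 1 => by
    have h := abs_Ucheb_le ha k
    set x := Ucheb a (k + 1)
    set y := Ucheb a k
    have hq : x ^ 2 - a * x * y + y ^ 2 = 1 := Ucheb_inv a k
    have h2 : a * x * y ≤ 2 * |x| * |y| := by
      refine (le_abs_self _).trans ?_
      rw [abs_mul, abs_mul]
      gcongr
    have h3 : (|x| - |y|) ^ 2 ≤ 1 := by nlinarith [sq_abs x, sq_abs y]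
    push_cast
    nlinarith [abs_le_one_iff_mul_self_le_one.2 (by nlinarith : (|x| - |y|) * (|x| - |y|) ≤ 1),
      le_abs_self (|x| - |y|)]

/-- The factor of `π ^ k`: `U_k (lam / √N) / √N ^ k`. -/
noncomputable def hh (lam N : ℝ) (k : ℕ) : ℝ := Ucheb (lam / Real.sqrt N) k / Real.sqrt N ^ k

/-- The recursion of the factors. -/
lemma hh_rec {N : ℝ} (hN : 0 < N) (lam : ℝ) (k : ℕ) :
    N * hh lam N (k + 2) = lam * hh lam N (k + 1) - hh lam N k := by
  have h2 := Real.mul_self_sqrt hN.le
  rw [hh, hh, hh, show Ucheb (lam / Real.sqrt N) (k + 2) = lam / Real.sqrt N *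
      Ucheb (lam / Real.sqrt N) (k + 1) - Ucheb (lam / Real.sqrt N) k from rfl]
  nth_rw 1 [← h2]
  rw [show k + 2 = k + 1 + 1 from rfl, pow_succ (Real.sqrt N) (k + 1), pow_succ (Real.sqrt N) k]
  field_simp

/-- The first factor `hh` times the norm is the eigenvalue. -/
lemma hh_one {N : ℝ} (hN : 0 < N) (lam : ℝ) : N * hh lam N 1 = lam := by
  simp only [hh, Ucheb, pow_one]
  rw [div_div, Real.mul_self_sqrt hN.le, mul_div_cancel₀ _ hN.ne']

variable {E : ℕ} [NeZero E]

omit [NeZero E] in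
/-- A number prime to `3E` is a unit modulo `9E`. -/
lemma isUnit_red_nat {m : ℕ} (h : Nat.Coprime m (3 * E)) :
    IsUnit (red (3 * (3 * E)) (m : EI)) := by
  have h9 : Nat.Coprime m (3 * (3 * E)) :=
    (Nat.Coprime.coprime_dvd_right (dvd_mul_right 3 E) h).mul_right h
  have := ((ZMod.isUnit_iff_coprime m _).2 h9).map (algebraMap (ZMod (3 * (3 * E))) (RN E))
  rw [map_natCast] at this
  rwa [map_natCast]

/-- An element of prime norm other than `3` is prime. -/
lemma prime_of_norm_prime {π : EI} {p : ℕ} [Fact p.Prime] (hn : QuadraticAlgebra.norm π = (p : ℤ))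
    (h3 : p ≠ 3) : Prime π := by
  obtain ⟨d⟩ := exists_degOne hn h3
  refine ⟨ne_zero_of_norm hn, fun h => ?_, fun a b hab => ?_⟩
  · have h1 := (d.ker 1).2 (h.dvd)
    rw [map_one] at h1
    exact one_ne_zero h1
  · rw [← d.ker, map_mul, mul_eq_zero, d.ker, d.ker] at hab
    exact hab

/-- An element of prime norm other than `3` does not divide its conjugate. -/
lemma not_dvd_star {π : EI} {p : ℕ} [Fact p.Prime] (hn : QuadraticAlgebra.norm π = (p : ℤ))
    (h3 : p ≠ 3) : ¬ π ∣ star π := by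
  obtain ⟨d⟩ := exists_degOne hn h3
  exact fun h => d.star_ne ((d.ker _).2 h)

/-- The norm of a natural number is its square. -/
lemma norm_natCast_EI (n : ℕ) : QuadraticAlgebra.norm (n : EI) = (n : ℤ) ^ 2 := by
  simp [QuadraticAlgebra.norm_def, sq]

/-- Elements of norm one are units. -/
lemma isUnit_of_norm_one {x : EI} (h : QuadraticAlgebra.norm x = 1) : IsUnit x :=
  IsUnit.of_mul_eq_one (star x) (by
    rw [← QuadraticAlgebra.algebraMap_norm_eq_mul_star, h, map_one])

/-- A common divisor of coprime integers is a unit. -/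
lemma unit_of_dvd_coprime {x : EI} {m n : ℕ} (h : Nat.Coprime m n) (hm : x ∣ (m : EI))
    (hn : x ∣ (n : EI)) : IsUnit x := by
  obtain ⟨a, b, hab⟩ := Nat.isCoprime_iff_coprime.2 h
  refine isUnit_of_dvd_one ?_
  have h1 : (1 : EI) = (a : EI) * (m : EI) + (b : EI) * (n : EI) := by exact_mod_cast hab.symm
  rw [h1]
  exact dvd_add (hm.mul_left _) (hn.mul_left _)

variable [IsPrincipalIdealRing EI]

/-- A nonzero non-unit has a prime factor. -/
lemma exists_prime_over {η : EI} (h0 : η ≠ 0) (hu : ¬ IsUnit η) : ∃ π, Prime π ∧ π ∣ η := by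
  obtain ⟨π, hirr, hd⟩ := WfDvdMonoid.exists_irreducible_factor hu h0
  exact ⟨π, hirr.prime, hd⟩

omit [IsPrincipalIdealRing EI] in
/-- A prime has norm a rational prime or is associated to one. -/
lemma norm_prime_cases {π : EI} (hπ : Prime π) :
    ∃ ℓ : ℕ, ℓ.Prime ∧ π ∣ (ℓ : EI) ∧
      (QuadraticAlgebra.norm π = (ℓ : ℤ) ∨ Associated π (ℓ : EI)) := by
  set n := (QuadraticAlgebra.norm π).natAbs with hn
  -- `π` divides its norm `n`, hence some rational prime `ℓ`
  have hnd : π ∣ (n : EI) := ⟨star π, by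
    rw [← QuadraticAlgebra.algebraMap_norm_eq_mul_star, eq_intCast, hn, ← Int.cast_natCast,
      Int.natAbs_of_nonneg (norm_nonneg_EI π)]⟩
  have hn0 : n ≠ 0 := natAbs_norm_ne_zero hπ.ne_zero
  have key : ∀ m : ℕ, m ≠ 0 → π ∣ (m : EI) → ∃ ℓ : ℕ, ℓ.Prime ∧ π ∣ (ℓ : EI) := by
    intro m
    induction m using Nat.recOnMul with
    | zero => simp
    | one => intro _ h; exact absurd (isUnit_of_dvd_one (by simpa using h)) hπ.not_isUnit
    | prime p hp => exact fun _ h => ⟨p, hp, h⟩
    | mul a b iha ihb =>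
      intro hab h
      rw [Nat.cast_mul] at h
      rcases hπ.dvd_or_dvd h with h | h
      · exact iha (left_ne_zero_of_mul hab) h
      · exact ihb (right_ne_zero_of_mul hab) h
  obtain ⟨ℓ, hℓ, hd⟩ := key n hn0 hnd
  refine ⟨ℓ, hℓ, hd, ?_⟩
  obtain ⟨y, hy⟩ := hd
  -- `n * N y = ℓ ^ 2`, so `n` is `1`, `ℓ` or `ℓ ^ 2`
  have hN : n * (QuadraticAlgebra.norm y).natAbs = ℓ ^ 2 := by
    rw [hn, ← Int.natAbs_mul, ← map_mul, ← hy, norm_natCast_EI, Int.natAbs_pow]
    simp
  obtain ⟨i, hi, hni⟩ := (Nat.dvd_prime_pow hℓ).1 (Dvd.intro _ hN)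
  have hpos : ((n : ℕ) : ℤ) = QuadraticAlgebra.norm π := by
    rw [hn, Int.natAbs_of_nonneg (norm_nonneg_EI π)]
  interval_cases i
  · rw [pow_zero] at hni
    rw [hni] at hpos
    exact absurd (isUnit_of_norm_one (by exact_mod_cast hpos.symm)) hπ.not_isUnit
  · left
    rw [← hpos, hni, pow_one]
  -- `n = ℓ ^ 2`: the cofactor is a unit
  · right
    rw [hni] at hN
    have h1 : (QuadraticAlgebra.norm y).natAbs = 1 :=
      Nat.eq_of_mul_eq_mul_left (pow_pos hℓ.pos 2) (hN.trans (mul_one _).symm)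
    have h2 : QuadraticAlgebra.norm y = 1 := by
      rw [← Int.natAbs_of_nonneg (norm_nonneg_EI y), h1]; rfl
    exact ⟨(isUnit_of_norm_one h2).unit, by rw [IsUnit.unit_spec]; exact hy.symm⟩

/-- Primes `≡ 1 mod 3` are norms. -/
theorem exists_norm_eq_of_one_mod {p : ℕ} [Fact p.Prime] (hp1 : p % 3 = 1) :
    ∃ ϖ : EI, QuadraticAlgebra.norm ϖ = (p : ℤ) := by
  have hp : p.Prime := Fact.out
  have hnu : ¬ IsUnit (p : EI) := not_isUnit_natCast_EI hp
  -- a prime ϖ over p has norm p, or is associated to p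
  obtain ⟨ϖ, hπ, hπp⟩ := exists_prime_over (Nat.cast_ne_zero.2 hp.ne_zero) hnu
  obtain ⟨ℓ, hℓ, hπℓ, hc⟩ := norm_prime_cases hπ
  obtain rfl : ℓ = p := by
    by_contra hne
    exact hπ.not_isUnit (unit_of_dvd_coprime ((Nat.coprime_primes hℓ hp).2 hne) hπℓ hπp)
  refine hc.elim (fun h => ⟨ϖ, h⟩) fun hass => ?_
  exfalso
  -- if p were prime: it divides (z - ω) (z - 1 + ω) for a root z of z² - z + 1 mod p
  have hprime : Prime ((ℓ : ℕ) : EI) := hass.prime hπ
  obtain ⟨x, hx⟩ := exists_prime_orderOf_dvd_card (G := (ZMod ℓ)ˣ) 3 (by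
    rw [ZMod.card_units_eq_totient, Nat.totient_prime hℓ]; omega)
  have hy1 : (x : ZMod ℓ) ≠ 1 := fun e => by
    rw [Units.val_eq_one] at e
    rw [e, orderOf_one] at hx
    exact absurd hx (by norm_num)
  have hy3 : (x : ZMod ℓ) ^ 3 = 1 := by
    rw [← Units.val_pow_eq_pow_val, ← hx, pow_orderOf_eq_one, Units.val_one]
  obtain ⟨z, hz⟩ := ZMod.intCast_surjective (-(x : ZMod ℓ))
  have hroot : ((z * z - z + 1 : ℤ) : ZMod ℓ) = 0 := by
    push_cast
    rw [hz]
    refine (mul_eq_zero.1 (show ((x : ZMod ℓ) - 1) *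
      (-(x : ZMod ℓ) * -(x : ZMod ℓ) - -(x : ZMod ℓ) + 1) = 0
      by linear_combination hy3)).resolve_left (sub_ne_zero.2 hy1)
  obtain ⟨k, hk⟩ := (ZMod.intCast_zmod_eq_zero_iff_dvd _ _).1 hroot
  have hdvd : ((ℓ : ℕ) : EI) ∣ (⟨z, -1⟩ : EI) * (⟨z - 1, 1⟩ : EI) := ⟨(k : EI), by
    apply QuadraticAlgebra.ext <;> simp
    linarith⟩
  rcases hprime.dvd_or_dvd hdvd with ⟨c, hcc⟩ | ⟨c, hcc⟩ <;>
  · have h2 := congrArg (fun w : EI => w.im) hcc
    simp at h2
    first
      | exact hℓ.one_lt.ne' (by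
          have := Int.eq_one_of_mul_eq_one_right (Int.natCast_nonneg ℓ) h2.symm
          exact_mod_cast this)
      | exact hℓ.one_lt.ne' (by
          have := Int.eq_one_of_mul_eq_one_right (b := -c.im) (Int.natCast_nonneg ℓ) (by linarith)
          exact_mod_cast this)

omit [NeZero E] [IsPrincipalIdealRing EI] in
/-- A unit modulo `9 E` does not have norm `3`. -/
lemma not_norm_three {π : EI} (hu : IsUnit (red (3 * (3 * E)) π)) :
    QuadraticAlgebra.norm π ≠ (3 : ℤ) := fun h => by
  have h1 := (hu.map (castER 3 (dvd_mul_right 3 _))).map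
    (QuadraticAlgebra.norm : ER (ZMod 3) →* ZMod 3)
  rw [castER_red, norm_red, h] at h1
  exact not_isUnit_zero (M₀ := ZMod 3) (by simp [show (3 : ZMod 3) = 0 from rfl] at h1)

omit [NeZero E] [IsPrincipalIdealRing EI] in
/-- A prime unit modulo `9E` has norm many representatives of residues. -/
lemma exists_reps_prime {π : EI} (hπ : Prime π) (hu : IsUnit (red (3 * (3 * E)) π)) :
    ∃ T : Finset EI, Reps π T ∧ (T.card : ℤ) = QuadraticAlgebra.norm π := by
  obtain ⟨ℓ, hℓ, -, hc⟩ := norm_prime_cases hπ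
  have := Fact.mk hℓ
  rcases hc with hn | hass
  · obtain ⟨T, hT, hc⟩ := exists_reps_split hn (fun e => not_norm_three hu (by rw [hn, e]; rfl))
    exact ⟨T, hT, by rw [hc, hn]⟩
  · obtain ⟨T, hT, hc⟩ := exists_reps_nat (n := ℓ)
    refine ⟨T, fun x => ?_, ?_⟩
    · simpa only [hass.dvd_iff_dvd_left] using hT x
    · obtain ⟨u, hu'⟩ := hass
      rw [hc, Nat.cast_pow, ← norm_natCast_EI, ← hu', map_mul, norm_unit_EI, mul_one]

section Normalised

variable {B : GN (3 * E) → EI → ℂ} {lam : EI → ℝ}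

/-- Coefficients normalised to the class of the frequency. -/
noncomputable def normC (B : GN (3 * E) → EI → ℂ) (M : GN (3 * E)) (η : EI) : ℂ :=
  if h : IsUnit (red (3 * (3 * E)) η) then B (dgN h.unit⁻¹ * M) η else 0

omit [NeZero E] [IsPrincipalIdealRing EI] in
/-- A unit modulo `9E` is nonzero. -/
lemma ne_zero_of_unit_red {η : EI} (h : IsUnit (red (3 * (3 * E)) η)) : η ≠ 0 := fun e => by
  rw [e, map_zero] at h
  have h1 := h.map (castPi E)
  rw [map_zero] at h1
  exact not_isUnit_zero (M₀ := ZMod 3) h1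

omit [IsPrincipalIdealRing EI] in
/-- The normalised coefficient only depends on the frequency up to units. -/
lemma normC_mul_unit
    (hB : ∀ (N : GN (3 * E)) {η : EI}, η ≠ 0 → ∀ (u : EIˣ) (a : (RN E)ˣ),
      (a : RN E) = red (3 * (3 * E)) u → B (dgN a * N) η = B N (η * u))
    (M : GN (3 * E)) (η : EI) (u : EIˣ) : normC B M (η * u) = normC B M η := by
  have hu : IsUnit (red (3 * (3 * E)) (u : EI)) := u.isUnit.map _
  by_cases h : IsUnit (red (3 * (3 * E)) η)
  · have h' : IsUnit (red (3 * (3 * E)) (η * u)) := by rw [map_mul]; exact h.mul hu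
    rw [normC, dif_pos h', normC, dif_pos h, ← hB _ (ne_zero_of_unit_red h) u hu.unit rfl,
      ← mul_assoc, dgN_mul]
    congr 3
    refine mul_inv_eq_iff_eq_mul.2 ?_
    refine Eq.symm (inv_mul_eq_iff_eq_mul.2 (Units.ext ?_))
    simp [map_mul]
  · rw [normC, dif_neg, normC, dif_neg h]
    rw [map_mul]
    exact fun h2 => h (IsUnit.mul_iff.1 h2).1

omit [IsPrincipalIdealRing EI] in
/-- **The relation** for the normalised coefficients, with no twist of the class. -/
theorem normC_hecke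
    (hB : ∀ {π : EI}, Prime π → ∀ (hu : IsUnit (red (3 * (3 * E)) π)) {T : Finset EI}, Reps π T →
      ∀ (N : GN (3 * E)) {η : EI}, η ≠ 0 →
        (lam π : ℂ) * B N η = (T.card : ℂ) * B (dgN hu.unit⁻¹ * N) (η * π)
          + if h : π ∣ η then B (dgN hu.unit * N) h.choose else 0)
    (M : GN (3 * E)) {π η : EI} (hπ : Prime π) (hu : IsUnit (red (3 * (3 * E)) π))
    (hη : IsUnit (red (3 * (3 * E)) η)) :
    (lam π : ℂ) * normC B M η = ((QuadraticAlgebra.norm π : ℤ) : ℂ) * normC B M (η * π)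
      + if h : π ∣ η then normC B M h.choose else 0 := by
  obtain ⟨T, hT, hc⟩ := exists_reps_prime hπ hu
  have h' : IsUnit (red (3 * (3 * E)) (η * π)) := by rw [map_mul]; exact hη.mul hu
  rw [normC, dif_pos hη, hB hπ hu hT _ (ne_zero_of_unit_red hη), normC, dif_pos h',
    ← hc, Int.cast_natCast]
  congr 1
  · congr 1
    rw [← mul_assoc, dgN_mul]
    congr 3
    rw [show h'.unit = hη.unit * hu.unit from Units.ext (by simp [map_mul]), _root_.mul_inv_rev]
  · split_ifs with h
    · have hr : red (3 * (3 * E)) η = red (3 * (3 * E)) π * red (3 * (3 * E)) h.choose := by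
        rw [← map_mul]; exact congrArg _ h.choose_spec
      have h'' : IsUnit (red (3 * (3 * E)) h.choose) := (IsUnit.mul_iff.1 (hr ▸ hη)).2
      rw [normC, dif_pos h'', ← mul_assoc, dgN_mul]
      congr 3
      rw [show hη.unit = hu.unit * h''.unit from Units.ext (by simpa using hr), _root_.mul_inv_rev,
        mul_comm h''.unit⁻¹, mul_inv_cancel_left]
    · rfl

omit [NeZero E] [IsPrincipalIdealRing EI] in
/-- **Powers of a prime.** The Hecke recursion gives the value at `η π ^ k` as `hh` times that at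
`η`, for `π ∤ η`. -/
theorem pow_of_hecke {V : EI → ℂ}
    (hV : ∀ {π η : EI}, Prime π → IsUnit (red (3 * (3 * E)) π) → IsUnit (red (3 * (3 * E)) η) →
      (lam π : ℂ) * V η = ((QuadraticAlgebra.norm π : ℤ) : ℂ) * V (η * π)
        + if h : π ∣ η then V h.choose else 0)
    {π η : EI} (hπ : Prime π) (hu : IsUnit (red (3 * (3 * E)) π))
    (hη : IsUnit (red (3 * (3 * E)) η)) (hnd : ¬ π ∣ η) (k : ℕ) :
    V (η * π ^ k) = (hh (lam π) (QuadraticAlgebra.norm π : ℤ) k : ℂ) * V η := by
  set N : ℝ := ((QuadraticAlgebra.norm π : ℤ) : ℝ) with hN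
  have hN0 : 0 < N := by rw [hN, ← norm_toC]; have := toC_ne_zero hπ.ne_zero; positivity
  have hNc : ((QuadraticAlgebra.norm π : ℤ) : ℂ) = (N : ℂ) := by rw [hN]; norm_cast
  have hNne : (N : ℂ) ≠ 0 := by exact_mod_cast hN0.ne'
  have huk : ∀ k, IsUnit (red (3 * (3 * E)) (η * π ^ k)) := fun k => by
    rw [map_mul, map_pow]; exact hη.mul (hu.pow k)
  induction k using Nat.twoStepInduction with
  | zero => simp [hh, Ucheb]
  | one =>
    have h := hV hπ hu hη
    rw [dif_neg hnd, add_zero, hNc, ← hh_one hN0 (lam π)] at h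
    push_cast at h
    rw [pow_one]
    exact (mul_left_cancel₀ hNne (by linear_combination h)).symm
  | more k ih1 ih2 =>
    have h := hV hπ hu (huk (k + 1))
    have hd : π ∣ η * π ^ (k + 1) := Dvd.intro (η * π ^ k) (by ring)
    have hc : hd.choose = η * π ^ k :=
      mul_left_cancel₀ hπ.ne_zero (hd.choose_spec.symm.trans (by ring))
    rw [dif_pos hd, hc, ih1, ih2, hNc, show η * π ^ (k + 1) * π = η * π ^ (k + 2) by ring] at h
    have hr := congrArg (fun r : ℝ => (r : ℂ)) (hh_rec hN0 (lam π) k)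
    push_cast at hr
    exact mul_left_cancel₀ hNne (by linear_combination -h - V η * hr)

/-- Rational primes which are no norms stay prime. -/
lemma prime_inert {p : ℕ} (hp : p.Prime) (h : ¬ ∃ π : EI, QuadraticAlgebra.norm π = (p : ℤ)) :
    Prime (p : EI) := by
  obtain ⟨π, hπ, hd⟩ := exists_prime_over (Nat.cast_ne_zero.2 hp.ne_zero : (p : EI) ≠ 0)
    (not_isUnit_natCast_EI hp)
  obtain ⟨ℓ, hℓ, hdℓ, hc⟩ := norm_prime_cases hπ
  have hpℓ : p = ℓ := by
    by_contra hne
    exact hπ.not_isUnit (unit_of_dvd_coprime ((Nat.coprime_primes hp hℓ).2 hne) hd hdℓ)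
  rcases hc with hc | hc
  · exact absurd ⟨π, by rw [hpℓ]; exact hc⟩ h
  · rw [hpℓ]; exact hc.prime hπ

/-- The local weight of a system of eigenvalues. -/
noncomputable def gP (lam : EI → ℝ) (p k : ℕ) : ℝ :=
  if h : ∃ π : EI, QuadraticAlgebra.norm π = (p : ℤ) then
    Ucheb (lam h.choose / Real.sqrt p) k * Ucheb (lam (star h.choose) / Real.sqrt p) k
  else Ucheb (lam (p : EI) / p) k

/-- The weight of a system of eigenvalues. -/
noncomputable def gN (lam : EI → ℝ) (m : ℕ) : ℝ := m.factorization.prod (gP lam)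

omit [NeZero E] [IsPrincipalIdealRing EI] in
/-- The local weight at the exponent zero. -/
lemma gP_zero (lam : EI → ℝ) (p : ℕ) : gP lam p 0 = 1 := by rw [gP]; split_ifs <;> simp [Ucheb]

omit [NeZero E] [IsPrincipalIdealRing EI] in
/-- The weight of one. -/
@[simp] lemma gN_one (lam : EI → ℝ) : gN lam 1 = 1 := by simp [gN]

omit [NeZero E] [IsPrincipalIdealRing EI] in
/-- The weight of a prime power is the local weight. -/
lemma gN_prime_pow {lam : EI → ℝ} {p : ℕ} (hp : p.Prime) (k : ℕ) :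
    gN lam (p ^ k) = gP lam p k := by
  rw [gN, hp.factorization_pow, Finsupp.prod_single_index (gP_zero lam p)]

omit [NeZero E] [IsPrincipalIdealRing EI] in
/-- The weight is multiplicative. -/
lemma gN_mul {lam : EI → ℝ} {a b : ℕ} (h : Nat.Coprime a b) :
    gN lam (a * b) = gN lam a * gN lam b := by
  rw [gN, gN, gN, Nat.factorization_mul_of_coprime h, Finsupp.prod_add_index_of_disjoint]
  simpa using h.disjoint_primeFactors

/-- **The coefficients along integers.** The Hecke recursion gives the value at `m η` as `g m / m`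
times that at `η`. -/
theorem nat_of_hecke {V : EI → ℂ} {g : ℕ → ℝ}
    (hV : ∀ {π η : EI}, Prime π → IsUnit (red (3 * (3 * E)) π) → IsUnit (red (3 * (3 * E)) η) →
      (lam π : ℂ) * V η = ((QuadraticAlgebra.norm π : ℤ) : ℂ) * V (η * π)
        + if h : π ∣ η then V h.choose else 0)
    (hmul : ∀ {a b : ℕ}, Nat.Coprime a b → g (a * b) = g a * g b) (hone : g 1 = 1)
    (hpp : ∀ {p : ℕ}, p.Prime → Nat.Coprime p (3 * E) → ∀ k, g (p ^ k) =
      if h : ∃ π : EI, QuadraticAlgebra.norm π = (p : ℤ) then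
        Ucheb (lam h.choose / Real.sqrt p) k * Ucheb (lam (star h.choose) / Real.sqrt p) k
      else Ucheb (lam (p : EI) / p) k) :
    ∀ {m : ℕ}, 0 < m → Nat.Coprime m (3 * E) →
    ∀ {η : EI}, IsUnit (red (3 * (3 * E)) η) →
      (∀ π : EI, Prime π → π ∣ (m : EI) → ¬ π ∣ η) →
      V ((m : EI) * η) = ((g m / m : ℝ) : ℂ) * V η := by
  intro m
  induction m using Nat.recOnPrimeCoprime with
  | zero => intro h; exact absurd h (lt_irrefl 0)
  | prime_pow p n hp =>
    intro _ hco η hη hnd
    have := Fact.mk hp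
    rcases Nat.eq_zero_or_pos n with rfl | hn
    · simp [hone]
    have hcp : Nat.Coprime p (3 * E) := Nat.Coprime.coprime_dvd_left (dvd_pow_self p hn.ne') hco
    have hp3 : p ≠ 3 := fun e => by
      have := Nat.Coprime.coprime_dvd_right (dvd_mul_right 3 E) hcp
      rw [e] at this
      norm_num at this
    rw [hpp hp hcp, Nat.cast_pow]
    -- split: the powers of `π` and of `star π` in turn; inert: those of `p`
    split_ifs with h
    · set π := h.choose
      have hπn : QuadraticAlgebra.norm π = (p : ℤ) := h.choose_spec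
      have hπn' : QuadraticAlgebra.norm (star π) = (p : ℤ) := by
        rw [QuadraticAlgebra.norm_star, hπn]
      have hπ := prime_of_norm_prime hπn hp3
      have hπ' := prime_of_norm_prime hπn' hp3
      have hpe : (p : EI) = π * star π := (mul_star_of_norm hπn).symm
      obtain ⟨hu, hu'⟩ : IsUnit (red (3 * (3 * E)) π) ∧ IsUnit (red (3 * (3 * E)) (star π)) := by
        rw [← IsUnit.mul_iff, ← map_mul, ← hpe]
        exact isUnit_red_nat hcp
      have hd1 : ¬ π ∣ η :=
        hnd π hπ (dvd_pow (Dvd.intro _ hpe.symm) hn.ne' |>.trans (by rw [Nat.cast_pow]))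
      have hd2 : ¬ star π ∣ η * π ^ n := by
        intro hd
        rcases hπ'.dvd_or_dvd hd with hd | hd
        · exact hnd _ hπ' ((dvd_pow (Dvd.intro_left _ hpe.symm) hn.ne').trans
            (by rw [Nat.cast_pow])) hd
        · have h5 := not_dvd_star hπn' hp3
          rw [star_star] at h5
          exact h5 (hπ'.dvd_of_dvd_pow hd)
      rw [hpe, mul_pow, show π ^ n * star π ^ n * η = η * π ^ n * star π ^ n by ring,
        pow_of_hecke hV hπ' hu' (by rw [map_mul, map_pow]; exact hη.mul (hu.pow n)) hd2 n,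
        pow_of_hecke hV hπ hu hη hd1 n, ← mul_assoc, hπn', hπn, hh, hh]
      congr 1
      rw [Nat.cast_pow, ← Complex.ofReal_mul]
      congr 1
      have hs := Real.mul_self_sqrt (Nat.cast_nonneg p : (0 : ℝ) ≤ p)
      push_cast
      rw [div_mul_div_comm, ← mul_pow, hs, mul_comm]
    · have hinert := prime_inert hp h
      have hu := isUnit_red_nat (E := E) hcp
      have hd1 : ¬ (p : EI) ∣ η := hnd _ hinert (by rw [Nat.cast_pow]; exact dvd_pow_self _ hn.ne')
      rw [mul_comm, pow_of_hecke hV hinert hu hη hd1 n]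
      congr 2
      rw [norm_natCast_EI, Int.cast_pow, Int.cast_natCast, hh, Real.sqrt_sq (Nat.cast_nonneg p)]
      push_cast
      rfl
  | coprime a b ha hb hab iha ihb =>
    intro _ hco η hη hnd
    have hca := Nat.Coprime.coprime_dvd_left (dvd_mul_right a b) hco
    have hcb := Nat.Coprime.coprime_dvd_left (dvd_mul_left b a) hco
    rw [Nat.cast_mul, mul_assoc,
      iha (by omega) hca (by rw [map_mul]; exact (isUnit_red_nat hcb).mul hη) ?_,
      ihb (by omega) hcb hη fun π hπ hd => hnd π hπ (by rw [Nat.cast_mul]; exact hd.mul_left _),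
      hmul hab, ← mul_assoc, ← Complex.ofReal_mul]
    · congr 2
      push_cast
      rw [div_mul_div_comm]
    · intro π hπ hd hd'
      rcases hπ.dvd_or_dvd hd' with h' | h'
      · exact hπ.not_isUnit (unit_of_dvd_coprime hab hd h')
      · exact hnd π hπ (by rw [Nat.cast_mul]; exact hd.mul_right _) h'

omit [NeZero E] [IsPrincipalIdealRing EI] in
/-- **The coefficients at rational integers prime to the level.** -/
theorem signed_of_nat {V : EI → ℂ} {g : ℕ → ℝ} (hunit : ∀ (η : EI) (u : EIˣ), V (η * u) = V η)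
    (hnat : ∀ {m : ℕ}, 0 < m → Nat.Coprime m (3 * E) → ∀ {η : EI}, IsUnit (red (3 * (3 * E)) η) →
      (∀ π : EI, Prime π → π ∣ (m : EI) → ¬ π ∣ η) → V ((m : EI) * η) = ((g m / m : ℝ) : ℂ) * V η)
    {n : ℕ} (hn : Nat.Coprime n (3 * E)) (m : ℤ) (hm : m = n ∨ m = -n) :
    V (m : EI) = ((g n / n : ℝ) : ℂ) * V 1 := by
  have hn0 : 0 < n := Nat.pos_of_ne_zero fun e => by
    rw [e, Nat.coprime_zero_left] at hn
    omega
  have h := hnat hn0 hn (η := 1) (by rw [map_one]; exact isUnit_one)
    fun ϖ hπ _ h1 => hπ.not_isUnit (isUnit_of_dvd_one h1)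
  rw [mul_one] at h
  rcases hm with rfl | rfl
  · simpa using h
  · rw [show ((-(n : ℤ) : ℤ) : EI) = ((n : ℕ) : EI) *
      ((-1 : EIˣ) : EI) by push_cast; ring, hunit, h]

omit [IsPrincipalIdealRing EI] in
/-- The normalisation changes nothing at `1`. -/
lemma normC_one (M : GN (3 * E)) : normC B M 1 = B M 1 := by
  have h : IsUnit (red (3 * (3 * E)) (1 : EI)) := by rw [map_one]; exact isUnit_one
  rw [normC, dif_pos h, show h.unit = 1 from
    Units.ext (by rw [h.unit_spec, map_one, Units.val_one]),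
    inv_one, dgN_one, one_mul]

end Normalised

variable {K : Type*} [Field K] [NumberField K] [IsTotallyComplex K] (D : KData K) (A : Auto E)

/-- The coefficient normalised to the class of the frequency; zero unless it is prime to `3E`. -/
noncomputable def Vn (M : GN (3 * E)) (η : EI) : ℂ := normC (Bn D A) M η

omit [IsPrincipalIdealRing EI] in
/-- The normalised coefficient depends on the frequency up to units. -/
lemma Vn_mul_unit (M : GN (3 * E)) (η : EI) (u : EIˣ) : Vn D A M (η * u) = Vn D A M η :=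
  normC_mul_unit (B := Bn D A) (fun N _ hη u a ha => Bn_unit D A N hη u a ha) M η u

omit [IsPrincipalIdealRing EI] in
/-- The Hecke relation of the normalised coefficients at a prime. -/
theorem Vn_hecke (M : GN (3 * E)) {π η : EI} (hπ : Prime π) (hu : IsUnit (red (3 * (3 * E)) π))
    (hη : IsUnit (red (3 * (3 * E)) η)) :
    (A.lam π : ℂ) * Vn D A M η = ((QuadraticAlgebra.norm π : ℤ) : ℂ) * Vn D A M (η * π)
      + if h : π ∣ η then Vn D A M h.choose else 0 :=
  normC_hecke (B := Bn D A) (fun hπ hu _ hT N _ hη => Bn_hecke D A hπ hu hT N hη) M hπ hu hη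

omit [IsPrincipalIdealRing EI] in
/-- The normalisation changes nothing at `1`. -/
lemma Vn_one (M : GN (3 * E)) : Vn D A M 1 = Bn D A M 1 := normC_one (B := Bn D A) M

/-- **No coefficient prime to the level** if none at `1`. -/
theorem Vn_eq_zero (M : GN (3 * E)) (h1 : Vn D A M 1 = 0) :
    ∀ η : EI, IsUnit (red (3 * (3 * E)) η) → Vn D A M η = 0 := by
  suffices ∀ n : ℕ, ∀ η : EI, (QuadraticAlgebra.norm η).natAbs = n →
      IsUnit (red (3 * (3 * E)) η) → Vn D A M η = 0 from fun η => this _ η rfl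
  -- induction on the norm, by the relation at a prime factor
  intro n
  induction n using Nat.strong_induction_on with
  | _ n ih =>
  intro η hn hη
  by_cases hu : IsUnit η
  · rw [← one_mul η, ← hu.unit_spec, Vn_mul_unit D A M 1 hu.unit, h1]
  obtain ⟨π, hπ, η', rfl⟩ := exists_prime_over (ne_zero_of_unit_red hη) hu
  obtain ⟨hπu, hη'⟩ := IsUnit.mul_iff.1 (show IsUnit (red (3 * (3 * E)) π * red (3 * (3 * E)) η') by
    rw [← map_mul]; exact hη)
  have hlt : ∀ x : EI, x ≠ 0 → (QuadraticAlgebra.norm x).natAbs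
      < (QuadraticAlgebra.norm (π * x)).natAbs := fun x hx => by
    have e1 : ∀ y : EI, y ≠ 0 → 0 < (QuadraticAlgebra.norm y).natAbs := fun y hy =>
      Nat.pos_of_ne_zero (natAbs_norm_ne_zero hy)
    rw [map_mul, Int.natAbs_mul]
    refine lt_mul_left (e1 x hx) ?_
    refine lt_of_le_of_ne (e1 π hπ.ne_zero) fun e => hπ.not_isUnit (isUnit_of_norm_one ?_)
    rw [← Int.natAbs_of_nonneg (norm_nonneg_EI π), ← e]; rfl
  have hrel := Vn_hecke D A M hπ hπu hη'
  have h1' : Vn D A M η' = 0 := ih _ (hn ▸ hlt η' (ne_zero_of_unit_red hη')) η' rfl hη'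
  have hN : ((QuadraticAlgebra.norm π : ℤ) : ℂ) ≠ 0 :=
    Int.cast_ne_zero.2 (Int.natAbs_ne_zero.1 (natAbs_norm_ne_zero hπ.ne_zero))
  have h2 : (if h : π ∣ η' then Vn D A M h.choose else 0) = 0 := by
    split_ifs with h
    · have h3 : IsUnit (red (3 * (3 * E)) h.choose) := by
        have h4 := hη'
        rw [h.choose_spec, map_mul] at h4
        exact (IsUnit.mul_iff.1 h4).2
      refine ih _ ?_ _ rfl h3
      rw [← hn]
      refine (hlt _ (ne_zero_of_unit_red h3)).trans ?_
      rw [← h.choose_spec]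
      exact hlt η' (ne_zero_of_unit_red hη')
    · rfl
  rw [h1', mul_zero, h2, add_zero, mul_comm η' π] at hrel
  exact (mul_eq_zero.1 hrel.symm).resolve_left hN

/-- The hypotheses on the eigenvalues. -/
structure LamOK : Prop where
  /-- Invariance under conjugation. -/
  conj : ∀ π : EI, Prime π → IsUnit (red (3 * (3 * E)) π) → A.lam (star π) = A.lam π
  /-- The Ramanujan bound. -/
  bound : ∀ π : EI, Prime π → IsUnit (red (3 * (3 * E)) π) →
    |A.lam π| ≤ 2 * Real.sqrt ((QuadraticAlgebra.norm π : ℤ) : ℝ)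
  /-- Nonnegativity at the inert primes. -/
  inert : ∀ p : ℕ, p.Prime → Nat.Coprime p (3 * E) →
    (¬ ∃ π : EI, QuadraticAlgebra.norm π = (p : ℤ)) → 0 ≤ A.lam (p : EI)

/-- **The coefficients at rational integers prime to the level.** -/
theorem Vn_signed (M : GN (3 * E)) {n : ℕ} (hn : Nat.Coprime n (3 * E)) (m : ℤ)
    (hm : m = n ∨ m = -n) : Vn D A M (m : EI) = ((gN A.lam n / n : ℝ) : ℂ) * Vn D A M 1 :=
  signed_of_nat (V := Vn D A M) (Vn_mul_unit D A M)
    (nat_of_hecke (V := Vn D A M) (lam := A.lam) (fun hπ hu hη => Vn_hecke D A M hπ hu hη)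
    (fun h => gN_mul h) (gN_one A.lam) fun hp _ k => gN_prime_pow hp k) hn m hm

end Fermat.LT3
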