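import Fermat.Agent.LT3.Per.Lead
import Mathlib.RingTheory.PrincipalIdealDomain

/-!
# Vanishing periods kill the function

`false_of_periods`, the end of `LT3/Per`: if the periods vanish, so does the first coefficient
(`Bn_one_eq_zero` of `Lead`), hence all coefficients prime to the level; those divisible by `√-3`
vanish by the cusp condition; the remaining ones would make the function invariant under `SL₂`
at a prime dividing `E` (`eq_zero_of_vanOut`). `Main/Lift` concludes from it that a lift is nonzero.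
-/

set_option autoImplicit false
open Matrix MeasureTheory Filter NumberField
open scoped Classical Real Topology

namespace Fermat.LT3
open Fermat.LT

/-- The entries of an upper translation. -/
lemma trI_val_eq (x : EI) : (trI x).val = !![1, x; 0, 1] := by
  ext i j : 1
  fin_cases i <;> fin_cases j <;> simp [trI, upE]

/-- Upper translations compose additively. -/
lemma trI_add (x y : EI) : trI (x + y) = trI x * trI y := by
  refine Units.ext ?_
  rw [Units.val_mul, trI_val_eq, trI_val_eq, trI_val_eq, Matrix.mul_fin_two]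
  simp [add_comm]

/-- Upper translations commute. -/
lemma trI_comm (x y : EI) : trI x * trI y = trI y * trI x := by
  rw [← trI_add, ← trI_add, add_comm]

/-- Lower unipotent matrices. -/
def loI (x : EI) : GL (Fin 2) EI := swI * trI x * swI

/-- The entries of a lower unipotent matrix. -/
lemma loI_val (x : EI) : (loI x).val = !![1, 0; x, 1] := by
  rw [loI, Units.val_mul, Units.val_mul, trI_val_eq, show swI.val = !![0, 1; 1, 0] from rfl,
    Matrix.mul_fin_two, Matrix.mul_fin_two]
  simp

/-- Periodic continuous functions are closed under sums. -/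
lemma PerC.add {N : ℕ} {f g : ℂ → ℂ} (hf : PerC N f) (hg : PerC N g) : PerC N fun z => f z + g z :=
  ⟨hf.1.add hg.1, fun z x => by change f _ + g _ = _; rw [hf.2, hg.2]⟩

variable {E : ℕ} [NeZero E]

omit [NeZero E] in
/-- Reduction from `9 E` to `E` is reduction modulo `E`. -/
lemma castEh_red (x : EI) : castEh E (red (3 * (3 * E)) x) = red E x := castER_red _ _ _

/-- Reduction modulo `√-3` on `ℤ[ω]`. -/
noncomputable def piZ (E : ℕ) : EI →+* ZMod 3 := (castPi E).comp (red (3 * (3 * E)))

omit [NeZero E] in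
/-- Multiples of `3` vanish modulo `√-3`. -/
lemma piZ_three_mul (x : EI) : piZ E (3 * x) = 0 := by
  rw [map_mul, map_ofNat, show (OfNat.ofNat 3 : ZMod 3) = 0 from rfl, zero_mul]

/-- Invariance under congruences. -/
def CongR (G : GN (3 * E) → H3 → ℂ) : Prop :=
  ∀ M M' : GN (3 * E), M.val.map (castPi E) = M'.val.map (castPi E) →
    M.val.map (castEh E) = M'.val.map (castEh E) → ∀ w, G M w = G M' w

omit [NeZero E] in
/-- Left multiplication only sees the matrix modulo `√-3` and modulo `E`. -/
lemma CongR.gl {G : GN (3 * E) → H3 → ℂ} (h : CongR G) {γ γ' : GL (Fin 2) EI}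
    (h1 : γ.val.map (piZ E) = γ'.val.map (piZ E)) (h2 : γ.val.map (red E) = γ'.val.map (red E))
    (M : GN (3 * E)) (w : H3) :
    G (gr (3 * (3 * E)) γ * M) w = G (gr (3 * (3 * E)) γ' * M) w := by
  have e : ∀ g : GL (Fin 2) EI,
      (gr (3 * (3 * E)) g : GN (3 * E)).val.map (castEh E) = g.val.map (red E) := fun g => by
    ext i j : 1; exact castEh_red _
  have e' : ∀ g : GL (Fin 2) EI,
      (gr (3 * (3 * E)) g : GN (3 * E)).val.map (castPi E) = g.val.map (piZ E) := fun g => rfl
  refine h _ _ ?_ ?_ w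
  · rw [Units.val_mul, Units.val_mul, Matrix.map_mul, Matrix.map_mul, e', e', h1]
  · rw [Units.val_mul, Units.val_mul, Matrix.map_mul, Matrix.map_mul, e, e, h2]

/-- Equivariance at one matrix. -/
def Eqv (G : GN (3 * E) → H3 → ℂ) (γ : GL (Fin 2) EI) : Prop :=
  ∀ M w, G (gr (3 * (3 * E)) γ * M) (gC γ • w) = G M w

/-- Congruent to one modulo the listed elements. -/
def OneMod (S : List EI) (γ : GL (Fin 2) EI) : Prop :=
  ∀ p ∈ S, ∀ i j, p ∣ γ.val i j - (1 : Matrix (Fin 2) (Fin 2) EI) i j

/-- The properties kept along the induction. -/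
structure GoodG (S : List EI) (G : GN (3 * E) → H3 → ℂ) : Prop where
  /-- The member depends only on the matrix modulo `√-3` and modulo `E`. -/
  congr : CongR G
  /-- Each member is continuous. -/
  cont : ∀ M, Continuous (G M)
  /-- The family is equivariant for translations. -/
  trans : ∀ x, Eqv G (trI x)
  /-- The family is equivariant for matrices congruent to one modulo every element of `S`. -/
  eqv : ∀ γ, OneMod S γ → Eqv G γ
  /-- The sums over `SL₂` at each prime dividing `E` vanish. -/
  slz : ∀ ϖ : EI, Prime ϖ → ϖ ∣ (E : EI) → ∀ M w,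
    ∑ k ∈ (Finset.univ : Finset (GN (3 * E))).filter (SLpi E ϖ), G (M * k) w = 0

section Inv

variable [IsPrincipalIdealRing EI] {S : List EI} {G : GN (3 * E) → H3 → ℂ}

/-- Acting trivially from the left and trivial modulo `√-3`. -/
def TrivG (G : GN (3 * E) → H3 → ℂ) (g : GL (Fin 2) EI) : Prop :=
  (∀ M w, G (gr (3 * (3 * E)) g * M) w = G M w) ∧ g.val.map (piZ E) = 1

omit [IsPrincipalIdealRing EI] [NeZero E] in
/-- Elements acting trivially are closed under products. -/
lemma TrivG.mul {g g' : GL (Fin 2) EI} (h : TrivG G g) (h' : TrivG G g') : TrivG G (g * g') :=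
  ⟨fun M w => by rw [map_mul, mul_assoc, h.1, h'.1],
    by rw [Units.val_mul, Matrix.map_mul, h.2, h'.2, mul_one]⟩

omit [NeZero E] [IsPrincipalIdealRing EI] in
/-- `v * (3 * Q)` is the idempotent of `E = q * Q` cutting out the part at `q`. -/
lemma red_idem_spec {q Q u v : EI} (hE : (E : EI) = q * Q) (huv : u * q + v * (3 * Q) = 1) :
    red E q * red E (v * (3 * Q)) = 0 ∧
      (∀ z, red E q * z = 0 → z * red E (v * (3 * Q)) = z) ∧
      red E (v * (3 * Q)) * red E (v * (3 * Q)) = red E (v * (3 * Q)) := by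
  set e : EI := v * (3 * Q) with he
  set ee : ER (ZMod E) := red E e with hee
  have hE0 : red E q * red E Q = 0 := by
    rw [← map_mul, ← hE, map_natCast, natCast_ER_self]
  have hqe : red E q * ee = 0 := by
    rw [hee, he, map_mul, map_mul, map_ofNat]
    linear_combination (red E v * 3) * hE0
  have hone : red E u * red E q + ee = 1 := by rw [hee, ← map_mul, ← map_add, huv, map_one]
  have hkill : ∀ z : ER (ZMod E), red E q * z = 0 → z * ee = z := fun z hz => by
    linear_combination z * hone - red E u * hz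
  have hidem : ee * ee = ee := hkill ee hqe
  exact ⟨hqe, hkill, hidem⟩

omit [IsPrincipalIdealRing EI] in
/-- Invariance under upper translations at `q` gives that under lower translations, through the
element exchanging upper and lower matrices at `q`. -/
lemma GoodG.inv_lo (hG : GoodG S G) {q Q u v : EI} (hE : (E : EI) = q * Q)
    (huv : u * q + v * (3 * Q) = 1) (hS : ∀ p ∈ S, p ∣ Q)
    (hT : ∀ x M w, G (gr (3 * (3 * E)) (trI (3 * Q * x)) * M) w = G M w) (x : EI)
    (N : GN (3 * E)) (z : H3) : G (gr (3 * (3 * E)) (loI (3 * Q * x)) * N) z = G N z := by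
  set e : EI := v * (3 * Q) with he
  set ee : ER (ZMod E) := red E e with hee
  obtain ⟨hqe, hkill, hidem⟩ : red E q * ee = 0 ∧ (∀ z, red E q * z = 0 → z * ee = z) ∧
      ee * ee = ee := red_idem_spec hE huv
  have hE0 : red E q * red E Q = 0 := by
    rw [← map_mul, ← hE, map_natCast, natCast_ER_self]
  have hpX : ∀ x, piZ E (3 * Q * x) = 0 := fun x => by rw [mul_assoc]; exact piZ_three_mul _
  have hpe : piZ E e = 0 := by rw [he, mul_left_comm]; exact piZ_three_mul _
  -- the element exchanging upper and lower matrices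
  obtain ⟨γ, hγ⟩ : ∃ g : GL (Fin 2) EI, g = trI e * loI (-e) * trI e := ⟨_, rfl⟩
  have hγv : γ.val = !![1 - e * e, (1 - e * e) * e + e; -e, 1 - e * e] := by
    rw [hγ, Units.val_mul, Units.val_mul, trI_val_eq, loI_val, Matrix.mul_fin_two,
      Matrix.mul_fin_two]
    ext i j : 1
    fin_cases i <;> fin_cases j <;> simp [-mul_eq_mul_right_iff, -mul_eq_mul_left_iff] <;> ring
  have hγS : OneMod S γ := fun p hp i j => by
    have hpe : p ∣ e := he ▸ ((hS p hp).mul_left _).mul_left _
    rw [hγv]
    fin_cases i <;> fin_cases j <;> simp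
    · exact hpe.mul_left _
    · exact dvd_add (hpe.mul_left _) hpe
    · exact hpe
    · exact hpe.mul_left _
  set X : EI := 3 * Q * (-x) with hX
  have hXq : red E q * red E X = 0 := by
    rw [hX, map_mul, map_mul, map_ofNat]
    linear_combination (3 * red E (-x)) * hE0
  have c1 : (loI (-X) * γ).val.map (piZ E) = (γ * trI X).val.map (piZ E) := by
    rw [Units.val_mul, Units.val_mul, Matrix.map_mul, Matrix.map_mul, loI_val, trI_val_eq, hγv,
      map_fin_two_of, map_fin_two_of, map_fin_two_of, Matrix.mul_fin_two, Matrix.mul_fin_two]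
    simp [hpe, hX, hpX]
  have c2 : (loI (-X) * γ).val.map (red E) = (γ * trI X).val.map (red E) := by
    rw [Units.val_mul, Units.val_mul, Matrix.map_mul, Matrix.map_mul, loI_val, trI_val_eq, hγv,
      map_fin_two_of, map_fin_two_of, map_fin_two_of, Matrix.mul_fin_two, Matrix.mul_fin_two]
    have hXe := hkill _ hXq
    simp only [map_sub, map_add, map_mul, map_neg, map_one, map_zero, ← hee, hidem]
    have hz : (1 - ee) * ee = 0 := by linear_combination -hidem
    rw [hz, zero_add]
    ext i j : 1
    fin_cases i <;> fin_cases j <;> simp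
    · linear_combination -hXe
    · linear_combination -hXe
    · ring
  have key := hG.congr.gl c1 c2 ((gr (3 * (3 * E)) γ)⁻¹ * N) z
  rw [map_mul, map_mul, mul_assoc (gr (3 * (3 * E)) (loI (-X))), mul_inv_cancel_left,
    mul_assoc (gr (3 * (3 * E)) γ)] at key
  rw [show -X = 3 * Q * x by rw [hX]; ring] at key
  rw [key]
  conv_lhs => rw [← smul_inv_smul (gC γ) z]
  rw [hG.eqv γ hγS, hT]
  conv_rhs => rw [← mul_inv_cancel_left (gr (3 * (3 * E)) γ) N, ← smul_inv_smul (gC γ) z,
    hG.eqv γ hγS]

/-- **Translations at one prime give `SL₂` at this prime.** -/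
theorem GoodG.inv_SLpi (hG : GoodG S G) {q Q u v : EI} (hq : Prime q) (hE : (E : EI) = q * Q)
    (huv : u * q + v * (3 * Q) = 1) (hS : ∀ p ∈ S, p ∣ Q)
    (hT : ∀ x M w, G (gr (3 * (3 * E)) (trI (3 * Q * x)) * M) w = G M w)
    {h : GN (3 * E)} (hh : SLpi E q h) (M : GN (3 * E)) (w : H3) : G (h * M) w = G M w := by
  set e : EI := v * (3 * Q) with he
  set ee : ER (ZMod E) := red E e with hee
  obtain ⟨hqe, hkill, hidem⟩ : red E q * ee = 0 ∧ (∀ z, red E q * z = 0 → z * ee = z) ∧
      ee * ee = ee := red_idem_spec hE huv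
  have hform : ∀ z : ER (ZMod E), red E q * z = 0 → ∃ x, z = red E (3 * Q * x) := fun z hz => by
    obtain ⟨z0, rfl⟩ := red_surjective E z
    refine ⟨z0 * v, ?_⟩
    conv_lhs => rw [← hkill _ hz, hee, he, ← map_mul]
    congr 1
    ring
  have hpX : ∀ x, piZ E (3 * Q * x) = 0 := fun x => by rw [mul_assoc]; exact piZ_three_mul _
  have hlo := hG.inv_lo hE huv hS hT
  have hup : ∀ x, TrivG G (trI (3 * Q * x)) := fun x => ⟨fun N z => hT x N z, by
    rw [trI_val_eq, map_fin_two_of, hpX, map_one, map_zero]; exact Matrix.one_fin_two.symm⟩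
  have hdn : ∀ x, TrivG G (loI (3 * Q * x)) := fun x => ⟨fun N z => hlo x N z, by
    rw [loI_val, map_fin_two_of, hpX, map_one, map_zero]; exact Matrix.one_fin_two.symm⟩
  have hNLN : ∀ a b c d i : ER (ZMod E), red E q * (a - 1) = 0 → red E q * b = 0 →
      red E q * c = 0 → red E q * (d - 1) = 0 → c * i = ee → a * d - b * c = 1 →
      ∃ g, TrivG G g ∧ g.val.map (red E) = !![a, b; c, d] := by
    intro a b c d i ha hb hc hd hi hdet
    obtain ⟨x, hx⟩ := hform ((a - 1) * i) (by rw [← mul_assoc, ha, zero_mul])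
    obtain ⟨y, hy⟩ := hform ((d - 1) * i) (by rw [← mul_assoc, hd, zero_mul])
    obtain ⟨k, hk⟩ := hform c hc
    refine ⟨_, ((hup x).mul (hdn k)).mul (hup y), ?_⟩
    rw [Units.val_mul, Units.val_mul, Matrix.map_mul, Matrix.map_mul, trI_val_eq,
      loI_val, trI_val_eq,
      map_fin_two_of, map_fin_two_of, map_fin_two_of, Matrix.mul_fin_two, Matrix.mul_fin_two,
      ← hx, ← hy, ← hk, map_one, map_zero]
    have e1 : 1 + (a - 1) * i * c = a := by
      linear_combination (a - 1) * hi + hkill _ ha
    have e2 : c * ((d - 1) * i) + 1 = d := by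
      linear_combination (d - 1) * hi + hkill _ hd
    ext r s : 1
    fin_cases r <;> fin_cases s <;> simp
    · exact e1
    · rw [e1]; linear_combination i * hdet + b * hi + hkill _ hb
    · exact e2
  obtain ⟨h3, hdet, hq0⟩ := hh
  -- `H` is one off `q`, hence a product of unipotent matrices at `q`
  set H := h.val.map (castEh E) with hH
  have hk : ∀ i j, red E q * (H i j - (1 : Matrix (Fin 2) (Fin 2) (ER (ZMod E))) i j) = 0 :=
    fun i j => by
      have := congrFun (congrFun hq0 i) j
      rw [Matrix.smul_apply, Matrix.sub_apply] at this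
      exact this
  have ha := hk 0 0
  have hb := hk 0 1
  have hc := hk 1 0
  have hd := hk 1 1
  simp only [Matrix.one_apply_eq, ne_eq, zero_ne_one, not_false_eq_true, Matrix.one_apply_ne,
    one_ne_zero, sub_zero] at ha hb hc hd
  rw [Matrix.det_fin_two] at hdet
  obtain ⟨g, hg, hgm⟩ : ∃ g, TrivG G g ∧ g.val.map (red E) = H := by
    rw [Matrix.eta_fin_two H]
    by_cases h0 : H 1 0 = 0
    · have had : H 0 0 * H 1 1 = 1 := by linear_combination hdet + H 0 1 * h0
      obtain ⟨g, hg, hgm⟩ := hNLN (H 0 0) (H 0 1) (ee * H 0 0) (ee * H 0 1 + H 1 1) (ee * H 1 1)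
        ha hb (by rw [← mul_assoc, hqe, zero_mul])
        (by linear_combination H 0 1 * hqe + hd) (by linear_combination (ee * ee) * had + hidem)
        (by linear_combination had)
      obtain ⟨k, hk'⟩ := hform (-ee) (by rw [mul_neg, hqe, neg_zero])
      refine ⟨_, (hdn k).mul hg, ?_⟩
      rw [Units.val_mul, Matrix.map_mul, hgm, loI_val, map_fin_two_of, ← hk', map_one, map_zero,
        Matrix.mul_fin_two, h0]
      ext r s : 1
      fin_cases r <;> fin_cases s <;> simp
    · obtain ⟨c0, hc0⟩ := red_surjective E (H 1 0)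
      have hnd : ¬ q ∣ c0 := by
        rintro ⟨k, rfl⟩
        refine h0 ?_
        rw [← hkill _ hc, ← hc0, map_mul]
        linear_combination red E k * hqe
      obtain ⟨s, r, hsr⟩ := hq.coprime_iff_not_dvd.2 hnd
      refine hNLN _ _ _ _ (ee * red E r) ha hb hc hd ?_ hdet
      have e1 := congrArg (red E) hsr
      rw [map_add, map_mul, map_mul, map_one, hc0] at e1
      linear_combination ee * e1 - red E s * hqe
  refine (hG.congr _ (gr (3 * (3 * E)) g * M) ?_ ?_ w).trans (hg.1 M w)
  · rw [Units.val_mul, Units.val_mul, Matrix.map_mul, Matrix.map_mul, h3]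
    congr 1
    exact hg.2.symm
  · rw [Units.val_mul, Units.val_mul, Matrix.map_mul, Matrix.map_mul, ← hH, ← hgm]
    congr 1
    ext i j : 1
    exact (castEh_red _).symm

end Inv

section Coef

variable {K : Type*} [Field K] [NumberField K] [IsTotallyComplex K] (D : KData K)

/-- The coefficients vanish at the frequencies divisible by none of the listed elements. -/
def VanOut (l : List EI) (G : GN (3 * E) → H3 → ℂ) : Prop :=
  ∀ M η t, 0 < t → (∀ q ∈ l, ¬ q ∣ η) → hCoef D E (G M) η t = 0

variable {S : List EI} {G : GN (3 * E) → H3 → ℂ}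

/-- The functions of the induction are periodic on horospheres. -/
lemma GoodG.perS (hG : GoodG S G) (M : GN (3 * E)) {t : ℝ} (ht : 0 < t) :
    PerS E fun z => G M (H3.mk z t) := by
  refine ⟨(hG.cont M).comp (continuous_mk_left ht), fun z x => ?_⟩
  change G M _ = G M _
  rw [← gC_trI_smul _ z ht]
  conv_rhs => rw [← hG.trans (sR * ((E : EI) * x)) M]
  have c : G (gr (3 * (3 * E)) (trI (sR * ((E : EI) * x))) * M)
      (gC (trI (sR * ((E : EI) * x))) • H3.mk z t)
      = G (gr (3 * (3 * E)) 1 * M) (gC (trI (sR * ((E : EI) * x))) • H3.mk z t) := by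
    have hs : piZ E sR = 0 := castPi_sR
    refine hG.congr.gl ?_ ?_ M _ <;> rw [trI_val_eq, map_fin_two_of, Units.val_one,
      Matrix.map_one _ (map_zero _) (map_one _), Matrix.one_fin_two, map_zero, map_one, map_mul]
    · rw [hs, zero_mul]
    · rw [map_mul, map_natCast, natCast_ER_self, zero_mul, mul_zero]
  rw [c, map_one, one_mul]

/-- The integrand of a coefficient is periodic. -/
lemma GoodG.perC_term (hG : GoodG S G) (M : GN (3 * E)) (η : EI) {t : ℝ} (ht : 0 < t) :
    PerC (3 * E) fun z => G M (H3.mk z t) * chiC (-(fr E η * z)) :=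
  (hG.perS M ht).perC.mul (perC_chi E η)

/-- A translation multiplies the coefficient by a character. -/
lemma GoodG.hCoef_trI (hG : GoodG S G) (x : EI) (M : GN (3 * E)) (η : EI) {t : ℝ} (ht : 0 < t) :
    hCoef D E (G (gr (3 * (3 * E)) (trI x) * M)) η t
      = chiC (-(fr E η * toC x)) * hCoef D E (G M) η t := by
  rw [hCoef, ← mC_translate D three_E_ne_zero (hG.perC_term _ η ht) (toC x), hCoef,
    ← mC_const_mul D three_E_ne_zero (hG.perC_term M η ht)]
  congr 1
  funext z
  rw [← gC_trI_smul x z ht, hG.trans x M, mul_add, neg_add, chiC_add]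
  ring

/-- One step: `G` less its average over the translations by the multiples of `3 Q`. For congruence
invariant `G` the averaging is a projection, so `avgG Q` is the complementary projection. -/
noncomputable def avgG (Q : EI) (G : GN (3 * E) → H3 → ℂ) (M : GN (3 * E)) (w : H3) : ℂ :=
  G M w + (-(Fintype.card (ER (ZMod E)) : ℂ)⁻¹) * ∑ y : ER (ZMod E),
    G (gr (3 * (3 * E)) (trI (3 * Q * Function.surjInv (red_surjective E) y)) * M) w

/-- Removing an average keeps the properties of the induction. -/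
lemma GoodG.avg (hG : GoodG S G) {q Q : EI} (hE : (E : EI) = q * Q) :
    GoodG (q :: S) (avgG Q G) := by
  -- avgG averages G over translations by multiples of 3 Q
  set f : ER (ZMod E) → EI := fun y => 3 * Q * Function.surjInv (red_surjective E) y
  refine ⟨fun M M' h1 h2 w => ?_, fun M => ?_, fun x M w => ?_, fun γ hγ M w => ?_,
    fun ϖ hπ hπE M w => ?_⟩
  · rw [avgG, avgG, hG.congr M M' h1 h2 w]
    congr 2
    refine Finset.sum_congr rfl fun y _ => ?_
    exact hG.congr _ _ (by rw [Units.val_mul, Units.val_mul, Matrix.map_mul, Matrix.map_mul, h1])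
      (by rw [Units.val_mul, Units.val_mul, Matrix.map_mul, Matrix.map_mul, h2]) w
  · exact (hG.cont M).add (continuous_const.mul (continuous_finsetSum _ fun y _ => hG.cont _))
  · -- translations
    rw [avgG, avgG, hG.trans x M w]
    congr 2
    refine Finset.sum_congr rfl fun y _ => ?_
    rw [← mul_assoc, ← map_mul, trI_comm, map_mul, mul_assoc]
    exact hG.trans x _ w
  · -- matrices one modulo `q :: S` commute with the translations averaged
    have hγS : OneMod S γ := fun p hp => hγ p (List.mem_cons_of_mem _ hp)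
    have he : Eqv G γ := hG.eqv γ hγS
    rw [avgG, avgG, he M w]
    congr 2
    refine Finset.sum_congr rfl fun y _ => ?_
    rw [← mul_assoc, ← map_mul]
    refine (hG.congr.gl (γ' := γ * trI (f y)) ?_ ?_ M _).trans ?_
    · rw [Units.val_mul, Units.val_mul, Matrix.map_mul, Matrix.map_mul, trI_val_eq, map_fin_two_of,
        show piZ E (f y) = 0 by simp only [f]; rw [mul_assoc]; exact piZ_three_mul _,
        map_one, map_zero, ← Matrix.one_fin_two, Matrix.one_mul, Matrix.mul_one]
    · set X := red E (f y)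
      have hX : red E q * X = 0 := by
        simp only [X, f]
        rw [← map_mul, show q * (3 * Q * Function.surjInv (red_surjective E) y)
          = (E : EI) * (3 * Function.surjInv (red_surjective E) y) by rw [hE]; ring, map_mul,
          map_natCast, natCast_ER_self, zero_mul]
      have hm : ∀ i j, red E (γ.val i j) * X
          = red E ((1 : Matrix (Fin 2) (Fin 2) EI) i j) * X := fun i j => by
        obtain ⟨k, hk⟩ := hγ q List.mem_cons_self i j
        rw [eq_add_of_sub_eq' hk, map_add, map_mul]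
        linear_combination red E k * hX
      have h00 := hm 0 0
      have h10 := hm 1 0
      have h11 := hm 1 1
      simp at h00 h10 h11
      rw [Units.val_mul, Units.val_mul, Matrix.map_mul, Matrix.map_mul, trI_val_eq, map_fin_two_of,
        Matrix.eta_fin_two γ.val, map_fin_two_of, Matrix.mul_fin_two, Matrix.mul_fin_two, map_one,
        map_zero]
      ext i j : 1
      fin_cases i <;> fin_cases j <;> simp [X, f, map_mul] at h00 h10 h11 ⊢
      · linear_combination h10
      · linear_combination h11 - h00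
      · linear_combination h10
    · rw [map_mul, mul_assoc]
      exact he _ w
  -- the `slz` relation passes through the finite sum
  · simp only [avgG, Finset.sum_add_distrib, ← Finset.mul_sum]
    rw [Finset.sum_comm, hG.slz ϖ hπ hπE M w]
    simp only [← mul_assoc, hG.slz ϖ hπ hπE]
    simp

/-- Removing an average shortens the list of elements allowed to carry coefficients. -/
lemma GoodG.vanOut_avg (hG : GoodG S G) {q Q : EI} (hE : (E : EI) = q * Q) {l : List EI}
    (hl : VanOut D (q :: l) G) : VanOut D l (avgG Q G) := by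
  intro M η t ht hη
  set c : ℂ := -(Fintype.card (ER (ZMod E)) : ℂ)⁻¹
  set f : ER (ZMod E) → EI := fun y => 3 * Q * Function.surjInv (red_surjective E) y
  set T : ER (ZMod E) → ℂ → ℂ := fun y z =>
    G (gr (3 * (3 * E)) (trI (f y)) * M) (H3.mk z t) * chiC (-(fr E η * z))
  have hT : ∀ y ∈ (Finset.univ : Finset (ER (ZMod E))), PerC (3 * E) (T y) :=
    fun y _ => hG.perC_term _ η ht
  -- the coefficient of the average is the combination of translated coefficients
  have e : hCoef D E (avgG Q G M) η t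
      = hCoef D E (G M) η t + c * ∑ y, hCoef D E (G (gr (3 * (3 * E)) (trI (f y)) * M)) η t := by
    have h1 : (fun z => avgG Q G M (H3.mk z t) * chiC (-(fr E η * z)))
        = fun z => G M (H3.mk z t) * chiC (-(fr E η * z)) + c * ∑ y, T y z := funext fun z => by
      simp only [avgG, T, c, f, ← Finset.sum_mul]
      ring
    rw [hCoef, h1]
    refine (Mult.mean_add (isPer_of_perC D three_E_ne_zero (hG.perC_term M η ht))
      (isPer_of_perC D three_E_ne_zero ((PerC.const _ c).mul (PerC.sum _ hT)))).trans ?_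
    congr 1
    refine (mC_const_mul D three_E_ne_zero (PerC.sum _ hT) c).trans ?_
    rw [mC_sum D three_E_ne_zero _ hT]
    rfl
  rw [e]
  -- if `q ∣ η` the characters are trivial and the combination cancels
  by_cases hq : q ∣ η
  · obtain ⟨η', rfl⟩ := hq
    have hχ : ∀ y, chiC (-(fr E (q * η') * toC (f y))) = 1 := fun y => by
      rw [show -(fr E (q * η') * toC (f y))
        = toC (-(η' * Function.surjInv (red_surjective E) y)) from ?_, chiC_toC]
      have hEc : (E : ℂ) ≠ 0 := Nat.cast_ne_zero.2 (NeZero.ne E)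
      have hE' := congrArg toC hE
      rw [map_natCast, map_mul] at hE'
      simp only [f, fr, map_neg, map_mul, map_ofNat]
      push_cast
      field_simp
      linear_combination (-(toC η' * toC (Function.surjInv (red_surjective E) y))) * hE'.symm
    simp only [hG.hCoef_trI D _ M _ ht, hχ, one_mul, Finset.sum_const, Finset.card_univ,
      nsmul_eq_mul, c, ← mul_assoc]
    rw [neg_mul, inv_mul_cancel₀ (Nat.cast_ne_zero.2 Fintype.card_ne_zero)]
    ring
  -- otherwise every term vanishes by hypothesis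
  · have h0 : ∀ N, hCoef D E (G N) η t = 0 := fun N => hl N η t ht fun p hp => by
      rcases List.mem_cons.1 hp with rfl | hp
      · exact hq
      · exact hη p hp
    simp [h0]

/-- A function equal to its average over the translations at a prime of the level is zero. -/
lemma eq_zero_of_avg (hG : GoodG S G) [IsPrincipalIdealRing EI] {q Q : EI} (hq : Prime q)
    (hqE : q ∣ (E : EI)) (hE : (E : EI) = q * Q) (hco : IsCoprime q (3 * Q))
    (hS : ∀ p ∈ S, p ∣ Q) (h : avgG Q G = 0) : G = 0 := by
  have havg : ∀ M w, G M w = (Fintype.card (ER (ZMod E)) : ℂ)⁻¹ * ∑ y : ER (ZMod E),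
      G (gr (3 * (3 * E)) (trI (3 * Q * Function.surjInv (red_surjective E) y)) * M) w :=
          fun M w => by
    have := congrFun (congrFun h M) w
    simp only [avgG, Pi.zero_apply] at this
    linear_combination this
  have hT : ∀ x M w, G (gr (3 * (3 * E)) (trI (3 * Q * x)) * M) w = G M w := fun x M w => by
    rw [havg, havg M]
    congr 1
    refine Fintype.sum_equiv (Equiv.addRight (red E x)) _ _ fun y => ?_
    rw [← mul_assoc, ← map_mul, ← trI_add]
    refine hG.congr.gl ?_ ?_ M w <;> rw [trI_val_eq, trI_val_eq, map_fin_two_of, map_fin_two_of]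
    · simp [mul_assoc, piZ_three_mul]
    · rw [Equiv.coe_addRight, ← mul_add]
      congr 1
      simp only [map_mul, map_add, Function.surjInv_eq (red_surjective E)]
  -- so `SL₂` at `q` acts trivially, while its sum over `G` is zero
  obtain ⟨u, v, huv⟩ := hco
  funext M w
  have h1 := hG.slz q hq hqE M w
  rw [Finset.sum_congr rfl fun k hk => show G (M * k) w = G M w by
    rw [show M * k = (M * k * M⁻¹) * M by group]
    exact hG.inv_SLpi hq hE huv hS hT ((Finset.mem_filter.1 hk).2.conj M) M w,
    Finset.sum_const, nsmul_eq_mul] at h1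
  refine (mul_eq_zero.1 h1).resolve_left (Nat.cast_ne_zero.2 (Finset.card_ne_zero.2 ⟨1, ?_⟩))
  refine Finset.mem_filter.2 ⟨Finset.mem_univ _, ?_, ?_, ?_⟩ <;>
    rw [Units.val_one, Matrix.map_one _ (map_zero _) (map_one _)]
  · exact Matrix.det_one
  · rw [sub_self, smul_zero]

variable [IsPrincipalIdealRing EI]

omit [NeZero E] in
/-- For squarefree `E` prime to `3` a prime factor is prime to `3` times its cofactor. -/
lemma isCoprime_cofactor (hsq : Squarefree E) (hco : Nat.Coprime E 3) {q Q : EI} (hq : Prime q)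
    (hE : (E : EI) = q * Q) : IsCoprime q (3 * Q) := by
  have hqE : q ∣ (E : EI) := Dvd.intro _ hE.symm
  refine hq.coprime_iff_not_dvd.2 fun h => ?_
  rcases hq.dvd_or_dvd h with h | h
  · exact hq.not_isUnit (unit_of_dvd_coprime hco hqE (by exact_mod_cast h))
  obtain ⟨ℓ, hℓ, hqℓ, hc⟩ := norm_prime_cases hq
  obtain ⟨E', hE'⟩ : ℓ ∣ E := by
    by_contra hne
    exact hq.not_isUnit (unit_of_dvd_coprime (hℓ.coprime_iff_not_dvd.2 hne).symm hqE hqℓ)
  have hℓE : ¬ q ∣ (E' : EI) := fun h1 => hq.not_isUnit (unit_of_dvd_coprime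
    (Nat.coprime_of_squarefree_mul (hE' ▸ hsq)) hqℓ h1)
  have h2 : q * q ∣ (ℓ : EI) := by
    have h3 : q ^ 2 ∣ (ℓ : EI) * (E' : EI) := by
      rw [← Nat.cast_mul, ← hE', hE, sq]; exact mul_dvd_mul_left q h
    rw [← sq]
    exact hq.pow_dvd_of_dvd_mul_right 2 hℓE h3
  have := Fact.mk hℓ
  rcases hc with hn | hass
  · have hℓ3 : ℓ ≠ 3 := fun e => hq.not_isUnit (unit_of_dvd_coprime hco hqE (e ▸ hqℓ))
    rw [← mul_star_of_norm hn] at h2
    exact not_dvd_star hn hℓ3 ((mul_dvd_mul_iff_left hq.ne_zero).1 h2)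
  · have h4 : q * q ∣ q * 1 := by rw [mul_one]; exact h2.trans hass.dvd'
    exact hq.not_isUnit (isUnit_of_dvd_one ((mul_dvd_mul_iff_left hq.ne_zero).1 h4))

/-- **The induction on the primes of the level**: if the coefficients vanish away from the
primes in `l`, the function is zero. -/
theorem eq_zero_of_vanOut (hsq : Squarefree E) (hco : Nat.Coprime E 3) :
    ∀ (l S : List EI) (G : GN (3 * E) → H3 → ℂ), GoodG S G →
      (∀ q ∈ l, Prime q ∧ q ∣ (E : EI)) → (∀ s ∈ S, Prime s ∧ s ∣ (E : EI)) →
      (∀ s ∈ S, ∀ q ∈ l, ¬ Associated s q) → VanOut D l G → G = 0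
  | [], S, G, hG, _, _, _, hv => by
    funext M w
    rw [← H3.mk_coord w]
    exact congrFun (eq_zero_of_coef D (hG.perS M (H3.coord_pos w))
      fun η => hv M η _ (H3.coord_pos w) (by simp)) _
  | q :: l, S, G, hG, hl, hS, hd, hv => by
    have hl' : ∀ p ∈ l, Prime p ∧ p ∣ (E : EI) := fun p hp => hl p (List.mem_cons_of_mem _ hp)
    have hd' : ∀ s ∈ S, ∀ p ∈ l, ¬ Associated s p :=
      fun s hs p hp => hd s hs p (List.mem_cons_of_mem _ hp)
    obtain ⟨hq, hqE⟩ := hl q List.mem_cons_self
    by_cases hrep : ∃ p ∈ l, Associated q p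
    · obtain ⟨p, hp, hass⟩ := hrep
      refine eq_zero_of_vanOut hsq hco l S G hG hl' hS hd' fun M η t ht hη =>
        hv M η t ht fun r hr => ?_
      rcases List.mem_cons.1 hr with rfl | hr
      · exact fun h => hη p hp (hass.dvd'.trans h)
      · exact hη r hr
    -- remove the average at `q`, then undo
    obtain ⟨Q, hE⟩ := hqE
    have hSQ : ∀ s ∈ S, s ∣ Q := fun s hs => by
      obtain ⟨hsp, hsE⟩ := hS s hs
      rw [hE] at hsE
      exact (hsp.dvd_or_dvd hsE).resolve_left fun h =>
        hd s hs q List.mem_cons_self (hsp.associated_of_dvd hq h)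
    have h0 := eq_zero_of_vanOut hsq hco l (q :: S) (avgG Q G) (hG.avg hE) hl'
      (fun s hs => by
        rcases List.mem_cons.1 hs with rfl | hs
        · exact ⟨hq, Dvd.intro _ hE.symm⟩
        · exact hS s hs)
      (fun s hs p hp => by
        rcases List.mem_cons.1 hs with rfl | hs
        · exact fun h => hrep ⟨p, hp, h⟩
        · exact hd' s hs p hp)
      (hG.vanOut_avg D hE hv)
    exact eq_zero_of_avg hG hq (Dvd.intro _ hE.symm) hE (isCoprime_cofactor hsq hco hq hE) hSQ h0

/-- If the first coefficients vanish, so do those prime to the level. -/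
lemma Bc_eq_zero_of_unit (A : Auto E) (h1 : ∀ M, Bn D A M 1 = 0) (M : GN (3 * E)) {η : EI}
    (hη : IsUnit (red (3 * (3 * E)) η)) {t : ℝ} (ht : 0 < t) : Bc D A M η t = 0 := by
  have h := Vn_eq_zero D A (dgN hη.unit * M) ((Vn_one D A _).trans (h1 _)) η hη
  rw [Vn, normC, dif_pos hη, ← mul_assoc, dgN_mul, inv_mul_cancel, dgN_one, one_mul] at h
  rw [Bc_rho A D M (ne_zero_of_unit_red hη) ht, show Bc D A M η ‖fr E η‖⁻¹ = 0 from h, mul_zero]

omit [IsPrincipalIdealRing EI] in
/-- The cusp condition kills the coefficients divisible by `√-3`. -/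
lemma Bc_eq_zero_of_piZ (A : Auto E) (M : GN (3 * E)) {η : EI} (hη : piZ E η = 0) {t : ℝ}
    (ht : 0 < t) : Bc D A M η t = 0 := by
  -- the characters at `E` and `2 * E` are trivial, as `η ≡ 0` modulo `√-3`
  have hχ : ∀ k : ℕ, chiC (-(fr E η * toC ((k * E : ℕ) : EI))) = 1 := fun k => by
    have h3 : ((η.re : ZMod 3) - (η.im : ZMod 3)) = 0 := by
      have : piHom (castER 3 (dvd_mul_right 3 _) (red (3 * (3 * E)) η)) = 0 := hη
      rw [castER_red] at this
      exact this
    rw [← Int.cast_sub] at h3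
    obtain ⟨m, hm⟩ := (ZMod.intCast_zmod_eq_zero_iff_dvd _ _).1 h3
    refine (chiC_eq_one_iff _).2 ⟨-((k : ℤ) * (η.re - m)), ?_⟩
    have hm' : (η.re : ℝ) - (η.im : ℝ) = 3 * (m : ℝ) := by exact_mod_cast hm
    rw [map_natCast, fr, show -(toC η / ((3 * E : ℕ) : ℂ) * ((k * E : ℕ) : ℂ))
      = ((-((k : ℝ) / 3) : ℝ) : ℂ) * toC η by
        have hEc : (E : ℂ) ≠ 0 := Nat.cast_ne_zero.2 (NeZero.ne E)
        push_cast
        field_simp,
      Complex.re_ofReal_mul, toC_apply, emb_re]
    push_cast
    linear_combination ((k : ℝ) / 3) * hm'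
  have hperT : ∀ N : GN (3 * E), PerC (3 * E) fun z => A.Φ N (H3.mk z t) * chiC (-(fr E η * z)) :=
    fun N => perC_term A N η ht
  have e1 : (nG (E : EI) : GN (3 * E)) = upG 1 (E : RN E) 1 := by
    rw [nG, gr_trI_eq, map_natCast]
  have e2 : (nG ((2 * E : ℕ) : EI) : GN (3 * E)) = upG 1 ((2 * E : ℕ) : RN E) 1 := by
    rw [nG, gr_trI_eq, map_natCast]
  -- cuspidality: the three translates sum to `0`
  have h0 : mC D (fun z => A.Φ M (H3.mk z t) * chiC (-(fr E η * z))
      + A.Φ (nG (E : EI) * M) (H3.mk z t) * chiC (-(fr E η * z))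
      + A.Φ (nG ((2 * E : ℕ) : EI) * M) (H3.mk z t) * chiC (-(fr E η * z))) = 0 := by
    rw [show (fun z => A.Φ M (H3.mk z t) * chiC (-(fr E η * z))
      + A.Φ (nG (E : EI) * M) (H3.mk z t) * chiC (-(fr E η * z))
      + A.Φ (nG ((2 * E : ℕ) : EI) * M) (H3.mk z t) * chiC (-(fr E η * z))) = fun _ => (0 : ℂ) from
        funext fun z => by rw [← add_mul, ← add_mul, e1, e2, A.cusp, zero_mul], mC_const]
  rw [mC, Mult.mean_add (isPer_of_perC D three_E_ne_zero ((hperT _).add (hperT _)))
      (isPer_of_perC D three_E_ne_zero (hperT _)),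
    Mult.mean_add (isPer_of_perC D three_E_ne_zero (hperT _))
      (isPer_of_perC D three_E_ne_zero (hperT _))] at h0
  change Bc D A M η t + Bc D A (nG (E : EI) * M) η t + Bc D A (nG ((2 * E : ℕ) : EI) * M) η t = 0
    at h0
  -- and all three have the same coefficient
  rw [Bc_nG D A _ M η ht, Bc_nG D A _ M η ht, hχ 2,
    show chiC (-(fr E η * toC ((E : ℕ) : EI))) = 1 by simpa using hχ 1, one_mul] at h0
  linear_combination (1 / 3 : ℂ) * h0

/-- A non-unit frequency outside `√-3` is divisible by a prime of the level. -/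
lemma exists_dvd_level {η : EI} (h3 : piZ E η ≠ 0) (hu : ¬ IsUnit (red (3 * (3 * E)) η)) :
    ∃ q, Prime q ∧ q ∣ (E : EI) ∧ q ∣ η := by
  by_contra hno
  push Not at hno
  have hE0 : (E : EI) ≠ 0 := Nat.cast_ne_zero.2 (NeZero.ne E)
  -- no prime over `3` divides `η`, which is prime to `√-3`
  have hsR : ∀ q : EI, Prime q → q ∣ (3 : EI) → ¬ q ∣ η := fun q hq h hqη => by
    have h2 : q ∣ sR := by
      have : q ∣ sR * sR := by rw [sR_mul_sR]; exact dvd_neg.2 h
      exact (hq.dvd_or_dvd this).elim id id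
    obtain ⟨c, hc⟩ := h2
    have hN : QuadraticAlgebra.norm q * QuadraticAlgebra.norm c = 3 := by
      rw [← map_mul, ← hc]
      simp [QuadraticAlgebra.norm_def, sR]
    have hNc : QuadraticAlgebra.norm c = 1 := by
      have h2 : 0 ≤ QuadraticAlgebra.norm c := norm_nonneg_EI c
      have h3' : QuadraticAlgebra.norm q ≠ 1 := fun e => hq.not_isUnit (isUnit_of_norm_one e)
      have h4 : QuadraticAlgebra.norm c ∣ (3 : ℤ) := Dvd.intro_left _ hN
      have h5 : (QuadraticAlgebra.norm c).natAbs ∣ 3 := by
        have := Int.natAbs_dvd_natAbs.2 h4; simpa using this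
      rcases (Nat.dvd_prime Nat.prime_three).1 h5 with h6 | h6
      · rw [← Int.natAbs_of_nonneg h2, h6]; rfl
      · exfalso
        rw [← Int.natAbs_of_nonneg h2, h6] at hN
        push_cast at hN
        omega
    have hc0 : IsUnit (piZ E c) := (isUnit_of_norm_one hNc).map _
    have hs : piZ E sR = 0 := castPi_sR
    rw [hc, map_mul, hc0.mul_left_eq_zero] at hs
    obtain ⟨d, rfl⟩ := hqη
    exact h3 (by rw [map_mul, hs, zero_mul])
  -- so `η` is prime to `E` and to `3`
  have h1 : IsCoprime η (E : EI) :=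
    isCoprime_of_prime_dvd (fun h => hE0 h.2) fun q hq h h' => hno q hq h' h
  have h2 : IsCoprime η (3 : EI) :=
    isCoprime_of_prime_dvd (fun h =>
      (Nat.cast_ne_zero.2 (by norm_num : (3 : ℕ) ≠ 0) : ((3 : ℕ) : EI) ≠ 0) (by exact_mod_cast h.2))
      fun q hq h h' => hsR q hq h' h
  -- hence a unit mod `9 * E`
  have h4 := (h2.mul_right (h2.mul_right h1)).map (red (3 * (3 * E)))
  rw [show (3 : EI) * (3 * (E : EI)) = ((3 * (3 * E) : ℕ) : EI) by push_cast; ring, map_natCast,
    natCast_ER_self, isCoprime_zero_right] at h4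
  exact hu h4

include D in
/-- **Periods cannot all vanish**, when the primes with `lam ^ 2 = 4 p` have divergent series. -/
theorem false_of_periods (A : TAuto E) (hsq : Squarefree E) (hco : Nat.Coprime E 3)
    (hA : LamOK A.toAuto) (P : ℕ → Prop)
    (hP : ∀ p, p.Prime → P p → Nat.Coprime p (3 * E) ∧
      ∃ ϖ : EI, QuadraticAlgebra.norm ϖ = (p : ℤ) ∧
        ∀ ϖ' : EI, QuadraticAlgebra.norm ϖ' = (p : ℤ) → A.lam ϖ' ^ 2 = 4 * p)
    (hdiv : ∀ C : ℝ, ∃ᶠ σ : ℝ in 𝓝[>] 1,
      C ≤ ∑' p : Nat.Primes, if P p then ((p : ℝ) ^ σ)⁻¹ else 0)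
    (hPS : ∀ (δ : (RN E)ˣ) (N : GN (3 * E)), ndet N = 1 → ∀ σ : ℝ, 1 < σ →
      PS (A.rtr δ).toAuto N (qS σ) = 0) : False := by
  -- the first coefficients vanish, hence all not divisible by a prime of the level
  have h1 : ∀ M, Bn D A.toAuto M 1 = 0 := fun M => by
    obtain ⟨M1, δ, hM1, rfl⟩ := exists_eq_mul_dgN M
    exact Bn_one_eq_zero D (A.rtr δ).toAuto M1 ⟨hA.conj, hA.bound, hA.inert⟩ P hP hdiv (hPS δ) hM1
  have hgood : GoodG ([] : List EI) A.Φ :=
    ⟨fun M M' a b w => A.toAuto.congr_red a b w, A.cont, fun x M w => A.inv _ M w,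
      fun γ _ M w => A.inv γ M w, A.slZero⟩
  have hE0 : (E : EI) ≠ 0 := Nat.cast_ne_zero.2 (NeZero.ne E)
  set l := (UniqueFactorizationMonoid.factors (E : EI)).toList
  have hl : ∀ q ∈ l, Prime q ∧ q ∣ (E : EI) := fun q hq => by
    have hq' := Multiset.mem_toList.1 hq
    exact ⟨UniqueFactorizationMonoid.prime_of_factor q hq',
      UniqueFactorizationMonoid.dvd_of_mem_factors hq'⟩
  have hv : VanOut D l A.Φ := fun M η t ht hη => by
    change Bc D A.toAuto M η t = 0
    by_cases hu : IsUnit (red (3 * (3 * E)) η)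
    · exact Bc_eq_zero_of_unit D A.toAuto h1 M hu ht
    by_cases h3 : piZ E η = 0
    · exact Bc_eq_zero_of_piZ D A.toAuto M h3 ht
    obtain ⟨q, hq, hqE, hqη⟩ := exists_dvd_level h3 hu
    obtain ⟨p, hp, hass⟩ :=
      UniqueFactorizationMonoid.exists_mem_factors_of_dvd hE0 hq.irreducible hqE
    exact absurd (hass.dvd'.trans hqη) (hη p (Multiset.mem_toList.2 hp))
  obtain ⟨M, w, hne⟩ := A.nonzero
  exact hne (congrFun (congrFun
    (eq_zero_of_vanOut D hsq hco l [] A.Φ hgood hl (by simp) (by simp) hv) M) w)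

end Coef

end Fermat.LT3
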