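import Fermat.Agent.LT3.Per.Four2
import Fermat.Agent.LT.Mult.Arch

/-!
# The archimedean factor of the coefficients

For any `IsEig` function with periods the coefficient at height `t` is a universal multiple of the
one at height `1 / |frequency|`.
-/

set_option autoImplicit false
open MeasureTheory Filter NumberField Fermat.LT.Mult
open scoped Real Topology

namespace Fermat.LT3
open Fermat.LT

variable {f : H3 → ℂ}

/-- The archimedean condition tested on `exp (-λ cosh d)`. -/
theorem IsEig.arch_exp (hf : IsEig f) (z : ℂ) {t : ℝ} (ht : 0 < t) {lam : ℝ} (hl : 0 < lam) :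
    ∫ p, (ker0 lam t p : ℂ) * f (H3.mk (z + p.1) p.2) ∂hsm
      = (hExp lam : ℂ) * f (H3.mk z t) := by
  obtain ⟨C, hC⟩ := hf.bound
  -- cut exp (-lam c) off to get admissible kernels k n
  let k : ℕ → ℝ → ℝ := fun n c => Real.exp (-lam * c) * cut n c
  have hk : ∀ n, Continuous (k n) ∧ HasCompactSupport (k n) := fun n =>
    ⟨(by fun_prop : Continuous fun c : ℝ => Real.exp (-lam * c)).mul (continuous_cut n),
      (hasCompactSupport_cut n).mul_left⟩
  let T : ℂ × ℝ → ℂ := fun p => f (hmk p)
  have hT : Measurable T := hf.cont.measurable.comp measurable_hmk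
  -- the eigen equation for each k n
  have hid : ∀ n, ∫ p, (((p.2 ^ 3)⁻¹ * k n (cd (z, t) p) : ℝ) : ℂ) * T p ∂hsm
      = (∫ p, ((((p.2 ^ 3)⁻¹ * (k n (cd (0, 1) p) * p.2)) : ℝ) : ℂ) ∂hsm) * f (H3.mk z t) := by
    intro n
    have h := hf.arch (k n) (hk n).1 (hk n).2 (H3.mk z t)
    rw [← hIntegral_eq_integral (f := fun u => (k n (coshd (H3.mk z t) u) : ℂ) * f u)
      ((Complex.continuous_ofReal.comp ((hk n).1.comp
      (continuous_coshd.comp (continuous_const.prodMk continuous_id)))).mul
        hf.cont).aestronglyMeasurable] at h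
    simp only [hIntegral, hhat0, restrict_eq_hsm] at h
    refine Eq.trans ?_ (h.trans ?_)
    · refine integral_congr_ae ?_
      filter_upwards [ae_pos_hsm] with p hp
      rw [Complex.real_smul, coshd_mk _ _ ht hp]
      simp only [T, hmk]
      push_cast
      ring
    · congr 1
      refine integral_congr_ae ?_
      filter_upwards [ae_pos_hsm] with p hp
      rw [← mk_zero_one, coshd_mk _ _ one_pos hp]
  have hshift : MeasurePreserving (fun p : ℂ × ℝ => (z + p.1, p.2)) hsm hsm :=
    (measurePreserving_add_left volume z).prod (MeasurePreserving.id _)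
  have hemb : MeasurableEmbedding (fun p : ℂ × ℝ => (z + p.1, p.2)) :=
    ((MeasurableEquiv.addLeft z).prodCongr (MeasurableEquiv.refl ℝ)).measurableEmbedding
  have hcd : ∀ (η : ℂ) (s : ℝ), cd (z, t) (z + η, s) = cd (0, t) (η, s) := fun η s => by
    simp only [cd, sub_add_cancel_left, zero_sub]
  -- let n → ∞ on both sides by dominated convergence
  have hlim1 : Tendsto (fun n => ∫ p, (((p.2 ^ 3)⁻¹ * k n (cd (z, t) p) : ℝ) : ℂ) * T p ∂hsm) atTop
      (𝓝 (∫ p, (ker0 lam t p : ℂ) * f (H3.mk (z + p.1) p.2) ∂hsm)) := by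
    have e : ∫ p, (ker0 lam t p : ℂ) * f (H3.mk (z + p.1) p.2) ∂hsm
        = ∫ p, (((p.2 ^ 3)⁻¹ * Real.exp (-lam * cd (z, t) p) : ℝ) : ℂ) * T p ∂hsm := by
      conv_rhs => rw [← hshift.integral_comp hemb]
      refine integral_congr_ae (Eventually.of_forall fun p => ?_)
      simp only [T, hmk, hcd, ker0]
    rw [e]
    refine tendsto_integral_of_dominated_convergence
      (fun p => C * ((p.2 ^ 3)⁻¹ * Real.exp (-lam * cd (z, t) p))) (fun n => ?_) ?_ (fun n => ?_) ?_
    · refine (Measurable.mul (Complex.measurable_ofReal.comp ?_) hT).aestronglyMeasurable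
      simp only [k, cd, Complex.normSq_apply]
      unfold cut
      fun_prop
    · refine Integrable.const_mul ?_ C
      rw [← hshift.integrable_comp_emb hemb]
      exact (integrable_ker0 hl ht).congr (Eventually.of_forall fun p => by
        simp [ker0, hcd])
    · filter_upwards [ae_pos_hsm] with p hp
      rw [norm_mul, Complex.norm_real, Real.norm_eq_abs, abs_mul, abs_of_nonneg (by positivity :
        (0 : ℝ) ≤ (p.2 ^ 3)⁻¹), mul_comm C]
      refine mul_le_mul (mul_le_mul_of_nonneg_left ?_ (by positivity)) (hC _) (norm_nonneg _)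
        (by positivity)
      rw [abs_mul, Real.abs_exp]
      exact mul_le_of_le_one_right (Real.exp_pos _).le (norm_cut_le n _)
    · refine Eventually.of_forall fun p => ?_
      refine Tendsto.mul_const _
        ((Complex.continuous_ofReal.tendsto _).comp (Tendsto.const_mul _ ?_))
      simpa [k] using (tendsto_cut (cd (z, t) p)).const_mul (Real.exp (-lam * cd (z, t) p))
  have hlim2 : Tendsto (fun n => ∫ p,
      ((((p.2 ^ 3)⁻¹ * (k n (cd (0, 1) p) * p.2)) : ℝ) : ℂ) ∂hsm) atTop
      (𝓝 ((hExp lam : ℝ) : ℂ)) := by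
    simp only [integral_complex_ofReal]
    refine (Complex.continuous_ofReal.tendsto _).comp ?_
    refine tendsto_integral_of_dominated_convergence (fun p => ker0 lam 1 p * p.2) (fun n => ?_)
      (integrable_ker0_mul hl one_pos) (fun n => ?_) ?_
    · refine Measurable.aestronglyMeasurable ?_
      simp only [k, cd, Complex.normSq_apply]
      unfold cut
      fun_prop
    · filter_upwards [ae_pos_hsm] with p hp
      rw [Real.norm_eq_abs, ker0, abs_mul, abs_mul, abs_of_nonneg (by positivity :
        (0 : ℝ) ≤ (p.2 ^ 3)⁻¹), abs_of_pos hp, mul_assoc]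
      refine mul_le_mul_of_nonneg_left (mul_le_mul_of_nonneg_right ?_ hp.le) (by positivity)
      rw [abs_mul, Real.abs_exp]
      exact mul_le_of_le_one_right (Real.exp_pos _).le (norm_cut_le n _)
    · refine Eventually.of_forall fun p => ?_
      rw [ker0, mul_assoc]
      refine Tendsto.const_mul _ (Tendsto.mul_const _ ?_)
      simpa [k] using (tendsto_cut (cd (0, 1) p)).const_mul (Real.exp (-lam * cd (0, 1) p))
  exact tendsto_nhds_unique (hlim1.congr fun n => hid n) (hlim2.mul_const _)

/-- Gaussian integral against a character. -/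
lemma integral_gauss_chiC {b : ℝ} (hb : 0 < b) (α : ℂ) :
    ∫ η : ℂ, ((Real.exp (-b * ‖η‖ ^ 2) : ℝ) : ℂ) * chiC (α * η)
      = ((π / b * Real.exp (-(4 * π ^ 2 * ‖α‖ ^ 2 / b)) : ℝ) : ℂ) := by
  have h := GaussianFourier.integral_cexp_neg_mul_sq_norm_add (b := (b : ℂ)) (by simpa using hb)
    (4 * π * Complex.I) (starRingEnd ℂ α)
  rw [Complex.finrank_real_complex] at h
  refine Eq.trans (integral_congr_ae (Eventually.of_forall fun η => ?_)) (h.trans ?_)
  · simp only [Complex.ofReal_exp, chiC, ← Complex.exp_add]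
    congr 1
    rw [show inner ℝ (starRingEnd ℂ α) η = (α * η).re by simp [Complex.inner, mul_comm η]]
    push_cast
    ring
  · rw [Complex.norm_conj]
    norm_num
    left
    rw [mul_pow, mul_pow, Complex.I_sq]
    congr 1
    field_simp

section HorosphereCoefficient

variable {E : ℕ} [NeZero E] {K : Type*} [Field K] [NumberField K] [IsTotallyComplex K] (D : KData K)

/-- The frequency of a nonzero index is not zero. -/
lemma norm_fr_pos {η : EI} (hη : η ≠ 0) : 0 < ‖fr E η‖ :=
  norm_pos_iff.2 (div_ne_zero (fun h => hη (toC_injective (h.trans (map_zero _).symm)))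
    (Nat.cast_ne_zero.2 three_E_ne_zero))

/-- The right hand side of the integral equation. -/
noncomputable def gA (lam t : ℝ) (η : EI) (u : ℝ → ℂ) : ℂ :=
  ∫ s in Set.Ioi (0 : ℝ),
    ((efac lam t s * Real.exp (-(8 * π ^ 2 * ‖fr E η‖ ^ 2 * t * s / lam)) / s ^ 2 : ℝ) : ℂ) * u s

/-- The coefficient as an integral over the torus. -/
lemma hCoef_torus (hper : ∀ t, 0 < t → PerC (3 * E) fun z => f (H3.mk z t)) (η : EI) {s : ℝ}
    (hs : 0 < s) (c : ℂ) :
    hCoef D E f η s = ∫ q, f (H3.mk (par (F := K) (3 * E) (fun i => rep (q i)) D.w0 + c) s)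
      * chiC (-(fr E η * (par (F := K) (3 * E) (fun i => rep (q i)) D.w0 + c))) ∂tmeas K := by
  have hp := (hper s hs).mul (perC_chi E η)
  have hg := hp.comp_add c
  rw [hCoef, ← mC_translate D three_E_ne_zero hp c, mC,
    mean_eq three_E_ne_zero (per_of_perC D hg) (isPer_of_perC D three_E_ne_zero hg).1, meanM]
  rfl

/-- **The integral equation.** A Fourier coefficient of an eigenfunction satisfies the integral
equation with kernel `gA`. -/
theorem hCoef_gint (hf : IsEig f) (hper : ∀ t, 0 < t → PerC (3 * E) fun z => f (H3.mk z t))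
    (η : EI) {t : ℝ} (ht : 0 < t) {lam : ℝ} (hl : 0 < lam) :
    (hExp lam : ℂ) * hCoef D E f η t
      = ((2 * π * t / lam : ℝ) : ℂ) * gA (E := E) lam t η fun s => hCoef D E f η s := by
  obtain ⟨C, hC⟩ := hf.bound
  set α := fr E η
  let g : ℝ → ℂ → ℂ := fun s z => f (H3.mk z s) * chiC (-(α * z))
  let zq : Tor K → ℂ := fun q => par (F := K) (3 * E) (fun i => rep (q i)) D.w0
  have hzq : Measurable zq :=
    (measurable_pi_apply D.w0).comp ((continuous_par (3 * E)).measurable.comp
    (measurable_pi_lambda _ fun i => measurable_rep.comp (measurable_pi_apply i)))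
  let G : Tor K × (ℂ × ℝ) → ℂ := fun r => (ker0 lam t r.2 : ℂ)
    * (f (H3.mk (zq r.1 + r.2.1) r.2.2) * chiC (-(α * zq r.1)))
  have hGm : Measurable G := by
    have h1 : Measurable fun r : Tor K × (ℂ × ℝ) => (ker0 lam t r.2 : ℂ) :=
      Complex.measurable_ofReal.comp ((measurable_ker0 _ _).comp measurable_snd)
    exact h1.mul (((hf.cont.measurable.comp measurable_hmk).comp (((hzq.comp measurable_fst).add
      measurable_snd.fst).prodMk measurable_snd.snd)).mul
        (continuous_chiC.measurable.comp ((hzq.comp measurable_fst).const_mul α).neg))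
  -- G is dominated by C times the kernel, so Fubini applies
  have hGi : Integrable G ((tmeas K).prod hsm) := by
    refine Integrable.mono' ((integrable_const C).mul_prod (integrable_ker0 hl ht))
      hGm.aestronglyMeasurable ?_
    have hpos : ∀ᵐ r : Tor K × (ℂ × ℝ) ∂((tmeas K).prod hsm), 0 < r.2.2 :=
      Measure.quasiMeasurePreserving_snd.ae ae_pos_hsm
    filter_upwards [hpos] with r hr
    simp only [G, norm_mul, Complex.norm_real, norm_chiC, mul_one,
      Real.norm_of_nonneg (ker0_nonneg hr)]
    rw [mul_comm C]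
    exact mul_le_mul_of_nonneg_left (hC _) (ker0_nonneg hr)
  have hBc : ∀ s, 0 < s → ∀ c : ℂ,
      ∫ q, g s (zq q + c) ∂tmeas K = hCoef D E f η s :=
        fun s hs c => (hCoef_torus D hper η hs c).symm
  -- one order gives hExp lam * hCoef, the other an integral transform of hCoef
  have h1 : ∫ q, ∫ p, G (q, p) ∂hsm ∂tmeas K = (hExp lam : ℂ) * hCoef D E f η t := by
    rw [← hBc t ht 0, ← integral_const_mul]
    refine integral_congr_ae (Eventually.of_forall fun q => ?_)
    simp only [G, g, add_zero, ← mul_assoc]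
    rw [integral_mul_const, hf.arch_exp (zq q) ht hl]
  have h2 : ∀ᵐ p ∂hsm, ∫ q, G (q, p) ∂tmeas K
      = (ker0 lam t p : ℂ) * chiC (α * p.1) * hCoef D E f η p.2 := by
    filter_upwards [ae_pos_hsm] with p hp
    rw [← hBc p.2 hp p.1, ← integral_const_mul]
    refine integral_congr_ae (Eventually.of_forall fun q => ?_)
    simp only [G, g, mul_add, neg_add, chiC_add]
    have e : chiC (α * p.1) * chiC (-(α * p.1)) = 1 := by rw [← chiC_add, add_neg_cancel, chiC_zero]
    linear_combination (-((ker0 lam t p : ℂ) * f (H3.mk (zq q + p.1) p.2) * chiC (-(α * zq q)))) * e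
  rw [← h1, integral_integral_swap hGi, integral_congr_ae h2,
    integral_prod_symm _ ((hGi.integral_prod_right).congr h2), gA, ← integral_const_mul]
  refine integral_congr_ae ?_
  filter_upwards [ae_restrict_mem measurableSet_Ioi] with s (hs : (0 : ℝ) < s)
  rw [integral_mul_const, ← mul_assoc]
  congr 1
  simp only [ker0_eq ht hs, Complex.ofReal_mul, mul_assoc]
  -- the integral over z is a Gaussian against a character
  have hg := integral_gauss_chiC (b := lam / (2 * (t * s))) (by positivity) α
  simp only [mul_assoc] at hg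
  rw [integral_const_mul, integral_const_mul, hg]
  rw [← Complex.ofReal_mul, ← Complex.ofReal_mul, ← Complex.ofReal_mul]
  congr 1
  rw [show 4 * (π ^ 2 * ‖α‖ ^ 2) / (lam / (2 * (t * s))) = 8 *
      (π ^ 2 * (‖fr E η‖ ^ 2 * (t * s))) / lam by
    field_simp; ring]
  field_simp

/-- **The archimedean factor.** At a frequency `η ≠ 0` the coefficient at height `t` is
`rho (‖fr E η‖ t)` times its value at the normalised height. -/
theorem hCoef_rho (hf : IsEig f) (hper : ∀ t, 0 < t → PerC (3 * E) fun z => f (H3.mk z t)) {η : EI}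
    (hη : η ≠ 0) {t : ℝ} (ht : 0 < t) :
    hCoef D E f η t = Mult.rho (‖fr E η‖ * t) * hCoef D E f η ‖fr E η‖⁻¹ := by
  have hα := norm_fr_pos (E := E) hη
  set α := ‖fr E η‖ with hαd
  have hpi : (0 : ℝ) < 4 * π := by positivity
  have e1 := hCoef_gint D hf hper η ht hpi
  have e2 := hCoef_gint D hf hper η (inv_pos.2 hα) (lam := 4 * π * (α * t)) (by positivity)
  have hsym : gA (E := E) (4 * π * (α * t)) α⁻¹ η (fun s => hCoef D E f η s)
      = gA (E := E) (4 * π) t η (fun s => hCoef D E f η s) := by
    refine setIntegral_congr_fun measurableSet_Ioi fun s (hs : 0 < s) => ?_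
    simp only [efac, ← Real.exp_add, ← hαd]
    congr 4
    field_simp
    ring
  rw [hsym] at e2
  have hne : ((hExp (4 * π) : ℝ) : ℂ) ≠ 0 := by exact_mod_cast hExp_ne_zero hpi
  set B1 := hCoef D E f η α⁻¹
  set G := gA (E := E) (4 * π) t η fun s => hCoef D E f η s
  have htne : ((t : ℝ) : ℂ) ≠ 0 := by exact_mod_cast ht.ne'
  have hαne : ((α : ℝ) : ℂ) ≠ 0 := by exact_mod_cast hα.ne'
  have hπc : (π : ℂ) ≠ 0 := by exact_mod_cast Real.pi_ne_zero
  push_cast at e1 e2
  rw [Mult.rho]
  push_cast
  field_simp at e1 e2 ⊢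
  linear_combination (1 / 4 : ℂ) * e1 - ((t : ℝ) : ℂ) / 4 * e2

end HorosphereCoefficient

variable {E : ℕ} [NeZero E] (A : Auto E) {K : Type*} [Field K] [NumberField K] [IsTotallyComplex K]
  (D : KData K)

/-- **The archimedean factor** of the coefficients. -/
theorem Bc_rho (M : GN (3 * E)) {η : EI} (hη : η ≠ 0) {t : ℝ} (ht : 0 < t) :
    Bc D A M η t = Mult.rho (‖fr E η‖ * t) * Bc D A M η ‖fr E η‖⁻¹ :=
  hCoef_rho D (A.isEig M) (fun _ h => perC_slice A M h) hη ht

end Fermat.LT3
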