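import Fermat.Agent.LT3.Per.Periods

/-!
# Vanishing of the periods at isotropic classes

A class of points of determinant `-1` with `E ∣ d` consists of the translates of one matrix by the
stabiliser and by unipotent matrices, which act trivially.
-/

set_option autoImplicit false
open Matrix QuadraticAlgebra MeasureTheory Filter
open scoped Classical MatrixGroups

namespace Fermat.LT3
open Fermat.LT

variable {E : ℕ} [NeZero E]

/-- The point of the class of `M`. -/
noncomputable def mu3 (M : GN (3 * E)) : Lz := lact (liftM (M⁻¹).val) mu1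

/-- Its matrix modulo `3E`. -/
noncomputable def Hm (M : GN (3 * E)) : Matrix (Fin 2) (Fin 2) (R3 E) :=
  hAct (mat3 M⁻¹).val (antiJ (ZMod (3 * E)))

omit [NeZero E] in
/-- A lift of a matrix reduces modulo `3E` to the reduction of the matrix. -/
lemma map_liftM_redD (x : Matrix (Fin 2) (Fin 2) (RN E)) :
    (liftM x).map (red (3 * E)) = x.map redD := by
  conv_rhs => rw [← red_liftM x]
  rw [Matrix.map_map]
  ext i j : 1
  simp only [Matrix.map_apply, Function.comp_apply]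
  exact (castER_red _ _ _).symm

omit [NeZero E] in
/-- `Hm M` is the hermitian matrix of the class point of `M`, read modulo `3E`. -/
lemma hm_eq (M : GN (3 * E)) : (hE (mu3 M)).map (red (3 * E)) = Hm M := by
  rw [mu3, hE_lact, hE_mu1, map_hAct, map_antiJ, map_liftM_redD]
  rfl

omit [NeZero E] in
/-- The twist at the base point is the value at the class point. -/
lemma twist_X1 (Ψ : Lz → ℂ) (M : GN (3 * E)) : twist Ψ M X1 = Ψ (lam (mu3 M)) := by
  rw [twist, X1, dact_lam]; rfl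

/-- Isotropy at every prime dividing `E`. -/
def Iso0 (M : GN (3 * E)) : Prop := (E : ℤ) ∣ (mu3 M).2.2

omit [NeZero E] in
/-- The class point of a matrix of norm determinant one has determinant `≡ -1 (mod 3E)`. -/
lemma det_mu3 {M : GN (3 * E)} (h : ndet M = 1) :
    ((qh (mu3 M).2.1.1 (mu3 M).2.1.2 - (mu3 M).1 * (mu3 M).2.2 : ℤ) : ZMod (3 * E)) = 1 := by
  set μ := mu3 M
  have hq : q3 (lam μ) = QuadraticAlgebra.norm (liftM (M⁻¹).val).det * 3 := by
    rw [show lam μ = dact (liftM (M⁻¹).val) X1 by rw [X1, dact_lam]; rfl, q3_dact, q3_X1]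
  have e3 : q3 (lam μ) = 3 * (qh μ.2.1.1 μ.2.1.2 - μ.1 * μ.2.2) := by
    simp [q3, lam, qd, qh]; ring
  rw [e3] at hq
  rw [show qh μ.2.1.1 μ.2.1.2 - μ.1 * μ.2.2 = QuadraticAlgebra.norm (liftM (M⁻¹).val).det by
    linarith]
  have h2 := congrArg (ZMod.castHom (dvd_mul_left (3 * E) 3) (ZMod (3 * E)))
    (cast_norm_det_lift (N := 3 * E) (ndet_inv h))
  rwa [map_intCast, map_one] at h2

omit [NeZero E] in
/-- The hermitian matrix of a lattice point modulo `3E` in coordinates. -/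
lemma hE_map_apply (μ : Lz) :
    (hE μ).map (red (3 * E)) = !![((μ.1 : ℤ) : R3 E), red (3 * E) ⟨μ.2.1.1, μ.2.1.2⟩;
      star (red (3 * E) ⟨μ.2.1.1, μ.2.1.2⟩), ((μ.2.2 : ℤ) : R3 E)] := by
  ext i j : 1
  fin_cases i <;> fin_cases j <;> simp [hE]
  all_goals
    rw [show (⟨μ.2.1.1 + μ.2.1.2, -μ.2.1.2⟩ : EI) = star (⟨μ.2.1.1, μ.2.1.2⟩ : EI) by
      apply QuadraticAlgebra.ext <;> simp]
    exact erMap_star _ _

omit [NeZero E] in
/-- Integers agree in `R3 E` exactly when they agree modulo `3E`. -/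
lemma intCast_R3_eq {a b : ℤ} : ((a : ℤ) : R3 E) = b ↔ (a : ZMod (3 * E)) = b := by
  refine ⟨fun h => by simpa using congrArg QuadraticAlgebra.re h, fun h => ?_⟩
  apply QuadraticAlgebra.ext <;> simp [h]

omit [NeZero E] in
/-- A congruence modulo `3E` holds modulo `3` and modulo `E`. -/
lemma cast3_of_eq {a b : ℤ} (h : (a : ZMod (3 * E)) = b) :
    (a : ZMod 3) = b ∧ (a : ZMod E) = b := by
  refine ⟨?_, ?_⟩
  · simpa using congrArg (ZMod.castHom (dvd_mul_right 3 E) (ZMod 3)) h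
  · simpa using congrArg (ZMod.castHom (dvd_mul_left E 3) (ZMod E)) h

omit [NeZero E] in
/-- For `E` prime to `3`, congruences modulo `3` and `E` give one modulo `3E`. -/
lemma eq_of_cast3 (hco : Nat.Coprime E 3) {a b : ℤ} (h3 : (a : ZMod 3) = b)
    (hE : (a : ZMod E) = b) : (a : ZMod (3 * E)) = b := by
  rw [ZMod.intCast_eq_intCast_iff_dvd_sub] at h3 hE ⊢
  have h := IsCoprime.mul_dvd (Nat.isCoprime_iff_coprime.2 hco.symm) h3 hE
  push_cast
  exact_mod_cast h

/-- The translation modulo `9E` attached to `k` and the middle coordinate of `mu3 M0`. -/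
noncomputable def shiftU (M0 : GN (3 * E)) (k : ℤ) : GN (3 * E) :=
  gr (3 * (3 * E)) (trI ((((-(3 * k)) : ℤ) : EI) * (⟨0, 1⟩ * ⟨(mu3 M0).2.1.1, (mu3 M0).2.1.2⟩)))

omit [NeZero E] in
/-- The shifts have norm determinant one. -/
lemma shiftU_ndet (M0 : GN (3 * E)) (k : ℤ) : ndet (shiftU M0 k) = 1 := ndet_gr _

omit [NeZero E] in
/-- The shift by `k` adds `3 k` to the upper left entry of the matrix of the class. -/
lemma hm_shift {M0 : GN (3 * E)} (h0 : ndet M0 = 1) (hiso : Iso0 M0) (k : ℤ) :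
    Hm (M0 * shiftU M0 k)
      = Hm M0 + !![(((3 * k : ℤ)) : R3 E), 0; 0, 0] := by
  set μ := mu3 M0 with hμ
  set β : EI := ⟨μ.2.1.1, μ.2.1.2⟩
  set x : EI := ((3 * k : ℤ) : EI) * (⟨0, 1⟩ * β)
  -- the inverse of shiftU M0 k is the translation by x = 3 k ω β
  have hu : (shiftU M0 k)⁻¹ = (gr (3 * (3 * E)) (trI x) : GN (3 * E)) := by
    rw [shiftU, ← map_inv]
    congr 1
    refine inv_eq_of_mul_eq_one_right (Units.ext ?_)
    simp only [trI, Units.val_mul, Units.val_one]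
    ext i j : 1
    fin_cases i <;> fin_cases j <;> simp [upE, Matrix.mul_apply, Fin.sum_univ_two, x, β, ← hμ]
  have e : (mat3 (gr (3 * (3 * E)) (trI x) : GN (3 * E))).val = (trI x).val.map (red (3 * E)) := by
    ext i j : 1
    exact castER_red _ _ _
  rw [Hm, _root_.mul_inv_rev, hu, map_mul, Units.val_mul, hAct_mul, ← Hm, ← hm_eq, e, ← map_hAct,
    ← hμ]
  obtain ⟨d', hd'⟩ := hiso
  rw [← hμ] at hd'
  have hdet := det_mu3 h0
  rw [← hμ] at hdet
  -- β β̄ and x x̄, and x d = 0 mod 3E because E ∣ d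
  have hω : (⟨0, 1⟩ : EI) + star (⟨0, 1⟩ : EI) = 1 := by apply QuadraticAlgebra.ext <;> simp
  have hββ : β * star β = ((qh μ.2.1.1 μ.2.1.2 : ℤ) : EI) := by
    apply QuadraticAlgebra.ext <;> simp [β, qh, sq] <;> ring
  have hxx : x * star x = ((9 * k ^ 2 * qh μ.2.1.1 μ.2.1.2 : ℤ) : EI) := by
    have hw : (⟨0, 1⟩ : EI) * star (⟨0, 1⟩ : EI) = 1 := by apply QuadraticAlgebra.ext <;> simp
    simp only [x, star_mul', star_intCast]
    push_cast
    linear_combination (9 * (k : EI) ^ 2 * (β * star β)) * hw + 9 * (k : EI) ^ 2 * hββ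
  have hxd : ∀ y : EI, red (3 * E) ((μ.2.2 : EI) * (x * y)) = 0 := fun y => by
    rw [red_eq_zero_iff]
    exact ⟨(d' : EI) * ((k : EI) * ((⟨0, 1⟩ * β) * y)), by
      simp only [x, hd']; push_cast; ring⟩
  -- compare entries
  ext i j : 1
  fin_cases i <;> fin_cases j <;>
    simp only [Fin.zero_eta, Fin.mk_one, Matrix.add_apply, Matrix.map_apply]
  · -- the corner
    simp [trI, upE, hE, Matrix.mul_apply, Fin.sum_univ_two]
    rw [show (⟨μ.2.1.1 + μ.2.1.2, -μ.2.1.2⟩ : EI) = star β from by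
      apply QuadraticAlgebra.ext <;> simp [β]]
    have hx2 : x * star β + β * star x = ((3 * k * qh μ.2.1.1 μ.2.1.2 : ℤ) : EI) := by
      simp only [x, star_mul', star_intCast]
      push_cast
      linear_combination (3 * (k : EI) * (β * star β)) * hω + 3 * (k : EI) * hββ
    have e1 : (μ.1 : EI) + x * star β + (β + x * (μ.2.2 : EI)) * star x
        = ((μ.1 + 3 * k * qh μ.2.1.1 μ.2.1.2 + μ.2.2 *
            (9 * k ^ 2 * qh μ.2.1.1 μ.2.1.2) : ℤ) : EI) := by
      push_cast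
      push_cast at hx2 hxx
      linear_combination hx2 + (μ.2.2 : EI) * hxx
    have e0 := congrArg (red (3 * E)) e1
    simp only [map_add, map_mul, map_intCast] at e0
    simp only [β] at e0 ⊢
    rw [e0]
    have e2 : ((μ.1 + 3 * k * qh μ.2.1.1 μ.2.1.2 + μ.2.2 * (9 * k ^ 2 * qh μ.2.1.1 μ.2.1.2) : ℤ)
        : ZMod (3 * E)) = ((μ.1 + 3 * k : ℤ) : ZMod (3 * E)) := by
      have h3E : (3 : ZMod (3 * E)) * (E : ZMod (3 * E)) = 0 := by
        have := ZMod.natCast_self (3 * E)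
        push_cast at this
        exact this
      push_cast at hdet ⊢
      rw [hd'] at hdet ⊢
      push_cast at hdet ⊢
      linear_combination (3 * (k : ZMod (3 * E))) * hdet
        + ((μ.1 : ZMod (3 * E)) * (d' : ZMod (3 * E)) * k
          + 3 * (d' : ZMod (3 * E)) * k ^ 2 * (qh μ.2.1.1 μ.2.1.2 : ℤ)) * h3E
    rw [intCast_R3_eq.2 e2]
    simp
  · simp [trI, upE, hE, Matrix.mul_apply, Fin.sum_univ_two]
    simpa [mul_comm] using hxd 1
  · simp [trI, upE, hE, Matrix.mul_apply, Fin.sum_univ_two]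
    have := congrArg star (hxd 1)
    rw [mul_one, star_zero, red, ← erMap_star, star_mul', star_intCast, ← red] at this
    simpa [mul_comm] using this
  · simp [trI, upE, hE, Matrix.mul_apply, Fin.sum_univ_two]

/-- Unipotent shifts on the right do not change a typed function. -/
lemma borel_shift (A : TAuto E) (M0 M : GN (3 * E)) (k : ℤ) (w : H3) :
    A.Φ (M * shiftU M0 k) w = A.Φ M w := by
  set x : EI := (((-(3 * k)) : ℤ) : EI) * (⟨0, 1⟩ * ⟨(mu3 M0).2.1.1, (mu3 M0).2.1.2⟩)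
  have hv : (shiftU M0 k).val = !![1, red (3 * (3 * E)) x; 0, 1] := by
    rw [shiftU, gr_coe]
    ext i j : 1
    fin_cases i <;> fin_cases j <;> simp [trI, upE, x]
  have h3 : castPi E (red (3 * (3 * E)) x) = 0 := by
    simp only [x, map_mul, map_intCast]
    push_cast
    rw [show (3 : ZMod 3) = 0 from rfl]
    ring
  rw [A.borel (shiftU M0 k) M ?_ ?_ w]
  · rw [hv]; simp
  · rw [hv]
    ext i j : 1
    fin_cases i <;> fin_cases j <;> simp [h3]
  · rw [hv]; simp

/-- `Hm M` is that of a shift of an isotropic `M0` exactly when their invariants agree modulo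
three and, the first apart, modulo `E`. -/
lemma exists_shift_iff (hco : Nat.Coprime E 3) {M0 : GN (3 * E)} (h0 : ndet M0 = 1) (hiso : Iso0 M0)
    (M : GN (3 * E)) :
    (∃ k : ZMod E, Hm M = Hm (M0 * shiftU M0 (k.val : ℤ))) ↔
      (((((mu3 M).1 : ZMod 3), redv 3 (mu3 M).2.1, ((mu3 M).2.2 : ZMod 3)) : Cl3)
          = (((mu3 M0).1 : ZMod 3), redv 3 (mu3 M0).2.1, ((mu3 M0).2.2 : ZMod 3)) ∧
        ((mu3 M).2.2 : ZMod E) = 0) ∧ redv E (mu3 M).2.1 = redv E (mu3 M0).2.1 := by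
  set μ := mu3 M0 with hμ
  set ν := mu3 M with hν
  have hμd : (μ.2.2 : ZMod E) = 0 := (ZMod.intCast_zmod_eq_zero_iff_dvd _ E).2 hiso
  constructor
  -- compare entries modulo `3` and modulo `E`
  · rintro ⟨k, hk⟩
    rw [hm_shift h0 hiso, ← hm_eq, ← hm_eq, hE_map_apply, hE_map_apply, ← hν, ← hμ] at hk
    have e00 := congrFun (congrFun hk 0) 0
    have e01 := congrFun (congrFun hk 0) 1
    have e11 := congrFun (congrFun hk 1) 1
    simp only [Matrix.add_apply, Matrix.of_apply, Matrix.cons_val', Matrix.cons_val_zero,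
      Matrix.cons_val_one, Matrix.empty_val', Matrix.cons_val_fin_one, add_zero] at e00 e01 e11
    rw [← Int.cast_add, intCast_R3_eq] at e00
    rw [intCast_R3_eq] at e11
    have b1 := congrArg QuadraticAlgebra.re e01
    have b2 := congrArg QuadraticAlgebra.im e01
    simp only [red_re, red_im] at b1 b2
    obtain ⟨a3, -⟩ := cast3_of_eq e00
    obtain ⟨d3, dE⟩ := cast3_of_eq e11
    obtain ⟨p3, pE⟩ := cast3_of_eq b1
    obtain ⟨q3', qE⟩ := cast3_of_eq b2
    push_cast at a3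
    rw [show (3 : ZMod 3) = 0 from rfl, zero_mul, add_zero] at a3
    exact ⟨⟨by simp [redv, a3, d3, p3, q3'], by rw [dE, hμd]⟩, by simp [redv, pE, qE]⟩
  · rintro ⟨⟨hc, hd⟩, hb⟩
    simp only [redv, Prod.mk.injEq] at hc hb
    obtain ⟨a3, ⟨p3, q3'⟩, d3⟩ := hc
    obtain ⟨pE, qE⟩ := hb
    have h3 : IsUnit ((3 : ℕ) : ZMod E) := (ZMod.isUnit_iff_coprime 3 E).2 hco.symm
    -- conversely solve for the shift: `3` is invertible modulo `E`
    obtain ⟨i, hi⟩ := h3.exists_left_inv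
    refine ⟨((ν.1 - μ.1 : ℤ) : ZMod E) * i, ?_⟩
    rw [hm_shift h0 hiso, ← hm_eq, ← hm_eq, hE_map_apply, hE_map_apply, ← hν, ← hμ]
    set k := ((((ν.1 - μ.1 : ℤ) : ZMod E) * i).val : ℤ)
    have ek : (k : ZMod E) = ((ν.1 - μ.1 : ℤ) : ZMod E) * i := by simp [k]
    have e00 : ((ν.1 : ℤ) : ZMod (3 * E)) = ((μ.1 + 3 * k : ℤ) : ZMod (3 * E)) := by
      refine eq_of_cast3 hco ?_ ?_
      · push_cast
        rw [a3, show (3 : ZMod 3) = 0 from rfl, zero_mul, add_zero]
      · push_cast at ek hi ⊢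
        rw [ek]
        linear_combination (-((ν.1 : ZMod E) - (μ.1 : ZMod E))) * hi
    have e11 := eq_of_cast3 hco d3 (by rw [hd, hμd])
    have eb : red (3 * E) (⟨ν.2.1.1, ν.2.1.2⟩ : EI) = red (3 * E) ⟨μ.2.1.1, μ.2.1.2⟩ := by
      apply QuadraticAlgebra.ext <;> simp only [red_re, red_im]
      · exact eq_of_cast3 hco p3 pE
      · exact eq_of_cast3 hco q3' qE
    rw [intCast_R3_eq.2 e00, intCast_R3_eq.2 e11, eb]
    ext i' j' : 1
    fin_cases i' <;> fin_cases j' <;> simp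

/-- **The periods vanish at isotropic classes**, if the coefficients `κ₃` vanish. -/
theorem PS_eq_zero_of_iso (A : TAuto E) (hco : Nat.Coprime E 3)
    (hvan : ∀ cls φ, kap A.toAuto (spec (E := E) cls φ) 3 = 0)
    {M0 : GN (3 * E)} (h0 : ndet M0 = 1) (hiso : Iso0 M0) {F : ℝ → ℂ} (hF : Samp.Decay F)
    (he : IsEvenF F) : PS A.toAuto M0 F = 0 := by
  set μ := mu3 M0
  set cls : Cl3 := ((μ.1 : ZMod 3), redv 3 μ.2.1, (μ.2.2 : ZMod 3))
  set φ : CP E → ℂ := fun x => if x = redv E μ.2.1 then 1 else 0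
  -- the level 3 period of spec cls φ vanishes
  have hcI : cI A.toAuto (spec cls φ) 3 F = 0 := by
    rw [cI_pos A.toAuto (per_spec cls φ) (by norm_num) hF he, hvan, zero_mul]
  have hsum := cI_three A.toAuto cls φ hF
  rw [hcI, mul_zero] at hsum
  set S0 : G1 (3 * E) → Prop := fun M => ∃ k : ZMod E, Hm M.1 = Hm (M0 * shiftU M0 (k.val : ℤ))
  -- its weight is the indicator of S0: Hm M is a shift of Hm M0
  have hval : ∀ M : G1 (3 * E), twist (spec cls φ) M.1 X1 = if S0 M then 1 else 0 := by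
    intro M
    rw [twist_X1, spec_lam]
    simp only [φ]
    set ν := mu3 M.1
    have hcases : S0 M ↔ ((((ν.1 : ZMod 3), redv 3 ν.2.1, (ν.2.2 : ZMod 3)) : Cl3) = cls ∧
        (ν.2.2 : ZMod E) = 0) ∧ redv E ν.2.1 = redv E μ.2.1 := exists_shift_iff hco h0 hiso M.1
    by_cases hS : S0 M
    · rw [if_pos hS, if_pos (hcases.1 hS).1, if_pos (hcases.1 hS).2]
    · rw [if_neg hS]
      by_cases h1 : ((((ν.1 : ZMod 3), redv 3 ν.2.1, (ν.2.2 : ZMod 3)) : Cl3) = cls ∧
          (ν.2.2 : ZMod E) = 0)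
      · rw [if_pos h1, if_neg fun h2 => hS (hcases.2 ⟨h1, h2⟩)]
      · rw [if_neg h1]
  -- S0 is the bijective image of ZMod E × StG E
  let e : ZMod E × StG E → G1 (3 * E) := fun p =>
    ⟨(p.2 : GN (3 * E)) * (M0 * shiftU M0 (p.1.val : ℤ)), by
      rw [ndet_mul, ndet_mul, StG_ndet p.2.2, h0, shiftU_ndet, one_mul, one_mul]⟩
  have hHm : ∀ (g : StG E) (M : GN (3 * E)), Hm ((g : GN (3 * E)) * M) = Hm M := fun g M => by
    rw [Hm, _root_.mul_inv_rev, map_mul, Units.val_mul, hAct_mul,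
      ((StG E).inv_mem g.2).2]
    rfl
  have hinj : Function.Injective e := fun p p' h => by
    have h' : (e p).1 = (e p').1 := congrArg Subtype.val h
    have hk := congrArg Hm h'
    simp only [e, hHm] at hk
    rw [hm_shift h0 hiso, hm_shift h0 hiso] at hk
    have e00 := congrFun (congrFun hk 0) 0
    simp only [Matrix.add_apply, Matrix.of_apply, Matrix.cons_val', Matrix.cons_val_zero,
      Matrix.empty_val', Matrix.cons_val_fin_one] at e00
    have e0 := add_left_cancel e00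
    rw [intCast_R3_eq] at e0
    have h3 : IsUnit ((3 : ℕ) : ZMod E) := (ZMod.isUnit_iff_coprime 3 E).2 hco.symm
    have hE' := (cast3_of_eq e0).2
    push_cast at hE' h3
    rw [ZMod.natCast_zmod_val, ZMod.natCast_zmod_val] at hE'
    have h1 : p.1 = p'.1 := h3.mul_left_cancel hE'
    simp only [e, h1, mul_left_inj] at h'
    exact Prod.ext h1 (Subtype.ext h')
  have hrange : ∀ M, S0 M → M ∈ Set.range e := by
    rintro M ⟨k, hk⟩
    refine ⟨(k, ⟨M.1 * (M0 * shiftU M0 (k.val : ℤ))⁻¹, ⟨?_, ?_⟩⟩),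
      Subtype.ext (inv_mul_cancel_right _ _)⟩
    · rw [ndet_mul, M.2, one_mul, ndet_inv (by rw [ndet_mul, h0, shiftU_ndet, one_mul])]
    · rw [map_mul, Units.val_mul, hAct_mul, ← Hm, ← hk, Hm, map_inv, ← hAct_mul, Units.mul_inv,
        hAct_one]
  simp only [hval, ite_mul, one_mul, zero_mul] at hsum
  have hkey : ∑ M : G1 (3 * E), (if S0 M then Per3 A.toAuto M.1 F else 0)
      = ∑ p : ZMod E × StG E, Per3 A.toAuto (e p).1 F := by
    rw [← Finset.sum_image (f := fun M : G1 (3 * E) => Per3 A.toAuto M.1 F) (hinj.injOn)]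
    rw [← Finset.sum_filter]
    refine Finset.sum_congr ?_ fun _ _ => rfl
    ext M
    simp only [Finset.mem_filter, Finset.mem_univ, true_and, Finset.mem_image]
    exact ⟨fun h => hrange M h, fun ⟨p, hp⟩ => ⟨p.1, by rw [← hp]; exact hHm _ _⟩⟩
  rw [hkey, Fintype.sum_prod_type] at hsum
  -- shifts do not change Per3, so a positive multiple of PS is 0
  have hper : ∀ (k : ZMod E) (g : StG E), Per3 A.toAuto (e (k, g)).1 F
      = Per3 A.toAuto ((g : GN (3 * E)) * M0) F := fun k g => by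
    simp only [Per3, pIn, e, ← mul_assoc, borel_shift]
  simp only [hper, Finset.sum_const, Finset.card_univ, nsmul_eq_mul] at hsum
  change 0 = _ * PS A.toAuto M0 F at hsum
  exact (mul_eq_zero.1 hsum.symm).resolve_left (Nat.cast_ne_zero.2 Fintype.card_ne_zero)

end Fermat.LT3
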