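import Fermat.Agent.LT3.Per.Periods
import Mathlib.MeasureTheory.Measure.Lebesgue.Complex
import Mathlib.Analysis.SpecialFunctions.Gaussian.GaussianIntegral

/-!
# Integrals in the three real coordinates

`integral_xyt` writes an integral over `H3` as an iterated integral; `integrable_of_xyt_bound` is
the integrability criterion.
-/

set_option autoImplicit false
open MeasureTheory Filter Set
open scoped ENNReal

namespace Fermat.LT3
open Fermat.LT

/-- The chart in three real coordinates is measurable. -/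
lemma measurable_mk_xyt : Measurable fun q : (ℝ × ℝ) × ℝ => H3.mk (⟨q.1.1, q.1.2⟩ : ℂ) q.2 :=
  measurable_hmk.comp ((Complex.measurableEquivRealProd.symm.measurable.comp measurable_fst).prodMk
    measurable_snd)

/-- The integral over `H3` as an iterated integral in `x`, `y`, `t` with density `t⁻³`. -/
theorem lintegral_xyt {F : H3 → ℝ≥0∞} (hF : Measurable F) :
    ∫⁻ v, F v ∂hmeas = ∫⁻ t in Ioi (0 : ℝ), ∫⁻ x : ℝ, ∫⁻ y : ℝ,
      ENNReal.ofReal ((t ^ 3)⁻¹) * F (H3.mk ⟨x, y⟩ t) := by
  have hm : Measurable fun p : ℂ × ℝ => ENNReal.ofReal ((p.2 ^ 3)⁻¹) * F (hmk p) :=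
    (by fun_prop : Measurable fun p : ℂ × ℝ => ENNReal.ofReal ((p.2 ^ 3)⁻¹)).mul
      (hF.comp measurable_hmk)
  rw [lintegral_hmeas hF, lintegral_hvol, Measure.volume_eq_prod, ← Measure.prod_restrict,
    Measure.restrict_univ, lintegral_prod_symm _ hm.aemeasurable]
  refine lintegral_congr fun t => ?_
  rw [← Complex.volume_preserving_equiv_real_prod.symm.lintegral_comp
    (f := fun z : ℂ => ENNReal.ofReal ((t ^ 3)⁻¹) * F (hmk (z, t)))
      (hm.comp measurable_prodMk_right),
    Measure.volume_eq_prod, lintegral_prod]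
  · rfl
  · exact (hm.comp
      (Complex.measurableEquivRealProd.symm.measurable.prodMk measurable_const)).aemeasurable

/-- A function below `φ t exp (-(x/t)²)` on a strip in `y`, zero outside, is integrable,
with the bound given by that majorant. -/
theorem integrable_of_xyt_bound {f : H3 → ℂ} (hf : Measurable f) {φ : ℝ → ℝ} {c d : ℝ}
    (hφ0 : ∀ t, 0 < t → 0 ≤ φ t)
    (hφ : IntegrableOn (fun t => φ t * (t ^ 2)⁻¹) (Ioi 0))
    (h : ∀ x y t : ℝ, 0 < t → ‖f (H3.mk ⟨x, y⟩ t)‖
      ≤ φ t * (Real.exp (-(x / t) ^ 2) * (Icc c d).indicator 1 y)) :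
    Integrable f hmeas ∧ ∫ v, ‖f v‖ ∂hmeas
      ≤ (∫ t in Ioi 0, φ t * (t ^ 2)⁻¹) * Real.sqrt Real.pi * max (d - c) 0 := by
  have key : ∫⁻ v, ‖f v‖ₑ ∂hmeas
      ≤ ENNReal.ofReal ((∫ t in Ioi 0, φ t * (t ^ 2)⁻¹) * Real.sqrt Real.pi * max (d - c) 0) := by
    rw [lintegral_xyt hf.enorm]
    -- for fixed t: a Gaussian integral in x and an interval in y
    have hin : ∀ t : ℝ, 0 < t →
        ∫⁻ x : ℝ, ∫⁻ y : ℝ, ENNReal.ofReal ((t ^ 3)⁻¹) * ‖f (H3.mk ⟨x, y⟩ t)‖ₑ
          ≤ ENNReal.ofReal (φ t * (t ^ 2)⁻¹) * ENNReal.ofReal (Real.sqrt Real.pi * max (d - c) 0) :=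
      fun t ht => by
      have hφt := hφ0 t ht
      have e : ∀ x y : ℝ, ENNReal.ofReal ((t ^ 3)⁻¹) * ‖f (H3.mk ⟨x, y⟩ t)‖ₑ
          ≤ ENNReal.ofReal ((t ^ 3)⁻¹ * φ t * Real.exp (-(x / t) ^ 2)) *
            (Icc c d).indicator 1 y := fun x y => by
        rw [← ofReal_norm, ← ENNReal.ofReal_mul (by positivity)]
        refine (ENNReal.ofReal_le_ofReal
          (mul_le_mul_of_nonneg_left (h x y t ht) (by positivity))).trans_eq ?_
        by_cases hy : y ∈ Icc c d
        · simp [indicator_of_mem hy, mul_assoc]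
        · simp [indicator_of_notMem hy]
      refine (lintegral_mono fun x => lintegral_mono fun y => e x y).trans_eq ?_
      have hv : ∫⁻ y : ℝ, (Icc c d).indicator 1 y = ENNReal.ofReal (max (d - c) 0) := by
        rw [lintegral_indicator_one measurableSet_Icc, Real.volume_Icc, ENNReal.ofReal,
          ENNReal.ofReal]
        congr 1
        simp [Real.toNNReal]
      simp only [lintegral_const_mul _ (measurable_one.indicator measurableSet_Icc), hv]
      rw [lintegral_mul_const _ (by fun_prop)]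
      have hg : ∫⁻ x : ℝ, ENNReal.ofReal ((t ^ 3)⁻¹ * φ t * Real.exp (-(x / t) ^ 2))
          = ENNReal.ofReal (φ t * (t ^ 2)⁻¹ * Real.sqrt Real.pi) := by
        have hi : Integrable fun x : ℝ => (t ^ 3)⁻¹ * φ t * Real.exp (-(x / t) ^ 2) := by
          refine ((integrable_exp_neg_mul_sq (b := (t ^ 2)⁻¹) (by positivity)).const_mul
            ((t ^ 3)⁻¹ * φ t)).congr (Eventually.of_forall fun x => ?_)
          simp only
          congr 2
          ring
        rw [← ofReal_integral_eq_lintegral_ofReal hi (Eventually.of_forall fun x => by positivity),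
          integral_const_mul]
        congr 1
        rw [show (fun x : ℝ => Real.exp (-(x / t) ^ 2)) = fun x =>
          Real.exp (-(t ^ 2)⁻¹ * x ^ 2) from
          funext fun x => by
            congr 1; ring, integral_gaussian, div_inv_eq_mul, Real.sqrt_mul Real.pi_nonneg,
          Real.sqrt_sq ht.le]
        field_simp
      rw [hg, ← ENNReal.ofReal_mul (by positivity), ← ENNReal.ofReal_mul (by positivity),
        mul_assoc]
    -- then integrate φ t / t² over t
    refine (setLIntegral_mono' measurableSet_Ioi hin).trans ?_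
    rw [lintegral_mul_const' _ _ ENNReal.ofReal_ne_top,
      ← ofReal_integral_eq_lintegral_ofReal hφ ((ae_restrict_mem measurableSet_Ioi).mono fun t ht =>
        mul_nonneg (hφ0 t ht) (by positivity)),
      ← ENNReal.ofReal_mul (setIntegral_nonneg measurableSet_Ioi fun t ht =>
        mul_nonneg (hφ0 t ht) (by positivity))]
    exact le_of_eq (congrArg _ (by ring))
  have hint : Integrable f hmeas := ⟨hf.aestronglyMeasurable, key.trans_lt ENNReal.ofReal_lt_top⟩
  refine ⟨hint, ?_⟩
  have h0 : 0 ≤ (∫ t in Ioi 0, φ t * (t ^ 2)⁻¹) * Real.sqrt Real.pi * max (d - c) 0 := by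
    have : 0 ≤ ∫ t in Ioi 0, φ t * (t ^ 2)⁻¹ :=
      setIntegral_nonneg measurableSet_Ioi fun t ht => mul_nonneg (hφ0 t ht) (by positivity)
    positivity
  rw [← ENNReal.ofReal_le_ofReal_iff h0, ofReal_integral_norm_eq_lintegral_enorm hint]
  exact key

/-- Three real coordinates for integrable functions. -/
theorem integral_xyt {f : H3 → ℂ} (hfm : Measurable f) (hf : Integrable f hmeas) :
    IntegrableOn (fun t => ∫ x : ℝ, ∫ y : ℝ, (((t ^ 3)⁻¹ : ℝ) : ℂ) * f (H3.mk ⟨x, y⟩ t))
      (Ioi (0 : ℝ)) ∧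
    ∫ v, f v ∂hmeas
      = ∫ t in Ioi (0 : ℝ), ∫ x : ℝ, ∫ y : ℝ, (((t ^ 3)⁻¹ : ℝ) : ℂ) * f (H3.mk ⟨x, y⟩ t) := by
  set μ : Measure ((ℝ × ℝ) × ℝ) := (volume : Measure (ℝ × ℝ)).prod (volume.restrict (Ioi 0))
  set G : (ℝ × ℝ) × ℝ → ℂ := fun q => (((q.2 ^ 3)⁻¹ : ℝ) : ℂ) * f (H3.mk ⟨q.1.1, q.1.2⟩ q.2)
  have hGm : Measurable G :=
    (by fun_prop : Measurable fun q : (ℝ × ℝ) × ℝ => (((q.2 ^ 3)⁻¹ : ℝ) : ℂ)).mul
      (hfm.comp measurable_mk_xyt)
  -- the integrand in the coordinates `((x, y), t)` is integrable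
  have hG : Integrable G μ := by
    refine ⟨hGm.aestronglyMeasurable, ?_⟩
    rw [hasFiniteIntegral_iff_enorm, lintegral_prod_symm _ hGm.enorm.aemeasurable]
    refine lt_of_le_of_lt (le_of_eq ?_) hf.2
    rw [lintegral_xyt hfm.enorm]
    refine setLIntegral_congr_fun measurableSet_Ioi fun t (ht : 0 < t) => ?_
    simp only [G]
    rw [Measure.volume_eq_prod, lintegral_prod]
    swap
    · exact (hGm.comp measurable_prodMk_right).enorm.aemeasurable
    refine lintegral_congr fun x => lintegral_congr fun y => ?_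
    simp only [enorm_mul]
    congr 1
    rw [← ofReal_norm, Complex.norm_real, Real.norm_of_nonneg (by positivity)]
  -- Fubini on each slice `t = const`
  have hslice : ∀ᵐ t ∂(volume.restrict (Ioi (0 : ℝ))), ∫ q : ℝ × ℝ, G (q, t)
      = ∫ x : ℝ, ∫ y : ℝ, (((t ^ 3)⁻¹ : ℝ) : ℂ) * f (H3.mk ⟨x, y⟩ t) := by
    filter_upwards [hG.prod_left_ae] with t ht
    exact integral_prod _ ht
  refine ⟨hG.integral_prod_right.congr hslice, ?_⟩
  rw [← hIntegral_eq_integral hf.1]
  -- identify `ℂ` with `ℝ × ℝ`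
  have e : hIntegral f = ∫ q, G q ∂μ := by
    unfold hIntegral
    rw [Measure.volume_eq_prod, ← Measure.prod_restrict, Measure.restrict_univ]
    have hmp : MeasurePreserving (Prod.map Complex.measurableEquivRealProd id)
        ((volume : Measure ℂ).prod (volume.restrict (Ioi (0 : ℝ)))) μ :=
      Complex.volume_preserving_equiv_real_prod.prod (MeasurePreserving.id _)
    rw [← hmp.integral_comp ((Complex.measurableEquivRealProd.prodCongr
      (MeasurableEquiv.refl ℝ)).measurableEmbedding)]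
    refine integral_congr_ae (Eventually.of_forall fun p => ?_)
    simp [G]
  rw [e, integral_prod_symm _ hG]
  exact integral_congr_ae hslice

end Fermat.LT3
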