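import Fermat.Agent.LT3.Per.Four

/-!
# Completeness and rectangles

`eq_zero_of_coef` is completeness of the Fourier coefficients and `rectI_eq_mC` writes means as
averages over rectangles.
-/

set_option autoImplicit false
open MeasureTheory Filter NumberField

namespace Fermat.LT3
open Fermat.LT

variable {K : Type*} [Field K] [NumberField K] [IsTotallyComplex K] (D : KData K)
variable {E : ℕ} [NeZero E]

omit [NeZero E] in
/-- `√-3` vanishes modulo itself. -/
lemma castPi_sR : castPi E (red (3 * (3 * E)) sR) = 0 := by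
  change piHom (castER 3 (dvd_mul_right 3 _) (red (3 * (3 * E)) sR)) = 0
  rw [castER_red]
  change (((sR : EI).re : ℤ) : ZMod 3) - (((sR : EI).im : ℤ) : ZMod 3) = 0
  simp [sR]
  decide

omit [IsTotallyComplex K] in
/-- `K` has only one infinite place. -/
lemma KData.eq_w0 (w : InfinitePlace K) : w = D.w0 := by
  have := D.unique
  exact Subsingleton.elim _ _

omit [IsTotallyComplex K] in
/-- The general additive character is `chiC` at the place. -/
lemma KData.chi_eq (D : KData K) (v : InfinitePlace K → ℂ) : Mult.chi v = chiC (v D.w0) := by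
  have := D.unique
  rw [Mult.chi, chiC, show Mult.trS v = 2 * (v D.w0).re from ?_]
  · congr 1; push_cast; ring
  · change ∑ w, 2 * (v w).re = _
    rw [Finset.sum_eq_single D.w0 (fun w _ h => absurd (D.eq_w0 w) h) (by simp)]

/-- The image of `√-3` in `ℂ`. -/
lemma toC_sR : toC sR = ⟨0, Real.sqrt 3⟩ := by
  rw [toC_apply]
  refine Complex.ext ?_ ?_ <;> simp [emb_re, emb_im, sR]
  ring

/-- Periodic under `√-3 E`. -/
def PerS (E : ℕ) (g : ℂ → ℂ) : Prop :=
  Continuous g ∧ ∀ (z : ℂ) (x : EI), g (z + toC (sR * ((E : EI) * x))) = g z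

omit [NeZero E] in
/-- Periods `√-3 E` give periods `3E`. -/
lemma PerS.perC {g : ℂ → ℂ} (h : PerS E g) : PerC (3 * E) g :=
  ⟨h.1, fun z x => by
    rw [← h.2 z (-sR * x), show sR * ((E : EI) * (-sR * x)) = ((3 * E : ℕ) : EI) * x by
      push_cast; linear_combination (-((E : EI) * x)) * sR_mul_sR, map_mul, map_natCast]⟩

variable (A : Auto E)

omit [NeZero E] in
/-- Restrictions to horospheres are periodic under `√-3 E`. -/
lemma perS_slice (M : GN (3 * E)) {t : ℝ} (ht : 0 < t) : PerS E fun z => A.Φ M (H3.mk z t) := by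
  refine ⟨(perC_slice A M ht).1, fun z x => ?_⟩
  change A.Φ M _ = A.Φ M _
  rw [← A.translate (sR * ((E : EI) * x)) M z ht]
  refine (A.congr_left (nG_map_eq_one _ ?_) (nG_map_eq_one _ ?_) M _).symm
  · rw [map_mul, map_mul, castPi_sR, zero_mul]
  · rw [map_mul, map_mul, map_mul, map_mul, map_natCast, map_natCast, natCast_ER_self, zero_mul,
      mul_zero]

/-- **Completeness.** A periodic continuous function with vanishing Fourier coefficients is zero. -/
theorem eq_zero_of_coef {g : ℂ → ℂ} (hg : PerS E g)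
    (h : ∀ η : EI, mC D (fun z => g z * chiC (-(fr E η * z))) = 0) : g = 0 := by
  have hp := isPer_of_perC D three_E_ne_zero hg.perC
  suffices h0 : (fun v : InfinitePlace K → ℂ => g (v D.w0)) = 0 by
    funext z; exact congrFun h0 fun _ => z
  -- otherwise some frequency `α` has nonzero mean
  refine Mult.eq_zero_of_mean_eq_zero hp fun a => ?_
  by_contra hne
  set α : ℂ := Mult.emb a D.w0 with hα
  set G : (InfinitePlace K → ℂ) → ℂ := fun v => g (v D.w0) * Mult.chi (-(Mult.emb a * v))
  have hG : Mult.IsPer G := hp.mul (Mult.isPer_chi_mul a)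
  -- lattice translations then force `chiC (α * ·)` to be trivial on the lattice
  have hshift : ∀ x : EI, chiC (α * toC (sR * ((E : EI) * x))) = 1 := fun x => by
    set c : ℂ := toC (sR * ((E : EI) * x))
    have h1 := Mult.mean_translate hG fun _ => c
    have hgc : ∀ z, g (z + c) = g z := fun z => hg.2 z x
    have e : (fun v => G (v + fun _ => c)) = fun v => chiC (-(α * c)) * G v := funext fun v => by
      simp only [G, D.chi_eq, Pi.neg_apply, Pi.mul_apply, Pi.add_apply, hgc, ← hα]
      rw [mul_add, neg_add, chiC_add]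
      ring
    rw [e, Mult.mean_const_mul _ hG] at h1
    have h2 : chiC (-(α * c)) = 1 := (mul_eq_right₀ hne).1 h1
    have h3 := chiC_add (α * c) (-(α * c))
    rw [add_neg_cancel, chiC_zero, h2, mul_one] at h3
    exact h3.symm
  obtain ⟨m, hm⟩ := (chiC_eq_one_iff _).1 (hshift 1)
  obtain ⟨n, hn⟩ := (chiC_eq_one_iff _).1 (hshift ⟨0, 1⟩)
  -- so `α` is one of the frequencies `fr E η`
  have hfr : α = fr E ⟨m - n, -m⟩ := by
    have hN : ((3 * E : ℕ) : ℂ) ≠ 0 := Nat.cast_ne_zero.2 three_E_ne_zero
    rw [fr, eq_div_iff hN]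
    rw [mul_one, map_mul, map_natCast, toC_sR] at hm
    rw [map_mul, map_mul, map_natCast, toC_sR, toC_apply] at hn
    simp [Complex.mul_re, Complex.mul_im, emb_re, emb_im] at hm hn
    have h3 : Real.sqrt 3 * Real.sqrt 3 = 3 := Real.mul_self_sqrt (by norm_num)
    rw [toC_apply]
    refine Complex.ext ?_ ?_ <;> simp [emb_re, emb_im]
    · linear_combination (1 / 2 : ℝ) * hm - (1 : ℝ) * hn - (α.re * (E : ℝ)) * h3
    · linear_combination (-(Real.sqrt 3 / 2)) * hm - (α.im * (E : ℝ)) * h3
  refine hne (Eq.trans ?_ (h ⟨m - n, -m⟩))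
  rw [mC]
  congr 1
  funext v
  simp only [G, D.chi_eq, Pi.neg_apply, Pi.mul_apply, ← hα, hfr]

/-- The integral over a rectangle. -/
noncomputable def rectI (P Y : ℝ) (g : ℂ → ℂ) : ℂ :=
  ∫ x in (0 : ℝ)..P, ∫ y in (0 : ℝ)..Y, g ((x : ℂ) + (y : ℂ) * Complex.I)

/-- **Means are averages over rectangles of periods.** -/
theorem rectI_eq_mC {N : ℕ} (hN : N ≠ 0) {g : ℂ → ℂ} (hg : PerC N g) {P Y : ℝ} (hP : 0 < P)
    (hY : 0 < Y) (hPp : ∀ z, g (z + P) = g z) (hYp : ∀ z, g (z + Y * Complex.I) = g z) :
    rectI P Y g = ((P * Y : ℝ) : ℂ) * mC D g := by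
  set pb : (InfinitePlace K → ℂ) → ℂ := fun v => g (v D.w0)
  obtain ⟨hc, M, hM, p⟩ := isPer_of_perC D hN hg
  obtain ⟨C, hC⟩ : ∃ C, ∀ z, ‖g z‖ ≤ C := by
    obtain ⟨C, hC⟩ := (isCompact_range (Mult.continuous_tlift p hc)).isBounded.exists_norm_le
    refine ⟨C, fun z => ?_⟩
    obtain ⟨s, hs⟩ := Mult.par_surjective hM (fun _ : InfinitePlace K => z)
    refine hC _ ⟨fun i => (s i : UnitAddCircle), ?_⟩
    rw [Mult.tlift_mk p, hs]
  set T : Mult.Tor K → ℝ × ℝ → ℂ := fun q w =>
    g (Mult.par (F := K) M (fun i => Mult.rep (q i)) D.w0 + ((w.1 : ℂ) + (w.2 : ℂ) * Complex.I))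
  have hTm : Measurable (Function.uncurry T) := by
    have h1 : Measurable fun q : Mult.Tor K => Mult.par (F := K) M (fun i => Mult.rep (q i)) :=
      (Mult.continuous_par M).measurable.comp
        (measurable_pi_lambda _ fun i => Mult.measurable_rep.comp (measurable_pi_apply i))
    exact hg.1.measurable.comp ((((measurable_pi_apply D.w0).comp h1).comp measurable_fst).add
      ((Complex.measurable_ofReal.comp measurable_snd.fst).add
        ((Complex.measurable_ofReal.comp measurable_snd.snd).mul_const _)))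
  -- T q w is g at a torus point moved by w; its mean over q is mC D g for each w
  have hmean : ∀ w : ℝ × ℝ, ∫ q, T q w ∂Mult.tmeas K = mC D g := fun w => by
    set u : InfinitePlace K → ℂ := fun _ => (w.1 : ℂ) + (w.2 : ℂ) * Complex.I
    refine Eq.trans ?_ (mC_translate D hN hg (u D.w0))
    rw [mC, show (fun v : InfinitePlace K → ℂ => g (v D.w0 + u D.w0)) = fun v =>
      pb (v + u) from rfl,
      Mult.mean_eq hM (p.comp_add u) (hc.comp (continuous_id.add continuous_const))]
    rfl
  set μ : Measure (ℝ × ℝ) := (volume.restrict (Set.Ioc 0 P)).prod (volume.restrict (Set.Ioc 0 Y))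
  have : IsFiniteMeasure μ := by
    have : IsFiniteMeasure (volume.restrict (Set.Ioc (0 : ℝ) P)) :=
      ⟨by rw [Measure.restrict_apply_univ, Real.volume_Ioc]; exact ENNReal.ofReal_lt_top⟩
    have : IsFiniteMeasure (volume.restrict (Set.Ioc (0 : ℝ) Y)) :=
      ⟨by rw [Measure.restrict_apply_univ, Real.volume_Ioc]; exact ENNReal.ofReal_lt_top⟩
    infer_instance
  have hint : Integrable (Function.uncurry T) ((Mult.tmeas K).prod μ) :=
    Integrable.of_bound hTm.aestronglyMeasurable C (Eventually.of_forall fun _ => hC _)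
  -- swap the two integrals
  have key := integral_integral_swap hint
  simp only [hmean, integral_const] at key
  -- for fixed q the periods remove the shift, so the w-integral is rectI
  have hrect : ∀ q, ∫ w, T q w ∂μ = rectI P Y g := fun q => by
    set c := Mult.par (F := K) M (fun i => Mult.rep (q i)) D.w0
    have hi : Integrable (T q) μ := Integrable.of_bound
      (hTm.comp (measurable_prodMk_left (x := q))).aestronglyMeasurable C
      (Eventually.of_forall fun _ => hC _)
    rw [integral_prod _ hi, rectI, intervalIntegral.integral_of_le hP.le]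
    set H : ℝ → ℂ := fun a => ∫ y in (0 : ℝ)..Y, g ((a : ℂ) + (y : ℂ) * Complex.I)
    have inner : ∀ x : ℝ, ∫ y in Set.Ioc 0 Y, T q (x, y) = H (c.re + x) := fun x => by
      rw [← intervalIntegral.integral_of_le hY.le]
      have hp : Function.Periodic (fun y : ℝ => g (((c.re + x : ℝ) : ℂ) + (y : ℂ) * Complex.I)) Y :=
        fun y => by
          simp only [Complex.ofReal_add]
          rw [show ((c.re : ℂ) + x) + ((y : ℂ) + (Y : ℂ)) * Complex.I
            = ((c.re : ℂ) + x) + (y : ℂ) * Complex.I + Y * Complex.I by ring, hYp]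
      have e : ∀ y : ℝ, T q (x, y)
          = g (((c.re + x : ℝ) : ℂ) + ((c.im + y : ℝ) : ℂ) * Complex.I) := fun y => by
        change g (c + _) = _
        congr 1
        conv_lhs => rw [← Complex.re_add_im c]
        push_cast; ring
      simp only [e]
      rw [intervalIntegral.integral_comp_add_left
        (fun y : ℝ => g (((c.re + x : ℝ) : ℂ) + (y : ℂ) * Complex.I)) c.im]
      rw [add_zero]
      simpa [H] using hp.intervalIntegral_add_eq c.im 0
    simp only [inner]
    rw [← intervalIntegral.integral_of_le hP.le, intervalIntegral.integral_comp_add_left H c.re]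
    have hHp : Function.Periodic H P := fun a => by
      refine intervalIntegral.integral_congr fun y _ => ?_
      simp only [Complex.ofReal_add]
      rw [show (a : ℂ) + P + (y : ℂ) * Complex.I = (a : ℂ) + (y : ℂ) * Complex.I + P by ring, hPp]
    rw [add_zero]
    rw [← intervalIntegral.integral_of_le hP.le]
    simpa [H] using hHp.intervalIntegral_add_eq c.re 0
  simp only [hrect, integral_const] at key
  rw [probReal_univ, one_smul] at key
  rw [key, Complex.real_smul]
  congr 1
  simp [μ, measureReal_def, ← Set.univ_prod_univ, hP.le, hY.le, ENNReal.toReal_ofReal]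

end Fermat.LT3
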