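import Fermat.Agent.LT3.Per.Periods
import Fermat.Agent.LT3.Per.Four2
import Mathlib.NumberTheory.Modular

/-!
# The quotient by the stabiliser of the plane

On the coordinate `τ` the stabiliser acts through `Γ₀(3)`; two truncated strips, the second one
swapped, meet every orbit.
-/

set_option autoImplicit false
open Matrix MeasureTheory
open scoped MatrixGroups ENNReal ComplexConjugate UpperHalfPlane

namespace Fermat.LT3
open Fermat.LT

/-- The coordinate along the plane. -/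
noncomputable def tauC (v : H3) : ℂ :=
  ⟨(H3.coord v).1.im / Real.sqrt 3,
    Real.sqrt ((H3.coord v).1.re ^ 2 + (H3.coord v).2 ^ 2) / Real.sqrt 3⟩

/-- An integer multiple of `√-3` in `ℂ`. -/
lemma toC_sR_mul (b : ℤ) : toC (sR * (b : EI)) = ⟨0, Real.sqrt 3 * b⟩ := by
  rw [map_mul, map_intCast, toC_sR]
  apply Complex.ext <;> simp

/-- The vector of the base point. -/
lemma vec_X1 : vec X1 = (0, 1, 0) := by
  have h := toC_bY ((2 : ℤ), (1 : ℤ))
  rw [show bY ((2 : ℤ), (1 : ℤ)) = sR from rfl] at h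
  have h2 : demb ((2 : ℤ), (1 : ℤ)) = 1 :=
    mul_left_cancel₀ toC_sR_ne (by rw [← h, mul_one])
  refine Prod.ext ?_ (Prod.ext ?_ ?_) <;> simp [vec, X1, lam, mu1, h2]

/-- The height function of `X1` in coordinates. -/
lemma lin_X1_mk (z : ℂ) {t : ℝ} (ht : 0 < t) : lin (vec X1) (H3.mk z t) = -z.re / t := by
  rw [lin_mk_coord _ _ ht, vec_X1, num]
  simp
  field_simp

/-- The coordinate along the plane in coordinates. -/
lemma tauC_mk (z : ℂ) {t : ℝ} (ht : 0 < t) :
    tauC (H3.mk z t) = ⟨z.im / Real.sqrt 3, Real.sqrt (z.re ^ 2 + t ^ 2) / Real.sqrt 3⟩ := by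
  rw [tauC, H3.coord_mk_of_pos z ht]

/-- The height through the coordinate of the plane. -/
lemma im_tauC_eq (v : H3) :
    (tauC v).im = (H3.coord v).2 * Real.sqrt (1 + lin (vec X1) v ^ 2) / Real.sqrt 3 := by
  rw [← H3.mk_coord v]
  have ht := H3.coord_pos v
  generalize (H3.coord v).1 = z, (H3.coord v).2 = t at ht
  rw [tauC_mk z ht, lin_X1_mk z ht, H3.coord_mk_of_pos z ht]
  change Real.sqrt (z.re ^ 2 + t ^ 2) / _ = _
  congr 1
  conv_rhs => rw [← Real.sqrt_sq ht.le, ← Real.sqrt_mul (by positivity), Real.sqrt_sq ht.le]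
  congr 1
  field_simp
  ring

/-- The coordinate along the plane lies in the upper half plane. -/
lemma tauC_im_pos (v : H3) : 0 < (tauC v).im := by
  rw [im_tauC_eq]
  have := H3.coord_pos v
  positivity

/-- The coordinate along the plane is continuous. -/
lemma continuous_tauC : Continuous tauC := by
  have h := continuous_coord
  have hz : Continuous fun v => (H3.coord v).1 := h.fst
  have ht : Continuous fun v => (H3.coord v).2 := h.snd
  refine Complex.continuous_ofReal.comp ((Complex.continuous_im.comp hz).div_const (Real.sqrt 3))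
    |>.add ((Complex.continuous_ofReal.comp
      ((((Complex.continuous_re.comp hz).pow 2).add (ht.pow 2)).sqrt.div_const (Real.sqrt 3))).mul
        (continuous_const (y := Complex.I))) |>.congr fun v => ?_
  apply Complex.ext <;> simp [tauC]

/-- The coordinates of an image. -/
lemma coord_smul_mk (g : GL (Fin 2) ℂ) (z : ℂ) {t : ℝ} (ht : 0 < t) :
    H3.coord (g • H3.mk z t) =
      (((g : Matrix (Fin 2) (Fin 2) ℂ) 0 0 * conj ((g : Matrix (Fin 2) (Fin 2) ℂ) 1 0) * (t : ℂ) ^ 2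
          + ((g : Matrix (Fin 2) (Fin 2) ℂ) 0 0 * z + (g : Matrix (Fin 2) (Fin 2) ℂ) 0 1)
            * conj ((g : Matrix (Fin 2) (Fin 2) ℂ) 1 0 * z + (g : Matrix (Fin 2) (Fin 2) ℂ) 1 1))
        / ((Complex.normSq ((g : Matrix (Fin 2) (Fin 2) ℂ) 1 0) * t ^ 2 +
          Complex.normSq ((g : Matrix (Fin 2) (Fin 2) ℂ) 1 0 * z
            + (g : Matrix (Fin 2) (Fin 2) ℂ) 1 1) : ℝ) : ℂ),
        ‖(g : Matrix (Fin 2) (Fin 2) ℂ).det‖ * t /
          (Complex.normSq ((g : Matrix (Fin 2) (Fin 2) ℂ) 1 0) * t ^ 2 +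
            Complex.normSq ((g : Matrix (Fin 2) (Fin 2) ℂ) 1 0 * z
              + (g : Matrix (Fin 2) (Fin 2) ℂ) 1 1))) := by
  rw [H3.mk_of_pos z ht, MulAction.Quotient.smul_coe, H3.coord_mk, smul_eq_mul]
  refine Prod.ext ?_ (tc_mul_triMat g z ht)
  change zc (g * triMat z ht) = _
  rw [zc, herm_eq, herm_eq, Units.val_mul, coe_triMat]
  simp [Matrix.mul_apply, Fin.sum_univ_two, ← Complex.mul_conj]
  ring

/-- The complex entries of an element of the stabiliser. -/
lemma gC_h0_entries {γ : GL (Fin 2) EI} {a b c d : ℤ}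
    (h : γ.val = !![(a : EI), sR * (b : EI); sR * (c : EI), (d : EI)]) :
    (gC γ : Matrix (Fin 2) (Fin 2) ℂ) 0 0 = (a : ℂ) ∧
    (gC γ : Matrix (Fin 2) (Fin 2) ℂ) 0 1 = ⟨0, Real.sqrt 3 * b⟩ ∧
    (gC γ : Matrix (Fin 2) (Fin 2) ℂ) 1 0 = ⟨0, Real.sqrt 3 * c⟩ ∧
    (gC γ : Matrix (Fin 2) (Fin 2) ℂ) 1 1 = (d : ℂ) := by
  simp [gC_coe, h, ← toC_sR_mul]

/-- **The action of the stabiliser on the coordinate.** -/
theorem tauC_h0 {γ : GL (Fin 2) EI} {a b c d : ℤ}
    (h : γ.val = !![(a : EI), sR * (b : EI); sR * (c : EI), (d : EI)])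
    (hdet : a * d + 3 * (b * c) = 1) (hγ : γ ∈ H0s) (v : H3) :
    tauC (gC γ • v) = ((a : ℂ) * tauC v + b) / (-3 * (c : ℂ) * tauC v + d) := by
  obtain ⟨h00, h01, h10, h11⟩ := gC_h0_entries h
  rw [← H3.mk_coord v]
  have ht := H3.coord_pos v
  generalize (H3.coord v).1 = z, (H3.coord v).2 = t at ht
  have h3 : Real.sqrt 3 * Real.sqrt 3 = 3 := Real.mul_self_sqrt (by norm_num)
  have hdR : (a : ℝ) * d + 3 * ((b : ℝ) * c) = 1 := by exact_mod_cast hdet
  have hs0 := sqrt_three_ne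
  -- write z = x + √3 Y i; then tauC is Y + T i
  obtain ⟨x, Y, rfl⟩ : ∃ x Y : ℝ, z = ⟨x, Real.sqrt 3 * Y⟩ :=
    ⟨z.re, z.im / Real.sqrt 3, Complex.ext rfl (by field_simp)⟩
  obtain ⟨T, hT, hTd⟩ : ∃ T : ℝ, T * T * 3 = x ^ 2 + t ^ 2 ∧
      T = Real.sqrt (x ^ 2 + t ^ 2) / Real.sqrt 3 := by
    refine ⟨_, ?_, rfl⟩
    rw [div_mul_div_comm, Real.mul_self_sqrt (by positivity), h3]
    ring
  have hτ : tauC (H3.mk ⟨x, Real.sqrt 3 * Y⟩ t) = ⟨Y, T⟩ := by
    rw [tauC_mk _ ht, hTd]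
    apply Complex.ext
    · change Real.sqrt 3 * Y / Real.sqrt 3 = Y
      rw [mul_div_cancel_left₀ _ hs0]
    · rfl
  -- the two denominators agree
  have e2 : Complex.normSq (-3 * (c : ℂ) * (⟨Y, T⟩ : ℂ) + (d : ℂ))
      = 9 * (c : ℝ) ^ 2 * (T * T) + ((d : ℝ) - 3 * c * Y) ^ 2 := by
    simp [Complex.normSq_apply]
    ring
  have e1 : Complex.normSq (⟨0, Real.sqrt 3 * c⟩ : ℂ) * t ^ 2 +
      Complex.normSq ((⟨0, Real.sqrt 3 * c⟩ : ℂ) * ⟨x, Real.sqrt 3 * Y⟩ + (d : ℂ))
        = 9 * (c : ℝ) ^ 2 * (T * T) + ((d : ℝ) - 3 * c * Y) ^ 2 := by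
    simp [Complex.normSq_apply]
    linear_combination ((c : ℝ) ^ 2 * (t ^ 2 + x ^ 2) - 2 * (c : ℝ) * d * Y
      + (c : ℝ) ^ 2 * Y ^ 2 * (Real.sqrt 3 * Real.sqrt 3 + 3)) * h3 - 3 * (c : ℝ) ^ 2 * hT
  rw [hτ]
  -- compare real and imaginary parts
  apply Complex.ext
  · rw [Complex.div_re, e2, tauC, coord_smul_mk _ _ ht, norm_det_gC, h00, h01, h10, h11, e1]
    simp only [Complex.div_ofReal_im]
    rw [div_right_comm, ← add_div]
    congr 1
    rw [div_eq_iff hs0]
    simp [pow_two]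
    linear_combination ((a : ℝ) * c * Real.sqrt 3) * hT
      - (Real.sqrt 3 * Y * (a * c * Y + b * c)) * h3
  · rw [im_tauC_eq, lin_X1_smul (H0s_le hγ), lin_X1_mk _ ht, coord_smul_mk _ _ ht, norm_det_gC, h10,
      h11, e1, one_mul, Complex.div_im, e2, div_mul_eq_mul_div, div_right_comm, ← sub_div]
    congr 1
    have hk : t * Real.sqrt (1 + (-x / t) ^ 2) = Real.sqrt (x ^ 2 + t ^ 2) := by
      conv_lhs => rw [← Real.sqrt_sq ht.le, ← Real.sqrt_mul (by positivity), Real.sqrt_sq ht.le]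
      congr 1
      field_simp
      ring
    rw [hk, ← hTd]
    simp
    linear_combination (-T) * hdR

/-- The complex matrix of the swap. -/
lemma gC_swI_entries : (gC swI : Matrix (Fin 2) (Fin 2) ℂ) = !![0, 1; 1, 0] := by
  ext i j : 1
  fin_cases i <;> fin_cases j <;> simp [gC_coe, swI]

/-- **The swap on the coordinate.** The swap acts on `tauC` as `τ ↦ -1 / (3 τ)`. -/
theorem tauC_swI (v : H3) : tauC (gC swI • v) = -1 / (3 * tauC v) := by
  have hv := tauC_im_pos v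
  rw [← H3.mk_coord v] at hv ⊢
  have ht := H3.coord_pos v
  generalize (H3.coord v).1 = z, (H3.coord v).2 = t at ht hv
  have hh := coord_smul_mk (gC swI) z ht
  rw [norm_det_gC, gC_swI_entries] at hh
  have hlin := lin_X1_smul swI_mem (H3.mk z t)
  have hs0 := sqrt_three_ne
  have h3 : Real.sqrt 3 * Real.sqrt 3 = 3 := Real.mul_self_sqrt (by norm_num)
  have hS : Real.sqrt (z.re ^ 2 + t ^ 2) * Real.sqrt (z.re ^ 2 + t ^ 2) = z.re ^ 2 + t ^ 2 :=
    Real.mul_self_sqrt (by positivity)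
  have hN : 0 < t ^ 2 + Complex.normSq z := by positivity [Complex.normSq_nonneg z]
  have e1 : Complex.normSq (3 * tauC (H3.mk z t)) = 3 * (t ^ 2 + Complex.normSq z) := by
    rw [tauC_mk z ht]
    simp [Complex.normSq_apply]
    field_simp
    linear_combination 3 * hS - (z.im * z.im + z.re * z.re + t ^ 2) * h3
  apply Complex.ext
  · rw [Complex.div_re, e1, tauC, hh, tauC_mk z ht]
    simp
    field_simp
    rw [show ((t : ℂ) ^ 2 + (Complex.normSq z : ℂ)) =
      ((t ^ 2 + Complex.normSq z : ℝ) : ℂ) by push_cast; rfl,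
      Complex.div_ofReal_im, Complex.conj_im, div_mul_cancel₀ _ hN.ne']
  · rw [im_tauC_eq, hlin, hh, lin_X1_mk z ht, Complex.div_im, e1, tauC_mk z ht]
    have hk : t * Real.sqrt (1 + (-z.re / t) ^ 2) = Real.sqrt (z.re ^ 2 + t ^ 2) := by
      conv_lhs => rw [← Real.sqrt_sq ht.le, ← Real.sqrt_mul (by positivity), Real.sqrt_sq ht.le]
      congr 1
      field_simp
      ring
    simp
    rw [div_mul_eq_mul_div, hk]
    field_simp

/-- The points with `|re τ| ≤ 1/2` and `im τ ≥ 1/4`, `τ = tauC`. -/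
def Sd : Set H3 := {v | |(tauC v).re| ≤ 1 / 2 ∧ 1 / 4 ≤ (tauC v).im}

/-- The union of `Sd` and its image under the swap. -/
def Sd2 : Set H3 := Sd ∪ (fun v => gC swI • v) ⁻¹' Sd

/-- The truncated strip is measurable. -/
lemma measurableSet_Sd : MeasurableSet Sd :=
  (measurableSet_le (Complex.continuous_re.comp continuous_tauC).abs.measurable
    measurable_const).inter
    (measurableSet_le measurable_const (Complex.continuous_im.comp continuous_tauC).measurable)

/-- The two sheets are measurable. -/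
lemma measurableSet_Sd2 : MeasurableSet Sd2 :=
  measurableSet_Sd.union ((continuous_const_smul (gC swI)).measurable measurableSet_Sd)

/-- **Covering.** Every point is moved by `H0s` into the two sheets `Sd2`. -/
theorem exists_mem_Sd2 (v : H3) : ∃ γ ∈ H0s, gC γ • v ∈ Sd2 := by
  set z : ℍ := ⟨tauC v, tauC_im_pos v⟩ with hz
  -- move tauC v into the classical fundamental domain by g in SL(2, ℤ)
  obtain ⟨g, hg⟩ := ModularGroup.exists_smul_mem_fd z
  set w : ℂ := ((g • z : ℍ) : ℂ) with hw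
  have hwe : w = ((g 0 0 : ℂ) * tauC v + g 0 1) / ((g 1 0 : ℂ) * tauC v + g 1 1) := by
    rw [hw, UpperHalfPlane.coe_specialLinearGroup_apply]
    simp [hz]
  have hw1 : |w.re| ≤ 1 / 2 := hg.2
  have hw2 : 3 / 4 ≤ w.im ^ 2 := by
    have h1 : 1 ≤ Complex.normSq w := hg.1
    rw [Complex.normSq_apply] at h1
    nlinarith [abs_le.1 hw1]
  have hwp : 0 < w.im := (g • z).im_pos
  have hwim : 3 / 4 ≤ w.im := by nlinarith
  have hdet : g 0 0 * g 1 1 - g 0 1 * g 1 0 = 1 := by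
    have := g.det_coe
    rwa [Matrix.det_fin_two] at this
  by_cases h3 : (3 : ℤ) ∣ g 1 0
  -- 3 ∣ g₁₀: g itself comes from H0s
  · obtain ⟨k, hk⟩ := h3
    have hd : g 0 0 * g 1 1 + 3 * (g 0 1 * -k) = 1 := by rw [hk] at hdet; linarith
    refine ⟨h0Mat _ _ _ _ hd, h0Mat_mem _ _ _ _ hd, Or.inl ?_⟩
    have e : tauC (gC (h0Mat _ _ _ _ hd) • v) = w := by
      rw [tauC_h0 rfl hd (h0Mat_mem _ _ _ _ hd), hwe, hk]
      push_cast
      ring_nf
    change |(tauC _).re| ≤ 1 / 2 ∧ _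
    rw [e]
    exact ⟨hw1, by linarith⟩
  -- otherwise compose with a translation and an inversion
  · obtain ⟨j, hj1, k, hk⟩ : ∃ j : ℤ, |j| ≤ 1 ∧ (3 : ℤ) ∣ g 0 0 + j * g 1 0 := by
      have h1 : g 1 0 % 3 = 1 ∨ g 1 0 % 3 = 2 := by omega
      have h2 : g 0 0 % 3 = 0 ∨ g 0 0 % 3 = 1 ∨ g 0 0 % 3 = 2 := by omega
      rcases h2 with h2 | h2 | h2
      · exact ⟨0, by norm_num, by omega⟩
      · rcases h1 with h1 | h1
        · exact ⟨-1, by norm_num, by omega⟩
        · exact ⟨1, by norm_num, by omega⟩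
      · rcases h1 with h1 | h1
        · exact ⟨1, by norm_num, by omega⟩
        · exact ⟨-1, by norm_num, by omega⟩
    have hd : -g 1 0 * (g 0 1 + j * g 1 1) + 3 * (-g 1 1 * -k) = 1 := by
      linear_combination hdet - (g 1 1) * hk
    refine ⟨h0Mat _ _ _ _ hd, h0Mat_mem _ _ _ _ hd, Or.inr ?_⟩
    have hden : (g 1 0 : ℂ) * tauC v + g 1 1 ≠ 0 := fun e => by
      rw [hwe, e, div_zero] at hwp
      simp at hwp
    have hwj : w + (j : ℂ) ≠ 0 := fun e => by
      have := congrArg Complex.im e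
      simp at this
      linarith
    have hkC : (g 0 0 : ℂ) + (j : ℂ) * g 1 0 = 3 * (k : ℂ) := by exact_mod_cast hk
    have hS : tauC (gC (h0Mat _ _ _ _ hd) • v) = -1 / (w + j) := by
      rw [tauC_h0 rfl hd (h0Mat_mem _ _ _ _ hd), eq_div_iff hwj, hwe, div_add' _ _ _ hden]
      push_cast
      rw [div_mul_div_comm, div_eq_iff]
      · linear_combination ((-(g 1 0 : ℂ) * tauC v - g 1 1) * tauC v) * hkC
      · refine mul_ne_zero (fun e => hwj ?_) hden
        rw [hwe, div_add' _ _ _ hden, show (g 0 0 : ℂ) * tauC v + g 0 1 + j *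
          ((g 1 0 : ℂ) * tauC v + g 1 1)
          = 0 by linear_combination e + tauC v * hkC, zero_div]
    change |(tauC _).re| ≤ 1 / 2 ∧ _
    rw [tauC_swI, hS, show (-1 : ℂ) / (3 * (-1 / (w + j))) = (w + j) / ((3 : ℝ) : ℂ) by
      push_cast; field_simp]
    rw [Complex.div_ofReal_re, Complex.div_ofReal_im]
    simp only [Complex.add_re, Complex.intCast_re, Complex.add_im, Complex.intCast_im, add_zero]
    refine ⟨?_, by linarith⟩
    have hj2 : |(j : ℝ)| ≤ 1 := by exact_mod_cast hj1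
    rw [abs_div, abs_of_pos (by norm_num : (0 : ℝ) < 3), div_le_iff₀ (by norm_num : (0 : ℝ) < 3)]
    linarith [abs_add_le w.re (j : ℝ)]

/-- **Integrals against the weight are bounded by integrals over the two sheets.** -/
theorem lintegral_rhoH_le {a : H3 → ℝ≥0∞} (ha : Measurable a)
    (hinv : ∀ γ ∈ H0s, ∀ v, a (gC γ • v) = a v) :
    ∫⁻ v, ENNReal.ofReal (rhoH v) * a v ∂hmeas ≤ ∫⁻ v, Sd2.indicator a v ∂hmeas := by
  have hm : ∀ γ : H0s, Measurable fun v => ENNReal.ofReal (rhoH v) *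
      Sd2.indicator a (gC (γ : GL (Fin 2) EI) • v) := fun γ => part_rhoH.meas.ennreal_ofReal.mul
    ((ha.indicator measurableSet_Sd2).comp (continuous_const_smul _).measurable)
  calc ∫⁻ v, ENNReal.ofReal (rhoH v) * a v ∂hmeas
      ≤ ∫⁻ v, ∑' γ : H0s, ENNReal.ofReal (rhoH v) * Sd2.indicator a (gC (γ : GL (Fin 2) EI) • v)
          ∂hmeas := by
        refine lintegral_mono fun v => ?_
        obtain ⟨γ, hγ, hv⟩ := exists_mem_Sd2 v
        refine le_trans ?_ (ENNReal.le_tsum (⟨γ, hγ⟩ : H0s))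
        rw [Set.indicator_of_mem hv, hinv γ hγ]
    _ = ∑' γ : H0s, ∫⁻ v, ENNReal.ofReal (rhoH v) *
          Sd2.indicator a (gC (γ : GL (Fin 2) EI) • v) ∂hmeas :=
        lintegral_tsum fun γ => (hm γ).aemeasurable
    _ = ∑' γ : H0s, ∫⁻ v, ENNReal.ofReal (rhoH (gC (γ : GL (Fin 2) EI) • v)) *
          Sd2.indicator a v ∂hmeas := by
        rw [← (Equiv.inv H0s).tsum_eq]
        refine tsum_congr fun γ => ?_
        rw [← lintegral_gC_smul (γ : GL (Fin 2) EI) (hm _)]
        refine lintegral_congr fun v => ?_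
        rw [Equiv.inv_apply, Subgroup.coe_inv, smul_smul, ← map_mul, inv_mul_cancel,
          map_one, one_smul]
    _ = ∫⁻ v, Sd2.indicator a v ∂hmeas := by
        rw [← lintegral_tsum fun γ => (((part_rhoH.measurable_comp _).ennreal_ofReal).fun_mul
          (ha.indicator measurableSet_Sd2)).aemeasurable]
        refine lintegral_congr fun v => ?_
        rw [ENNReal.tsum_mul_right, ← ENNReal.ofReal_tsum_of_nonneg (fun _ => part_rhoH.nonneg _)
          (part_rhoH.hasSum v).summable, (part_rhoH.hasSum v).tsum_eq, ENNReal.ofReal_one, one_mul]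

end Fermat.LT3
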