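import Fermat.Agent.LT3.Per.ArchB

/-!
# Decay in the cusp

An eigenfunction is Lipschitz for the hyperbolic distance; with the cusp condition this gives
`O(1/t)` at height `t`.
-/

set_option autoImplicit false
open Matrix MeasureTheory Filter Set Fermat.LT.Mult
open scoped Classical

namespace Fermat.LT3
open Fermat.LT

/-- The Lipschitz profile `max 0 (1 - |c - 1|)`. -/
noncomputable def kT (c : ℝ) : ℝ := max 0 (1 - |c - 1|)

/-- The profile is continuous. -/
lemma continuous_kT : Continuous kT := by unfold kT; fun_prop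

/-- The box carrying the profile. -/
def boxD : Set (ℂ × ℝ) := Metric.closedBall 0 5 ×ˢ Icc (1 / 4) 4

/-- Points within `cd < 2` of `(ξ, 1)`, `‖ξ‖ ≤ 1`, lie in the box. -/
lemma mem_boxD {η ξ : ℂ} {s : ℝ} (hs : 0 < s) (hξ : ‖ξ‖ ≤ 1)
    (h : cd (ξ, 1) (η, s) < 2) : (η, s) ∈ boxD := by
  rw [cd, div_lt_iff₀ (by positivity)] at h
  simp only at h
  have hn := Complex.normSq_nonneg (ξ - η)
  have h1 : 1 / 4 ≤ s := by nlinarith
  have h2 : s ≤ 4 := by nlinarith
  refine ⟨mem_closedBall_zero_iff.2 ?_, h1, h2⟩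
  have h3 : ‖ξ - η‖ ^ 2 ≤ 4 ^ 2 := by rw [← Complex.normSq_eq_norm_sq]; nlinarith
  have h4 : ‖ξ - η‖ ≤ 4 := pow_le_pow_iff_left₀ (norm_nonneg _) (by norm_num) two_ne_zero |>.1 h3
  calc ‖η‖ = ‖ξ - (ξ - η)‖ := by rw [sub_sub_cancel]
    _ ≤ ‖ξ‖ + ‖ξ - η‖ := norm_sub_le _ _
    _ ≤ 5 := by linarith

/-- The box carrying the profile has finite measure. -/
lemma measure_box_lt_top : hmeas {u | H3.coord u ∈ boxD} < ⊤ := by
  have hc : IsCompact boxD := (isCompact_closedBall _ _).prod isCompact_Icc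
  have hm : MeasurableSet {u | H3.coord u ∈ boxD} := continuous_coord.measurable hc.measurableSet
  rw [hmeas, Measure.map_apply measurable_hmk hm, hvol, withDensity_apply _ (measurable_hmk hm),
    Measure.restrict_restrict (measurable_hmk hm)]
  set S := hmk ⁻¹' {u | H3.coord u ∈ boxD} ∩ (univ : Set ℂ) ×ˢ Ioi (0 : ℝ)
  have hS : S ⊆ boxD := by
    rintro ⟨η, s⟩ ⟨h1, -, h2⟩
    have h1' : H3.coord (H3.mk η s) ∈ boxD := h1
    rwa [H3.coord_mk_of_pos _ h2] at h1'
  refine (lintegral_mono_set hS).trans_lt ?_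
  refine (setLIntegral_mono' hc.measurableSet (g := fun _ => ENNReal.ofReal 64) ?_).trans_lt ?_
  · rintro ⟨η, s⟩ ⟨-, h1, -⟩
    refine ENNReal.ofReal_le_ofReal ?_
    have h0 : (0 : ℝ) < 1 / 4 := by norm_num
    calc (s ^ 3)⁻¹ ≤ ((1 / 4 : ℝ) ^ 3)⁻¹ := inv_anti₀ (by positivity) (pow_le_pow_left₀ h0.le h1 3)
      _ = 64 := by norm_num
  · rw [setLIntegral_const]
    exact ENNReal.mul_lt_top ENNReal.ofReal_lt_top hc.measure_lt_top

/-- The profile is Lipschitz in horizontal translations, with support in the box. -/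
lemma abs_kT_sub (u : H3) {ξ : ℂ} (hξ : ‖ξ‖ ≤ 1) :
    |kT (coshd base u) - kT (coshd (H3.mk ξ 1) u)|
      ≤ {u | H3.coord u ∈ boxD}.indicator (fun _ => 22 * ‖ξ‖) u := by
  rw [← H3.mk_coord u]
  have hs := H3.coord_pos u
  generalize (H3.coord u).1 = η, (H3.coord u).2 = s at hs
  rw [show base = H3.mk 0 1 from Mult.mk_zero_one.symm, coshd_mk _ _ one_pos hs,
    coshd_mk _ _ one_pos hs]
  have hcr : H3.coord (H3.mk η s) = (η, s) := H3.coord_mk_of_pos _ hs
  -- In the box the two arguments differ by `O(‖ξ‖)`; outside both profiles vanish.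
  by_cases hmem : (η, s) ∈ boxD
  · rw [Set.indicator_of_mem (show H3.mk η s ∈ {u | H3.coord u ∈ boxD} by
      change H3.coord (H3.mk η s) ∈ boxD; rw [hcr]; exact hmem)]
    obtain ⟨hη, h1, -⟩ := hmem
    rw [mem_closedBall_zero_iff] at hη
    refine (abs_max_sub_max_le_max _ _ _ _).trans ?_
    rw [sub_self, abs_zero, max_le_iff]
    refine ⟨by positivity, ?_⟩
    rw [sub_sub_sub_cancel_left]
    refine (abs_abs_sub_abs_le_abs_sub _ _).trans ?_
    rw [sub_sub_sub_cancel_right]
    simp only [cd]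
    rw [div_sub_div_same, abs_div, abs_of_pos (by positivity :
      0 < 2 * (1 * s)), div_le_iff₀ (by positivity)]
    simp only [zero_sub, Complex.normSq_neg]
    rw [show Complex.normSq (ξ - η) + 1 ^ 2 + s ^ 2 - (Complex.normSq η + 1 ^ 2 + s ^ 2)
      = Complex.normSq (ξ - η) - Complex.normSq η by ring, Complex.normSq_eq_norm_sq,
      Complex.normSq_eq_norm_sq, sq_sub_sq, abs_mul]
    -- The difference of the squares `‖ξ - η‖ ^ 2 - ‖η‖ ^ 2` is at most `11 ‖ξ‖`.
    have e1 : |‖ξ - η‖ + ‖η‖| ≤ 11 := by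
      rw [abs_of_nonneg (by positivity)]
      linarith [norm_sub_le ξ η]
    have e2 : |‖ξ - η‖ - ‖η‖| ≤ ‖ξ‖ := by
      have := abs_norm_sub_norm_le (ξ - η) (-η)
      rw [_root_.norm_neg] at this
      simpa using this
    calc |‖ξ - η‖ + ‖η‖| * |‖ξ - η‖ - ‖η‖| ≤ 11 * ‖ξ‖ :=
          mul_le_mul e1 e2 (abs_nonneg _) (by norm_num)
      _ ≤ 22 * ‖ξ‖ * (2 * (1 * s)) := by nlinarith [norm_nonneg ξ]
  · rw [Set.indicator_of_notMem (show H3.mk η s ∉ {u | H3.coord u ∈ boxD} by
      change H3.coord (H3.mk η s) ∉ boxD; rw [hcr]; exact hmem)]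
    have z1 : kT (cd (0, 1) (η, s)) = 0 :=
      max_eq_left
        (by by_contra h; exact hmem
              (mem_boxD (ξ := 0) hs (by simp) (by linarith [le_abs_self (cd (0, 1) (η, s) - 1)])))
    have z2 : kT (cd (ξ, 1) (η, s)) = 0 :=
      max_eq_left
        (by by_contra h; exact hmem
              (mem_boxD hs hξ (by linarith [le_abs_self (cd (ξ, 1) (η, s) - 1)])))
    rw [z1, z2]; simp

/-- The profile has compact support. -/
lemma hasCompactSupport_kT : HasCompactSupport kT :=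
  HasCompactSupport.intro (isCompact_Icc (a := (0 : ℝ)) (b := 2)) fun c hc => by
    refine max_eq_left ?_
    by_contra h
    rw [not_le, sub_pos, abs_lt] at h
    exact hc ⟨by linarith, by linarith⟩

/-- The transform of the profile is nonzero. -/
lemma hhat0_kT_ne_zero : hhat0 kT ≠ 0 := by
  set F : ℂ × ℝ → ℝ := fun p => (p.2 ^ 3)⁻¹ * (kT (cd (0, 1) p) * p.2)
  have e : hhat0 kT = ((∫ p, F p ∂hsm : ℝ) : ℂ) := by
    rw [hhat0, restrict_eq_hsm, ← integral_complex_ofReal]
    refine integral_congr_ae ?_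
    filter_upwards [ae_pos_hsm] with p hp
    rw [← mk_zero_one, coshd_mk _ _ one_pos hp]
  rw [e, Complex.ofReal_ne_zero]
  have hm : Measurable F := by
    simp only [F, kT, cd, Complex.normSq_apply]; fun_prop
  have hbox : IsCompact boxD := (isCompact_closedBall _ _).prod isCompact_Icc
  -- the integrand F vanishes outside the box
  have hzero : ∀ p : ℂ × ℝ, 0 < p.2 → p ∉ boxD → F p = 0 := fun p hp hnb => by
    have : kT (cd (0, 1) p) = 0 := max_eq_left (by
      by_contra h
      exact hnb (mem_boxD (ξ := 0) hp (by simp) (by linarith [le_abs_self (cd (0, 1) p - 1)])))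
    simp [F, this]
  have hk0 : ∀ c, 0 ≤ kT c := fun c => le_max_left _ _
  have hk1 : ∀ c, kT c ≤ 1 := fun c => max_le zero_le_one (by linarith [abs_nonneg (c - 1)])
  have : IsFiniteMeasure (hsm.restrict boxD) := ⟨by
    rw [Measure.restrict_apply_univ]
    refine (Measure.le_iff'.1 (Measure.prod_mono le_rfl Measure.restrict_le_self) boxD).trans_lt ?_
    rw [← Measure.volume_eq_prod]
    exact hbox.measure_lt_top⟩
  -- F is integrable and nonnegative
  have hint : Integrable F hsm := by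
    refine (integrableOn_iff_integrable_of_support_subset (s := boxD ∪ {p | p.2 ≤ 0}) ?_).1 ?_
    · intro p hp
      by_contra h
      simp only [Set.mem_union, Set.mem_ofPred_eq, not_or, not_le] at h
      exact hp (hzero p h.2 h.1)
    · refine IntegrableOn.union ?_ ?_
      · refine Integrable.of_bound hm.aestronglyMeasurable (64 * 4) ?_
        filter_upwards [ae_restrict_mem hbox.measurableSet] with p hp
        obtain ⟨-, h1, h2⟩ := hp
        rw [Real.norm_eq_abs]
        simp only [F, abs_mul, abs_of_nonneg (hk0 _)]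
        have h0 : (0 : ℝ) < p.2 := by linarith
        rw [abs_of_pos (by positivity : (0 : ℝ) < (p.2 ^ 3)⁻¹), abs_of_pos h0]
        refine mul_le_mul ?_ ((mul_le_of_le_one_left h0.le (hk1 _)).trans h2)
          (mul_nonneg (hk0 _) h0.le) (by norm_num)
        calc (p.2 ^ 3)⁻¹ ≤ ((1 / 4 : ℝ) ^ 3)⁻¹ :=
              inv_anti₀ (by positivity) (pow_le_pow_left₀ (by norm_num) h1 3)
          _ = 64 := by norm_num
      · refine IntegrableOn.congr_set_ae (t := (∅ : Set (ℂ × ℝ))) integrableOn_empty ?_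
        rw [ae_eq_empty]
        exact measure_mono_null (fun p hp => not_lt.2 hp) (ae_iff.1 ae_pos_hsm)
  have hnn : 0 ≤ᵐ[hsm] F := by
    filter_upwards [ae_pos_hsm] with p hp
    exact mul_nonneg (by positivity) (mul_nonneg (hk0 _) hp.le)
  -- and positive on a small product of a ball and an interval
  refine ne_of_gt ((integral_pos_iff_support_of_nonneg_ae hnn hint).2 ?_)
  refine lt_of_lt_of_le ?_
    (measure_mono (s := Metric.ball (0 : ℂ) (1 / 2) ×ˢ Ioo (3 / 4 : ℝ) (5 / 4)) ?_)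
  · rw [Measure.prod_prod, Measure.restrict_apply measurableSet_Ioo,
      Set.inter_eq_left.2 (Ioo_subset_Ioi_self.trans (Ioi_subset_Ioi (by norm_num)))]
    exact ENNReal.mul_pos (Metric.measure_ball_pos _ _ (by norm_num)).ne' (by simp; norm_num)
  · rintro ⟨η, s⟩ ⟨hη, h1, h2⟩
    rw [Metric.mem_ball, dist_zero_right] at hη
    simp only at h1 h2 hη
    have h3 : cd (0, 1) (η, s) < 2 := by
      rw [cd, div_lt_iff₀ (by positivity)]
      simp only
      rw [zero_sub, Complex.normSq_neg, Complex.normSq_eq_norm_sq]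
      nlinarith [norm_nonneg η, mul_pos (sub_pos.2 h1) (sub_pos.2 h2)]
    have h4 : 1 ≤ cd (0, 1) (η, s) := by
      rw [cd, le_div_iff₀ (by positivity)]
      nlinarith [Complex.normSq_nonneg ((0 : ℂ) - η), sq_nonneg (s - 1)]
    have : 0 < kT (cd (0, 1) (η, s)) := lt_max_of_lt_right (by
      rw [abs_of_nonneg (by linarith)]; linarith)
    exact ne_of_gt (by positivity)

/-- Translates of integrable functions on `H3` are integrable. -/
lemma _root_.MeasureTheory.Integrable.comp_smul_inv {f : H3 → ℝ} (hf : Integrable f hmeas)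
    (g : GL (Fin 2) ℂ) : Integrable (fun u => f (g⁻¹ • u)) hmeas :=
  (measurePreserving_smul_H3 g⁻¹).integrable_comp_of_integrable hf

/-- The Lipschitz estimate. -/
lemma IsEig.norm_sub_le {f : H3 → ℂ} (hf : IsEig f) {C0 : ℝ} (hC0 : ∀ w, ‖f w‖ ≤ C0)
    (g : GL (Fin 2) ℂ) {ξ : ℂ} (hξ : ‖ξ‖ ≤ 1) :
    ‖hhat0 kT‖ * ‖f (g • base) - f (g • H3.mk ξ 1)‖
      ≤ C0 * (22 * ‖ξ‖) * (hmeas {u | H3.coord u ∈ boxD}).toReal := by
  set B := {u | H3.coord u ∈ boxD}
  have hBm : MeasurableSet B := continuous_coord.measurable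
    ((isCompact_closedBall _ _).prod isCompact_Icc).measurableSet
  -- pointwise, the two kernels differ by 22 ‖ξ‖ on the box and 0 outside
  have hpt : ∀ u, ‖((kT (coshd (g • base) u) : ℂ) - (kT (coshd (g • H3.mk ξ 1) u) : ℂ)) * f u‖
      ≤ B.indicator (fun _ => C0 * (22 * ‖ξ‖)) (g⁻¹ • u) := fun u => by
    have h := abs_kT_sub (g⁻¹ • u) hξ
    have e : ∀ x : H3, coshd x (g⁻¹ • u) = coshd (g • x) u := fun x => by
      rw [← coshd_smul g, smul_inv_smul]
    rw [e, e] at h
    rw [norm_mul, ← Complex.ofReal_sub, Complex.norm_real, Real.norm_eq_abs]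
    by_cases hu : g⁻¹ • u ∈ B
    · rw [Set.indicator_of_mem hu] at h ⊢
      rw [mul_comm C0]
      exact mul_le_mul h (hC0 _) (norm_nonneg _) (by positivity)
    · rw [Set.indicator_of_notMem hu] at h ⊢
      rw [le_antisymm h (abs_nonneg _), zero_mul]
  have hc : ∀ x : H3, Continuous fun u => (kT (coshd x u) : ℂ) * f u := fun x =>
    (Complex.continuous_ofReal.comp (continuous_kT.comp (continuous_coshd.comp
      (continuous_const.prodMk continuous_id)))).mul hf.cont
  have hi0 : Integrable (fun u => B.indicator (fun _ => C0 * (22 * ‖ξ‖)) (g⁻¹ • u)) hmeas :=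
    ((integrableOn_const (C := C0 * (22 * ‖ξ‖)) measure_box_lt_top.ne).integrable_indicator
      hBm).comp_smul_inv g
  -- both kernels are integrable against f
  have hbase : Integrable (fun u => (kT (coshd (g • base) u) : ℂ) * f u) hmeas := by
    refine Integrable.mono' (g := fun u => B.indicator (fun _ => C0) (g⁻¹ • u))
      (((integrableOn_const (C := C0) measure_box_lt_top.ne).integrable_indicator hBm).comp_smul_inv
        g) (hc _).aestronglyMeasurable (Eventually.of_forall fun u => ?_)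
    by_cases hu : g⁻¹ • u ∈ B
    · rw [Set.indicator_of_mem hu, norm_mul, Complex.norm_real, Real.norm_eq_abs,
        abs_of_nonneg (show 0 ≤ kT _ from le_max_left _ _)]
      exact (mul_le_of_le_one_left (norm_nonneg _)
        (max_le zero_le_one (by linarith [abs_nonneg (coshd (g • base) u - 1)]))).trans (hC0 _)
    · rw [Set.indicator_of_notMem hu]
      have : kT (coshd (g • base) u) = 0 := max_eq_left (by
        by_contra h
        refine hu ?_
        have hh : coshd base (g⁻¹ • u) < 2 := by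
          rw [← coshd_smul g, smul_inv_smul]; linarith [le_abs_self (coshd (g • base) u - 1)]
        rw [show base = H3.mk 0 1 from mk_zero_one.symm, ← H3.mk_coord (g⁻¹ • u),
          coshd_mk _ _ one_pos (H3.coord_pos _)] at hh
        exact mem_boxD (ξ := 0) (H3.coord_pos _) (by simp) hh)
      rw [norm_mul, this, Complex.ofReal_zero, _root_.norm_zero, zero_mul]
  have hdiff := hi0.mono' (((hc (g • base)).sub (hc (g • H3.mk ξ 1))).aestronglyMeasurable)
    (Eventually.of_forall fun u => by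
      have := hpt u; rw [sub_mul] at this; exact this)
  have hξi : Integrable (fun u => (kT (coshd (g • H3.mk ξ 1) u) : ℂ) * f u) hmeas :=
    (hbase.sub hdiff).congr (Eventually.of_forall fun u => by simp)
  -- subtract the two eigen equations
  rw [← norm_mul, mul_sub, ← hf.arch kT continuous_kT hasCompactSupport_kT (g • base),
    ← hf.arch kT continuous_kT hasCompactSupport_kT (g • H3.mk ξ 1), ← integral_sub hbase hξi]
  refine (norm_integral_le_of_norm_le hi0 (Eventually.of_forall fun u => ?_)).trans (le_of_eq ?_)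
  · have := hpt u; rw [sub_mul] at this; exact this
  · rw [(measurePreserving_smul_H3 g⁻¹).integral_comp (measurableEmbedding_const_smul g⁻¹)
      (fun u => B.indicator (fun _ => C0 * (22 * ‖ξ‖)) u), integral_indicator_const _ hBm,
      measureReal_def, smul_eq_mul, mul_comm]

/-- The Lipschitz estimate on a horosphere. -/
lemma IsEig.norm_sub_le_coord {f : H3 → ℂ} (hf : IsEig f) {C0 : ℝ} (hC0 : ∀ w, ‖f w‖ ≤ C0)
    {z c : ℂ} {t : ℝ} (ht : 0 < t) (hc : ‖c‖ ≤ t) :
    ‖f (H3.mk z t) - f (H3.mk (z + c) t)‖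
      ≤ C0 * 22 * (hmeas {u | H3.coord u ∈ boxD}).toReal / ‖hhat0 kT‖ * (‖c‖ / t) := by
  have hn : ‖c / (t : ℂ)‖ = ‖c‖ / t := by
    rw [norm_div, Complex.norm_real, Real.norm_of_nonneg ht.le]
  have hg : triMat z ht • H3.mk (c / (t : ℂ)) 1 = H3.mk (z + c) t := by
    rw [smul_mk_upper _ (by simp [coe_triMat]) _ one_pos]
    have htc : (t : ℂ) ≠ 0 := by exact_mod_cast ht.ne'
    simp [coe_triMat, Matrix.det_fin_two_of, abs_of_pos ht]
    congr 1
    field_simp
    ring
  have hgb : triMat z ht • base = H3.mk z t := by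
    rw [H3.mk_of_pos z ht, MulAction.Quotient.smul_coe, smul_eq_mul, mul_one]
  have h := hf.norm_sub_le hC0 (triMat z ht) (ξ := c / (t : ℂ)) (hn ▸ (div_le_one ht).2 hc)
  rw [hg, hgb, hn] at h
  rw [div_mul_eq_mul_div, le_div_iff₀ (norm_pos_iff.2 hhat0_kT_ne_zero), mul_comm]
  linarith

variable {E : ℕ} [NeZero E] (A : Auto E)

omit [NeZero E] in
/-- **Decay.** The functions `A.Φ M` are bounded by `C / t` at height `t`. -/
theorem exists_decay_Phi :
    ∃ C, 0 ≤ C ∧ ∀ (M : GN (3 * E)) (z : ℂ) (t : ℝ), 0 < t → ‖A.Φ M (H3.mk z t)‖ ≤ C / t := by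
  obtain ⟨C0, hC0⟩ := A.bound
  have hC00 : 0 ≤ C0 := (norm_nonneg _).trans (hC0 1 base)
  set V := (hmeas {u | H3.coord u ∈ boxD}).toReal
  set L := C0 * 22 * V / ‖hhat0 kT‖
  have hL0 : 0 ≤ L := by positivity
  refine ⟨(L + C0) * (2 * E), by positivity, fun M z t ht => ?_⟩
  rw [le_div_iff₀ ht]
  -- for small `t` the trivial bound suffices
  by_cases hbig : t < 2 * E
  · calc ‖A.Φ M (H3.mk z t)‖ * t ≤ C0 * (2 * E) :=
          mul_le_mul (hC0 _ _) hbig.le ht.le hC00
      _ ≤ _ := by nlinarith [mul_nonneg hL0 (Nat.cast_nonneg (α := ℝ) E)]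
  rw [not_lt] at hbig
  -- otherwise translating by `j * E` changes `Φ` by `O(E / t)`
  have hd : ∀ j : ℕ, j ≤ 2 →
      ‖A.Φ M (H3.mk z t) - A.Φ (upG 1 ((j * E : ℕ) : RN E) 1 * M) (H3.mk z t)‖
      ≤ L * (2 * E) / t := by
    intro j hj
    set x : EI := ((j * E : ℕ) : EI)
    have e1 : A.Φ (upG 1 ((j * E : ℕ) : RN E) 1 * M) (H3.mk z t)
        = A.Φ M (H3.mk (z + -toC x) t) := by
      rw [← A.translate x M (z + -toC x) ht, neg_add_cancel_right, nG, gr_trI_eq, map_natCast]
    have hcn : ‖-toC x‖ ≤ 2 * E := by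
      rw [_root_.norm_neg, map_natCast, Complex.norm_natCast]
      exact_mod_cast Nat.mul_le_mul_right E hj
    rw [e1, mul_div_assoc]
    exact ((A.isEig M).norm_sub_le_coord (hC0 M) ht (hcn.trans hbig)).trans (by gcongr)
  -- cuspidality turns this into a bound on `3 * Φ`
  have h3 : (3 : ℂ) * A.Φ M (H3.mk z t)
      = (A.Φ M (H3.mk z t) - A.Φ (upG 1 ((1 * E : ℕ) : RN E) 1 * M) (H3.mk z t))
        + (A.Φ M (H3.mk z t) - A.Φ (upG 1 ((2 * E : ℕ) : RN E) 1 * M) (H3.mk z t)) := by
    have hc := A.cusp M (H3.mk z t)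
    rw [one_mul]
    linear_combination hc
  have h4 : 3 * ‖A.Φ M (H3.mk z t)‖ ≤ L * (2 * E) / t + L * (2 * E) / t := by
    calc 3 * ‖A.Φ M (H3.mk z t)‖ = ‖(3 : ℂ) * A.Φ M (H3.mk z t)‖ := by simp
      _ ≤ _ := by
        rw [h3]; exact (norm_add_le _ _).trans (add_le_add (hd 1 one_le_two) (hd 2 le_rfl))
  rw [← add_div, le_div_iff₀ ht] at h4
  nlinarith [mul_nonneg hL0 (Nat.cast_nonneg (α := ℝ) E),
    mul_nonneg hC00 (Nat.cast_nonneg (α := ℝ) E)]

end Fermat.LT3
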