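import Mathlib.Analysis.SumIntegralComparisons
import Mathlib.Analysis.SpecialFunctions.ImproperIntegrals
import Mathlib.Analysis.PSeries
import Mathlib.Data.ZMod.Basic

/-!
# Eisenstein series with congruences near `σ = 1`

Up to a bounded multiple of `(1 + T) ^ (3/2)` the series is a constant independent of the class.
-/

set_option autoImplicit false
open MeasureTheory Set Filter
open scoped Classical

namespace Fermat.LT3.EisEst

/-- Sums of an even function decreasing in the modulus. -/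
theorem zsum_sub_integral {f : ℝ → ℝ} (he : ∀ u, f (-u) = f u) (ha : AntitoneOn f (Ici 0))
    (hn : ∀ u, 0 ≤ f u) (hi : IntegrableOn f (Ioi 0)) (x : ℝ) :
    Summable (fun n : ℤ => f (x + n)) ∧
      |∑' n : ℤ, f (x + n) - 2 * ∫ u in Ioi 0, f u| ≤ 2 * f 0 := by
  set I := ∫ u in Ioi 0, f u
  have hs : Summable fun n : ℕ => f n := ha.summable_of_integrableOn_Ioi_zero hi fun t _ => hn t
  have hup : ∑' n : ℕ, f n ≤ f 0 + I := ha.tsum_le_integral hi fun t _ => hn t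
  have hlo : I ≤ ∑' n : ℕ, f n := ha.integral_le_tsum hs fun t _ => hn t
  -- On each half line the translated sum is within `f 0` of the integral.
  have half : ∀ y : ℝ, 0 ≤ y → y ≤ 1 → Summable (fun n : ℕ => f (y + n)) ∧
      |∑' n : ℕ, f (y + n) - I| ≤ f 0 := fun y h0 h1 => by
    have hle : ∀ n : ℕ, f (y + n) ≤ f n := fun n =>
      ha (mem_Ici.2 n.cast_nonneg) (mem_Ici.2 (by positivity)) (by linarith)
    have hge : ∀ n : ℕ, f ((n + 1 : ℕ) : ℝ) ≤ f (y + n) := fun n =>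
      ha (mem_Ici.2 (by positivity)) (mem_Ici.2 (Nat.cast_nonneg _)) (by push_cast; linarith)
    have hy : Summable fun n : ℕ => f (y + n) := hs.of_nonneg_of_le (fun n => hn _) hle
    refine ⟨hy, abs_le.2 ⟨?_, by linarith [hy.tsum_le_tsum hle hs]⟩⟩
    have e := hs.tsum_eq_zero_add
    rw [Nat.cast_zero] at e
    have hs1 : Summable fun n : ℕ => f ((n + 1 : ℕ) : ℝ) := (summable_nat_add_iff 1).2 hs
    linarith [hs1.tsum_le_tsum hge hy]
  -- Shift by `⌊x⌋` and split at zero.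
  set y := Int.fract x
  obtain ⟨h1, b1⟩ := half y (Int.fract_nonneg x) (Int.fract_lt_one x).le
  obtain ⟨h2, b2⟩ :=
    half (1 - y) (by linarith [Int.fract_lt_one x]) (by linarith [Int.fract_nonneg x])
  have hneg : ∀ n : ℕ, f (y + ((-((n : ℤ) + 1) : ℤ) : ℝ)) = f (1 - y + n) := fun n => by
    rw [← he]; push_cast; ring_nf
  set g : ℤ → ℝ := fun n => f (y + n) with hg
  have g1 : Summable fun n : ℕ => g n := by simpa [hg] using h1
  have g2 : Summable fun n : ℕ => g (-((n : ℤ) + 1)) := h2.congr fun n => (hneg n).symm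
  have hgs : Summable g := g1.of_nat_of_neg_add_one g2
  have hgt : ∑' n, g n = ∑' n : ℕ, g n + ∑' n : ℕ, g (-((n : ℤ) + 1)) :=
    tsum_of_nat_of_neg_add_one g1 g2
  have hsh : (fun n : ℤ => f (x + n)) = g ∘ (Equiv.addRight ⌊x⌋) := funext fun n => by
    simp only [Function.comp_apply, Equiv.coe_addRight, hg, y, Int.fract]
    congr 1
    push_cast
    ring
  rw [hsh]
  refine ⟨(Equiv.addRight ⌊x⌋).summable_iff.2 hgs, ?_⟩
  rw [show (∑' n, (g ∘ (Equiv.addRight ⌊x⌋)) n) = ∑' n, g n from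
    (Equiv.addRight ⌊x⌋).tsum_eq g, hgt,
    show (∑' n : ℕ, g n) = ∑' n : ℕ, f (y + n) from tsum_congr fun n => by simp [hg],
    show (∑' n : ℕ, g (-((n : ℤ) + 1))) = ∑' n : ℕ, f (1 - y + n) from tsum_congr hneg]
  rw [abs_le] at b1 b2 ⊢
  exact ⟨by linarith, by linarith⟩

/-- The profile `(1 + u²) ^ (-σ)`. -/
noncomputable def prof (σ : ℝ) (u : ℝ) : ℝ := ((1 + u ^ 2) ^ σ)⁻¹

/-- The integral of the profile over `u > 0`. -/
noncomputable def Ip (σ : ℝ) : ℝ := ∫ u in Ioi 0, prof σ u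

/-- The profile is positive. -/
lemma prof_pos (σ u : ℝ) : 0 < prof σ u := by
  rw [prof]; positivity

/-- For `σ ≥ 1` the profile lies below the Cauchy density `(1 + u²)⁻¹`. -/
lemma prof_le {σ : ℝ} (hσ : 1 ≤ σ) (u : ℝ) : prof σ u ≤ (1 + u ^ 2)⁻¹ :=
  inv_anti₀ (by positivity) (Real.self_le_rpow_of_one_le (by nlinarith) hσ)

/-- The profile is continuous. -/
lemma continuous_prof (σ : ℝ) : Continuous (prof σ) :=
  Continuous.inv₀ (Continuous.rpow_const (by fun_prop) fun u => Or.inl (by positivity))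
    fun u => (Real.rpow_pos_of_pos (by positivity) σ).ne'

/-- For `σ ≥ 1` the profile is integrable on the positive half line. -/
lemma integrableOn_prof {σ : ℝ} (hσ : 1 ≤ σ) : IntegrableOn (prof σ) (Ioi 0) :=
  integrable_inv_one_add_sq.integrableOn.mono' (continuous_prof σ).aestronglyMeasurable
    (Eventually.of_forall fun u => by
      rw [Real.norm_of_nonneg (prof_pos σ u).le]; exact prof_le hσ u)

/-- The integral of the profile is nonnegative. -/
lemma Ip_nonneg (σ : ℝ) : 0 ≤ Ip σ := integral_nonneg fun u => (prof_pos σ u).le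

/-- For `σ ≥ 1` the integral of the profile is at most `2`. -/
lemma Ip_le {σ : ℝ} (hσ : 1 ≤ σ) : Ip σ ≤ 2 := by
  refine (setIntegral_mono_on (integrableOn_prof hσ) integrable_inv_one_add_sq.integrableOn
    measurableSet_Ioi fun u _ => prof_le hσ u).trans ?_
  rw [integral_Ioi_inv_one_add_sq, Real.arctan_zero, sub_zero]
  linarith [Real.pi_le_four]

/-- Sums of the scaled profile. -/
theorem zsum_prof {σ R : ℝ} (hσ : 1 ≤ σ) (hR : 0 < R) (x : ℝ) :
    Summable (fun n : ℤ => (((x + n) ^ 2 + R ^ 2) ^ σ)⁻¹) ∧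
      |∑' n : ℤ, (((x + n) ^ 2 + R ^ 2) ^ σ)⁻¹ - 2 * (R ^ (1 - 2 * σ) * Ip σ)|
        ≤ 2 * R ^ (-(2 * σ)) := by
  set f : ℝ → ℝ := fun u => R ^ (-(2 * σ)) * prof σ (R⁻¹ * u) with hf
  have e : ∀ u, f u = ((u ^ 2 + R ^ 2) ^ σ)⁻¹ := fun u => by
    simp only [hf, prof]
    rw [Real.rpow_neg hR.le, ← mul_inv, show 2 * σ = ((2 : ℕ) : ℝ) * σ by norm_num,
      Real.rpow_mul hR.le, Real.rpow_natCast, ← Real.mul_rpow (by positivity) (by positivity)]
    congr 2
    field_simp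
    ring
  have he : ∀ u, f (-u) = f u := fun u => by simp only [e]; ring_nf
  have ha : AntitoneOn f (Ici 0) := fun a ha b _ hab => by
    simp only [e]
    refine inv_anti₀ (by positivity) (Real.rpow_le_rpow (by positivity) ?_ (by linarith))
    nlinarith [mem_Ici.1 ha]
  have hi : IntegrableOn f (Ioi 0) := by
    refine Integrable.const_mul ?_ _
    have h := (integrableOn_Ioi_comp_mul_left_iff (prof σ) 0 (inv_pos.2 hR)).2
      (by rw [mul_zero]; exact integrableOn_prof hσ)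
    exact h
  have hint : ∫ u in Ioi 0, f u = R ^ (1 - 2 * σ) * Ip σ := by
    rw [hf, integral_const_mul, integral_comp_mul_left_Ioi _ _ (inv_pos.2 hR), mul_zero, inv_inv,
      smul_eq_mul, ← mul_assoc, ← Real.rpow_add_one hR.ne', Ip]
    ring_nf
  obtain ⟨h1, h2⟩ := zsum_sub_integral he ha (fun u => by rw [e]; positivity) hi x
  rw [hint] at h2
  have h0 : f 0 = R ^ (-(2 * σ)) := by simp [hf, prof]
  rw [h0] at h2
  simp only [e] at h1 h2
  exact ⟨h1, h2⟩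

/-- A sum supported on a class modulo `K` is a sum over `r + K n`. -/
lemma tsum_class {K : ℕ} [NeZero K] (r : ZMod K) {g : ℤ → ℝ}
    (hg : ∀ c : ℤ, (c : ZMod K) ≠ r → g c = 0) :
    (Summable g ↔ Summable fun n : ℤ => g ((r.val : ℤ) + (K : ℤ) * n)) ∧
      ∑' c, g c = ∑' n : ℤ, g ((r.val : ℤ) + (K : ℤ) * n) := by
  have hinj : Function.Injective fun n : ℤ => (r.val : ℤ) + (K : ℤ) * n := fun a b h => by
    simp only at h
    exact mul_left_cancel₀ (Int.natCast_ne_zero.2 (NeZero.ne K)) (add_left_cancel h)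
  have hsupp : ∀ c, c ∉ Set.range (fun n : ℤ => (r.val : ℤ) + (K : ℤ) * n) → g c =
      0 := fun c hc => by
    refine hg c fun h => hc ?_
    obtain ⟨k, hk⟩ := (ZMod.intCast_eq_intCast_iff_dvd_sub (r.val : ℤ) c K).1 (by simp [h])
    exact ⟨k, by simp only; linarith⟩
  refine ⟨(hinj.summable_iff hsupp).symm, (hinj.tsum_eq fun c hc => ?_).symm⟩
  by_contra h
  exact hc (hsupp c h)

/-- The main term of a class of rows. -/
noncomputable def Mz (K : ℕ) (σ : ℝ) : ℝ := 2 / K * (1 + 1 / (2 * (σ - 1)))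

/-- Sums of `|c| ^ (1 - 2σ)` over a class. -/
theorem zeta_class {K : ℕ} [NeZero K] {σ : ℝ} (hσ : 1 < σ) (r : ZMod K) :
    Summable (fun c : ℤ => if (c : ZMod K) = r then |(c : ℝ)| ^ (1 - 2 * σ) else 0) ∧
      |∑' c : ℤ, (if (c : ZMod K) = r then |(c : ℝ)| ^ (1 - 2 * σ) else 0) - Mz K σ| ≤ 3 := by
  set s := 2 * σ - 1 with hs
  have hK : (0 : ℝ) < K := Nat.cast_pos.2 (NeZero.pos K)
  set ε : ℝ := (K : ℝ)⁻¹
  have hε : 0 < ε := inv_pos.2 hK
  -- f u = max |u| K⁻¹ ^ (-s) is even, decreasing, and interpolates the summand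
  set f : ℝ → ℝ := fun u => max |u| ε ^ (-s) with hf
  have hpos : ∀ u, 0 < max |u| ε := fun u => lt_max_of_lt_right hε
  have ha : AntitoneOn f (Ici 0) := fun a ha b hb hab => by
    refine Real.rpow_le_rpow_of_nonpos (hpos a) ?_ (by linarith)
    rw [abs_of_nonneg (mem_Ici.1 ha), abs_of_nonneg (mem_Ici.1 hb)]
    exact max_le_max hab le_rfl
  have hEq1 : EqOn f (fun _ => ε ^ (-s)) (Ioc 0 ε) := fun u hu => by
    simp only [hf]
    rw [abs_of_pos hu.1, max_eq_right hu.2]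
  have hEq2 : EqOn f (fun u => u ^ (-s)) (Ioi ε) := fun u (hu : ε < u) => by
    simp only [hf]
    rw [abs_of_pos (hε.trans hu), max_eq_left hu.le]
  have hi2 : IntegrableOn f (Ioi ε) :=
    (integrableOn_Ioi_rpow_of_lt (by linarith) hε).congr_fun hEq2.symm measurableSet_Ioi
  have hi1 : IntegrableOn f (Ioc 0 ε) :=
    (integrableOn_const (by simp)).congr_fun hEq1.symm measurableSet_Ioc
  have hi : IntegrableOn f (Ioi 0) := by
    rw [← Ioc_union_Ioi_eq_Ioi hε.le]; exact hi1.union hi2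
  have hint : ∫ u in Ioi 0, f u = ε ^ (1 - s) * (1 + 1 / (s - 1)) := by
    rw [← Ioc_union_Ioi_eq_Ioi hε.le,
      setIntegral_union (Ioc_disjoint_Ioi le_rfl) measurableSet_Ioi hi1
      hi2, setIntegral_congr_fun measurableSet_Ioc hEq1,
        setIntegral_congr_fun measurableSet_Ioi hEq2,
      setIntegral_const, integral_Ioi_rpow_of_lt (by linarith) hε]
    simp [measureReal_def, Real.volume_Ioc, hε.le]
    rw [show ε ^ (-s + 1) = ε * ε ^ (-s) by rw [Real.rpow_add_one hε.ne']; ring,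
      show ε ^ (1 - s) = ε * ε ^ (-s) by
        rw [show (1 : ℝ) - s = -s + 1 by ring, Real.rpow_add_one hε.ne']; ring]
    have hs' : s - 1 ≠ 0 := by linarith
    rw [show -s + 1 = -(s - 1) by ring]
    field_simp
  -- compare the sum over the class with the integral of f
  obtain ⟨h1, h2⟩ := zsum_sub_integral (fun u => by simp only [hf, abs_neg]) ha
    (fun u => Real.rpow_nonneg (hpos u).le _) hi ((r.val : ℝ) / K)
  rw [hint] at h2
  set g : ℤ → ℝ := fun c => if (c : ZMod K) = r then |(c : ℝ)| ^ (1 - 2 * σ) else 0 with hg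
  have hg0 : ∀ c : ℤ, (c : ZMod K) ≠ r → g c = 0 := fun c h => if_neg h
  obtain ⟨gs, gt⟩ := tsum_class r (g := g) hg0
  set δ : ℤ → ℝ := fun n => if (r.val : ℤ) + (K : ℤ) * n = 0 then 1 else 0 with hδ
  -- they differ only at c = 0, by at most 1
  have key : ∀ n : ℤ, g ((r.val : ℤ) + (K : ℤ) * n) = ε ^ s * f ((r.val : ℝ) / K + n) - δ n :=
      fun n => by
    simp only [hg, hf, hδ]
    rw [if_pos (by simp)]
    set c : ℤ := (r.val : ℤ) + (K : ℤ) * n with hc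
    have e : (r.val : ℝ) / K + n = ε * (c : ℝ) := by
      simp only [hc, ε]; push_cast; field_simp
    rw [e, abs_mul, abs_of_pos hε]
    have hscale : max (ε * |(c : ℝ)|) ε = ε * max |(c : ℝ)| 1 := by
      rw [mul_max_of_nonneg _ _ hε.le, mul_one]
    rw [hscale, Real.mul_rpow hε.le (le_max_of_le_right zero_le_one), ← mul_assoc,
      ← Real.rpow_add hε,
      add_neg_cancel, Real.rpow_zero, one_mul, show 1 - 2 * σ = -s by rw [hs]; ring]
    by_cases h0 : c = 0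
    · rw [if_pos h0, h0]
      simp [Real.zero_rpow (show -s ≠ 0 by linarith)]
    · rw [if_neg h0, sub_zero, max_eq_left]
      rw [← Int.cast_abs]
      exact_mod_cast Int.one_le_abs h0
  have hδf : ∀ n, δ n ≠ 0 → n = -((r.val : ℤ) / K) := fun n hn => by
    by_cases h : (r.val : ℤ) + (K : ℤ) * n = 0
    · rw [show (r.val : ℤ) = (K : ℤ) * -n by linarith,
        Int.mul_ediv_cancel_left _ (Int.natCast_ne_zero.2 (NeZero.ne K)), neg_neg]
    · exact absurd (if_neg h) hn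
  have hδs : Summable δ := summable_of_ne_finset_zero (s := {-((r.val : ℤ) / K)}) fun n hn => by
    by_contra h; exact hn (Finset.mem_singleton.2 (hδf n h))
  have hδ1 : 0 ≤ ∑' n, δ n ∧ ∑' n, δ n ≤ 1 := by
    rw [tsum_eq_single (-((r.val : ℤ) / K)) fun n hn => by by_contra h; exact hn (hδf n h)]
    simp only [hδ]
    split_ifs <;> norm_num
  have hsum : Summable fun n : ℤ => g ((r.val : ℤ) + (K : ℤ) * n) :=
    ((h1.mul_left (ε ^ s)).sub hδs).congr fun n => (key n).symm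
  refine ⟨gs.2 hsum, ?_⟩
  rw [gt, tsum_congr key, Summable.tsum_sub (h1.mul_left _) hδs, tsum_mul_left]
  have hεs : 0 < ε ^ s := Real.rpow_pos_of_pos hε _
  have hM : ε ^ s * (2 * (ε ^ (1 - s) * (1 + 1 / (s - 1)))) = Mz K σ := by
    rw [Mz, show 2 / (K : ℝ) = 2 * (ε ^ s * ε ^ (1 - s)) by
      rw [← Real.rpow_add hε, add_sub_cancel, Real.rpow_one]; ring,
      show s - 1 = 2 * (σ - 1) by rw [hs]; ring]
    ring
  have h0 : ε ^ s * f 0 = 1 := by
    simp only [hf]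
    rw [abs_zero, max_eq_right hε.le, ← Real.rpow_add hε, add_neg_cancel, Real.rpow_zero]
  have h3 := mul_le_mul_of_nonneg_left h2 hεs.le
  rw [← abs_of_pos hεs, ← abs_mul, abs_of_pos hεs, mul_sub, hM, mul_left_comm, h0, mul_one] at h3
  rw [abs_le] at h3 ⊢
  exact ⟨by linarith, by linarith⟩

/-- The term `(im τ / |-α c τ + d|²) ^ σ` of the Eisenstein series. -/
noncomputable def eTerm (α : ℕ) (σ : ℝ) (τ : ℂ) (p : ℤ × ℤ) : ℝ :=
  (τ.im / Complex.normSq (-(α : ℂ) * (p.1 : ℂ) * τ + (p.2 : ℂ))) ^ σ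

/-- The series of a class of rows. -/
noncomputable def eCls {K : ℕ} (α : ℕ) (σ : ℝ) (τ : ℂ) (w : ZMod K × ZMod K) : ℝ :=
  ∑' p : ℤ × ℤ, if ((p.1 : ZMod K), (p.2 : ZMod K)) = w then eTerm α σ τ p else 0

/-- The terms are nonnegative. -/
lemma eTerm_nonneg {α : ℕ} {σ : ℝ} {τ : ℂ} (hτ : 0 < τ.im) (p : ℤ × ℤ) : 0 ≤ eTerm α σ τ p :=
  Real.rpow_nonneg (div_nonneg hτ.le (Complex.normSq_nonneg _)) σ

/-- The constant of the estimate of the Eisenstein series. -/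
noncomputable def A0 (K α : ℕ) (σ : ℝ) : ℝ :=
  2 * Ip σ / K * (α : ℝ) ^ (1 - 2 * σ) * Mz K σ

/-- A row of a class is summable and close to its integral. -/
lemma inner_row {K : ℕ} [NeZero K] {α : ℕ} (hα : 0 < α) {σ : ℝ} (hσ : 1 ≤ σ) {τ : ℂ} (hτ : 0 < τ.im)
    {c : ℤ} (hc : c ≠ 0) (r : ZMod K) :
    Summable (fun d : ℤ => if (d : ZMod K) = r then eTerm α σ τ (c, d) else 0) ∧
      |∑' d : ℤ, (if (d : ZMod K) = r then eTerm α σ τ (c, d) else 0)
          - 2 * Ip σ / K * (α : ℝ) ^ (1 - 2 * σ) * τ.im ^ (1 - σ) * |(c : ℝ)| ^ (1 - 2 * σ)|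
        ≤ 2 * τ.im ^ (-σ) * |(c : ℝ)| ^ (-(2 * σ)) := by
  set T := τ.im
  have hK : (0 : ℝ) < K := Nat.cast_pos.2 (NeZero.pos K)
  have hαp : (0 : ℝ) < α := Nat.cast_pos.2 hα
  have hca : (0 : ℝ) < |(c : ℝ)| := abs_pos.2 (Int.cast_ne_zero.2 hc)
  set R := (α : ℝ) * |(c : ℝ)| * T / K with hR
  have hRp : 0 < R := by positivity
  set x := ((((r.val : ℤ)) : ℝ) - α * c * τ.re) / K with hx
  obtain ⟨h1, h2⟩ := zsum_prof hσ hRp x
  set g : ℤ → ℝ := fun d => if (d : ZMod K) = r then eTerm α σ τ (c, d) else 0 with hg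
  obtain ⟨gs, gt⟩ := tsum_class r (g := g) fun d h => if_neg h
  set pre : ℝ := T ^ σ * (K : ℝ) ^ (-(2 * σ)) with hpre
  -- on the class, eTerm is pre times the profile at x + n with parameter R
  have key : ∀ n : ℤ, g ((r.val : ℤ) + (K : ℤ) * n) = pre * (((x + n) ^ 2 + R ^ 2) ^ σ)⁻¹ :=
      fun n => by
    simp only [hg, eTerm]
    rw [if_pos (by simp)]
    generalize (r.val : ℤ) = rv at hx
    have e : Complex.normSq (-(α : ℂ) * (c : ℂ) * τ + ((rv + (K : ℤ) * n : ℤ) : ℂ))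
        = (K : ℝ) ^ 2 * ((x + n) ^ 2 + R ^ 2) := by
      simp only [Complex.normSq_apply, hx, hR]
      simp
      field_simp
      linear_combination (-((α : ℝ) ^ 2 * τ.im ^ 2)) * sq_abs (c : ℝ)
    rw [e, hpre, Real.div_rpow hτ.le (by positivity), Real.mul_rpow (by positivity) (by positivity),
      Real.rpow_neg hK.le, show 2 * σ = ((2 : ℕ) : ℝ) * σ by norm_num, Real.rpow_mul hK.le,
      Real.rpow_natCast, div_eq_mul_inv, mul_inv]
    ring
  have hsum : Summable fun n : ℤ => g ((r.val : ℤ) + (K : ℤ) * n) :=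
    (h1.mul_left pre).congr fun n => (key n).symm
  refine ⟨gs.2 hsum, ?_⟩
  rw [gt, tsum_congr key, tsum_mul_left]
  have hp : 0 < pre := by rw [hpre]; positivity
  -- rescale the main term and the error
  have hRe : ∀ e : ℝ, R ^ e = (α : ℝ) ^ e * |(c : ℝ)| ^ e * T ^ e * (K : ℝ) ^ (-e) := fun e => by
    rw [hR, Real.div_rpow (by positivity) hK.le, Real.mul_rpow (by positivity) hτ.le,
      Real.mul_rpow hαp.le hca.le, Real.rpow_neg hK.le, div_eq_mul_inv]
  have hT1 : T ^ (1 - 2 * σ) * T ^ σ = T ^ (1 - σ) := by rw [← Real.rpow_add hτ]; ring_nf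
  have hK1 : (K : ℝ) ^ (-(1 - 2 * σ)) * (K : ℝ) ^ (-(2 * σ)) = (K : ℝ)⁻¹ := by
    rw [← Real.rpow_add hK, show -(1 - 2 * σ) + -(2 * σ) = (-1 : ℝ) by ring, Real.rpow_neg_one]
  have e1 : pre * (2 * (R ^ (1 - 2 * σ) * Ip σ))
      = 2 * Ip σ / K * (α : ℝ) ^ (1 - 2 * σ) * T ^ (1 - σ) * |(c : ℝ)| ^ (1 - 2 * σ) := by
    rw [hRe, hpre, ← hT1, div_eq_mul_inv, ← hK1]; ring
  have hT2 : T ^ (-(2 * σ)) * T ^ σ = T ^ (-σ) := by rw [← Real.rpow_add hτ]; ring_nf
  have hK2 : (K : ℝ) ^ (-(-(2 * σ))) * (K : ℝ) ^ (-(2 * σ)) = 1 := by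
    rw [← Real.rpow_add hK, neg_neg, add_neg_cancel, Real.rpow_zero]
  have e2 : pre * (2 * R ^ (-(2 * σ)))
      = (α : ℝ) ^ (-(2 * σ)) * (2 * T ^ (-σ) * |(c : ℝ)| ^ (-(2 * σ))) := by
    rw [hRe, hpre, ← hT2]
    linear_combination (2 * (α : ℝ) ^ (-(2 * σ)) * |(c : ℝ)| ^ (-(2 * σ)) *
      (T ^ (-(2 * σ)) * T ^ σ)) * hK2
  have h3 := mul_le_mul_of_nonneg_left h2 hp.le
  rw [← abs_of_pos hp, ← abs_mul, abs_of_pos hp, mul_sub, e1, e2] at h3
  refine h3.trans (mul_le_of_le_one_left (by positivity) ?_)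
  exact Real.rpow_le_one_of_one_le_of_nonpos (Nat.one_le_cast.2 hα) (by linarith)

/-- The inverse squares of the integers are summable. -/
lemma summable_int_inv_sq : Summable fun c : ℤ => |(c : ℝ)| ^ (-(2 : ℝ)) :=
  ((Real.summable_one_div_int_pow (p := 2)).2 one_lt_two).congr fun c => by
    rw [show (2 : ℝ) = ((2 : ℕ) : ℝ) by norm_num, Real.rpow_neg (abs_nonneg _), Real.rpow_natCast,
      sq_abs, one_div]

/-- For `σ ≥ 1` a term `|c|^(-2σ)` is at most the inverse square. -/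
lemma rpow_neg_le_inv_sq {σ : ℝ} (hσ : 1 ≤ σ) (c : ℤ) :
    |(c : ℝ)| ^ (-(2 * σ)) ≤ |(c : ℝ)| ^ (-(2 : ℝ)) := by
  rcases eq_or_ne c 0 with rfl | hc
  · rw [Int.cast_zero, abs_zero, Real.zero_rpow (by linarith), Real.zero_rpow (by norm_num)]
  · refine Real.rpow_le_rpow_of_exponent_le ?_ (by linarith)
    rw [← Int.cast_abs]
    exact_mod_cast Int.one_le_abs hc

/-- `Mz` is nonnegative beyond `σ = 1`. -/
lemma Mz_nonneg {K : ℕ} {σ : ℝ} (hσ : 1 < σ) : 0 ≤ Mz K σ := by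
  have : 0 < σ - 1 := sub_pos.2 hσ
  rw [Mz]; positivity

/-- `Mz` has at most a simple pole at `σ = 1`. -/
lemma sub_mul_Mz_le {K : ℕ} [NeZero K] {σ : ℝ} (hσ : 1 < σ) (hσ' : σ ≤ 3 / 2) :
    (σ - 1) * Mz K σ ≤ 2 := by
  have hK : (1 : ℝ) ≤ K := Nat.one_le_cast.2 (NeZero.pos K)
  have h : 0 < σ - 1 := sub_pos.2 hσ
  rw [Mz, show (σ - 1) * (2 / (K : ℝ) * (1 + 1 / (2 * (σ - 1)))) = (2 * (σ - 1) + 1) / K by
    field_simp, div_le_iff₀ (by linarith)]
  nlinarith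

/-- The factor in front of `Mz` in `A0` is nonnegative. -/
lemma pref_nonneg (K α : ℕ) (σ : ℝ) : 0 ≤ 2 * Ip σ / K * (α : ℝ) ^ (1 - 2 * σ) := by
  have := Ip_nonneg σ
  positivity

/-- The factor in front of `Mz` in `A0` is at most `4`. -/
lemma pref_le {K α : ℕ} [NeZero K] (hα : 0 < α) {σ : ℝ} (hσ : 1 ≤ σ) :
    2 * Ip σ / K * (α : ℝ) ^ (1 - 2 * σ) ≤ 4 := by
  have hK : (1 : ℝ) ≤ K := Nat.one_le_cast.2 (NeZero.pos K)
  have h0 := Ip_nonneg σ
  refine (mul_le_of_le_one_right (by positivity)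
    (Real.rpow_le_one_of_one_le_of_nonpos (Nat.one_le_cast.2 hα) (by linarith))).trans ?_
  rw [div_le_iff₀ (by linarith)]
  nlinarith [Ip_le hσ]

/-- Elementary bounds for `T^(1 - σ)` near `σ = 1`. -/
lemma abs_rpow_sub_one {T σ : ℝ} (hT : 1 / 4 ≤ T) (hσ : 1 < σ) (hσ' : σ ≤ 3 / 2) :
    |T ^ (1 - σ) - 1| ≤ 8 * (σ - 1) * (1 + T) ∧ T ^ (1 - σ) ≤ 2 := by
  have hT0 : 0 < T := by linarith
  have h2 : T ^ (1 - σ) ≤ 2 := by
    rcases le_total 1 T with h | h
    · exact (Real.rpow_le_one_of_one_le_of_nonpos h (by linarith)).trans one_le_two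
    · calc T ^ (1 - σ) ≤ (1 / 4 : ℝ) ^ (1 - σ) :=
            Real.rpow_le_rpow_of_nonpos (by norm_num) hT (by linarith)
        _ ≤ (1 / 4 : ℝ) ^ (-(1 / 2) : ℝ) :=
            Real.rpow_le_rpow_of_exponent_ge (by norm_num) (by norm_num) (by linarith)
        _ = 2 := by
            rw [Real.rpow_neg (by norm_num), ← Real.sqrt_eq_rpow,
              show (1 / 4 : ℝ) = (1 / 2) ^ 2 by norm_num, Real.sqrt_sq (by norm_num)]
            norm_num
  refine ⟨?_, h2⟩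
  set L := (1 - σ) * Real.log T with hLd
  have hT' : T ^ (1 - σ) = Real.exp L := by rw [Real.rpow_def_of_pos hT0, hLd, mul_comm]
  -- `-3 ≤ log T ≤ T - 1`
  have hlogu : Real.log T ≤ T - 1 := Real.log_le_sub_one_of_pos hT0
  have hlogl : -3 ≤ Real.log T := by
    have h := Real.log_le_sub_one_of_pos (inv_pos.2 hT0)
    rw [Real.log_inv] at h
    have : T⁻¹ ≤ 4 := by rw [inv_le_comm₀ hT0 (by norm_num)]; linarith
    linarith
  -- `L ≤ exp L - 1 ≤ L * exp L`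
  have he1 : Real.exp L - 1 ≤ L * Real.exp L := by
    have h1 := mul_le_mul_of_nonneg_left (Real.add_one_le_exp (-L)) (Real.exp_pos L).le
    rw [← Real.exp_add, add_neg_cancel, Real.exp_zero] at h1
    nlinarith
  have he2 : L ≤ Real.exp L - 1 := by linarith [Real.add_one_le_exp L]
  rw [hT'] at h2 ⊢
  rw [abs_le]
  -- `|L| ≤ (σ - 1) * (3 + T)`
  have hL : |L| ≤ (σ - 1) * (3 + T) := by
    rw [hLd, abs_mul, abs_of_nonpos (by linarith : 1 - σ ≤ 0), neg_sub]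
    exact mul_le_mul_of_nonneg_left (abs_le.2 ⟨by linarith, by linarith⟩) (by linarith)
  obtain ⟨hLl, hLu⟩ := abs_le.1 hL
  constructor
  · nlinarith
  · rcases le_total 0 L with h | h
    · nlinarith
    · nlinarith [Real.exp_pos L]

/-- The row through the origin is dominated by the inverse squares. -/
lemma zero_row {α : ℕ} {σ : ℝ} (hσ : 1 < σ) {τ : ℂ} (hτ : 0 < τ.im) {F : ℤ → ℝ}
    (hF0 : ∀ d, 0 ≤ F d) (hF : ∀ d, F d ≤ eTerm α σ τ (0, d)) :
    Summable F ∧ |∑' d, F d| ≤ τ.im ^ σ * ∑' c : ℤ, |(c : ℝ)| ^ (-(2 : ℝ)) := by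
  set T := τ.im
  have hle : ∀ d : ℤ, F d ≤ T ^ σ * |(d : ℝ)| ^ (-(2 : ℝ)) := fun d => by
    refine (hF d).trans ?_
    simp only [eTerm, Int.cast_zero, mul_zero, zero_mul, zero_add]
    rw [show ((d : ℤ) : ℂ) = ((d : ℝ) : ℂ) by norm_cast, Complex.normSq_ofReal,
      Real.div_rpow hτ.le (mul_self_nonneg _), div_eq_mul_inv]
    refine mul_le_mul_of_nonneg_left ((le_of_eq ?_).trans (rpow_neg_le_inv_sq hσ.le d))
      (by positivity)
    rw [Real.rpow_neg (abs_nonneg _), show 2 * σ = ((2 : ℕ) : ℝ) * σ by norm_num,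
      Real.rpow_mul (abs_nonneg _), Real.rpow_natCast, sq_abs, sq]
  have hs := (summable_int_inv_sq.mul_left (T ^ σ)).of_nonneg_of_le hF0 hle
  refine ⟨hs, ?_⟩
  rw [abs_of_nonneg (tsum_nonneg hF0), ← tsum_mul_left]
  exact hs.tsum_le_tsum hle (summable_int_inv_sq.mul_left (T ^ σ))

/-- **The estimate for a class.** On the strip the Eisenstein series of a class differs from `A0` by
at most `C (1 + Im τ) ^ (3/2)`. -/
theorem exists_eCls_bound (K : ℕ) [NeZero K] {α : ℕ} (hα : 0 < α) :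
    ∃ C, 0 ≤ C ∧ ∀ σ : ℝ, 1 < σ → σ ≤ 3 / 2 → ∀ (τ : ℂ), 1 / 4 ≤ τ.im → ∀ w : ZMod K × ZMod K,
      Summable (fun p : ℤ × ℤ => if ((p.1 : ZMod K), (p.2 : ZMod K)) = w then
        eTerm α σ τ p else 0) ∧
      |eCls α σ τ w - A0 K α σ| ≤ C * (1 + τ.im) ^ (3 / 2 : ℝ) := by
  set S := ∑' c : ℤ, |(c : ℝ)| ^ (-(2 : ℝ))
  have hS : 0 ≤ S := tsum_nonneg fun c => by positivity
  refine ⟨17 * S + 100, by positivity, fun σ hσ hσ' τ hT w => ?_⟩
  have hτ : 0 < τ.im := by linarith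
  set T := τ.im
  set P := 2 * Ip σ / K * (α : ℝ) ^ (1 - 2 * σ) with hP
  set F : ℤ × ℤ → ℝ :=
    fun p => if ((p.1 : ZMod K), (p.2 : ZMod K)) = w then eTerm α σ τ p else 0 with hF
  have hF0 : ∀ p, 0 ≤ F p := fun p => by
    simp only [hF]; split_ifs <;> [exact eTerm_nonneg hτ p; exact le_rfl]
  have hTσ : T ^ σ ≤ (1 + T) ^ (3 / 2 : ℝ) :=
    (Real.rpow_le_rpow hτ.le (by linarith) (by linarith)).trans
      (Real.rpow_le_rpow_of_exponent_le (by linarith) hσ')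
  have hTn : T ^ (-σ) ≤ 8 := by
    calc T ^ (-σ) ≤ (1 / 4 : ℝ) ^ (-σ) := Real.rpow_le_rpow_of_nonpos (by norm_num) hT (by linarith)
      _ ≤ (1 / 4 : ℝ) ^ (-(3 / 2) : ℝ) :=
          Real.rpow_le_rpow_of_exponent_ge (by norm_num) (by norm_num) (by linarith)
      _ = 8 := by
          rw [show (1 / 4 : ℝ) = (1 / 2) ^ (2 : ℝ) by norm_num, ← Real.rpow_mul (by norm_num),
            show (2 : ℝ) * -(3 / 2) = -((3 : ℕ) : ℝ) by norm_num, Real.rpow_neg (by norm_num),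
            Real.rpow_natCast]
          norm_num
  obtain ⟨hT1, hT2⟩ := abs_rpow_sub_one hT hσ hσ'
  -- m: main term of row c; e: error allowed in row c
  set m : ℤ → ℝ :=
    fun c => if (c : ZMod K) = w.1 then P * T ^ (1 - σ) * |(c : ℝ)| ^ (1 - 2 * σ) else 0 with hm
  obtain ⟨hzs, hzb⟩ := zeta_class (K := K) hσ w.1
  have hms : Summable m := (hzs.mul_left (P * T ^ (1 - σ))).congr fun c => by
    simp only [hm, mul_ite, mul_zero]
  have hmt : ∑' c, m c = P * T ^ (1 - σ) *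
      ∑' c : ℤ, (if (c : ZMod K) = w.1 then |(c : ℝ)| ^ (1 - 2 * σ) else 0) := by
    rw [← tsum_mul_left]
    exact tsum_congr fun c => by simp only [hm, mul_ite, mul_zero]
  set e : ℤ → ℝ := fun c => 16 * |(c : ℝ)| ^ (-(2 : ℝ)) +
    if c = 0 then T ^ σ * S else 0 with he
  have hes : Summable e :=
    (summable_int_inv_sq.mul_left 16).add (summable_of_ne_finset_zero (s := {0}) fun c hc => by
      simp [Finset.mem_singleton.not.1 hc])
  have het : ∑' c, e c = 16 * S + T ^ σ * S := by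
    rw [Summable.tsum_add (summable_int_inv_sq.mul_left 16) (summable_of_ne_finset_zero (s := {0})
      fun c hc => by simp [Finset.mem_singleton.not.1 hc]), tsum_mul_left, tsum_ite_eq]
  -- row by row: empty, c = 0 by zero_row, otherwise inner_row
  have row : ∀ c : ℤ, Summable (fun d => F (c, d)) ∧ |∑' d, F (c, d) - m c| ≤ e c := fun c => by
    have hek : ∀ x, x ≤ 16 * |(c : ℝ)| ^ (-(2 : ℝ)) → x ≤ e c := fun x hx => by
      refine hx.trans (le_add_of_nonneg_right ?_)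
      split_ifs <;> positivity
    by_cases hc : (c : ZMod K) = w.1
    swap
    · have hz : (fun d => F (c, d)) = fun _ => 0 := funext fun d => by
        simp only [hF]
        exact if_neg fun h => hc (congrArg Prod.fst h)
      refine ⟨by rw [hz]; exact summable_zero, ?_⟩
      rw [hz, tsum_zero, hm]
      simp only [hc, if_false, sub_zero, abs_zero]
      exact hek 0 (by positivity)
    have hz : ∀ d, F (c, d) = if (d : ZMod K) = w.2 then eTerm α σ τ (c, d) else 0 := fun d => by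
      simp only [hF, Prod.ext_iff, hc, true_and]
    by_cases h0 : c = 0
    · subst h0
      obtain ⟨hs, hb⟩ := zero_row (α := α) hσ hτ (F := fun d => F (0, d)) (fun d => hF0 (0, d))
        fun d => by rw [hz]; split_ifs <;> [exact le_rfl; exact eTerm_nonneg hτ _]
      refine ⟨hs, ?_⟩
      rw [show m 0 = 0 by simp [hm, Real.zero_rpow (show (1 : ℝ) - 2 * σ ≠ 0 by linarith)],
        sub_zero]
      refine hb.trans ?_
      simp only [he, if_true]
      exact le_add_of_nonneg_left (by positivity)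
    obtain ⟨h1, h2⟩ := inner_row (K := K) hα hσ.le hτ h0 w.2
    refine ⟨h1.congr fun d => (hz d).symm, ?_⟩
    rw [tsum_congr hz]
    simp only [hm, hc, if_true]
    refine h2.trans (hek _ ?_)
    calc 2 * T ^ (-σ) * |(c : ℝ)| ^ (-(2 * σ)) ≤ 2 * 8 * |(c : ℝ)| ^ (-(2 : ℝ)) :=
          mul_le_mul (mul_le_mul_of_nonneg_left hTn (by norm_num)) (rpow_neg_le_inv_sq hσ.le c)
            (by positivity) (by norm_num)
      _ = 16 * |(c : ℝ)| ^ (-(2 : ℝ)) := by ring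
  have hrs : Summable fun c => ∑' d, F (c, d) :=
    (hms.add (Summable.of_norm_bounded hes fun c => (Real.norm_eq_abs _).trans_le (row c).2)).congr
      fun c => by ring
  have hFs : Summable F := (summable_prod_of_nonneg hF0).2 ⟨fun c => (row c).1, hrs⟩
  refine ⟨hFs, ?_⟩
  have hd : |∑' p, F p - ∑' c, m c| ≤ 16 * S + T ^ σ * S := by
    rw [hFs.tsum_prod, ← hrs.tsum_sub hms, ← het]
    exact (Real.norm_eq_abs _).ge.trans (tsum_of_norm_bounded hes.hasSum fun c =>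
      (Real.norm_eq_abs _).trans_le (row c).2)
  have hP0 : 0 ≤ P := pref_nonneg K α σ
  have hP4 : P ≤ 4 := pref_le hα hσ.le
  -- ∑ m differs from A0 by the zeta error and by T ^ (1 - σ) - 1
  have hd2 : |∑' c, m c - A0 K α σ| ≤ 24 + 64 * (1 + T) := by
    rw [hmt, A0, ← hP]
    set Z := ∑' c : ℤ, (if (c : ZMod K) = w.1 then |(c : ℝ)| ^ (1 - 2 * σ) else 0)
    rw [show P * T ^ (1 - σ) * Z - P * Mz K σ
      = P * T ^ (1 - σ) * (Z - Mz K σ) + P * (Mz K σ * (T ^ (1 - σ) - 1)) by ring]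
    refine (abs_add_le _ _).trans (add_le_add ?_ ?_)
    · rw [abs_mul, abs_of_nonneg (by positivity : 0 ≤ P * T ^ (1 - σ))]
      calc P * T ^ (1 - σ) * |Z - Mz K σ| ≤ 4 * 2 * 3 :=
            mul_le_mul (mul_le_mul hP4 hT2 (by positivity) (by norm_num)) hzb
              (abs_nonneg _) (by norm_num)
        _ = 24 := by norm_num
    · rw [abs_mul, abs_of_nonneg hP0, abs_mul, abs_of_nonneg (Mz_nonneg hσ)]
      calc P * (Mz K σ * |T ^ (1 - σ) - 1|) ≤ 4 * (Mz K σ * (8 * (σ - 1) * (1 + T))) :=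
            mul_le_mul hP4 (mul_le_mul_of_nonneg_left hT1 (Mz_nonneg hσ))
              (mul_nonneg (Mz_nonneg hσ) (abs_nonneg _)) (by norm_num)
        _ = 32 * ((σ - 1) * Mz K σ) * (1 + T) := by ring
        _ ≤ 32 * 2 * (1 + T) := mul_le_mul_of_nonneg_right
            (mul_le_mul_of_nonneg_left (sub_mul_Mz_le hσ hσ') (by norm_num)) (by linarith)
        _ = 64 * (1 + T) := by ring
  set U := (1 + T) ^ (3 / 2 : ℝ)
  have hU1 : 1 + T ≤ U := Real.self_le_rpow_of_one_le (by linarith) (by norm_num)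
  calc |eCls α σ τ w - A0 K α σ|
      = |(∑' p, F p - ∑' c, m c) + (∑' c, m c - A0 K α σ)| := by
        rw [eCls, hF]; congr 1; ring
    _ ≤ (16 * S + T ^ σ * S) + (24 + 64 * (1 + T)) := (abs_add_le _ _).trans (add_le_add hd hd2)
    _ ≤ (17 * S + 100) * U := by nlinarith [mul_le_mul_of_nonneg_right hTσ hS]

/-- The swap `τ ↦ -1 / (3τ)` turns terms of level `3` into terms of level `1`. -/
lemma eTerm_swap {τ : ℂ} (hτ : 0 < τ.im) (σ : ℝ) (p : ℤ × ℤ) :
    eTerm 3 σ (-1 / (3 * τ)) p = (3 : ℝ) ^ (-σ) * eTerm 1 σ τ (-p.2, p.1) := by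
  have hτ0 : τ ≠ 0 := fun h => by rw [h] at hτ; simp at hτ
  have hn : 0 < Complex.normSq τ := Complex.normSq_pos.2 hτ0
  have e1 : -((3 : ℕ) : ℂ) * (p.1 : ℂ) * (-1 / (3 * τ)) + (p.2 : ℂ)
      = (-((1 : ℕ) : ℂ) * ((-p.2 : ℤ) : ℂ) * τ + (p.1 : ℂ)) / τ := by
    push_cast; field_simp; ring
  have e2 : (-1 / (3 * τ) : ℂ).im = τ.im / (3 * Complex.normSq τ) := by
    rw [Complex.div_im]
    simp [Complex.normSq_mul]
    field_simp
  rw [eTerm, eTerm, e1, e2, map_div₀, Real.rpow_neg (by norm_num), ← Real.inv_rpow (by norm_num),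
    ← Real.mul_rpow (by norm_num) (div_nonneg hτ.le (Complex.normSq_nonneg _))]
  congr 1
  field_simp

/-- The quarter turn `(p, q) ↦ (-q, p)` of `ℤ²`. -/
def turnEquiv : ℤ × ℤ ≃ ℤ × ℤ :=
  ⟨fun p => (-p.2, p.1), fun q => (q.2, -q.1), fun p => by simp, fun q => by simp⟩

/-- Summability of a class is carried through the swap. -/
lemma summable_swap {K : ℕ} {τ : ℂ} (hτ : 0 < τ.im) (σ : ℝ) (w : ZMod K × ZMod K)
    (h : Summable fun p : ℤ × ℤ =>
      if ((p.1 : ZMod K), (p.2 : ZMod K)) =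
        ((-w.2, w.1) : ZMod K × ZMod K) then eTerm 1 σ τ p else 0) :
    Summable fun p : ℤ × ℤ =>
      if ((p.1 : ZMod K), (p.2 : ZMod K)) = w then eTerm 3 σ (-1 / (3 * τ)) p else 0 := by
  refine ((turnEquiv.summable_iff.2 h).mul_left ((3 : ℝ) ^ (-σ))).congr fun p => ?_
  simp only [turnEquiv, Function.comp_apply, Equiv.coe_fn_mk, eTerm_swap hτ, Int.cast_neg,
    mul_ite, mul_zero, Prod.ext_iff, neg_inj, and_comm]

/-- The series of a class under the swap. -/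
lemma eCls_swap {K : ℕ} {τ : ℂ} (hτ : 0 < τ.im) (σ : ℝ) (w : ZMod K × ZMod K) :
    eCls 3 σ (-1 / (3 * τ)) w = (3 : ℝ) ^ (-σ) * eCls 1 σ τ (-w.2, w.1) := by
  rw [eCls, eCls, ← tsum_mul_left]
  conv_rhs => rw [← turnEquiv.tsum_eq]
  refine tsum_congr fun p => ?_
  simp only [turnEquiv, Equiv.coe_fn_mk, eTerm_swap hτ, Int.cast_neg, mul_ite, mul_zero,
    Prod.ext_iff, neg_inj, and_comm]

/-- **The estimate on both sheets.** For `α = 3` the estimate holds at `τ` and at `-1 / (3 τ)` at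
once. -/
theorem exists_eCls_bound2 (K : ℕ) [NeZero K] :
    ∃ C, 0 ≤ C ∧ ∀ σ : ℝ, 1 < σ → σ ≤ 3 / 2 → ∀ (τ : ℂ), 1 / 4 ≤ τ.im → ∀ w : ZMod K × ZMod K,
      (Summable (fun p : ℤ × ℤ => if ((p.1 : ZMod K), (p.2 : ZMod K)) = w then
        eTerm 3 σ τ p else 0) ∧ |eCls 3 σ τ w - A0 K 3 σ| ≤ C * (1 + τ.im) ^ (3 / 2 : ℝ)) ∧
      (Summable (fun p : ℤ × ℤ =>
          if ((p.1 : ZMod K), (p.2 : ZMod K)) = w then eTerm 3 σ (-1 / (3 * τ)) p else 0) ∧
        |eCls 3 σ (-1 / (3 * τ)) w - A0 K 3 σ| ≤ C * (1 + τ.im) ^ (3 / 2 : ℝ)) := by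
  obtain ⟨C₁, hC₁, h1⟩ := exists_eCls_bound K (α := 1) one_pos
  obtain ⟨C₃, hC₃, h3⟩ := exists_eCls_bound K (α := 3) (by norm_num)
  refine ⟨C₁ + C₃ + 16, by positivity, fun σ hσ hσ' τ hT w => ?_⟩
  set U := (1 + τ.im) ^ (3 / 2 : ℝ)
  have hU : 1 ≤ U := Real.one_le_rpow (by linarith) (by norm_num)
  -- The first sheet is the bound at `α = 3`; the second reduces to `α = 1` by swapping.
  refine ⟨⟨(h3 σ hσ hσ' τ hT w).1, ((h3 σ hσ hσ' τ hT w).2).trans (by gcongr; linarith)⟩,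
    summable_swap (by linarith) σ w (h1 σ hσ hσ' τ hT _).1, ?_⟩
  rw [eCls_swap (by linarith) σ w]
  have h3p : (0 : ℝ) < (3 : ℝ) ^ (-σ) := by positivity
  -- The main terms differ by a factor `3 ^ (1 - σ)`,
  have hA : A0 K 3 σ = (3 : ℝ) ^ (-σ) * A0 K 1 σ * (3 : ℝ) ^ (1 - σ) := by
    have e : (3 : ℝ) ^ (1 - 2 * σ) = (3 : ℝ) ^ (-σ) * (3 : ℝ) ^ (1 - σ) := by
      rw [← Real.rpow_add (by norm_num)]; ring_nf
    rw [A0, A0]
    push_cast
    rw [Real.one_rpow, e]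
    ring
  have hA1 : 0 ≤ A0 K 1 σ := mul_nonneg (pref_nonneg K 1 σ) (Mz_nonneg hσ)
  have hA2 : A0 K 1 σ * (σ - 1) ≤ 8 := by
    rw [A0, mul_assoc, mul_comm (Mz K σ)]
    exact (mul_le_mul (pref_le one_pos hσ.le) (sub_mul_Mz_le hσ hσ')
      (mul_nonneg (by linarith) (Mz_nonneg hσ)) (by norm_num)).trans_eq (by norm_num)
  -- which is `1 + O(σ - 1)`, absorbing the pole of the main term.
  have h31 : |1 - (3 : ℝ) ^ (1 - σ)| ≤ 2 * (σ - 1) := by
    rw [Real.rpow_def_of_pos (by norm_num)]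
    have hl : 0 ≤ Real.log 3 := Real.log_nonneg (by norm_num)
    have hl2 : Real.log 3 ≤ 2 := (Real.log_le_sub_one_of_pos (by norm_num)).trans_eq (by norm_num)
    have ha := Real.add_one_le_exp (Real.log 3 * (1 - σ))
    have hb : Real.exp (Real.log 3 * (1 - σ)) ≤ 1 :=
      Real.exp_le_one_iff.2 (mul_nonpos_of_nonneg_of_nonpos hl (by linarith))
    rw [abs_le]
    constructor <;> nlinarith
  have h3le : (3 : ℝ) ^ (-σ) ≤ 1 := Real.rpow_le_one_of_one_le_of_nonpos (by norm_num) (by linarith)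
  rw [hA, show (3 : ℝ) ^ (-σ) * eCls 1 σ τ (-w.2, w.1) - (3 : ℝ) ^ (-σ) * A0 K 1 σ *
    (3 : ℝ) ^ (1 - σ)
    = (3 : ℝ) ^ (-σ) * ((eCls 1 σ τ (-w.2, w.1) - A0 K 1 σ) + A0 K 1 σ * (1 - (3 : ℝ) ^ (1 - σ))) by
      ring,
    abs_mul, abs_of_pos h3p]
  refine (mul_le_of_le_one_left (abs_nonneg _) h3le).trans ((abs_add_le _ _).trans ?_)
  rw [abs_mul, abs_of_nonneg hA1]
  calc |eCls 1 σ τ (-w.2, w.1) - A0 K 1 σ| + A0 K 1 σ * |1 - (3 : ℝ) ^ (1 - σ)|
      ≤ C₁ * U + A0 K 1 σ * (2 * (σ - 1)) :=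
        add_le_add (h1 σ hσ hσ' τ hT _).2 (mul_le_mul_of_nonneg_left h31 hA1)
    _ ≤ (C₁ + C₃ + 16) * U := by nlinarith

end Fermat.LT3.EisEst
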