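import Fermat.Agent.LT3.Per.HeckeV
import Mathlib.NumberTheory.EulerProduct.Basic
import Mathlib.Analysis.PSeries

/-!
# The series of the weights

For any multiplicative weight `g` with `|g (p ^ k)| ≤ (k + 1)²` the series `∑ g m m^{-σ}` over `m`
prime to the level converges absolutely for `σ > 1`; `gN lam` is one for bounded eigenvalues `lam`.
For an `Auto` it is unbounded at `1` as soon as enough primes have `λ² = 4 p`.
-/

set_option autoImplicit false
open Filter
open scoped Classical Topology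

namespace Fermat.LT3
open Fermat.LT

/-- A quadratic multiple of a geometric series converges. -/
lemma summable_sq_geom {X : ℝ} (h0 : 0 ≤ X) (h1 : X < 1) :
    Summable fun k : ℕ => ((k : ℝ) + 2) ^ 2 * X ^ k := by
  have hX : ‖X‖ < 1 := by rwa [Real.norm_of_nonneg h0]
  have a := summable_pow_mul_geometric_of_norm_lt_one 2 hX
  have b := (summable_pow_mul_geometric_of_norm_lt_one 1 hX).mul_left 4
  have c := (summable_pow_mul_geometric_of_norm_lt_one 0 hX).mul_left 4
  exact ((a.add b).add c).congr fun k => by ring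

/-- The inverse of `1 - a X + X²`. -/
lemma tsum_Ucheb {a X : ℝ} (hs : Summable fun k => Ucheb a k * X ^ k) :
    (∑' k, Ucheb a k * X ^ k) * (1 - a * X + X ^ 2) = 1 := by
  set f := fun k => Ucheb a k * X ^ k
  set S := ∑' k, f k with hS
  have e1 : S = f 0 + ∑' k, f (k + 1) := hs.tsum_eq_zero_add
  have hs1 : Summable fun k => f (k + 1) := (summable_nat_add_iff 1).2 hs
  have e2 : ∑' k, f (k + 1) = f 1 + ∑' k, f (k + 2) := hs1.tsum_eq_zero_add
  have e3 : (fun k => f (k + 2)) = fun k => a * X * f (k + 1) - X ^ 2 * f k := funext fun k => by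
    simp only [f, Ucheb]; ring
  rw [e3, (hs1.mul_left (a * X)).tsum_sub (hs.mul_left (X ^ 2)), tsum_mul_left, tsum_mul_left,
    ← hS] at e2
  rw [show f 0 = 1 by simp [f, Ucheb]] at e1
  rw [show f 1 = a * X by simp [f, Ucheb]] at e2
  linear_combination (1 - a * X) * e1 + e2

/-- For `σ > 1` a prime to the power `-σ` is at most one half. -/
lemma inv_rpow_le_half {p : ℕ} (hp : p.Prime) {σ : ℝ} (hσ : 1 < σ) :
    0 ≤ ((p : ℝ) ^ σ)⁻¹ ∧ ((p : ℝ) ^ σ)⁻¹ ≤ 1 / 2 := by
  have h2 : (2 : ℝ) ≤ p := by exact_mod_cast hp.two_le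
  have h3 : (p : ℝ) ≤ (p : ℝ) ^ σ := Real.self_le_rpow_of_one_le (by linarith) hσ.le
  refine ⟨by positivity, ?_⟩
  rw [one_div]
  exact inv_anti₀ two_pos (h2.trans h3)

variable {E : ℕ} [NeZero E]

omit [NeZero E] in
/-- A number prime to `3E` is a unit modulo `9E`. -/
lemma isUnit_zmod_of_coprime {p : ℕ} (hco : Nat.Coprime p (3 * E)) :
    IsUnit (p : ZMod (3 * (3 * E))) :=
  (ZMod.isUnit_iff_coprime _ _).2 ((hco.coprime_dvd_right (dvd_mul_right 3 E)).mul_right hco)

section Weights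

variable {g : ℕ → ℝ}

/-- The term of the series of a weight. -/
noncomputable def gSer (E : ℕ) (g : ℕ → ℝ) (σ : ℝ) (n : ℕ) : ℝ :=
  if Nat.Coprime n (3 * E) then g n / (n : ℝ) ^ σ else 0

omit [NeZero E] in
/-- The term at zero vanishes. -/
lemma gSer_zero (g : ℕ → ℝ) (σ : ℝ) : gSer E g σ 0 = 0 := by
  rw [gSer, if_neg]
  rw [Nat.coprime_zero_left]
  intro h
  omega

omit [NeZero E] in
/-- The term at one is one. -/
lemma gSer_one (hone : g 1 = 1) (σ : ℝ) : gSer E g σ 1 = 1 := by simp [gSer, hone]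

omit [NeZero E] in
/-- The terms are multiplicative. -/
lemma gSer_mul (hmul : ∀ {a b : ℕ}, Nat.Coprime a b → g (a * b) = g a * g b) (σ : ℝ) {m n : ℕ}
    (h : Nat.Coprime m n) : gSer E g σ (m * n) = gSer E g σ m * gSer E g σ n := by
  simp only [gSer, Nat.coprime_mul_iff_left]
  by_cases hm : Nat.Coprime m (3 * E)
  · by_cases hn : Nat.Coprime n (3 * E)
    · rw [if_pos ⟨hm, hn⟩, if_pos hm, if_pos hn, hmul h, Nat.cast_mul,
        Real.mul_rpow (Nat.cast_nonneg _) (Nat.cast_nonneg _), div_mul_div_comm]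
    · rw [if_neg fun h' => hn h'.2, if_neg hn, mul_zero]
  · rw [if_neg fun h' => hm h'.1, if_neg hm, zero_mul]

omit [NeZero E] in
/-- The term at a prime power. -/
lemma gSer_prime_pow (hone : g 1 = 1) (σ : ℝ) (p k : ℕ) :
    gSer E g σ (p ^ k) = (if k = 0 ∨ Nat.Coprime p (3 * E) then g (p ^ k) else 0)
      * (((p : ℝ) ^ σ)⁻¹) ^ k := by
  rcases Nat.eq_zero_or_pos k with rfl | hk
  · simp [gSer_one hone, hone]
  rw [gSer]
  simp only [Nat.coprime_pow_left_iff hk, hk.ne', false_or]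
  split_ifs with h
  · rw [Nat.cast_pow, ← Real.rpow_natCast (p : ℝ) k,
      ← Real.rpow_mul (Nat.cast_nonneg _), mul_comm, Real.rpow_mul (Nat.cast_nonneg _),
      Real.rpow_natCast, div_eq_mul_inv, inv_pow]
  · rw [zero_mul]

variable (hone : g 1 = 1)
  (hb : ∀ {p : ℕ}, p.Prime → Nat.Coprime p (3 * E) → ∀ k : ℕ, |g (p ^ k)| ≤ ((k : ℝ) + 1) ^ 2)

omit [NeZero E] in
include hone hb in
/-- The terms at prime powers grow at most like a quadratic times a geometric progression. -/
lemma abs_gSer_pow_le {σ : ℝ} {p : ℕ} (hp : p.Prime) (k : ℕ) :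
    |gSer E g σ (p ^ k)| ≤ ((k : ℝ) + 1) ^ 2 * (((p : ℝ) ^ σ)⁻¹) ^ k := by
  have h0 : 0 ≤ ((p : ℝ) ^ σ)⁻¹ := by positivity
  rw [gSer_prime_pow hone σ p k, abs_mul, abs_of_nonneg (pow_nonneg h0 k)]
  refine mul_le_mul_of_nonneg_right ?_ (pow_nonneg h0 k)
  split_ifs with h
  · rcases h with rfl | h
    · simp [hone]
    · exact hb hp h k
  · rw [abs_zero]; positivity

omit [NeZero E] in
include hone hb in
/-- The terms at powers of a prime are absolutely summable. -/
lemma summable_gSer_pow {σ : ℝ} (hσ : 1 < σ) {p : ℕ} (hp : p.Prime) :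
    Summable fun k => ‖gSer E g σ (p ^ k)‖ := by
  obtain ⟨h0, hhalf⟩ := inv_rpow_le_half hp hσ
  refine (summable_sq_geom h0 (by linarith)).of_nonneg_of_le (fun k => norm_nonneg _) fun k =>
    (Real.norm_eq_abs _).trans_le ((abs_gSer_pow_le hone hb hp k).trans ?_)
  gcongr
  linarith

include hone hb in
omit [NeZero E] in
/-- **Absolute convergence.** For `σ > 1` the Dirichlet series of a multiplicative `g` with
`|g (p ^ k)| ≤ (k + 1)²` converges absolutely. -/
theorem summable_gSer (hmul : ∀ {a b : ℕ}, Nat.Coprime a b → g (a * b) = g a * g b) {σ : ℝ}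
    (hσ : 1 < σ) : Summable fun n => ‖gSer E g σ n‖ := by
  set f := fun n => ‖gSer E g σ n‖
  set C : ℝ := ∑' k : ℕ, ((k : ℝ) + 2) ^ 2 * (1 / 2 : ℝ) ^ k
  have hC0 : 0 ≤ C := tsum_nonneg fun k => by positivity
  set Z : ℝ := ∑' n : ℕ, ((n : ℝ) ^ σ)⁻¹
  have hZ : Summable fun n : ℕ => ((n : ℝ) ^ σ)⁻¹ := Real.summable_nat_rpow_inv.2 hσ
  have hf1 : f 1 = 1 := by simp [f, gSer_one hone]
  have hmul : ∀ {m n : ℕ}, Nat.Coprime m n → f (m * n) = f m * f n := fun h => by
    simp only [f, gSer_mul hmul σ h, norm_mul]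
  have hsum : ∀ {p : ℕ}, p.Prime → Summable fun k => ‖f (p ^ k)‖ := fun hp => by
    simpa [f] using summable_gSer_pow hone hb hσ hp
  -- the partial sums are at most the Euler product over the primes below N
  refine summable_of_sum_range_le (fun n => norm_nonneg _) (c := Real.exp (C * Z)) fun N => ?_
  obtain ⟨hs, hh⟩ :=
    EulerProduct.summable_and_hasSum_smoothNumbers_prod_primesBelow_tsum hf1 hmul hsum N
  have hle : ∑ n ∈ Finset.range N, f n ≤ ∏ p ∈ N.primesBelow, ∑' k, f (p ^ k) := by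
    rw [← hh.tsum_eq]
    have hs' : Summable (Set.indicator (N.smoothNumbers) f) :=
      summable_subtype_iff_indicator.1 hh.summable
    rw [tsum_subtype (N.smoothNumbers) f]
    refine le_trans (le_of_eq (Finset.sum_congr rfl fun n hn => ?_))
      (hs'.sum_le_tsum _ fun n _ => Set.indicator_nonneg (fun _ _ => norm_nonneg _) n)
    rcases Nat.eq_zero_or_pos n with rfl | hn0
    · rw [Set.indicator_of_notMem (Nat.ne_zero_of_mem_smoothNumbers.mt (fun h => h rfl))]
      simp [f, gSer_zero]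
    · rw [Set.indicator_of_mem]
      exact Nat.mem_smoothNumbers'.2 fun p hp hd =>
        (Nat.le_of_dvd hn0 hd).trans_lt (Finset.mem_range.1 hn)
  refine hle.trans ?_
  -- each Euler factor is at most exp (C p ^ (-σ))
  calc ∏ p ∈ N.primesBelow, ∑' k, f (p ^ k)
      ≤ ∏ p ∈ N.primesBelow, Real.exp (C * ((p : ℝ) ^ σ)⁻¹) := by
        refine Finset.prod_le_prod (fun p _ => tsum_nonneg fun k => norm_nonneg _) fun p hp => ?_
        have hpp := Nat.prime_of_mem_primesBelow hp
        obtain ⟨h0, h1⟩ := inv_rpow_le_half hpp hσ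
        set X := ((p : ℝ) ^ σ)⁻¹
        have hsm : Summable fun k => f (p ^ k) := summable_gSer_pow hone hb hσ hpp
        have hgs := summable_sq_geom (X := 1 / 2) (by norm_num) (by norm_num)
        refine le_trans ?_ (Real.add_one_le_exp _)
        rw [hsm.tsum_eq_zero_add, pow_zero, hf1, add_comm (C * X) 1]
        refine add_le_add le_rfl ?_
        rw [mul_comm C, ← tsum_mul_left]
        refine ((summable_nat_add_iff 1).2 hsm).tsum_le_tsum (fun k => ?_) (hgs.mul_left X)
        refine (Real.norm_eq_abs _).trans_le ((abs_gSer_pow_le hone hb hpp (k + 1)).trans ?_)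
        push_cast
        rw [pow_succ' X k, show (k : ℝ) + 1 + 1 = k + 2 by ring, ← mul_assoc,
          mul_comm (((k : ℝ) + 2) ^ 2) X, mul_assoc]
        gcongr
    _ = Real.exp (∑ p ∈ N.primesBelow, C * ((p : ℝ) ^ σ)⁻¹) := (Real.exp_sum _ _).symm
    _ ≤ _ := by
        refine Real.exp_le_exp.2 ?_
        rw [← Finset.mul_sum]
        exact mul_le_mul_of_nonneg_left (hZ.sum_le_tsum _ fun n _ => by positivity) hC0

end Weights

variable [IsPrincipalIdealRing EI]

section Bounded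

variable {lam : EI → ℝ}
  (hb : ∀ π : EI, Prime π → IsUnit (red (3 * (3 * E)) π) →
    |lam π| ≤ 2 * Real.sqrt ((QuadraticAlgebra.norm π : ℤ) : ℝ))
include hb

omit [NeZero E] in
/-- The normalised eigenvalue at an inert prime is bounded by two. -/
lemma abs_inert_le {p : ℕ} (hp : p.Prime) (hco : Nat.Coprime p (3 * E))
    (h : ¬ ∃ π : EI, QuadraticAlgebra.norm π = (p : ℤ)) : |lam (p : EI) / (p : ℝ)| ≤ 2 := by
  have hp0 : (0 : ℝ) < p := Nat.cast_pos.2 hp.pos
  have hb := hb _ (prime_inert hp h) (isUnit_red_nat (E := E) hco)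
  rw [norm_natCast_EI, Int.cast_pow, Int.cast_natCast, Real.sqrt_sq hp0.le] at hb
  rw [abs_div, abs_of_nonneg hp0.le, div_le_iff₀ hp0]
  exact hb

omit [NeZero E] [IsPrincipalIdealRing EI] in
/-- The normalised eigenvalue at a prime over `p` is bounded by two. -/
lemma abs_split_le {p : ℕ} (hp : p.Prime) (hco : Nat.Coprime p (3 * E)) {π : EI}
    (hn : QuadraticAlgebra.norm π = (p : ℤ)) : |lam π / Real.sqrt p| ≤ 2 := by
  have := Fact.mk hp
  have h9 := isUnit_zmod_of_coprime hco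
  have hb := hb _ (prime_of_norm_prime hn (ne_three_of_isUnit h9)) (isUnit_red_of_norm hn h9)
  rw [hn, Int.cast_natCast] at hb
  rw [abs_div, abs_of_nonneg (Real.sqrt_nonneg _),
    div_le_iff₀ (Real.sqrt_pos.2 (Nat.cast_pos.2 hp.pos))]
  exact hb

omit [NeZero E] in
/-- The local weights grow at most quadratically in the exponent. -/
lemma abs_gP_le {p : ℕ} (hp : p.Prime) (hco : Nat.Coprime p (3 * E)) (k : ℕ) :
    |gP lam p k| ≤ ((k : ℝ) + 1) ^ 2 := by
  rw [gP]
  split_ifs with h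
  · rw [abs_mul, sq]
    exact mul_le_mul (abs_Ucheb_le (abs_split_le hb hp hco h.choose_spec) k)
      (abs_Ucheb_le
        (abs_split_le hb hp hco (by rw [QuadraticAlgebra.norm_star, h.choose_spec])) k)
      (abs_nonneg _) (by positivity)
  · refine (abs_Ucheb_le (abs_inert_le hb hp hco h) k).trans ?_
    nlinarith [Nat.cast_nonneg (α := ℝ) k]

omit [NeZero E] in
/-- The weights at prime powers grow at most quadratically in the exponent. -/
lemma abs_gN_pow_le {p : ℕ} (hp : p.Prime) (hco : Nat.Coprime p (3 * E)) (k : ℕ) :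
    |gN lam (p ^ k)| ≤ ((k : ℝ) + 1) ^ 2 :=
  (gN_prime_pow hp k).symm ▸ abs_gP_le hb hp hco k

omit [NeZero E] in
/-- The local factor at an inert prime from below. -/
lemma le_tsum_inert {p : ℕ} (hp : p.Prime) (hco : Nat.Coprime p (3 * E))
    (h : ¬ ∃ π : EI, QuadraticAlgebra.norm π = (p : ℤ)) (h0 : 0 ≤ lam (p : EI)) {X : ℝ}
    (hX0 : 0 ≤ X) (hX : X ≤ 1 / 2) (hsm : Summable fun k => gP lam p k * X ^ k) :
    Real.exp (-X ^ 2) ≤ ∑' k, gP lam p k * X ^ k := by
  simp only [gP, dif_neg h] at hsm ⊢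
  set a := lam (p : EI) / (p : ℝ)
  have ha : 0 ≤ a := div_nonneg h0 (Nat.cast_nonneg _)
  have hid := tsum_Ucheb hsm
  have ha2 : a ≤ 2 := (le_abs_self a).trans (abs_inert_le hb hp hco h)
  set S := ∑' k, Ucheb a k * X ^ k
  have hq : 0 < 1 - a * X + X ^ 2 := by nlinarith [mul_le_mul_of_nonneg_right ha2 hX0]
  have hS : S = (1 - a * X + X ^ 2)⁻¹ := eq_inv_of_mul_eq_one_left hid
  rw [hS, Real.exp_neg]
  exact inv_anti₀ hq (by nlinarith [Real.add_one_le_exp (X ^ 2), mul_nonneg ha hX0])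

end Bounded

variable (A : Auto E)

omit [NeZero E] in
omit [IsPrincipalIdealRing EI] in
/-- At a split prime the weight is a square. -/
lemma LamOK.gP_eq_sq {A : Auto E} (hA : LamOK A) {p : ℕ} (hp : p.Prime)
    (hco : Nat.Coprime p (3 * E)) (h : ∃ π : EI, QuadraticAlgebra.norm π = (p : ℤ)) (k : ℕ) :
    gP A.lam p k = Ucheb (A.lam h.choose / Real.sqrt p) k ^ 2 := by
  have := Fact.mk hp
  have h9 := isUnit_zmod_of_coprime hco
  rw [gP, dif_pos h, hA.conj _ (prime_of_norm_prime h.choose_spec (ne_three_of_isUnit h9))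
    (isUnit_red_of_norm h.choose_spec h9), sq]

omit [NeZero E] in
/-- The local factors from below. -/
lemma le_eulerFactor (hA : LamOK A) {σ : ℝ} (hσ : 1 < σ) (P : ℕ → Prop)
    (hP : ∀ p, p.Prime → P p → Nat.Coprime p (3 * E) ∧
      ∃ π : EI, QuadraticAlgebra.norm π = (p : ℤ) ∧
        ∀ π' : EI, QuadraticAlgebra.norm π' = (p : ℤ) → A.lam π' ^ 2 = 4 * p)
    {p : ℕ} (hp : p.Prime) :
    Real.exp (-(((p : ℝ) ^ σ)⁻¹) ^ 2) * (1 + if P p then 4 * ((p : ℝ) ^ σ)⁻¹ else 0)
      ≤ ∑' k, gSer E (gN A.lam) σ (p ^ k) := by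
  obtain ⟨h0, h1⟩ := inv_rpow_le_half hp hσ
  set X := ((p : ℝ) ^ σ)⁻¹
  have hsm : Summable fun k => gSer E (gN A.lam) σ (p ^ k) :=
    (summable_gSer_pow (gN_one A.lam) (abs_gN_pow_le hA.bound) hσ hp).of_norm
  have he : Real.exp (-X ^ 2) ≤ 1 := Real.exp_le_one_iff.2 (by nlinarith)
  by_cases hco : Nat.Coprime p (3 * E)
  · have hgd : ∀ k, gSer E (gN A.lam) σ (p ^ k) = gP A.lam p k * X ^ k := fun k => by
      rw [gSer_prime_pow (gN_one A.lam) σ p k, if_pos (Or.inr hco), gN_prime_pow hp]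
    simp only [hgd] at hsm ⊢
    -- split: all terms are squares, so keep the first two
    by_cases h : ∃ π : EI, QuadraticAlgebra.norm π = (p : ℤ)
    · have hnn : ∀ k, 0 ≤ gP A.lam p k * X ^ k := fun k => by
        rw [hA.gP_eq_sq hp hco h]; positivity
      refine le_trans (mul_le_of_le_one_left (by split_ifs <;> positivity) he) ?_
      refine le_trans ?_ (hsm.sum_le_tsum (Finset.range 2) fun k _ => hnn k)
      rw [Finset.sum_range_succ, Finset.sum_range_one, gP_zero, pow_zero, mul_one, pow_one]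
      refine add_le_add le_rfl ?_
      split_ifs with hp'
      · obtain ⟨-, -, -, hl⟩ := hP p hp hp'
        rw [hA.gP_eq_sq hp hco h]
        refine le_of_eq ?_
        simp only [Ucheb]
        rw [div_pow, hl _ h.choose_spec, Real.sq_sqrt (Nat.cast_nonneg p)]
        field_simp [Nat.cast_ne_zero.2 hp.ne_zero]
      · have := hnn 1
        rwa [pow_one] at this
    -- inert: `P p` fails
    · have hnp : ¬ P p := fun hp' => h ⟨_, (hP p hp hp').2.choose_spec.1⟩
      rw [if_neg hnp, add_zero, mul_one]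
      exact le_tsum_inert hA.bound hp hco h (hA.inert p hp hco h) h0 h1 hsm
  -- `p ∣ 3 * E`: only the constant term survives
  · have hz : ∀ k, k ≠ 0 → gSer E (gN A.lam) σ (p ^ k) = 0 := fun k hk => by
      rw [gSer_prime_pow (gN_one A.lam) σ p k, if_neg (by simp [hk, hco]), zero_mul]
    rw [tsum_eq_single 0 hz, pow_zero, gSer_one (gN_one A.lam), if_neg fun hp' =>
      hco (hP p hp hp').1, add_zero, mul_one]
    exact he

omit [NeZero E] in
/-- **The series is unbounded at `1`.** The series of the eigenvalues is unbounded as `σ` tends to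
`1` when enough primes have squared eigenvalue `4p`. -/
theorem gSer_unbounded (hA : LamOK A) (P : ℕ → Prop)
    (hP : ∀ p, p.Prime → P p → Nat.Coprime p (3 * E) ∧
      ∃ π : EI, QuadraticAlgebra.norm π = (p : ℤ) ∧
        ∀ π' : EI, QuadraticAlgebra.norm π' = (p : ℤ) → A.lam π' ^ 2 = 4 * p)
    (hdiv : ∀ C : ℝ, ∃ᶠ σ : ℝ in 𝓝[>] 1,
      C ≤ ∑' p : Nat.Primes, if P p then ((p : ℝ) ^ σ)⁻¹ else 0) (C : ℝ) :
    ∃ᶠ σ : ℝ in 𝓝[>] 1, C ≤ ∑' n, gSer E (gN A.lam) σ n := by
  set Z : ℝ := ∑' n : ℕ, ((n : ℝ) ^ 2)⁻¹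
  have hZ : Summable fun n : ℕ => ((n : ℝ) ^ 2)⁻¹ := Real.summable_nat_pow_inv.2 one_lt_two
  refine ((hdiv (C * Real.exp Z / 4)).and_eventually self_mem_nhdsWithin).mono ?_
  rintro σ ⟨hC, hσ : 1 < σ⟩
  set g : ℕ → ℝ := fun p => if P p then 4 * ((p : ℝ) ^ σ)⁻¹ else 0
  have hg0 : ∀ p, 0 ≤ g p := fun p => by simp only [g]; split_ifs <;> positivity
  -- the Euler product converges to the series
  have hlim := EulerProduct.eulerProduct (gSer_one (gN_one A.lam) σ) (fun h => gSer_mul gN_mul σ h)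
    (summable_gSer (gN_one A.lam) (abs_gN_pow_le hA.bound) gN_mul hσ) (gSer_zero _ σ)
  have hgP : Summable fun p : Nat.Primes => g p := by
    refine Summable.of_nonneg_of_le (fun p => hg0 p) (fun p => ?_)
      (((Real.summable_nat_rpow_inv.2 hσ).comp_injective Nat.Primes.coe_nat_injective).mul_left 4)
    simp only [g, Function.comp_apply]
    split_ifs
    · exact le_rfl
    · positivity
  -- it suffices to bound the sum of g by exp Z times the series
  have hsumP : C ≤ Real.exp (-Z) * ∑' p : Nat.Primes, g p := by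
    have e : ∑' p : Nat.Primes, g p = 4 * ∑' p : Nat.Primes, if P p then
        ((p : ℝ) ^ σ)⁻¹ else 0 := by
      rw [← tsum_mul_left]
      exact tsum_congr fun p => by simp only [g, mul_ite, mul_zero]
    rw [e, Real.exp_neg, ← div_eq_inv_mul, le_div_iff₀ (Real.exp_pos Z)]
    linarith
  refine hsumP.trans ?_
  rw [Real.exp_neg, ← div_eq_inv_mul, div_le_iff₀ (Real.exp_pos Z)]
  refine hgP.tsum_le_of_sum_le fun s => ?_
  rw [← div_le_iff₀ (Real.exp_pos Z)]
  refine ge_of_tendsto hlim ?_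
  filter_upwards [eventually_gt_atTop ((s.image fun p : Nat.Primes => (p : ℕ)).sup id)] with N hN
  have hsub : s.image (fun p : Nat.Primes => (p : ℕ)) ⊆ N.primesBelow := fun q hq => by
    obtain ⟨p, -, rfl⟩ := Finset.mem_image.1 hq
    exact Nat.mem_primesBelow.2 ⟨(Finset.le_sup (f := id) hq).trans_lt hN, p.2⟩
  have h1 : ∑ p ∈ s, g p ≤ ∑ q ∈ N.primesBelow, g q := by
    rw [← Finset.sum_image (f := g) (s := s) Nat.Primes.coe_nat_injective.injOn]
    exact Finset.sum_le_sum_of_subset_of_nonneg hsub fun q _ _ => hg0 q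
  -- 1 + ∑ g ≤ ∏ (1 + g), and exp (-q ^ (-2 σ)) (1 + g q) is at most the Euler factor at q
  have h2 : ∀ t : Finset ℕ, ∑ q ∈ t, g q + 1 ≤ ∏ q ∈ t, (1 + g q) := fun t => by
    induction t using Finset.induction_on with
    | empty => simp
    | insert a t ha ih =>
      rw [Finset.sum_insert ha, Finset.prod_insert ha]
      have : 0 ≤ ∑ q ∈ t, g q := Finset.sum_nonneg fun q _ => hg0 q
      nlinarith [hg0 a, mul_nonneg (hg0 a) this]
  calc (∑ p ∈ s, g p) / Real.exp Z ≤ (∏ q ∈ N.primesBelow, (1 + g q)) / Real.exp Z :=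
        div_le_div_of_nonneg_right (by linarith [h2 N.primesBelow]) (Real.exp_pos Z).le
    _ ≤ Real.exp (∑ q ∈ N.primesBelow, -(((q : ℝ) ^ σ)⁻¹) ^ 2) * ∏ q ∈ N.primesBelow,
        (1 + g q) := by
        rw [div_eq_inv_mul, ← Real.exp_neg, Finset.sum_neg_distrib]
        refine mul_le_mul_of_nonneg_right (Real.exp_le_exp.2 (neg_le_neg ?_))
          (Finset.prod_nonneg fun q _ => by linarith [hg0 q])
        refine le_trans (Finset.sum_le_sum fun q hq => ?_)
          (hZ.sum_le_tsum _ fun q _ => by positivity)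
        have hq1 : (1 : ℝ) ≤ q := by exact_mod_cast (Nat.prime_of_mem_primesBelow hq).one_le
        rw [← inv_pow]
        gcongr
        exact Real.self_le_rpow_of_one_le hq1 hσ.le
    _ = ∏ q ∈ N.primesBelow, (Real.exp (-(((q : ℝ) ^ σ)⁻¹) ^ 2) * (1 + g q)) := by
        rw [Real.exp_sum, Finset.prod_mul_distrib]
    _ ≤ ∏ q ∈ N.primesBelow, ∑' k, gSer E (gN A.lam) σ (q ^ k) :=
        Finset.prod_le_prod (fun q _ => mul_nonneg (Real.exp_pos _).le (by linarith [hg0 q]))
          fun q hq => le_eulerFactor A hA hσ P hP (Nat.prime_of_mem_primesBelow hq)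

end Fermat.LT3
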