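import Fermat.Agent.LT3.Per.Class

/-!
# All periods vanish

`PS_eq_zero`: induction on the primes `ℓ ∣ E` at which the class is anisotropic, starting from the
isotropic classes (`Class`). Points of the same norm are moved into each other by the stabiliser;
what remains acts by the character `θ`. With `Kill` this shows in `Main/Lift` that a lift is
nonzero.
-/

set_option autoImplicit false
open Matrix QuadraticAlgebra MeasureTheory Filter
open scoped Classical MatrixGroups

namespace Fermat.LT3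
open Fermat.LT

/-- Reductions compose. -/
lemma castER_castER {a b n : ℕ} (hab : a ∣ b) (hbn : b ∣ n) (x : ER (ZMod n)) :
    castER a hab (castER b hbn x) = castER a (hab.trans hbn) x := by
  obtain ⟨y, rfl⟩ := red_surjective n x
  rw [castER_red, castER_red, castER_red]

/-- A residue is determined by its reductions modulo coprime factors. -/
lemma zmod_ext_coprime {n a b : ℕ} (hn : n = a * b) (hco : Nat.Coprime a b) {x y : ZMod n}
    (ha : ZMod.castHom (Dvd.intro b hn.symm) (ZMod a) x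
      = ZMod.castHom (Dvd.intro b hn.symm) (ZMod a) y)
    (hb : ZMod.castHom (Dvd.intro_left a hn.symm) (ZMod b) x
      = ZMod.castHom (Dvd.intro_left a hn.symm) (ZMod b) y) : x = y := by
  obtain ⟨i, rfl⟩ := ZMod.intCast_surjective x
  obtain ⟨j, rfl⟩ := ZMod.intCast_surjective y
  rw [map_intCast, map_intCast, ZMod.intCast_eq_intCast_iff_dvd_sub] at ha hb
  rw [ZMod.intCast_eq_intCast_iff_dvd_sub, hn]
  push_cast
  exact (Nat.isCoprime_iff_coprime.2 hco).mul_dvd ha hb

/-- An Eisenstein residue is determined by its reductions modulo coprime factors. -/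
lemma er_ext_coprime {n a b : ℕ} (hn : n = a * b) (hco : Nat.Coprime a b) {x y : ER (ZMod n)}
    (ha : castER a (Dvd.intro b hn.symm) x = castER a (Dvd.intro b hn.symm) y)
    (hb : castER b (Dvd.intro_left a hn.symm) x = castER b (Dvd.intro_left a hn.symm) y) : x = y :=
  QuadraticAlgebra.ext
    (zmod_ext_coprime hn hco (congrArg QuadraticAlgebra.re ha) (congrArg QuadraticAlgebra.re hb))
    (zmod_ext_coprime hn hco (congrArg QuadraticAlgebra.im ha) (congrArg QuadraticAlgebra.im hb))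

/-- A matrix is determined by its reductions modulo coprime factors. -/
lemma mat_ext_coprime {n a b : ℕ} (hn : n = a * b) (hco : Nat.Coprime a b)
    {X Y : Matrix (Fin 2) (Fin 2) (ER (ZMod n))}
    (ha : X.map (castER a (Dvd.intro b hn.symm)) = Y.map (castER a (Dvd.intro b hn.symm)))
    (hb : X.map (castER b (Dvd.intro_left a hn.symm))
      = Y.map (castER b (Dvd.intro_left a hn.symm))) :
    X = Y := by
  ext i j : 1
  exact er_ext_coprime hn hco (congrFun (congrFun ha i) j) (congrFun (congrFun hb i) j)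

/-- A change of rings commutes with `hAct`. -/
lemma map_hAct_erMap {R S : Type*} [CommRing R] [CommRing S] (f : R →+* S)
    (g X : Matrix (Fin 2) (Fin 2) (ER R)) :
    (hAct g X).map (erMap f) = hAct (g.map (erMap f)) (X.map (erMap f)) := by
  rw [hAct, hAct, Matrix.map_mul, Matrix.map_mul]
  congr 1
  ext i j : 1
  simp only [Matrix.map_apply, Matrix.conjTranspose_apply]
  exact erMap_star _ _

/-- A change of rings fixes `antiJ`. -/
lemma map_antiJ_erMap {R S : Type*} [CommRing R] [CommRing S] (f : R →+* S) :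
    (antiJ R).map (erMap f) = antiJ S := by
  ext i j : 1
  fin_cases i <;> fin_cases j <;> simp [antiJ]

/-- The modulus vanishes in the Eisenstein residues. -/
lemma natCast_ER_self (n : ℕ) : ((n : ℕ) : ER (ZMod n)) = 0 := by
  rw [← map_natCast (algebraMap (ZMod n) (ER (ZMod n))), ZMod.natCast_self, map_zero]

/-- The entries of a matrix reducing to one. -/
lemma gl_map_apply_of_eq_one {R S : Type*} [CommRing R] [CommRing S] (f : R →+* S)
    {g : GL (Fin 2) R} (h : Matrix.GeneralLinearGroup.map f g = 1) (i j : Fin 2) :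
    f (g.val i j) = (1 : Matrix (Fin 2) (Fin 2) S) i j := by
  rw [← Units.val_one, ← h]; rfl

section Unitary

variable {R : Type*} [CommRing R]

/-- The hermitian form `r₀ r̄₁ + r₁ r̄₀` of a row. -/
def dl (r : Fin 2 → ER R) : ER R := r 0 * star (r 1) + r 1 * star (r 0)

/-- The orthogonal frame of a row. -/
def frameM (r : Fin 2 → ER R) : Matrix (Fin 2) (Fin 2) (ER R) :=
  !![-star (r 0), star (r 1); r 0, r 1]

/-- The frame diagonalises the anti-diagonal form. -/
lemma frameM_form (r : Fin 2 → ER R) :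
    hAct (frameM r) (antiJ R) = !![-dl r, 0; 0, dl r] := by
  ext i j : 1
  fin_cases i <;> fin_cases j <;>
    simp [hAct, frameM, antiJ, dl, Matrix.mul_apply, Fin.sum_univ_two] <;> ring

/-- The determinant of the frame is minus the form of the row. -/
lemma det_frameM (r : Fin 2 → ER R) : (frameM r).det = -dl r := by
  rw [frameM, Matrix.det_fin_two_of, dl]; ring

/-- The form of a row is quadratic. -/
lemma dl_smul (μ : ER R) (r : Fin 2 → ER R) : dl (μ • r) = μ * star μ * dl r := by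
  simp [dl, star_mul']; ring

/-- Transitivity on anisotropic rows. -/
theorem exists_unitary {r r' : Fin 2 → ER R} {μ : ER R} (hδ : dl (μ • r) = dl r')
    (hu : IsUnit (dl r')) :
    ∃ g : Matrix (Fin 2) (Fin 2) (ER R), g.det = 1 ∧ hAct g (antiJ R) = antiJ R ∧
      ∀ j, r' 0 * g 0 j + r' 1 * g 1 j = μ * r j := by
  obtain ⟨v, hv⟩ := hu
  have hd : IsUnit (frameM r').det := by rw [det_frameM, ← hv]; exact v.isUnit.neg
  refine ⟨(frameM r')⁻¹ * frameM (μ • r), ?_, ?_, fun j => ?_⟩
  · have h1 := congrArg Matrix.det (Matrix.nonsing_inv_mul _ hd)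
    rw [Matrix.det_mul, Matrix.det_one, det_frameM r'] at h1
    rw [Matrix.det_mul, det_frameM, hδ, h1]
  · rw [hAct_mul, frameM_form, hδ, ← frameM_form, ← hAct_mul, Matrix.nonsing_inv_mul _ hd, hAct_one]
  · have h := congrFun (congrFun (show frameM r' * ((frameM r')⁻¹ * frameM (μ • r))
      = frameM (μ • r) by rw [← Matrix.mul_assoc, Matrix.mul_nonsing_inv _ hd, Matrix.one_mul]) 1) j
    generalize (frameM r')⁻¹ * frameM (μ • r) = g at h ⊢
    rw [Matrix.mul_apply, Fin.sum_univ_two] at h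
    fin_cases j <;> simpa [frameM] using h

end Unitary

/-- Every unit of `ZMod ℓ` is a norm. -/
lemma exists_norm_eq {ℓ : ℕ} [Fact ℓ.Prime] (h3 : ℓ ≠ 3) {c : ZMod ℓ} (hc : c ≠ 0) :
    ∃ x : ER (ZMod ℓ), x * star x = algebraMap (ZMod ℓ) (ER (ZMod ℓ)) c := by
  suffices ∃ a b : ZMod ℓ, a ^ 2 + a * b + b ^ 2 = c by
    obtain ⟨a, b, h⟩ := this
    refine ⟨⟨a, b⟩, ?_⟩
    apply QuadraticAlgebra.ext <;> simp [← h, sq] <;> ring
  by_cases h2 : ℓ = 2
  · subst h2
    obtain rfl : c = 1 := by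
      fin_cases c
      · exact absurd rfl hc
      · rfl
    exact ⟨1, 0, by simp⟩
  · have hodd : ringChar (ZMod ℓ) ≠ 2 := by rwa [ZMod.ringChar_zmod_n]
    have h2' : (2 : ZMod ℓ) ≠ 0 := Ring.two_ne_zero hodd
    have h3' : (3 : ZMod ℓ) ≠ 0 := fun h => h3 <| by
      have hh : ((3 : ℕ) : ZMod ℓ) = 0 := by exact_mod_cast h
      rw [ZMod.natCast_eq_zero_iff] at hh
      exact (Nat.prime_dvd_prime_iff_eq Fact.out Nat.prime_three).1 hh
    obtain ⟨a, b, hab⟩ := FiniteField.exists_root_sum_quadratic (R := ZMod ℓ)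
      (f := Polynomial.X ^ 2) (g := Polynomial.C 3 * Polynomial.X ^ 2 - Polynomial.C (4 * c))
      (Polynomial.degree_X_pow 2) (by
        rw [sub_eq_add_neg, ← Polynomial.C_neg, Polynomial.degree_add_C
          (by rw [Polynomial.degree_C_mul h3', Polynomial.degree_X_pow]; norm_num),
          Polynomial.degree_C_mul h3', Polynomial.degree_X_pow]; rfl)
      (by rw [ZMod.card]; exact Nat.odd_iff.1 ((Fact.out : ℓ.Prime).odd_of_ne_two h2))
    simp only [Polynomial.eval_pow, Polynomial.eval_X, Polynomial.eval_sub, Polynomial.eval_mul,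
      Polynomial.eval_C] at hab
    have hi : (2 : ZMod ℓ)⁻¹ * 2 = 1 := inv_mul_cancel₀ h2'
    refine ⟨(a - b) * 2⁻¹, b, ?_⟩
    linear_combination ((2 : ZMod ℓ)⁻¹ ^ 2) * hab
      + ((a - b) * (2 : ZMod ℓ)⁻¹ * (-b) + (c - b ^ 2) * ((2 : ZMod ℓ)⁻¹ * 2 + 1)) * hi

variable {E : ℕ} [NeZero E]

omit [NeZero E] in
/-- A matrix of determinant one with prescribed shadows. -/
theorem exists_patch {a b : ℕ} (hn : 3 * (3 * E) = a * b) (hco : Nat.Coprime a b)
    (X : Matrix (Fin 2) (Fin 2) (ER (ZMod a))) (hX : X.det = 1) :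
    ∃ g : GN (3 * E), g.val.det = 1 ∧ g.val.map (castER a (Dvd.intro b hn.symm)) = X ∧
      g.val.map (castER b (Dvd.intro_left a hn.symm)) = 1 := by
  obtain ⟨u, v, huv⟩ := Nat.isCoprime_iff_coprime.2 hco
  obtain ⟨m, hm⟩ : ∃ m : Matrix (Fin 2) (Fin 2) EI, m.map (red a) = X :=
    ⟨X.map (Function.surjInv (red_surjective a)), by
      ext i j : 1; exact Function.surjInv_eq (red_surjective a) (X i j)⟩
  set ε : ℤ := v * b
  set mm : Matrix (Fin 2) (Fin 2) EI := 1 + (ε : EI) • (m - 1)
  set G : Matrix (Fin 2) (Fin 2) (RN E) := mm.map (red (3 * (3 * E)))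
  have ha : G.map (castER a (Dvd.intro b hn.symm)) = X := by
    ext i j : 1
    simp only [G, Matrix.map_apply, castER_red, mm, Matrix.add_apply, Matrix.smul_apply,
      smul_eq_mul,
      Matrix.sub_apply, map_add, map_mul, map_sub, map_intCast]
    rw [show ((ε : ℤ) : ER (ZMod a)) = ((1 : ℤ) : ER (ZMod a)) from by
      rw [show ε = 1 - u * a by simp only [ε]; linarith]; simp [natCast_ER_self], ← hm]
    simp
  have hb : G.map (castER b (Dvd.intro_left a hn.symm)) = 1 := by
    ext i j : 1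
    simp only [G, Matrix.map_apply, castER_red, mm, Matrix.add_apply, Matrix.smul_apply,
      smul_eq_mul,
      map_add, map_mul, map_intCast]
    rw [show ((ε : ℤ) : ER (ZMod b)) = 0 by simp [ε, natCast_ER_self]]
    fin_cases i <;> fin_cases j <;> simp
  have hdet : G.det = 1 := by
    refine er_ext_coprime hn hco ?_ ?_
    · rw [RingHom.map_det, RingHom.mapMatrix_apply, ha, hX, map_one]
    · rw [RingHom.map_det, RingHom.mapMatrix_apply, hb, Matrix.det_one, map_one]
  exact ⟨Matrix.SpecialLinearGroup.toGL ⟨G, hdet⟩, hdet, ha, hb⟩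

omit [NeZero E] in
/-- Determinant one gives norm determinant one. -/
lemma ndet_of_det_one {g : GN (3 * E)} (h : g.val.det = 1) : ndet g = 1 := by simp [ndet, h]

/-- Reduction of the group. -/
noncomputable def plH {m : ℕ} (h : m ∣ 3 * (3 * E)) : GN (3 * E) →* GL (Fin 2) (ER (ZMod m)) :=
  Matrix.GeneralLinearGroup.map (castER m h)

omit [NeZero E] in
/-- The matrix of a reduction. -/
lemma plH_val {m : ℕ} (h : m ∣ 3 * (3 * E)) (g : GN (3 * E)) :
    (plH h g).val = g.val.map (castER m h) := rfl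

omit [NeZero E] in
/-- An element with trivial reduced matrix has trivial reduction. -/
lemma plH_eq_one {m : ℕ} (h : m ∣ 3 * (3 * E)) {g : GN (3 * E)}
    (hg : g.val.map (castER m h) = 1) : plH h g = 1 := Units.ext hg

omit [NeZero E] in
/-- A trivial reduction stays trivial modulo a divisor. -/
lemma plH_castER {m m' : ℕ} (h : m ∣ 3 * (3 * E)) (h' : m' ∣ m) {g : GN (3 * E)}
    (hg : plH h g = 1) : plH (h'.trans h) g = 1 := by
  refine Units.ext ?_
  have := congrArg (fun X : GL (Fin 2) (ER (ZMod m)) => X.val.map (castER m' h')) hg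
  simp only [plH_val, Matrix.map_map, Units.val_one] at this
  rw [plH_val, Units.val_one]
  refine Eq.trans ?_ (this.trans (Matrix.map_one _ (map_zero _) (map_one _)))
  ext i j : 1
  exact (castER_castER h' h _).symm

omit [NeZero E] in
/-- A divisor of `E` divides `9E`. -/
lemma dvdN {m : ℕ} (h : m ∣ E) : m ∣ 3 * (3 * E) :=
  h.trans ((dvd_mul_left E 3).trans (dvd_mul_left _ 3))

/-- The second row of the inverse. -/
noncomputable def rowL {ℓ : ℕ} (hl : ℓ ∣ E) (M : GN (3 * E)) : Fin 2 → ER (ZMod ℓ) :=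
  fun j => (plH (dvdN hl) M⁻¹).val 1 j

omit [NeZero E] in
/-- The form of the row is the last coordinate of the class point modulo `ℓ`. -/
lemma dl_rowL {ℓ : ℕ} (hl : ℓ ∣ E) (M : GN (3 * E)) :
    dl (rowL hl M) = (((mu3 M).2.2 : ℤ) : ER (ZMod ℓ)) := by
  have h3 : ℓ ∣ 3 * E := hl.trans (dvd_mul_left E 3)
  have h := congrArg (fun X : Matrix (Fin 2) (Fin 2) (R3 E) => castER ℓ h3 (X 1 1)) (hm_eq M)
  simp only [hE_map_apply] at h
  simp only [Matrix.of_apply, Matrix.cons_val', Matrix.cons_val_one, Matrix.cons_val_fin_one,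
    map_intCast] at h
  rw [h]
  have e : ∀ x : RN E, castER ℓ h3 (redD x) = castER ℓ (dvdN hl) x := fun x =>
    castER_castER h3 _ x
  have es : ∀ x : R3 E, castER ℓ h3 (star x) = star (castER ℓ h3 x) := fun x => erMap_star _ _
  simp only [dl, rowL, Hm, plH_val, mat3]
  generalize M⁻¹ = Mi
  simp [hAct, antiJ, Matrix.mul_apply, Fin.sum_univ_two, e, es]
  ring

/-- The periods depend only on the class modulo the stabiliser. -/
lemma PS_StG_mul (A : Auto E) {h : GN (3 * E)} (hh : h ∈ StG E) (M : GN (3 * E)) (F : ℝ → ℂ) :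
    PS A (h * M) F = PS A M F := by
  simp only [PS]
  refine Fintype.sum_equiv (Equiv.mulRight (⟨h, hh⟩ : StG E)) _ _ fun g => ?_
  simp [mul_assoc]

/-- Elements triangular modulo `E` act on the periods by the character `θ`. -/
lemma PS_borel (A : TAuto E) (M : GN (3 * E)) {b : GN (3 * E)} (h1 : b.val.map (castPi E) = 1)
    (h2 : castEh E (b.val 1 0) = 0) (F : ℝ → ℂ) :
    PS A.toAuto (M * b) F
      = A.θ (castEh E (b.val 0 0) * castEh E (b.val 1 1) ^ 2) * PS A.toAuto M F := by
  simp only [PS, Finset.mul_sum, Per3]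
  refine Finset.sum_congr rfl fun g _ => ?_
  rw [← integral_const_mul]
  refine integral_congr_ae (Eventually.of_forall fun v => ?_)
  simp only [pIn, ← mul_assoc (g : GN (3 * E)), A.borel b _ h1 h2]
  ring

/-- The periods sum to zero over `SLpi` at a prime dividing `E`. -/
lemma sum_PS_slZero (A : TAuto E) {π : EI} (hπ : Prime π) (hπE : π ∣ (E : EI)) (M : GN (3 * E))
    {F : ℝ → ℂ} (hF : Samp.Decay F) :
    ∑ k ∈ (Finset.univ : Finset (GN (3 * E))).filter (SLpi E π), PS A.toAuto (M * k) F = 0 := by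
  simp only [PS]
  rw [Finset.sum_comm]
  refine Finset.sum_eq_zero fun g _ => ?_
  simp only [Per3]
  rw [← integral_finsetSum _ fun k _ => integrable_pIn A.toAuto _ hF]
  refine integral_eq_zero_of_ae (Eventually.of_forall fun v => ?_)
  simp only [pIn, ← Finset.mul_sum, ← Finset.sum_mul, ← mul_assoc (g : GN (3 * E)),
    A.slZero π hπ hπE, zero_mul, mul_zero, Pi.zero_apply]

/-- **Moving one anisotropic class to another.** -/
theorem exists_move (A : TAuto E) (hco3 : Nat.Coprime E 3) {ℓ E' : ℕ} (hE : E = ℓ * E')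
    (hco : Nat.Coprime ℓ E') (M k : GN (3 * E)) (hk : k.val.map (castPi E) = 1)
    (hkd : k.val.det = 1) (hk' : plH (dvdN (Dvd.intro_left ℓ hE.symm)) k = 1) {μ : ER (ZMod ℓ)}
    (hδ : μ * star μ * dl (rowL (Dvd.intro E' hE.symm) M)
      = dl (rowL (Dvd.intro E' hE.symm) (M * k)))
    (hu : IsUnit (dl (rowL (Dvd.intro E' hE.symm) (M * k)))) (F : ℝ → ℂ) :
    ∃ u : ER (ZMod E), IsUnit u ∧ castER ℓ (Dvd.intro E' hE.symm) u = μ ∧
      castER E' (Dvd.intro_left ℓ hE.symm) u = 1 ∧
      PS A.toAuto M F = A.θ u * PS A.toAuto (M * k) F := by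
  have hl : ℓ ∣ E := Dvd.intro E' hE.symm
  have hl' : E' ∣ E := Dvd.intro_left ℓ hE.symm
  -- a unitary g0 mod ℓ, patched with 1 to an element h of StG E
  obtain ⟨g0, g0d, g0J, g0r⟩ := exists_unitary ((dl_smul μ _).trans hδ) hu
  have hn : 3 * (3 * E) = ℓ * (3 * (3 * E')) := by rw [hE]; ring
  have hl3 : Nat.Coprime ℓ 3 := Nat.Coprime.coprime_dvd_left hl hco3
  have hco' : Nat.Coprime ℓ (3 * (3 * E')) := hl3.mul_right (hl3.mul_right hco)
  obtain ⟨h, hhd, hha, hhb⟩ := exists_patch hn hco' g0 g0d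
  have hh : h ∈ StG E := by
    refine ⟨ndet_of_det_one hhd, ?_⟩
    have e : hAct h.val (antiJ (ZMod (3 * (3 * E)))) = antiJ (ZMod (3 * (3 * E))) := by
      refine mat_ext_coprime hn hco' ?_ ?_
      · rw [castER, map_hAct_erMap, map_antiJ_erMap]
        rw [castER] at hha
        rw [hha, g0J]
      · rw [castER, map_hAct_erMap, map_antiJ_erMap]
        rw [castER] at hhb
        rw [hhb, hAct_one]
    have := congrArg (fun X : Matrix (Fin 2) (Fin 2) (RN E) => X.map redD) e
    simp only [redD, castER, map_hAct_erMap, map_antiJ_erMap] at this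
    exact this
  -- b = (M k)⁻¹ h M is 1 mod 3 and mod E', with bottom row (0, μ) mod ℓ
  set b := (M * k)⁻¹ * (h * M) with hb
  have hb' : M * k * b = h * M := by rw [hb, mul_inv_cancel_left]
  have hone : ∀ {m : ℕ} (hm : m ∣ 3 * (3 * E)), plH hm h = 1 → plH hm k = 1 → plH hm b = 1 :=
    fun {m} hm e1 e2 => by simp [hb, e1, e2]
  have h9 : plH (Dvd.intro_left ℓ hn.symm) h = 1 := plH_eq_one _ hhb
  have hE9 : E' ∣ 3 * (3 * E') := (dvd_mul_left E' 3).trans (dvd_mul_left _ 3)
  have hbE' : plH (dvdN hl') b = 1 := hone _ (plH_castER (Dvd.intro_left ℓ hn.symm) hE9 h9) hk'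
  have hb3 : b.val.map (castPi E) = 1 := by
    have e3 : plH (dvd_mul_right 3 (3 * E)) h = 1 :=
      plH_castER (Dvd.intro_left ℓ hn.symm) (dvd_mul_right 3 _) h9
    set P : GN (3 * E) →* GL (Fin 2) (ZMod 3) := Matrix.GeneralLinearGroup.map (castPi E)
    have eh : P h = 1 := by
      refine Units.ext ?_
      have := congrArg (fun X : GL (Fin 2) (ER (ZMod 3)) => X.val.map piHom) e3
      simp only [plH_val, Matrix.map_map, Units.val_one] at this
      exact this.trans (Matrix.map_one _ (map_zero _) (map_one _))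
    have ek : P k = 1 := Units.ext hk
    have : P b = 1 := by simp [hb, eh, ek]
    exact congrArg Units.val this
  have hrow : ∀ j, (plH (dvdN hl) b).val 1 j = μ * (if j = 1 then 1 else 0) := fun j => by
    have e : plH (dvdN hl) b = plH (dvdN hl) (M * k)⁻¹ * plH (dvdN hl) h * plH (dvdN hl) M := by
      rw [hb, map_mul, map_mul, mul_assoc]
    have eh : (plH (dvdN hl) h).val = g0 := hha
    rw [e, Units.val_mul, Units.val_mul, eh]
    have r0 : (plH (dvdN hl) M⁻¹).val * (plH (dvdN hl) M).val = 1 := by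
      rw [← Units.val_mul, ← map_mul, inv_mul_cancel, map_one, Units.val_one]
    have r1 := congrFun (congrFun r0 1) j
    simp only [rowL] at g0r
    have g00 := g0r 0
    have g01 := g0r 1
    simp only [Matrix.mul_apply, Fin.sum_univ_two, Matrix.one_apply] at r1 ⊢
    rw [g00, g01]
    rw [show (if j = 1 then (1 : ER (ZMod ℓ)) else 0) = if (1 : Fin 2) = j then 1 else 0 by
      simp [eq_comm], ← r1]
    ring
  have hdetb : b.val.det = 1 := by
    have := congrArg (fun X : GN (3 * E) => X.val.det) hb'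
    simp only [Units.val_mul, Matrix.det_mul, hhd, hkd, mul_one, one_mul] at this
    have hMu : IsUnit M.val.det := (Matrix.isUnit_iff_isUnit_det _).1 M.isUnit
    exact hMu.mul_left_cancel (this.trans (mul_one _).symm)
  have eE : ∀ x : RN E, castER ℓ hl (castEh E x) = castER ℓ (dvdN hl) x := fun x =>
    castER_castER hl _ x
  have eE' : ∀ x : RN E, castER E' hl' (castEh E x) = castER E' (dvdN hl') x := fun x =>
    castER_castER hl' _ x
  have b' : ∀ i j, castER E' (dvdN hl') (b.val i j) =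
      (1 : Matrix (Fin 2) (Fin 2) (ER (ZMod E'))) i j :=
    fun i j => gl_map_apply_of_eq_one _ hbE' i j
  have h10 : castEh E (b.val 1 0) = 0 := by
    refine er_ext_coprime hE hco ?_ ?_
    · rw [eE, map_zero]
      simpa [plH_val] using hrow 0
    · rw [eE', map_zero, b']
      simp
  have h11 : castER ℓ (dvdN hl) (b.val 1 1) = μ := by simpa [plH_val] using hrow 1
  have hd : castEh E (b.val 0 0) * castEh E (b.val 1 1) = 1 := by
    have := congrArg (castEh E) hdetb
    rw [Matrix.det_fin_two, map_sub, map_mul, map_mul, h10, mul_zero, sub_zero, map_one] at this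
    exact this
  -- u = b₀₀ b₁₁², using PS_StG_mul and PS_borel
  refine ⟨castEh E (b.val 0 0) * castEh E (b.val 1 1) ^ 2, ?_, ?_, ?_, ?_⟩
  · have h00 : IsUnit (castEh E (b.val 0 0)) := IsUnit.of_mul_eq_one _ hd
    have h11' : IsUnit (castEh E (b.val 1 1)) := IsUnit.of_mul_eq_one _ ((mul_comm _ _).trans hd)
    exact h00.mul (h11'.pow 2)
  · rw [sq, ← mul_assoc, hd, one_mul, eE, h11]
  · rw [sq, ← mul_assoc, hd, one_mul, eE', b']
    simp
  · rw [← PS_StG_mul A.toAuto hh M F, ← hb', PS_borel A (M * k) hb3 h10]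

/-- The primes of `E` not dividing the last coordinate of `mu3 M`. -/
noncomputable def badP (M : GN (3 * E)) : Finset ℕ :=
  E.primeFactors.filter fun ℓ => ((mu3 M).2.2 : ZMod ℓ) ≠ 0

omit [NeZero E] in
/-- For squarefree `E` a class without anisotropic primes is isotropic. -/
lemma iso0_of_badP (hsq : Squarefree E) {M : GN (3 * E)} (h : badP M = ∅) : Iso0 M := by
  rw [Iso0, Int.natCast_dvd]
  refine (dvd_of_eq (Nat.prod_primeFactors_of_squarefree hsq).symm).trans ?_
  refine Finset.prod_primes_dvd _ (fun p hp => (Nat.prime_of_mem_primeFactors hp).prime)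
    fun p hp => ?_
  have := Finset.filter_eq_empty_iff.1 h hp
  rw [not_not, ZMod.intCast_zmod_eq_zero_iff_dvd, Int.natCast_dvd] at this
  exact this

omit [NeZero E] in
/-- An element one on the cofactor is one up to `ℓ`-torsion. -/
lemma sub_one_mul_eq_zero_of_castER {ℓ E' : ℕ} (hE : E = ℓ * E') (hco : Nat.Coprime ℓ E')
    {u : ER (ZMod E)}
    (hu : castER E' (Dvd.intro_left ℓ hE.symm) u = 1) : (u - 1) * (ℓ : ER (ZMod E)) = 0 :=
  er_ext_coprime hE hco (by simp [natCast_ER_self]) (by simp [hu])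

/-- A number prime to `E'` is a unit in `ℤ[ω]/E'`. -/
lemma isUnit_natCast_ER {ℓ E' : ℕ} (hco : Nat.Coprime ℓ E') :
    IsUnit ((ℓ : ℕ) : ER (ZMod E')) := by
  have h1 : IsUnit ((ℓ : ℕ) : ZMod E') := (ZMod.isUnit_iff_coprime _ _).2 hco
  simpa using h1.map (algebraMap (ZMod E') (ER (ZMod E')))

/-- A rational prime is not a unit of `EI`. -/
lemma not_isUnit_natCast_EI {ℓ : ℕ} (hp : ℓ.Prime) : ¬ IsUnit (ℓ : EI) := fun h => by
  have h1 := Int.isUnit_iff.1 (h.map (QuadraticAlgebra.norm : EI →* ℤ))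
  simp [QuadraticAlgebra.norm_def] at h1
  have h2 : (2 : ℤ) ≤ ℓ := by exact_mod_cast hp.two_le
  rcases h1 with h1 | h1 <;> nlinarith

/-- A rational integer has a prime factor in `EI`. -/
lemma exists_prime_dvd_natCast [IsPrincipalIdealRing EI] {ℓ : ℕ} (hp : ℓ.Prime) :
    ∃ π : EI, Prime π ∧ π ∣ (ℓ : EI) := by
  obtain ⟨π, hirr, hπd⟩ := WfDvdMonoid.exists_irreducible_factor (not_isUnit_natCast_EI hp)
    (Nat.cast_ne_zero.2 hp.ne_zero)
  exact ⟨π, hirr.prime, hπd⟩

omit [NeZero E] in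
/-- The norm of the row only depends on the class modulo `q`. -/
lemma mu3_congr_of_plH {q : ℕ} (hq : q ∣ E) (M : GN (3 * E)) {k : GN (3 * E)}
    (hk : plH (dvdN hq) k = 1) : ((mu3 (M * k)).2.2 : ZMod q) = ((mu3 M).2.2 : ZMod q) := by
  have er : rowL hq (M * k) = rowL hq M := by
    funext j
    simp [rowL, hk]
  have := dl_rowL hq (M * k)
  rw [er, dl_rowL hq M] at this
  have h2 := congrArg QuadraticAlgebra.re this
  simp at h2
  exact h2.symm

/-- A nontrivial character on norm one units kills the period. -/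
lemma PS_eq_zero_of_theta (A : TAuto E) (hco : Nat.Coprime E 3) {ℓ E' : ℕ} [Fact ℓ.Prime]
    (hE : E = ℓ * E') (hcol : Nat.Coprime ℓ E') {M : GN (3 * E)}
    (hd : ((mu3 M).2.2 : ZMod ℓ) ≠ 0) {u0 : ER (ZMod E)} (hn1 : QuadraticAlgebra.norm u0 = 1)
    (hl0 : (u0 - 1) * (ℓ : ER (ZMod E)) = 0) (hθ : A.θ u0 ≠ 1) (F : ℝ → ℂ) :
    PS A.toAuto M F = 0 := by
  have hl : ℓ ∣ E := Dvd.intro E' hE.symm
  have hl' : E' ∣ E := Dvd.intro_left ℓ hE.symm
  have h1 : castER E' hl' u0 = 1 := by
    have := congrArg (castER E' hl') hl0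
    simp only [map_mul, map_sub, map_one, map_natCast, map_zero] at this
    exact sub_eq_zero.1 ((isUnit_natCast_ER hcol).mul_left_eq_zero.1 this)
  have hns : castER ℓ hl u0 * star (castER ℓ hl u0) = 1 := by
    have hs : star (castER ℓ hl u0) = castER ℓ hl (star u0) := (erMap_star _ _).symm
    rw [hs, ← map_mul, ← QuadraticAlgebra.algebraMap_norm_eq_mul_star, hn1, map_one, map_one]
  have hu : IsUnit (dl (rowL hl (M * 1))) := by
    rw [mul_one, dl_rowL, ← map_intCast (algebraMap (ZMod ℓ) (ER (ZMod ℓ)))]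
    exact (isUnit_iff_ne_zero.2 hd).map _
  obtain ⟨u, -, hua, hub, he'⟩ := exists_move A hco hE hcol M 1
    (by simp [Matrix.map_one]) (by simp) (map_one _) (μ := castER ℓ hl u0)
    (by rw [mul_one, hns, one_mul]) hu F
  rw [mul_one, er_ext_coprime hE hcol hua (hub.trans h1.symm)] at he'
  exact (mul_eq_zero.1 (show (1 - A.θ u0) * PS A.toAuto M F = 0 by
    linear_combination he')).resolve_left (sub_ne_zero.2 (Ne.symm hθ))

/-- A lift of an element congruent to one modulo `π` which is trivial away from `ℓ`. -/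
lemma exists_slpi_lift (A : TAuto E) (hco : Nat.Coprime E 3) {ℓ E' : ℕ} (hE : E = ℓ * E')
    (hcol : Nat.Coprime ℓ E') {π : EI} (hπℓ : π ∣ (ℓ : EI)) {M k : GN (3 * E)} (hM : ndet M = 1)
    (hk : SLpi E π k) (F : ℝ → ℂ) :
    ∃ k1 : GN (3 * E), ndet (M * k1) = 1 ∧ PS A.toAuto (M * k) F = PS A.toAuto (M * k1) F ∧
      k1.val.map (castPi E) = 1 ∧ k1.val.det = 1 ∧
      plH (dvdN (Dvd.intro_left ℓ hE.symm)) k1 = 1 ∧
      k1.val.map (castEh E) = k.val.map (castEh E) := by
  obtain ⟨hk3, hkd, hkπ⟩ := hk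
  have hl' : E' ∣ E := Dvd.intro_left ℓ hE.symm
  have hE'u := isUnit_natCast_ER hcol
  have hn9 : 3 * (3 * E) = E * 9 := by ring
  -- k1: equal to k mod E and 1 mod 9
  obtain ⟨k1, hd1, ha, hb⟩ := exists_patch (E := E) hn9
    (Nat.Coprime.mul_right hco hco) (k.val.map (castEh E)) hkd
  have h3 : k1.val.map (castPi E) = 1 := by
    have := congrArg (fun X : Matrix (Fin 2) (Fin 2) (ER (ZMod 9)) =>
      (X.map (castER 3 (by norm_num : 3 ∣ 9))).map piHom) hb
    simp only [Matrix.map_map] at this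
    refine Eq.trans ?_ (this.trans ?_)
    · ext i j : 1
      exact congrArg piHom (castER_castER _ _ _).symm
    · ext i j : 1
      fin_cases i <;> fin_cases j <;> simp
  set P : GN (3 * E) →* GL (Fin 2) (ZMod 3) := Matrix.GeneralLinearGroup.map (castPi E)
  set Q : GN (3 * E) →* GL (Fin 2) (ER (ZMod E)) := Matrix.GeneralLinearGroup.map (castEh E)
  -- k1⁻¹ k is 1 mod 3 and mod E, so PS does not change
  have q3 : P (k1⁻¹ * k) = 1 := by
    rw [map_mul, map_inv, show P k = 1 from Units.ext hk3, show P k1 = 1 from Units.ext h3,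
      inv_one, one_mul]
  have qE : Q (k1⁻¹ * k) = 1 := by
    rw [map_mul, map_inv, show Q k1 = Q k from Units.ext ha, inv_mul_cancel]
  have qij : ∀ i j, castEh E ((k1⁻¹ * k).val i j) =
        (1 : Matrix (Fin 2) (Fin 2) (ER (ZMod E))) i j :=
    fun i j => gl_map_apply_of_eq_one _ qE i j
  refine ⟨k1, by rw [ndet_mul, hM, ndet_of_det_one hd1, one_mul], ?_, h3, hd1, ?_, ha⟩
  · have hb' := PS_borel A (M * k1) (congrArg Units.val q3) (by rw [qij]; simp) F
    rw [qij, qij] at hb'
    rw [show M * k = M * k1 * (k1⁻¹ * k) by rw [mul_assoc, mul_inv_cancel_left], hb']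
    simp
  -- mod E': π ∣ ℓ and ℓ is a unit, so k = 1 there
  · refine Units.ext ?_
    rw [plH_val, Units.val_one]
    obtain ⟨c, hc⟩ := hπℓ
    ext i j : 1
    have e1 := congrArg (fun X : Matrix (Fin 2) (Fin 2) (ER (ZMod E)) =>
      castER E' hl' (red E c) * castER E' hl' (X i j)) hkπ
    simp only [Matrix.smul_apply, smul_eq_mul, Matrix.zero_apply, map_mul, map_zero,
      mul_zero] at e1
    rw [← mul_assoc, ← map_mul (castER E' hl'), ← map_mul (red E), mul_comm c π, ← hc,
      map_natCast, map_natCast,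
      Matrix.sub_apply, map_sub] at e1
    have e2 := sub_eq_zero.1 (hE'u.mul_right_eq_zero.1 e1)
    have ea := congrFun (congrFun ha i) j
    calc castER E' (dvdN hl') (k1.val i j) = castER E' hl' (castEh E (k1.val i j)) :=
          (castER_castER hl' _ _).symm
      _ = castER E' hl' (k.val.map (castEh E) i j) := congrArg _ ea
      _ = castER E' hl' ((1 : Matrix (Fin 2) (Fin 2) (ER (ZMod E))) i j) := e2
      _ = _ := by fin_cases i <;> fin_cases j <;> simp

omit [NeZero E] in
/-- The anisotropic primes decrease. -/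
lemma badP_card_lt {ℓ E' : ℕ} (hE : E = ℓ * E') {M k : GN (3 * E)} (hℓm : ℓ ∈ badP M)
    (hk : plH (dvdN (Dvd.intro_left ℓ hE.symm)) k = 1)
    (h0 : ((mu3 (M * k)).2.2 : ZMod ℓ) = 0) : (badP (M * k)).card < (badP M).card := by
  have hp := Nat.prime_of_mem_primeFactors (Finset.mem_filter.1 hℓm).1
  refine Finset.card_lt_card (Finset.ssubset_iff_subset_ne.2 ⟨fun q hq => ?_, fun h => ?_⟩)
  · obtain ⟨hqp, hqd⟩ := Finset.mem_filter.1 hq
    refine Finset.mem_filter.2 ⟨hqp, ?_⟩
    by_cases hql : q = ℓ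
    · subst hql; exact absurd h0 hqd
    have hqE : q ∣ E := Nat.dvd_of_mem_primeFactors hqp
    have hq' : q ∣ E' := by
      refine (Nat.Prime.dvd_mul (Nat.prime_of_mem_primeFactors hqp)).1 (hE ▸ hqE)
        |>.resolve_left fun h => hql ?_
      exact (Nat.prime_dvd_prime_iff_eq (Nat.prime_of_mem_primeFactors hqp) hp).1 h
    rw [← mu3_congr_of_plH hqE M (plH_castER (dvdN (Dvd.intro_left ℓ hE.symm)) hq' hk)]
    exact hqd
  · have : ℓ ∈ badP (M * k) := h ▸ hℓm
    exact (Finset.mem_filter.1 this).2 h0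

/-- **The periods vanish.** If all the coefficients `κ₃` vanish, so do the periods summed over the
stabiliser. -/
theorem PS_eq_zero [IsPrincipalIdealRing EI] (A : TAuto E) (hco : Nat.Coprime E 3)
    (hsq : Squarefree E)
    (hvan : ∀ cls φ, kap A.toAuto (spec (E := E) cls φ) 3 = 0) {F : ℝ → ℂ} (hF : Samp.Decay F)
    (he : IsEvenF F) : ∀ {M : GN (3 * E)}, ndet M = 1 → PS A.toAuto M F = 0 := by
  suffices ∀ n : ℕ, ∀ M : GN (3 * E), (badP M).card = n → ndet M = 1 → PS A.toAuto M F = 0 by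
    exact fun {M} h => this _ M rfl h
  intro n
  induction n using Nat.strong_induction_on with
  | _ n ih =>
  intro M hn hM
  rcases (badP M).eq_empty_or_nonempty with h0 | ⟨ℓ, hℓm⟩
  · exact PS_eq_zero_of_iso A hco hvan hM (iso0_of_badP hsq h0) hF he
  obtain ⟨hℓp, hd⟩ := Finset.mem_filter.1 hℓm
  have hp := Nat.prime_of_mem_primeFactors hℓp
  have := Fact.mk hp
  obtain ⟨E', hE⟩ := Nat.dvd_of_mem_primeFactors hℓp
  have hcol : Nat.Coprime ℓ E' := Nat.coprime_of_squarefree_mul (hE ▸ hsq)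
  have hl : ℓ ∣ E := Dvd.intro E' hE.symm
  have hℓ3 : ℓ ≠ 3 := fun h => by
    have := Nat.Coprime.coprime_dvd_left hl hco
    rw [h] at this
    norm_num at this
  have eint : ∀ z : ℤ, ((z : ℤ) : ER (ZMod ℓ)) = algebraMap (ZMod ℓ) (ER (ZMod ℓ)) (z : ZMod ℓ) :=
    fun z => (map_intCast _ _).symm
  rcases A.dich ℓ hp hl with ⟨u0, hn1, hl0, hθ⟩ | htriv
  · exact PS_eq_zero_of_theta A hco hE hcol hd hn1 hl0 hθ F
  -- the character is trivial
  obtain ⟨π, hπ, hπℓ⟩ := exists_prime_dvd_natCast hp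
  have hπE : π ∣ (E : EI) := hπℓ.trans (by exact_mod_cast (Nat.cast_dvd_cast (α := EI) hl))
  choose! k1 hk1 using fun k (hk : k ∈ (Finset.univ : Finset (GN (3 * E))).filter (SLpi E π)) =>
    exists_slpi_lift A hco hE hcol hπℓ hM (Finset.mem_filter.1 hk).2 F
  have hval : ∀ k ∈ (Finset.univ : Finset (GN (3 * E))).filter (SLpi E π),
      PS A.toAuto (M * k) F
        = if ((mu3 (M * k1 k)).2.2 : ZMod ℓ) = 0 then 0 else PS A.toAuto M F := by
    intro k hk
    obtain ⟨hnd, hps, h3, hdt, hE'1, -⟩ := hk1 k hk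
    rw [hps]
    split_ifs with h0
    · exact ih _ (hn ▸ badP_card_lt hE hℓm hE'1 h0) _ rfl hnd
    · set d := ((mu3 M).2.2 : ZMod ℓ)
      set d' := ((mu3 (M * k1 k)).2.2 : ZMod ℓ)
      obtain ⟨μ, hμ⟩ := exists_norm_eq hℓ3 (c := d' * d⁻¹) (mul_ne_zero h0 (inv_ne_zero hd))
      obtain ⟨u, huu, -, hub, he'⟩ := exists_move A hco hE hcol M (k1 k) h3 hdt hE'1 (μ := μ)
        (by rw [dl_rowL, dl_rowL, eint, eint, hμ, ← map_mul, inv_mul_cancel_right₀ hd])
        (by rw [dl_rowL, eint]; exact (isUnit_iff_ne_zero.2 h0).map _) F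
      rw [he', htriv u huu (sub_one_mul_eq_zero_of_castER hE hcol hub), one_mul]
  have hs := sum_PS_slZero A hπ hπE M hF
  rw [Finset.sum_congr rfl hval, Finset.sum_ite, Finset.sum_const_zero, zero_add,
    Finset.sum_const] at hs
  refine (smul_eq_zero.1 hs).resolve_left (Finset.card_ne_zero.2 ⟨1, ?_⟩)
  have h1m : (1 : GN (3 * E)) ∈ (Finset.univ : Finset (GN (3 * E))).filter (SLpi E π) :=
    Finset.mem_filter.2 ⟨Finset.mem_univ _, Matrix.map_one _ (map_zero _) (map_one _),
      by simp, by simp⟩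
  refine Finset.mem_filter.2 ⟨h1m, fun h0 => ?_⟩
  obtain ⟨hnd, -, h3, hdt, hE'1, hkE⟩ := hk1 1 h1m
  apply hd
  have hl1 : plH (dvdN hl) (k1 1) = 1 := by
    refine Units.ext ?_
    ext i j : 1
    rw [plH_val, Matrix.map_apply, Units.val_one, ← castER_castER hl
      ((dvd_mul_left E 3).trans (dvd_mul_left _ 3))]
    have := congrArg (castER ℓ hl) (congrFun (congrFun hkE i) j)
    refine this.trans ?_
    fin_cases i <;> fin_cases j <;> simp
  rw [← mu3_congr_of_plH hl M hl1]
  exact h0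

end Fermat.LT3
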