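import Fermat.Agent.LT3.Per.Translate
import Fermat.Agent.LT3.Per.Induct
import Fermat.Agent.LT3.KData
import Fermat.Agent.LT3.Coef.Zero
import Fermat.Agent.LT.Mult.Char
import Fermat.Agent.LT.Domain

/-!
# Fourier coefficients on horospheres

`hCoef D E f η t` is the coefficient of `z ↦ f (z, t)` at the frequency `η / 3E`, and `Bc D A` that
of the functions of `A`; `eCoef` is that of a family at the normalised height `1 / |η / 3E|`.
-/

set_option autoImplicit false
open Matrix MeasureTheory Filter NumberField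
open scoped Real

namespace Fermat.LT3
open Fermat.LT

/-- Upper triangular matrices in coordinates. -/
lemma smul_mk_upper (g : GL (Fin 2) ℂ) (h : (g : Matrix (Fin 2) (Fin 2) ℂ) 1 0 = 0) (z : ℂ) {t : ℝ}
    (ht : 0 < t) :
    g • H3.mk z t =
      H3.mk (((g : Matrix (Fin 2) (Fin 2) ℂ) 0 0 * z + (g : Matrix (Fin 2) (Fin 2) ℂ) 0 1)
        / (g : Matrix (Fin 2) (Fin 2) ℂ) 1 1)
      (‖(g : Matrix (Fin 2) (Fin 2) ℂ).det‖ * t
        / Complex.normSq ((g : Matrix (Fin 2) (Fin 2) ℂ) 1 1)) := by
  conv_lhs => rw [H3.mk_of_pos z ht, MulAction.Quotient.smul_coe, smul_eq_mul, eq_triMat]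
  rw [← H3.mk_of_pos, zc_mul_triMat_of_upper _ h z ht, tc_mul_triMat _ z ht, h]
  simp

/-- A translation in `GL₂(ℤ[ω])` translates the horizontal coordinate. -/
lemma gC_trI_smul (x : EI) (z : ℂ) {t : ℝ} (ht : 0 < t) :
    gC (trI x) • H3.mk z t = H3.mk (z + toC x) t := by
  rw [smul_mk_upper _ (by simp [gC_coe, trI, upE]) z ht, norm_det_gC]
  simp [gC_coe, trI, upE]

/-- `exp (4πi Re w)`. -/
noncomputable def chiC (w : ℂ) : ℂ := Complex.exp (4 * π * Complex.I * (w.re : ℂ))

/-- `chiC` is a character. -/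
lemma chiC_add (a b : ℂ) : chiC (a + b) = chiC a * chiC b := by
  rw [chiC, chiC, chiC, ← Complex.exp_add]; push_cast [Complex.add_re]; ring_nf

/-- `chiC` is one at zero. -/
@[simp] lemma chiC_zero : chiC 0 = 1 := by simp [chiC]

/-- `chiC` is continuous. -/
lemma continuous_chiC : Continuous chiC := by unfold chiC; fun_prop

/-- `chiC` takes values on the unit circle. -/
lemma norm_chiC (w : ℂ) : ‖chiC w‖ = 1 := by
  rw [chiC, show (4 * π * Complex.I * (w.re : ℂ)) = ((4 * π * w.re : ℝ) : ℂ) * Complex.I by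
    push_cast; ring]
  exact Complex.norm_exp_ofReal_mul_I _

/-- Twice the real part of an Eisenstein integer is an integer. -/
lemma two_re_toC (x : EI) : 2 * (toC x).re = ((2 * x.re + x.im : ℤ) : ℝ) := by
  rw [toC_apply, emb_re]; push_cast; ring

/-- The character is trivial exactly where twice the real part is an integer. -/
lemma chiC_eq_one_iff (w : ℂ) : chiC w = 1 ↔ ∃ n : ℤ, 2 * w.re = n := by
  rw [chiC, Complex.exp_eq_one_iff]
  constructor <;> rintro ⟨n, hn⟩ <;> refine ⟨n, ?_⟩
  · have hne : (2 * π * Complex.I : ℂ) ≠ 0 := by simp [Real.pi_ne_zero, Complex.I_ne_zero]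
    have h2 : ((2 * w.re : ℝ) : ℂ) = (n : ℂ) := mul_left_cancel₀ hne (by
      push_cast; linear_combination hn)
    exact_mod_cast h2
  · have h2 : ((2 * w.re : ℝ) : ℂ) = (n : ℂ) := by exact_mod_cast congrArg (fun r : ℝ => (r : ℂ)) hn
    push_cast at h2
    linear_combination (2 * π * Complex.I) * h2

/-- `chiC` is trivial on `ℤ[ω]`. -/
lemma chiC_toC (x : EI) : chiC (toC x) = 1 := (chiC_eq_one_iff _).2 ⟨_, two_re_toC x⟩

/-- The frequency `η / 3E`. -/
noncomputable def fr (E : ℕ) (η : EI) : ℂ := toC η / ((3 * E : ℕ) : ℂ)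

/-- Continuous and periodic under `N ℤ[ω]`. -/
def PerC (N : ℕ) (g : ℂ → ℂ) : Prop :=
  Continuous g ∧ ∀ (z : ℂ) (x : EI), g (z + (N : ℂ) * toC x) = g z

/-- Products of periodic functions are periodic. -/
lemma PerC.mul {N : ℕ} {f g : ℂ → ℂ} (hf : PerC N f) (hg : PerC N g) :
    PerC N fun z => f z * g z :=
  ⟨hf.1.mul hg.1, fun z x => by change f _ * g _ = _; rw [hf.2, hg.2]⟩

/-- Constants are periodic. -/
lemma PerC.const (N : ℕ) (c : ℂ) : PerC N fun _ => c := ⟨continuous_const, fun _ _ => rfl⟩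

/-- A period stays a period after multiplication by a natural number. -/
lemma PerC.mul_right {N : ℕ} {g : ℂ → ℂ} (hg : PerC N g) (n : ℕ) : PerC (N * n) g :=
  ⟨hg.1, fun z x => by
    rw [← hg.2 z ((n : EI) * x), map_mul, map_natCast]; push_cast; rw [mul_assoc]⟩

/-- Sums of periodic functions are periodic. -/
lemma PerC.sum {N : ℕ} {ι : Type*} (s : Finset ι) {g : ι → ℂ → ℂ} (hg : ∀ i ∈ s, PerC N (g i)) :
    PerC N fun z => ∑ i ∈ s, g i z :=
  ⟨continuous_finsetSum _ fun i hi => (hg i hi).1,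
    fun z x => Finset.sum_congr rfl fun i hi => (hg i hi).2 z x⟩

/-- Translates of periodic functions are periodic. -/
lemma PerC.comp_add {N : ℕ} {g : ℂ → ℂ} (hg : PerC N g) (c : ℂ) : PerC N fun z => g (z + c) :=
  ⟨hg.1.comp (continuous_id.add continuous_const), fun z x => by
    change g _ = g _; rw [add_right_comm, hg.2]⟩

/-- The characters of the frequencies `η / 3E` are periodic modulo `3E`. -/
lemma perC_chi (E : ℕ) [NeZero E] (η : EI) : PerC (3 * E) fun z => chiC (-(fr E η * z)) := by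
  refine ⟨continuous_chiC.comp (continuous_const.mul continuous_id).neg, fun z x => ?_⟩
  change chiC _ = chiC _
  have hN : ((3 * E : ℕ) : ℂ) ≠ 0 := Nat.cast_ne_zero.2 (mul_ne_zero (by norm_num) (NeZero.ne E))
  rw [mul_add, neg_add, chiC_add, show -(fr E η * (((3 * E : ℕ) : ℂ) * toC x)) = toC
    (-(η * x)) from ?_, chiC_toC, mul_one]
  rw [map_neg, map_mul, fr, ← mul_assoc, div_mul_cancel₀ _ hN]

variable {K : Type*} [Field K] [NumberField K] [IsTotallyComplex K] (D : KData K)

/-- A chosen infinite place of `K`. -/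
noncomputable def KData.w0 (_D : KData K) : InfinitePlace K :=
  (inferInstance : Nonempty (InfinitePlace K)).some

omit [IsTotallyComplex K] in
/-- At every place an Eisenstein integer embeds as `toC`. -/
lemma KData.emb_const (D : KData K) (x : EI) (w : InfinitePlace K) : Mult.emb (D.ι x) w = toC x :=
  D.emb_e w x

/-- The mean of a periodic function of one variable. -/
noncomputable def mC (g : ℂ → ℂ) : ℂ := Mult.mean fun v : InfinitePlace K → ℂ => g (v D.w0)

omit [IsTotallyComplex K] in
/-- A periodic function on `ℂ` is periodic on the one infinite place of `K`. -/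
lemma per_of_perC {N : ℕ} {g : ℂ → ℂ} (hg : PerC N g) :
    Mult.Per N fun v : InfinitePlace K → ℂ => g (v D.w0) := fun v l => by
  change g _ = g _
  rw [Pi.add_apply, map_mul, map_natCast, ← hg.2 (v D.w0) (D.e.symm l)]
  congr 2
  change (N : ℂ) * Mult.emb _ D.w0 = _
  rw [← D.emb_const _ D.w0, KData.ι_apply, RingEquiv.apply_symm_apply]

omit [IsTotallyComplex K] in
/-- A periodic function of one variable is periodic in the general sense. -/
lemma isPer_of_perC {N : ℕ} (hN : N ≠ 0) {g : ℂ → ℂ} (hg : PerC N g) :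
    Mult.IsPer fun v : InfinitePlace K → ℂ => g (v D.w0) := by
  exact ⟨hg.1.comp (continuous_apply _), N, hN, per_of_perC D hg⟩

/-- The mean of a constant is the constant. -/
lemma mC_const (c : ℂ) : mC D (fun _ => c) = c := by
  rw [mC, Mult.mean_eq (one_ne_zero (α := ℕ)) (fun _ _ => rfl) continuous_const, Mult.meanM]
  simp [Mult.tlift, integral_const]

/-- The mean is invariant under translations. -/
lemma mC_translate {N : ℕ} (hN : N ≠ 0) {g : ℂ → ℂ} (hg : PerC N g) (c : ℂ) :
    mC D (fun z => g (z + c)) = mC D g :=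
  Mult.mean_translate (isPer_of_perC D hN hg) fun _ => c

/-- The mean commutes with scalars. -/
lemma mC_const_mul {N : ℕ} (hN : N ≠ 0) {g : ℂ → ℂ} (hg : PerC N g) (c : ℂ) :
    mC D (fun z => c * g z) = c * mC D g :=
  Mult.mean_const_mul c (isPer_of_perC D hN hg)

/-- The mean commutes with finite sums. -/
lemma mC_sum {N : ℕ} (hN : N ≠ 0) {ι : Type*} (s : Finset ι) {g : ι → ℂ → ℂ}
    (hg : ∀ i ∈ s, PerC N (g i)) : mC D (fun z => ∑ i ∈ s, g i z) = ∑ i ∈ s, mC D (g i) :=
  Mult.mean_sum s fun i hi => isPer_of_perC D hN (hg i hi)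

/-- The mean is invariant under multiplication by a lattice element. -/
lemma mC_comp_mul {N : ℕ} (hN : N ≠ 0) {g : ℂ → ℂ} (hg : PerC N g) {y : EI} (hy : y ≠ 0) :
    mC D (fun z => g (toC y * z)) = mC D g := by
  have h := (Mult.mean_comp_mul (isPer_of_perC D hN hg) (a := D.ι y) fun e =>
    hy (D.ι_injective (e.trans (map_zero _).symm))).2
  refine Eq.trans ?_ h
  rw [mC]
  congr 1
  funext v
  rw [Pi.mul_apply, D.emb_const]

/-- The mean is bounded by any bound of the function. -/
lemma norm_mC_le {N : ℕ} (hN : N ≠ 0) {g : ℂ → ℂ} (hg : PerC N g) {C : ℝ} (hC : ∀ z, ‖g z‖ ≤ C) :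
    ‖mC D g‖ ≤ C := by
  obtain ⟨hc, M, hM, p⟩ := isPer_of_perC D hN hg
  rw [mC, Mult.mean_eq hM p hc, Mult.meanM]
  refine (norm_integral_le_of_norm_le_const (Eventually.of_forall fun q => hC _)).trans ?_
  simp

variable {E : ℕ} [NeZero E] (A : Auto E)

omit [NeZero E] in
/-- The function depends on the matrix only through its two reductions. -/
lemma Auto.congr_red {M M' : GN (3 * E)} (h1 : M.val.map (castPi E) = M'.val.map (castPi E))
    (h2 : M.val.map (castEh E) = M'.val.map (castEh E)) (w : H3) : A.Φ M w = A.Φ M' w := by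
  have key : ∀ {R : Type} [CommRing R] (f : RN E →+* R), M.val.map f = M'.val.map f →
      (M⁻¹ * M').val.map f = 1 := fun f h => by
    rw [Units.val_mul, Matrix.map_mul, ← h, ← Matrix.map_mul, ← Units.val_mul, inv_mul_cancel,
      Units.val_one, Matrix.map_one _ (map_zero f) (map_one f)]
  rw [← A.level (M⁻¹ * M') M (key _ h1) (key _ h2) w, mul_inv_cancel_left]

omit [NeZero E] in
/-- An element trivial in both reductions acts trivially from the left. -/
lemma Auto.congr_left {k : GN (3 * E)} (h1 : k.val.map (castPi E) = 1)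
    (h2 : k.val.map (castEh E) = 1) (M : GN (3 * E)) (w : H3) : A.Φ (k * M) w = A.Φ M w :=
  A.congr_red (by rw [Units.val_mul, Matrix.map_mul, h1, Matrix.one_mul])
    (by rw [Units.val_mul, Matrix.map_mul, h2, Matrix.one_mul]) w

/-- The translation by `x` modulo `9E`. -/
noncomputable def nG (x : EI) : GN (3 * E) := gr (3 * (3 * E)) (trI x)

omit [NeZero E] in
/-- The matrix of a translation modulo `9E`. -/
lemma nG_val (x : EI) : (nG x : GN (3 * E)).val = !![1, red (3 * (3 * E)) x; 0, 1] := by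
  rw [nG, gr_trI_eq, upG_val]; rfl

omit [NeZero E] in
/-- A translation by a kernel element reduces to one. -/
lemma nG_map_eq_one {R : Type*} [CommRing R] (f : RN E →+* R) {x : EI}
    (hx : f (red (3 * (3 * E)) x) = 0) : (nG x : GN (3 * E)).val.map f = 1 := by
  rw [nG_val]
  ext i j : 1
  fin_cases i <;> fin_cases j <;> simp [hx]

/-- A horosphere is parametrised continuously. -/
lemma continuous_mk_left {t : ℝ} (ht : 0 < t) : Continuous fun z : ℂ => H3.mk z t := by
  rw [isInducing_coord.continuous_iff]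
  exact (continuous_id.prodMk continuous_const : Continuous fun z : ℂ => (z, t)).congr fun z =>
    (H3.coord_mk_of_pos z ht).symm

section Inv

variable {Φ : GN (3 * E) → H3 → ℂ}
  (hinv : ∀ (γ : GL (Fin 2) EI) (M : GN (3 * E)) (w : H3),
    Φ (gr (3 * (3 * E)) γ * M) (gC γ • w) = Φ M w)
include hinv

omit [NeZero E] in
/-- A family invariant under `GL₂` is invariant under translations. -/
lemma translate_of_inv (x : EI) (M : GN (3 * E)) (z : ℂ) {t : ℝ} (ht : 0 < t) :
    Φ (nG x * M) (H3.mk (z + toC x) t) = Φ M (H3.mk z t) := by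
  rw [← gC_trI_smul x z ht]
  exact hinv (trI x) M _

omit [NeZero E] in
/-- If moreover the translations by `3E` act trivially, the slices have the periods `3E ℤ[ω]`. -/
lemma perC_slice_of_inv (hc : ∀ M, Continuous (Φ M))
    (hper : ∀ (x : EI) (M : GN (3 * E)) (w : H3), Φ (nG (((3 * E : ℕ) : EI) * x) * M) w = Φ M w)
    (M : GN (3 * E)) {t : ℝ} (ht : 0 < t) : PerC (3 * E) fun z => Φ M (H3.mk z t) := by
  refine ⟨(hc M).comp (continuous_mk_left ht), fun z x => ?_⟩
  change Φ M _ = Φ M _
  rw [show ((3 * E : ℕ) : ℂ) * toC x = toC (((3 * E : ℕ) : EI) * x) by rw [map_mul, map_natCast],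
    ← translate_of_inv hinv (((3 * E : ℕ) : EI) * x) M z ht, hper]

end Inv

omit [NeZero E] in
/-- Invariance under translations. -/
lemma Auto.translate (x : EI) (M : GN (3 * E)) (z : ℂ) {t : ℝ} (ht : 0 < t) :
    A.Φ (nG x * M) (H3.mk (z + toC x) t) = A.Φ M (H3.mk z t) :=
  translate_of_inv A.inv x M z ht

omit [NeZero E] in
/-- Restrictions to horospheres are periodic modulo `3E`. -/
lemma perC_slice (M : GN (3 * E)) {t : ℝ} (ht : 0 < t) :
    PerC (3 * E) fun z => A.Φ M (H3.mk z t) := by
  refine perC_slice_of_inv A.inv A.cont (fun x N w => A.congr_left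
    (nG_map_eq_one _ ?_) (nG_map_eq_one _ ?_) N w) M ht
  · rw [map_mul, map_natCast, map_mul, map_natCast, Nat.cast_mul,
      show ((3 : ℕ) : ZMod 3) = 0 from rfl, zero_mul, zero_mul]
  · rw [map_mul, map_natCast, map_mul, map_natCast, Nat.cast_mul, natCast_ER_self, mul_zero,
      zero_mul]

/-- `3E` is not zero. -/
lemma three_E_ne_zero : (3 * E : ℕ) ≠ 0 := mul_ne_zero (by norm_num) (NeZero.ne E)

/-- The coefficient of a function on a horosphere at the frequency `η / 3E`. -/
noncomputable def hCoef (E : ℕ) (f : H3 → ℂ) (η : EI) (t : ℝ) : ℂ :=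
  mC D fun z => f (H3.mk z t) * chiC (-(fr E η * z))

/-- The coefficient of a family at the normalised height. -/
noncomputable def eCoef (Φ : GN (3 * E) → H3 → ℂ) (M : GN (3 * E)) (η : EI) : ℂ :=
  hCoef D E (Φ M) η ‖fr E η‖⁻¹

/-- **The coefficient.** The Fourier coefficient of `A.Φ M` at frequency `η` and height `t`. -/
noncomputable def Bc (M : GN (3 * E)) (η : EI) (t : ℝ) : ℂ := hCoef D E (A.Φ M) η t

/-- The integrand of a coefficient is periodic modulo `3E`. -/
lemma perC_term (M : GN (3 * E)) (η : EI) {t : ℝ} (ht : 0 < t) :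
    PerC (3 * E) fun z => A.Φ M (H3.mk z t) * chiC (-(fr E η * z)) :=
  (perC_slice A M ht).mul (perC_chi E η)

omit A in
/-- Translations act by characters. -/
lemma hCoef_nG {Φ : GN (3 * E) → H3 → ℂ} (x : EI) (M : GN (3 * E)) (η : EI) {t : ℝ}
    (htr : ∀ z, Φ (nG x * M) (H3.mk (z + toC x) t) = Φ M (H3.mk z t))
    (hper : ∀ N, PerC (3 * E) fun z => Φ N (H3.mk z t)) :
    hCoef D E (Φ (nG x * M)) η t = chiC (-(fr E η * toC x)) * hCoef D E (Φ M) η t := by
  rw [hCoef, hCoef, ← mC_translate D three_E_ne_zero ((hper (nG x * M)).mul (perC_chi E η)) (toC x),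
    ← mC_const_mul D three_E_ne_zero ((hper M).mul (perC_chi E η))]
  congr 1
  funext z
  rw [htr, mul_add, neg_add, chiC_add]
  ring

/-- Translations act by characters. -/
lemma Bc_nG (x : EI) (M : GN (3 * E)) (η : EI) {t : ℝ} (ht : 0 < t) :
    Bc D A (nG x * M) η t = chiC (-(fr E η * toC x)) * Bc D A M η t :=
  hCoef_nG D x M η (fun z => A.translate x M z ht) fun N => perC_slice A N ht

end Fermat.LT3
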