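import Fermat.Agent.LT3.Per.ArchB
import Fermat.Agent.LT3.Coef.Count

/-!
# Hecke relations of the coefficients

`eCoef_hecke` and `eCoef_unit` are the relations of the coefficients of any family at the normalised
height; `Bn D A` are those of an `Auto`.
-/

set_option autoImplicit false
open Matrix QuadraticAlgebra MeasureTheory Filter NumberField
open scoped Classical

namespace Fermat.LT3
open Fermat.LT

variable {E : ℕ} [NeZero E]

/-- The squared absolute value in `ℂ` is the norm. -/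
lemma norm_toC (x : EI) : ‖toC x‖ ^ 2 = ((QuadraticAlgebra.norm x : ℤ) : ℝ) := by
  rw [← Complex.normSq_eq_norm_sq, normSq_toC]

/-- Nonzero elements stay nonzero in `ℂ`. -/
lemma toC_ne_zero {x : EI} (hx : x ≠ 0) : toC x ≠ 0 := fun h =>
  hx (toC_injective (h.trans (map_zero toC).symm))

/-- The norm as `π · star π` in `ℂ`. -/
lemma natCast_natAbs_norm_EI (π : EI) :
    (((QuadraticAlgebra.norm π).natAbs : ℕ) : ℂ) = toC π * toC (star π) := by
  have h : ((QuadraticAlgebra.norm π).natAbs : EI) = π * star π := by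
    rw [← Int.cast_natCast, Int.natAbs_of_nonneg (norm_nonneg_EI π), ← eq_intCast (algebraMap ℤ EI),
      QuadraticAlgebra.algebraMap_norm_eq_mul_star]
  rw [← map_natCast toC, h, map_mul]

/-- Norms of nonzero elements do not vanish. -/
lemma natAbs_norm_ne_zero {π : EI} (hπ : π ≠ 0) :
    (QuadraticAlgebra.norm π).natAbs ≠ 0 := fun h => by
  have e := natCast_natAbs_norm_EI π
  rw [h, Nat.cast_zero, zero_eq_mul] at e
  exact e.elim (toC_ne_zero hπ) (toC_ne_zero (star_eq_zero.not.2 hπ))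

/-- Periods after dividing by `π`. -/
lemma PerC.comp_sub_div {N : ℕ} {g : ℂ → ℂ} (hg : PerC N g) {π : EI} (hπ : π ≠ 0) (c : ℂ) :
    PerC (N * (QuadraticAlgebra.norm π).natAbs) fun z => g ((z - c) / toC π) := by
  refine ⟨hg.1.comp ((continuous_id.sub continuous_const).div_const _), fun z x => ?_⟩
  change g _ = g _
  rw [← hg.2 ((z - c) / toC π) (star π * x), Nat.cast_mul, natCast_natAbs_norm_EI, map_mul]
  congr 1
  field_simp [toC_ne_zero hπ]
  ring

/-- Periods after multiplying by `π`. -/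
lemma PerC.comp_toC_mul {N : ℕ} {g : ℂ → ℂ} (hg : PerC N g) (π : EI) :
    PerC (N * (QuadraticAlgebra.norm π).natAbs) fun z => g (toC π * z) := by
  refine ⟨hg.1.comp (continuous_const.mul continuous_id), fun z x => ?_⟩
  change g _ = g _
  rw [← (hg.mul_right (QuadraticAlgebra.norm π).natAbs).2 (toC π * z) (π * x), map_mul]
  congr 1
  ring

/-- A neighbour matrix acts on coordinates affinely. -/
lemma aC_smul (π u : EI) (h : π ≠ 0) (z : ℂ) {t : ℝ} (ht : 0 < t) :
    aC π u h • H3.mk z t = H3.mk (toC π * z + toC u) (‖toC π‖ * t) := by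
  rw [smul_mk_upper _ (by simp [aC]) z ht]
  simp [aC, Matrix.det_fin_two_of]

/-- The inverse neighbour matrices act on coordinates affinely. -/
lemma aC_inv_smul (π u : EI) (h : π ≠ 0) (z : ℂ) {t : ℝ} (ht : 0 < t) :
    (aC π u h)⁻¹ • H3.mk z t = H3.mk ((z - toC u) / toC π) (t / ‖toC π‖) := by
  have hπ := norm_pos_iff.2 (toC_ne_zero h)
  rw [inv_smul_eq_iff, aC_smul π u h _ (div_pos ht hπ), mul_div_cancel₀ _ (toC_ne_zero h),
    sub_add_cancel, mul_div_cancel₀ _ hπ.ne']

/-- The inverse of the last neighbour matrix scales the coordinates by `π`. -/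
lemma aInf_inv_smul (π : EI) (h : π ≠ 0) (z : ℂ) {t : ℝ} (ht : 0 < t) :
    (aInf π h)⁻¹ • H3.mk z t = H3.mk (toC π * z) (‖toC π‖ * t) := by
  have hπ := norm_pos_iff.2 (toC_ne_zero h)
  rw [inv_smul_eq_iff, smul_mk_upper _ (by simp [aInf]) _ (mul_pos hπ ht)]
  simp [aInf, Matrix.det_fin_two_of, Complex.normSq_eq_norm_sq]
  congr 1
  · field_simp [toC_ne_zero h]
  · field_simp

omit [NeZero E] in
/-- The diagonal matrices multiply entrywise. -/
lemma dgN_mul (a b : (RN E)ˣ) : (dgN a * dgN b : GN (3 * E)) = dgN (a * b) := by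
  refine Units.ext ?_
  ext i j : 1
  fin_cases i <;> fin_cases j <;> simp [dgN, Matrix.mul_apply, Fin.sum_univ_two]

omit [NeZero E] in
/-- The inverse of a neighbour modulo `9E` is a translation times a diagonal matrix. -/
lemma upG_one_inv (a : (RN E)ˣ) (x u : EI) (hx : red (3 * (3 * E)) x = -((a⁻¹ : (RN E)ˣ) : RN E) *
    red (3 * (3 * E)) u) :
    (upG a (red (3 * (3 * E)) u) 1)⁻¹ = (nG x : GN (3 * E)) * dgN a⁻¹ := by
  refine inv_eq_of_mul_eq_one_right (Units.ext ?_)
  rw [Units.val_mul, Units.val_mul, upG_val, nG_val, Units.val_one, hx]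
  ext i j : 1
  fin_cases i <;> fin_cases j <;> simp [dgN, Matrix.mul_apply, Fin.sum_univ_two]

omit [NeZero E] in
/-- The inverse of the last neighbour modulo `9E` as a scalar times a diagonal matrix. -/
lemma upG_inf_inv (a : (RN E)ˣ) :
    (upG 1 0 a)⁻¹ = (upG a⁻¹ 0 a⁻¹ : GN (3 * E)) * dgN a := by
  refine inv_eq_of_mul_eq_one_right (Units.ext ?_)
  rw [Units.val_mul, Units.val_mul, upG_val, upG_val, Units.val_one]
  ext i j : 1
  fin_cases i <;> fin_cases j <;> simp [dgN, Matrix.mul_apply, Fin.sum_univ_two]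

omit [NeZero E] in
/-- `dgN 1` is the identity. -/
lemma dgN_one : (dgN 1 : GN (3 * E)) = 1 :=
  Units.ext (by ext i j : 1; fin_cases i <;> fin_cases j <;> simp [dgN])

/-- Representatives modulo `π`. -/
def Reps (π : EI) (T : Finset EI) : Prop := ∀ x : EI, ∃! u, u ∈ T ∧ π ∣ x - u

/-- A prime of degree one has `p` representatives of residues. -/
lemma exists_reps_split {π : EI} {p : ℕ} [Fact p.Prime] (hn : QuadraticAlgebra.norm π = (p : ℤ))
    (h3 : p ≠ 3) : ∃ T : Finset EI, Reps π T ∧ T.card = p := by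
  obtain ⟨d⟩ := exists_degOne hn h3
  have hinj : Function.Injective fun u : ZMod p => (u.val : EI) := fun u v h => by
    have := congrArg d.φ h
    simpa using this
  exact ⟨Finset.univ.image fun u : ZMod p => (u.val : EI), exists_rep d,
    by rw [Finset.card_image_of_injective _ hinj, Finset.card_univ, ZMod.card]⟩

/-- A natural number `n` has `n²` representatives of residues. -/
lemma exists_reps_nat {n : ℕ} [NeZero n] : ∃ T : Finset EI, Reps (n : EI) T ∧ T.card = n ^ 2 := by
  let f : ER (ZMod n) → EI := fun u => ⟨(u.re.val : ℤ), (u.im.val : ℤ)⟩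
  have hf : ∀ u, red n (f u) = u := fun u => by apply QuadraticAlgebra.ext <;> simp [f]
  have hinj : Function.Injective f := fun u v h => by rw [← hf u, h, hf]
  let e : ZMod n × ZMod n ≃ ER (ZMod n) := (QuadraticAlgebra.equivProd (-1 : ZMod n) 1).symm
  let : Fintype (ER (ZMod n)) := Fintype.ofEquiv _ e
  refine ⟨Finset.univ.image f, fun x =>
    ⟨f (red n x), ⟨Finset.mem_image.2 ⟨_, Finset.mem_univ _, rfl⟩, ?_⟩, ?_⟩,
    by rw [Finset.card_image_of_injective _ hinj, Finset.card_univ, Fintype.ofEquiv_card,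
      Fintype.card_prod, ZMod.card, sq]⟩
  · exact (red_eq_zero_iff n _).1 (by rw [map_sub, hf, sub_self])
  · rintro u ⟨hu, hd⟩
    obtain ⟨v, -, rfl⟩ := Finset.mem_image.1 hu
    have := (red_eq_zero_iff n (x - f v)).2 hd
    rw [map_sub, hf, sub_eq_zero] at this
    rw [this]

variable {K : Type*} [Field K] [NumberField K] [IsTotallyComplex K] (D : KData K) (A : Auto E)

/-- The coefficient at the normalised height. -/
noncomputable def Bn (M : GN (3 * E)) (η : EI) : ℂ := eCoef D A.Φ M η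

omit [NeZero E] in
/-- The frequency of a multiple. -/
lemma fr_mul (η x : EI) : fr E (η * x) = fr E η * toC x := by
  rw [fr, fr, map_mul, div_mul_eq_mul_div]

/-- Means of the terms of an operator with a scalar value. -/
lemma mC_const_mul_eq_sum {N : ℕ} (hN : N ≠ 0) {f g : ℂ → ℂ} {h : EI → ℂ → ℂ} (T : Finset EI)
    (hf : PerC N f) (hh : ∀ u, PerC N (h u)) (hg : PerC N g) {c : ℂ}
    (e : ∀ z, c * f z = (∑ u ∈ T, h u z) + g z) :
    c * mC D f = (∑ u ∈ T, mC D (h u)) + mC D g := by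
  rw [← mC_const_mul D hN hf, funext e, mC, mC, ← mC_sum D hN T (fun u _ => hh u), mC]
  exact Mult.mean_add (isPer_of_perC D hN (PerC.sum T fun u _ => hh u)) (isPer_of_perC D hN hg)

/-- The coefficient of the term of an upper neighbour. -/
lemma mC_comp_sub_div_term {g : ℂ → ℂ} (hg : PerC (3 * E) g) {π : EI} (hπ : π ≠ 0) (u η : EI) :
    mC D (fun z => g ((z - toC u) / toC π) * chiC (-(fr E η * z)))
      = chiC (-(fr E η * toC u)) * mC D (fun z => g z * chiC (-(fr E (η * π) * z))) := by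
  have hN := mul_ne_zero (three_E_ne_zero (E := E)) (natAbs_norm_ne_zero hπ)
  have hp := (hg.comp_sub_div hπ (toC u)).mul ((perC_chi E η).mul_right _)
  rw [← mC_translate D hN hp (toC u), ← mC_comp_mul D hN (hp.comp_add (toC u)) hπ,
    ← mC_const_mul D three_E_ne_zero (hg.mul (perC_chi E (η * π)))]
  congr 1
  funext z
  rw [add_sub_cancel_right, mul_div_cancel_left₀ _ (toC_ne_zero hπ), fr_mul, mul_add,
    neg_add, chiC_add, ← mul_assoc]
  ring_nf

/-- The two phases of an upper neighbour cancel. -/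
lemma chiC_phase {π π'' : EI} (h : red (3 * (3 * E)) π * red (3 * (3 * E)) π'' = 1) (u η : EI) :
    chiC (-(fr E η * toC u)) * chiC (-(fr E (η * π) * toC (-(π'' * u)))) = 1 := by
  obtain ⟨y, hy⟩ := (red_eq_zero_iff (3 * (3 * E)) (1 - π * π'')).1 (by
    rw [map_sub, map_one, map_mul, h, sub_self])
  rw [← chiC_add, fr_mul]
  rw [show -(fr E η * toC u) + -(fr E η * toC π * toC (-(π'' * u))) =
    toC (-(3 * η * u * y)) from ?_, chiC_toC]
  have hy' := congrArg toC hy
  rw [map_sub, map_one, map_mul, map_mul, map_natCast] at hy'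
  have hN : ((3 * E : ℕ) : ℂ) ≠ 0 := Nat.cast_ne_zero.2 three_E_ne_zero
  have hα : fr E η * ((3 * E : ℕ) : ℂ) = toC η := div_mul_cancel₀ _ hN
  simp only [map_neg, map_mul, map_ofNat]
  push_cast at hy' hα ⊢
  linear_combination (-(fr E η * toC u)) * hy' - (3 * toC u * toC y) * hα

/-- The coefficient of the term of the lower neighbour vanishes unless `π ∣ η c`,
for periods `√-3 E c`. -/
lemma dvd_mul_of_mC_ne_zero {g : ℂ → ℂ} (hg : PerC (3 * E) g) {π c : EI} (hπ : π ≠ 0)
    (hc : ∀ (z : ℂ) (y : EI), g (z + toC (sR * ((E : EI) * (c * y)))) = g z) {η : EI}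
    (hne : mC D (fun z => g (toC π * z) * chiC (-(fr E η * z))) ≠ 0) : π ∣ η * c := by
  have hπ0 := toC_ne_zero hπ
  have hN0 := mul_ne_zero (three_E_ne_zero (E := E)) (natAbs_norm_ne_zero hπ)
  have hp : PerC (3 * E * (QuadraticAlgebra.norm π).natAbs) fun z =>
      g (toC π * z) * chiC (-(fr E η * z)) := (hg.comp_toC_mul π).mul ((perC_chi E η).mul_right _)
  set α := fr E η
  -- the translation invariance of g makes the character trivial on shifts by c
  have hsh : ∀ y : EI, chiC (α * (toC (sR * ((E : EI) * (c * y))) / toC π)) = 1 := fun y => by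
    set d := toC (sR * ((E : EI) * (c * y))) / toC π with hd
    have hmv := mC_translate D hN0 hp d
    have he : (fun z => g (toC π * (z + d)) * chiC (-(α * (z + d))))
        = fun z => chiC (-(α * d)) * (g (toC π * z) * chiC (-(α * z))) := funext fun z => by
      rw [show toC π * (z + d) = toC π * z + toC (sR * ((E : EI) * (c * y))) by
          rw [mul_add, hd, mul_div_cancel₀ _ hπ0],
        hc, mul_add α, neg_add, chiC_add]
      ring
    rw [he, mC_const_mul D hN0 hp] at hmv
    have h2 := (mul_eq_right₀ hne).1 hmv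
    have h3 := chiC_add (α * d) (-(α * d))
    rw [add_neg_cancel, chiC_zero, h2, mul_one] at h3
    exact h3.symm
  -- hence norm π divides the imaginary part of η c π̄ y for every y
  have himd : ∀ y : EI, (QuadraticAlgebra.norm π) ∣ (η * c * star π * y).im := fun y => by
    obtain ⟨m, hm⟩ := (chiC_eq_one_iff _).1 (hsh y)
    have e : α * (toC (sR * ((E : EI) * (c * y))) / toC π)
        = toC (sR * (η * c * star π * y)) / (((3 * QuadraticAlgebra.norm π : ℤ) : ℝ) : ℂ) := by
      rw [Int.cast_mul, ← norm_toC, ← Complex.normSq_eq_norm_sq]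
      push_cast
      rw [Complex.normSq_eq_conj_mul_self, ← toC_star]
      simp only [α, fr, map_mul, map_natCast]
      push_cast
      have hs : toC (star π) ≠ 0 := toC_ne_zero (star_eq_zero.not.2 hπ)
      have hEc : (E : ℂ) ≠ 0 := Nat.cast_ne_zero.2 (NeZero.ne E)
      field_simp
    rw [e, Complex.div_ofReal_re] at hm
    have hw : 2 * (toC (sR * (η * c * star π * y))).re
        = ((-3 * (η * c * star π * y).im : ℤ) : ℝ) := by
      rw [two_re_toC]
      generalize η * c * star π * y = w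
      norm_num [sR]
      ring
    rw [← mul_div_assoc, hw] at hm
    have hNr : ((3 * QuadraticAlgebra.norm π : ℤ) : ℝ) ≠ 0 := by
      rw [Int.cast_mul, ← norm_toC]
      push_cast
      positivity
    rw [div_eq_iff hNr, ← Int.cast_mul, Int.cast_inj] at hm
    exact ⟨-m, by linarith⟩
  -- y = 1 and y = ω give π π̄ ∣ η c π̄
  obtain ⟨a, ha⟩ := himd 1
  obtain ⟨b, hb⟩ := himd ⟨0, 1⟩
  rw [mul_one] at ha
  refine ⟨⟨b - a, a⟩, mul_right_cancel₀ (b := star π) (star_eq_zero.not.2 hπ) ?_⟩
  have hππ : π * star π = ((QuadraticAlgebra.norm π : ℤ) : EI) := by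
    rw [← QuadraticAlgebra.algebraMap_norm_eq_mul_star, eq_intCast]
  rw [mul_right_comm π, hππ]
  generalize η * c * star π = w at ha hb ⊢
  simp at hb
  apply QuadraticAlgebra.ext <;> simp <;> linarith

/-- **The Hecke relation of coefficients**, for periods `3E` and `√-3 E c` with `π ∤ c`. -/
theorem eCoef_hecke {Φ : GN (3 * E) → H3 → ℂ} {lam : ℂ} {π c : EI} (hπ : Prime π) (hc : ¬ π ∣ c)
    (hper : ∀ M t, 0 < t → PerC (3 * E) fun z => Φ M (H3.mk z t))
    (hperc : ∀ M z (y : EI) t, 0 < t →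
      Φ M (H3.mk (z + toC (sR * ((E : EI) * (c * y)))) t) = Φ M (H3.mk z t))
    (htr : ∀ (x : EI) M z t, 0 < t → Φ (nG x * M) (H3.mk (z + toC x) t) = Φ M (H3.mk z t))
    (hscal : ∀ (a : (RN E)ˣ) M w, Φ (upG a 0 a * M) w = Φ M w)
    (hu : IsUnit (red (3 * (3 * E)) π)) {T : Finset EI} (M : GN (3 * E))
    (hecke : ∀ w,
      (∑ u ∈ T, Φ ((upG hu.unit (red (3 * (3 * E)) u) 1)⁻¹ * M) ((aC π u hπ.ne_zero)⁻¹ • w))
        + Φ ((upG 1 0 hu.unit)⁻¹ * M) ((aInf π hπ.ne_zero)⁻¹ • w) = lam * Φ M w)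
    {η : EI} (hη : η ≠ 0) :
    lam * eCoef D Φ M η = (T.card : ℂ) * eCoef D Φ (dgN hu.unit⁻¹ * M) (η * π)
      + if h : π ∣ η then eCoef D Φ (dgN hu.unit * M) h.choose else 0 := by
  simp only [eCoef, hCoef]
  have hπn : 0 < ‖toC π‖ := norm_pos_iff.2 (toC_ne_zero hπ.ne_zero)
  set t := ‖fr E η‖⁻¹ with htd
  have ht : 0 < t := inv_pos.2 (norm_fr_pos hη)
  have ht1 := div_pos ht hπn
  have ht2 := mul_pos hπn ht
  have ht' : ‖fr E (η * π)‖⁻¹ = t / ‖toC π‖ := by
    rw [fr_mul, norm_mul, mul_inv, htd, div_eq_mul_inv]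
  obtain ⟨π'', hπ''⟩ := red_surjective (3 * (3 * E)) ((hu.unit⁻¹ : (RN E)ˣ) : RN E)
  -- take coefficients in the Hecke relation
  rw [mC_const_mul_eq_sum D (N := 3 * E * (QuadraticAlgebra.norm π).natAbs)
    (mul_ne_zero three_E_ne_zero (natAbs_norm_ne_zero hπ.ne_zero)) T
    (((hper M t ht).mul (perC_chi E η)).mul_right _)
    (fun u => ((hper ((upG hu.unit (red (3 * (3 * E)) u) 1)⁻¹ * M) _ ht1).comp_sub_div hπ.ne_zero
      (toC u)).mul ((perC_chi E η).mul_right _))
    (((hper ((upG 1 0 hu.unit)⁻¹ * M) _ ht2).comp_toC_mul π).mul ((perC_chi E η).mul_right _))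
    fun z => by
      rw [← mul_assoc, ← hecke (H3.mk z t), add_mul, Finset.sum_mul]
      simp only [aC_inv_smul _ _ _ z ht, aInf_inv_smul _ _ z ht]]
  congr 1
  -- each finite representative gives the coefficient at η π
  · rw [← nsmul_eq_mul, ← Finset.sum_const]
    refine Finset.sum_congr rfl fun u _ => ?_
    rw [upG_one_inv hu.unit (-(π'' * u)) u (by rw [map_neg, map_mul, hπ'', neg_mul]), mul_assoc,
      mC_comp_sub_div_term D (hper _ _ ht1) hπ.ne_zero, ht']
    have hp := (hper (nG (-(π'' * u)) * (dgN hu.unit⁻¹ * M)) _ ht1).mul (perC_chi E (η * π))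
    rw [← mC_translate D three_E_ne_zero hp (toC (-(π'' * u))),
      ← mC_const_mul D three_E_ne_zero (hp.comp_add _)]
    congr 1
    funext z
    rw [htr _ _ _ _ ht1, mul_add, neg_add, chiC_add, ← one_mul (_ * chiC (-(fr E (η * π) * z))),
      ← chiC_phase (π := π) (π'' := π'') (E := E) (by rw [hπ'', IsUnit.mul_val_inv]) u η]
    ring
  -- the last one gives the coefficient at η / π, zero unless π ∣ η
  · have hs : ∀ w, Φ ((upG 1 0 hu.unit)⁻¹ * M) w = Φ (dgN hu.unit * M) w := fun w => by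
      rw [upG_inf_inv, mul_assoc, hscal]
    simp only [hs]
    split_ifs with h
    · have hfr : fr E η = fr E h.choose * toC π := by
        conv_lhs => rw [h.choose_spec, mul_comm π]
        exact fr_mul _ _
      have ht' : ‖fr E h.choose‖⁻¹ = ‖toC π‖ * t := by
        rw [htd, hfr, norm_mul]
        field_simp
      rw [ht', ← mC_comp_mul D three_E_ne_zero ((hper _ _ ht2).mul (perC_chi E h.choose))
        hπ.ne_zero, hfr]
      simp only [mul_assoc]
    · by_contra hne
      exact (hπ.dvd_or_dvd (dvd_mul_of_mC_ne_zero D (hper _ _ ht2) hπ.ne_zero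
        (fun z y => hperc _ z y _ ht2) hne)).elim h hc

omit A in
/-- **Units** act on the coefficients of an invariant family. -/
theorem eCoef_unit {Φ : GN (3 * E) → H3 → ℂ}
    (hinv : ∀ (γ : GL (Fin 2) EI) (M : GN (3 * E)) (w : H3),
      Φ (gr (3 * (3 * E)) γ * M) (gC γ • w) = Φ M w)
    (hper : ∀ M t, 0 < t → PerC (3 * E) fun z => Φ M (H3.mk z t))
    (M : GN (3 * E)) {η : EI} (hη : η ≠ 0) (u : EIˣ) (a : (RN E)ˣ)
    (ha : (a : RN E) = red (3 * (3 * E)) u) : eCoef D Φ (dgN a * M) η = eCoef D Φ M (η * u) := by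
  have hu : ‖toC (u : EI)‖ = 1 := by
    have h := norm_toC (u : EI)
    rw [norm_unit_EI, Int.cast_one] at h
    exact (pow_eq_one_iff_of_nonneg (norm_nonneg _) two_ne_zero).1 h
  have ht := inv_pos.2 (norm_fr_pos (E := E) hη)
  set γ : GL (Fin 2) EI := upG u 0 1
  have hγ : (gr (3 * (3 * E)) γ : GN (3 * E)) = dgN a := by
    refine Units.ext ?_
    rw [gr_coe]
    ext i j : 1
    fin_cases i <;> fin_cases j <;> simp [γ, dgN, ha]
  have key : ∀ z, Φ (dgN a * M) (H3.mk (toC (u : EI) * z) ‖fr E η‖⁻¹) =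
      Φ M (H3.mk z ‖fr E η‖⁻¹) :=
    fun z => by
      rw [← hγ, ← hinv γ M (H3.mk z ‖fr E η‖⁻¹), smul_mk_upper _ (by simp [gC_coe, γ]) z ht,
        norm_det_gC]
      simp [gC_coe, γ]
  rw [eCoef, eCoef, fr_mul, norm_mul, hu, mul_one, hCoef,
    ← mC_comp_mul D three_E_ne_zero ((hper (dgN a * M) _ ht).mul (perC_chi E η)) u.ne_zero,
    hCoef, fr_mul]
  congr 1
  funext z
  rw [key, mul_assoc (fr E η)]

/-- **Units.** A unit moves from the diagonal of the matrix to the frequency of the coefficient. -/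
theorem Bn_unit (M : GN (3 * E)) {η : EI} (hη : η ≠ 0) (u : EIˣ) (a : (RN E)ˣ)
    (ha : (a : RN E) = red (3 * (3 * E)) u) : Bn D A (dgN a * M) η = Bn D A M (η * u) :=
  eCoef_unit D A.inv (fun M _ => perC_slice A M) M hη u a ha

/-- **The Hecke relation.** The eigenvalue times the coefficient at `η` is the residue count times
the one at `η π` plus the one at `η / π`. -/
theorem Bn_hecke {π : EI} (hπ : Prime π) (hu : IsUnit (red (3 * (3 * E)) π)) {T : Finset EI}
    (hT : Reps π T) (M : GN (3 * E)) {η : EI} (hη : η ≠ 0) :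
    (A.lam π : ℂ) * Bn D A M η = (T.card : ℂ) * Bn D A (dgN hu.unit⁻¹ * M) (η * π)
      + if h : π ∣ η then Bn D A (dgN hu.unit * M) h.choose else 0 :=
  eCoef_hecke D hπ (fun h => hπ.not_isUnit (isUnit_of_dvd_one h)) (fun M _ ht => perC_slice A M ht)
    (fun M z y _ ht => by rw [one_mul]; exact (perS_slice A M ht).2 z y)
    (fun x M z _ ht => A.translate x M z ht) A.scal hu M (fun w => A.hecke π hπ hu T hT M w) hη

end Fermat.LT3
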