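import Fermat.Agent.LT3.Per.Rows
import Fermat.Agent.LT3.Per.Decay

/-!
# Invariant families of eigenfunctions

`IsInvFam` is what the unfolding over the strip needs of a family indexed by the matrices modulo
`9E`; the automorphic functions of LT3 and of LTG in weight one both give one. `IsEig` speaks of a
single function, `IsEigPair` of a family paired with one on the lattice and needs no such index.
-/

set_option autoImplicit false
open Matrix MeasureTheory

namespace Fermat.LT3
open Fermat.LT

variable {E : ℕ} [NeZero E]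

/-- The properties common to the automorphic functions of both kinds: an invariant family of bounded
eigenfunctions, defined modulo `3E`, which decays in the cusp. -/
structure IsInvFam (Φ : GN (3 * E) → H3 → ℂ) : Prop where
  /-- Each member is an eigenfunction. -/
  isEig : ∀ M, IsEig (Φ M)
  /-- The family is equivariant for `GL₂` of the Eisenstein integers. -/
  inv : ∀ (γ : GL (Fin 2) EI) (M : GN (3 * E)) (w : H3),
    Φ (gr (3 * (3 * E)) γ * M) (gC γ • w) = Φ M w
  /-- Scalars act trivially. -/
  scal : ∀ (z : (RN E)ˣ) (M : GN (3 * E)) (w : H3), Φ (upG z 0 z * M) w = Φ M w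
  /-- The member depends only on the matrix modulo `3E`. -/
  congr : ∀ {M M' : GN (3 * E)}, M.val.map redD = M'.val.map redD → ∀ w, Φ M w = Φ M' w
  /-- The family is bounded. -/
  bound : ∃ C, ∀ M w, ‖Φ M w‖ ≤ C
  /-- The members decay like `1/t` in the cusp. -/
  decay : ∃ C, 0 ≤ C ∧ ∀ (M : GN (3 * E)) (z : ℂ) (t : ℝ), 0 < t → ‖Φ M (H3.mk z t)‖ ≤ C / t

omit [NeZero E] in
/-- Reduction modulo `E` factors through the one modulo `3E`. -/
lemma castEh_eq (x : RN E) : castEh E x = castER E (dvd_mul_left E 3) (redD x) :=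
  (castER_castER _ _ x).symm

omit [NeZero E] in
/-- The function depends on the matrix only modulo `3E`. -/
lemma Auto.congr_redD (A : Auto E) {M M' : GN (3 * E)}
    (h : M.val.map redD = M'.val.map redD) (w : H3) :
    A.Φ M w = A.Φ M' w := by
  have e : ∀ i j, redD (M.val i j) = redD (M'.val i j) := fun i j => congrFun (congrFun h i) j
  refine A.congr_red ?_ ?_ w <;> ext i j : 1
  · simp only [Matrix.map_apply, castPi_eq_p3, e]
  · simp only [Matrix.map_apply, castEh_eq, e]

omit [NeZero E] in
/-- The functions of an `Auto` form an invariant family. -/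
lemma Auto.invFam (A : Auto E) : IsInvFam A.Φ :=
  ⟨A.isEig, A.inv, A.scal, fun h => A.congr_redD h, A.bound, exists_decay_Phi A⟩

variable {Φ : GN (3 * E) → H3 → ℂ}

omit [NeZero E] in
/-- Invariance under translations. -/
lemma IsInvFam.translate (hΦ : IsInvFam Φ) (x : EI) (M : GN (3 * E)) (z : ℂ) {t : ℝ} (ht : 0 < t) :
    Φ (nG x * M) (H3.mk (z + toC x) t) = Φ M (H3.mk z t) :=
  translate_of_inv hΦ.inv x M z ht

omit [NeZero E] in
/-- The slices have the periods `3E ℤ[ω]`. -/
lemma IsInvFam.perC_slice (hΦ : IsInvFam Φ) (M : GN (3 * E)) {t : ℝ} (ht : 0 < t) :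
    PerC (3 * E) fun z => Φ M (H3.mk z t) :=
  perC_slice_of_inv hΦ.inv (fun N => (hΦ.isEig N).cont) (fun x N w => hΦ.congr (by
    rw [Units.val_mul, Matrix.map_mul, nG_map_eq_one _ (by
      rw [redD_red, red_eq_zero_iff]; exact dvd_mul_right _ _), Matrix.one_mul]) w) M ht

omit [NeZero E] in
/-- Invariance moves `γ` from the point to the matrix. -/
lemma IsInvFam.inv_apply (hΦ : IsInvFam Φ) (γ : GL (Fin 2) EI) (N : GN (3 * E)) (v : H3) :
    Φ N (gC γ • v) = Φ (gr (3 * (3 * E)) γ⁻¹ * N) v := by
  conv_lhs => rw [← mul_inv_cancel_left (gr (3 * (3 * E)) γ : GN (3 * E)) N]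
  rw [hΦ.inv, map_inv]

end Fermat.LT3
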