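import Fermat.Agent.LT3.Per.Strip
import Fermat.Agent.LT3.Per.Euler
import Mathlib.NumberTheory.LSeries.PrimesInAP

/-!
# The first coefficient vanishes with the periods

The combination of translates by `n (j ω)` selects the frequencies prime to the
level; their sum is the series of the weights times the first coefficient, and stays bounded. This
holds for any `IsInvFam` with `SignedCoef`; `Bn_one_eq_zero` is the case of an `Auto`.
-/

set_option autoImplicit false
open Matrix MeasureTheory Filter NumberField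
open scoped Classical Real Topology

namespace Fermat.LT3
open Fermat.LT

variable {E : ℕ} [NeZero E]

/-- The norm of the upper left entry. -/
noncomputable def nB (g : GN (3 * E)) : ZMod (3 * E) := QuadraticAlgebra.norm (redD (g.val 0 0))

/-- **The shape of the upper triangular part**: on an invariant family it acts as `dgN` of a
rational integer followed by a translation. -/
theorem Bs_shape {g : GN (3 * E)} (hg : g ∈ Bs E) :
    ∃ (r : (RN E)ˣ) (n b : ℤ), (r : RN E) = red (3 * (3 * E)) (n : EI) ∧ (n : ZMod (3 * E)) = nB g ∧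
      ∀ {Φ : GN (3 * E) → H3 → ℂ}, IsInvFam Φ → ∀ (N : GN (3 * E)) (v : H3),
        Φ (g * N) v = Φ (nG (sR * (b : EI)) * (dgN r * N)) v := by
  obtain ⟨hgS, h10⟩ := mem_Bs.1 hg
  have h := hgS.2
  have e01 := congrFun (congrFun h 0) 1
  have e00 := congrFun (congrFun h 0) 0
  have em : ∀ i j, (mat3 g).val i j = redD (g.val i j) := fun i j => rfl
  simp [hAct, antiJ, Matrix.mul_apply, Fin.sum_univ_two, em, h10] at e01 e00
  set a := redD (g.val 0 0)
  set bb := redD (g.val 0 1)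
  set d := redD (g.val 1 1)
  -- g₁₁ is a unit, as g₀₁ g₁₀ is nilpotent
  have hu11 : IsUnit (g.val 1 1) := by
    have hdet : IsUnit g.val.det := ((Matrix.GeneralLinearGroup.det g).isUnit)
    have hnil : IsNilpotent (g.val 0 1 * g.val 1 0) := by
      refine (Commute.all _ _).isNilpotent_mul_left ⟨2, ?_⟩
      obtain ⟨y, hy⟩ := red_surjective (3 * (3 * E)) (g.val 1 0)
      rw [← hy] at h10 ⊢
      rw [redD_red, red_eq_zero_iff] at h10
      obtain ⟨k, hk⟩ := h10
      rw [← map_pow, red_eq_zero_iff]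
      exact ⟨(E : EI) * k ^ 2, by rw [hk]; push_cast; ring⟩
    rw [Matrix.det_fin_two] at hdet
    have := hnil.isUnit_add_left_of_commute hdet (Commute.all _ _)
    rw [sub_add_cancel] at this
    exact (IsUnit.mul_iff.1 this).2
  -- a d̄ = 1, and bb ā is a multiple of √-3
  have hds : a * star d = 1 := e01
  have hsd : star a * d = 1 := by
    have := congrArg star hds
    simpa [star_mul', mul_comm] using this
  obtain ⟨w, hw⟩ := trace_zero_R3 (x := bb * star a) (by
    rw [star_mul', star_star]; linear_combination e00)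
  obtain ⟨b, rfl⟩ := ZMod.intCast_surjective w
  set n : ℤ := ((nB g).val : ℤ)
  have hn : (n : ZMod (3 * E)) = nB g := by simp [n]
  have hnu : IsUnit (nB g) := by
    have hau : IsUnit a := IsUnit.of_mul_eq_one _ hds
    exact hau.map (QuadraticAlgebra.norm : R3 E →* ZMod (3 * E))
  have hr : IsUnit (red (3 * (3 * E)) (n : EI)) := by
    rw [show (n : EI) = (((nB g).val : ℕ) : EI) by simp [n]]
    exact isUnit_red_nat ((ZMod.isUnit_iff_coprime _ _).1 (by simpa using hnu))
  -- modulo 3E, g is nG (√-3 b) * dgN r up to a scalar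
  refine ⟨hr.unit, n, b, hr.unit_spec, hn, fun {Φ} hΦ N v => ?_⟩
  rw [← hΦ.scal hu11.unit (nG (sR * (b : EI)) * (dgN hr.unit * N)) v, ← mul_assoc (nG _),
    ← mul_assoc (upG _ _ _)]
  refine hΦ.congr ?_ v
  rw [Units.val_mul, Units.val_mul _ N, Matrix.map_mul, Matrix.map_mul]
  congr 1
  have hN : redD (hr.unit : RN E) = a * star a := by
    rw [hr.unit_spec, redD_red, ← QuadraticAlgebra.algebraMap_norm_eq_mul_star,
      map_intCast, ← map_intCast (algebraMap (ZMod (3 * E)) (R3 E)), hn]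
    rfl
  ext i j : 1
  rw [Matrix.map_apply, Matrix.map_apply, Units.val_mul, Units.val_mul, nG_val, upG_val,
    show (dgN hr.unit : GN (3 * E)).val =
      !![(hr.unit : RN E), 0; 0, 1] from rfl, Matrix.mul_fin_two,
    Matrix.mul_fin_two]
  fin_cases i <;> fin_cases j <;>
    simp [h10, redD_red, map_mul, map_intCast]
  · have hN' := hN
    rw [hr.unit_spec, redD_red, map_intCast] at hN'
    linear_combination (-a) * hsd - d * hN'
  · rw [map_intCast] at hw
    linear_combination (-bb) * hsd + d * hw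

/-- The norm of the corner is multiplicative on the upper triangular part. -/
lemma nB_mul {g1 g : GN (3 * E)} (hg : g ∈ Bs E) : nB (g1 * g) = nB g1 * nB g := by
  obtain ⟨-, h10⟩ := mem_Bs.1 hg
  rw [nB, nB, nB, ← map_mul, Units.val_mul, Matrix.mul_apply, Fin.sum_univ_two, map_add, map_mul,
    map_mul redD, h10, mul_zero, add_zero]

/-- The upper triangular part is closed under products. -/
lemma Bs_mul {g1 g : GN (3 * E)} (h1 : g1 ∈ Bs E) (h : g ∈ Bs E) : g1 * g ∈ Bs E := by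
  obtain ⟨a1, b1⟩ := mem_Bs.1 h1
  obtain ⟨a2, b2⟩ := mem_Bs.1 h
  refine mem_Bs.2 ⟨(StG E).mul_mem a1 a2, ?_⟩
  rw [Units.val_mul, Matrix.mul_apply, Fin.sum_univ_two, map_add, map_mul, map_mul, b1, b2]
  simp

/-- The identity is in the upper triangular part. -/
lemma one_mem_Bs : (1 : GN (3 * E)) ∈ Bs E := mem_Bs.2 ⟨one_mem _, by simp⟩

/-- Norms of units reach every class up to sign. -/
theorem exists_nB [IsPrincipalIdealRing EI] {u : ZMod (3 * E)} (hu : IsUnit u) :
    ∃ g ∈ Bs E, nB g = u ∨ nB g = -u := by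
  obtain ⟨s, hs1, hs3⟩ : ∃ s : ZMod (3 * E), (s = u ∨ s = -u) ∧
      ZMod.castHom (dvd_mul_right 3 E) (ZMod 3) s = 1 := by
    have h := hu.map (ZMod.castHom (dvd_mul_right 3 E) (ZMod 3))
    rcases (show ∀ z : ZMod 3, IsUnit z → z = 1 ∨ z = -1 from by
      intro z hz
      fin_cases z
      · exact absurd hz not_isUnit_zero
      · exact Or.inl rfl
      · exact Or.inr rfl) _ h with h1 | h1
    · exact ⟨u, Or.inl rfl, h1⟩
    · exact ⟨-u, Or.inr rfl, by rw [map_neg, h1, neg_neg]⟩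
  have hsu : IsUnit s := by rcases hs1 with rfl | rfl <;> [exact hu; exact hu.neg]
  have : NeZero (3 * E) := ⟨three_E_ne_zero⟩
  -- a prime in the class `s ≡ 1 (mod 3)` is a norm, of the corner of a diagonal element
  obtain ⟨p, hp3, hp, hpe⟩ := Nat.forall_exists_prime_gt_and_eq_mod hsu (3 * E)
  have := Fact.mk hp
  have hp1 : p % 3 = 1 := by
    rw [← hpe, map_natCast] at hs3
    have := congrArg ZMod.val hs3
    rwa [ZMod.val_natCast] at this
  obtain ⟨ϖ, hπ⟩ := exists_norm_eq_of_one_mod hp1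
  have hmul : ϖ * star ϖ = (p : EI) := by
    rw [← QuadraticAlgebra.algebraMap_norm_eq_mul_star, hπ]; simp
  have hpu : IsUnit (red (3 * (3 * E)) ϖ * red (3 * (3 * E)) (star ϖ)) := by
    rw [← map_mul, hmul]
    exact isUnit_red_nat ((ZMod.isUnit_iff_coprime _ _).1 (hpe ▸ hsu))
  obtain ⟨ha, has⟩ := IsUnit.mul_iff.1 hpu
  set g : GN (3 * E) := upG ha.unit 0 has.unit⁻¹
  have hgd : ∀ i j, redD (g.val i j)
      = (!![red (3 * E) ϖ, 0; 0, redD ((has.unit⁻¹ : (RN E)ˣ) : RN E)] : Matrix _ _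
          (R3 E)) i j := by
    intro i j
    fin_cases i <;> fin_cases j <;> simp [g, redD_red]
  have hsd : red (3 * E) (star ϖ) * redD ((has.unit⁻¹ : (RN E)ˣ) : RN E) = 1 := by
    rw [← redD_red, ← map_mul redD, ← map_one (redD (E := E))]
    congr 1
    exact has.mul_val_inv
  have hsd2 : red (3 * E) ϖ * star (redD ((has.unit⁻¹ : (RN E)ˣ) : RN E)) = 1 := by
    have := congrArg star hsd
    rw [star_mul', star_one] at this
    rw [show star (red (3 * E) (star ϖ)) = red (3 * E) ϖ by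
      rw [red, erMap_star, star_star]] at this
    exact this
  refine ⟨g, mem_Bs.2 ⟨⟨?_, ?_⟩, by rw [hgd]; rfl⟩, ?_⟩
  · rw [ndet, show g.val.det = (ha.unit : RN E) * ((has.unit⁻¹ : (RN E)ˣ) : RN E) by
      simp [g, Matrix.det_fin_two_of], map_mul]
    have h1 : QuadraticAlgebra.norm (has.unit : RN E) = QuadraticAlgebra.norm (ha.unit : RN E) := by
      rw [has.unit_spec, ha.unit_spec, red, erMap_star, QuadraticAlgebra.norm_star]
    rw [← h1, ← map_mul, Units.mul_inv, map_one]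
  · have hM : (mat3 g).val = !![red (3 * E) ϖ, 0; 0, redD ((has.unit⁻¹ : (RN E)ˣ) : RN E)] := by
      ext i j : 1; exact hgd i j
    have hA : red (3 * E) ϖ * star (redD ((has.unit⁻¹ : (RN E)ˣ) : RN E)) = 1 := hsd2
    have hB : redD ((has.unit⁻¹ : (RN E)ˣ) : RN E) * star (red (3 * E) ϖ) = 1 := by
      have := congrArg star hsd2
      rw [star_mul', star_star, star_one] at this
      linear_combination this
    rw [hM]
    ext i j : 1
    fin_cases i <;> fin_cases j <;> simp [hAct, antiJ, Matrix.mul_apply, Fin.sum_univ_two, hA, hB]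
  · have hnb : nB g = s := by
      rw [nB, hgd]
      change QuadraticAlgebra.norm (red (3 * E) ϖ) = s
      rw [norm_red, hπ, Int.cast_natCast, hpe]
    rw [hnb]
    exact hs1

/-- The number of upper triangular matrices selected by a frequency. -/
noncomputable def kcB (E : ℕ) [NeZero E] (z : ZMod (3 * E)) : ℕ :=
  ((Bs E).filter fun g => z * nB g = 1).card

/-- **The two signs together do not depend on the frequency.** -/
theorem kcB_add [IsPrincipalIdealRing EI] {z : ZMod (3 * E)} (hz : IsUnit z) :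
    kcB E z + kcB E (-z) = kcB E 1 + kcB E (-1) := by
  obtain ⟨w, hw⟩ := hz
  obtain ⟨g1, hg1, h1⟩ := exists_nB (E := E) ((w⁻¹).isUnit)
  have key : ∀ y : ZMod (3 * E), kcB E (y * nB g1) = kcB E y := fun y => by
    refine Finset.card_bij (fun g _ => g1 * g) (fun g hg => ?_) (fun a _ b _ h => mul_left_cancel h)
      fun g hg => ?_
    · obtain ⟨a, b⟩ := Finset.mem_filter.1 hg
      exact Finset.mem_filter.2 ⟨Bs_mul hg1 a, by rw [nB_mul a, ← mul_assoc]; exact b⟩
    · obtain ⟨a, b⟩ := Finset.mem_filter.1 hg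
      obtain ⟨k, hk⟩ : ∃ k : ℕ, g1⁻¹ = g1 ^ k := by
        have hfin : IsOfFinOrder g1 := isOfFinOrder_of_finite g1
        exact ⟨orderOf g1 - 1, (inv_eq_of_mul_eq_one_right (by
          rw [← pow_succ', Nat.sub_add_cancel hfin.orderOf_pos, pow_orderOf_eq_one]))⟩
      have hpow : ∀ k : ℕ, g1 ^ k ∈ Bs E := fun k => by
        induction k with
        | zero => simpa using one_mem_Bs
        | succ k ih => rw [pow_succ]; exact Bs_mul ih hg1
      have hi : g1⁻¹ * g ∈ Bs E := by rw [hk]; exact Bs_mul (hpow k) a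
      refine ⟨g1⁻¹ * g, Finset.mem_filter.2 ⟨hi, ?_⟩, mul_inv_cancel_left _ _⟩
      rw [mul_assoc, ← nB_mul hi, mul_inv_cancel_left]
      exact b
  rcases h1 with h1 | h1
  · rw [← key z, ← key (-z), h1, neg_mul, ← hw, Units.mul_inv]
  · rw [← key z, ← key (-z), h1, neg_mul, mul_neg, neg_neg, ← hw, Units.mul_inv]
    ring

/-- The identity is selected by the frequency `1`. -/
lemma kcB_one_pos : 0 < kcB E 1 :=
  Finset.card_pos.2 ⟨1, Finset.mem_filter.2 ⟨one_mem_Bs, by simp [nB]⟩⟩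

/-- The multiple `j ω` of `ω`. -/
def wSh (j : ℕ) : EI := ⟨0, (j : ℤ)⟩

/-- The coefficient of a shift. -/
noncomputable def cSh (E j : ℕ) : ℂ :=
  Complex.exp (2 * π * Complex.I * (j : ℂ) / ((3 * E : ℕ) : ℂ)) / ((3 * E : ℕ) : ℂ)

/-- **The mask**: the weighted shifts select the frequencies `m` with `m n ≡ 1`. -/
theorem sum_mask (m n : ℤ) :
    ∑ j ∈ Finset.range (3 * E), cSh E j * chiC (-(fr E (m : EI) * toC ((n : EI) * wSh j)))
      = if ((m * n : ℤ) : ZMod (3 * E)) = 1 then 1 else 0 := by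
  set P := 3 * E with hP
  have hP0 : (P : ℂ) ≠ 0 := Nat.cast_ne_zero.2 three_E_ne_zero
  set ζ : ℂ := Complex.exp (2 * π * Complex.I * ((1 - m * n : ℤ) : ℂ) / (P : ℂ)) with hζ
  -- each term is ζ ^ j / 3E for a root of unity ζ
  have e : ∀ j : ℕ, cSh E j * chiC (-(fr E (m : EI) * toC ((n : EI) * wSh j))) =
      ζ ^ j / (P : ℂ) := by
    intro j
    rw [cSh, chiC, hζ, ← Complex.exp_nat_mul, div_mul_eq_mul_div, ← Complex.exp_add]
    congr 2
    rw [fr, map_intCast, map_mul, map_intCast, toC_apply,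
      show ((m : ℂ)) / ((P : ℕ) : ℂ) = (((m : ℝ) / ((P : ℕ) : ℝ) : ℝ) : ℂ) by
        rw [Complex.ofReal_div, Complex.ofReal_intCast, Complex.ofReal_natCast],
      ← Complex.ofReal_intCast n, Complex.neg_re, Complex.re_ofReal_mul,
        Complex.re_ofReal_mul, emb_re]
    simp [wSh, hP]
    ring
  rw [Finset.sum_congr rfl fun j _ => e j, ← Finset.sum_div]
  have hζP : ζ ^ P = 1 := by
    rw [hζ, ← Complex.exp_nat_mul,
      show (P : ℂ) * (2 * π * Complex.I * ((1 - m * n : ℤ) : ℂ) / (P : ℂ))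
      = ((1 - m * n : ℤ) : ℂ) * (2 * π * Complex.I) by field_simp]
    exact Complex.exp_int_mul_two_pi_mul_I _
  -- ζ = 1 exactly when m n = 1 mod 3E
  by_cases h : ((m * n : ℤ) : ZMod (3 * E)) = 1
  · rw [if_pos h]
    have h0 : ((1 - m * n : ℤ) : ZMod (3 * E)) = 0 := by push_cast at h ⊢; rw [h, sub_self]
    obtain ⟨k, hk⟩ := (ZMod.intCast_zmod_eq_zero_iff_dvd _ _).1 h0
    have h1 : ζ = 1 := by
      rw [hζ, hk, show 2 * π * Complex.I * (((P : ℕ) : ℤ) * k : ℤ) / (P : ℂ) =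
          (k : ℂ) * (2 * π * Complex.I) by
        push_cast; field_simp]
      exact Complex.exp_int_mul_two_pi_mul_I k
    rw [h1]
    simp only [one_pow, Finset.sum_const, Finset.card_range, nsmul_eq_mul, mul_one]
    exact div_self hP0
  · rw [if_neg h]
    have h1 : ζ ≠ 1 := fun e1 => h <| by
      rw [hζ, Complex.exp_eq_one_iff] at e1
      obtain ⟨k, hk⟩ := e1
      have h2 : ((1 - m * n : ℤ) : ℂ) = ((k * (P : ℕ) : ℤ) : ℂ) := by
        have hne : (2 * π * Complex.I : ℂ) ≠ 0 := by simp [Real.pi_ne_zero, Complex.I_ne_zero]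
        refine mul_left_cancel₀ hne ?_
        field_simp at hk
        push_cast at hk ⊢
        linear_combination (2 * π * Complex.I) * hk
      have h3 : (1 - m * n : ℤ) = k * (P : ℕ) := by exact_mod_cast h2
      have h4 : ((1 - m * n : ℤ) : ZMod (3 * E)) = 0 := by
        rw [h3, Int.cast_mul, Int.cast_natCast, hP, ZMod.natCast_self, mul_zero]
      push_cast at h4 ⊢
      exact (sub_eq_zero.1 h4).symm
    rw [geom_sum_eq h1, hζP, sub_self, zero_div, zero_div]

section FirstCoef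

variable {K : Type*} [Field K] [NumberField K] [IsTotallyComplex K] {Φ : GN (3 * E) → H3 → ℂ}
  (hΦ : IsInvFam Φ) (D : KData K) (M : GN (3 * E))

include hΦ in
/-- Translations act by characters. -/
lemma IsInvFam.hCoef_nG (x : EI) (η : EI) {t : ℝ} (ht : 0 < t) :
    hCoef D E (Φ (nG x * M)) η t = chiC (-(fr E η * toC x)) * hCoef D E (Φ M) η t :=
  LT3.hCoef_nG D x M η (fun z => hΦ.translate x M z ht) fun N => hΦ.perC_slice N ht

include hΦ in
/-- The coefficients are bounded by the bound of the function. -/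
lemma IsInvFam.norm_hCoef_le {C : ℝ} (hC : ∀ w, ‖Φ M w‖ ≤ C) (η : EI) {t : ℝ} (ht : 0 < t) :
    ‖hCoef D E (Φ M) η t‖ ≤ C :=
  norm_mC_le D three_E_ne_zero ((hΦ.perC_slice M ht).mul (perC_chi E η)) fun z => by
    rw [norm_mul, norm_chiC, mul_one]; exact hC _

omit [NeZero E] in
/-- Moving a translation past `diag (n, 1)` multiplies it by `n`. -/
lemma dgN_mul_nG (r : (RN E)ˣ) (n : ℤ) (hr : (r : RN E) = red (3 * (3 * E)) (n : EI)) (x : EI) :
    (dgN r * nG x : GN (3 * E)) = nG ((n : EI) * x) * dgN r := by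
  refine Units.ext ?_
  rw [Units.val_mul, Units.val_mul, nG_val, nG_val,
    show (dgN r : GN (3 * E)).val = !![(r : RN E), 0; 0, 1] from rfl, Matrix.mul_fin_two,
    Matrix.mul_fin_two, map_mul, hr]
  ext i j : 1
  fin_cases i <;> fin_cases j <;> simp

include hΦ in
/-- **The combination at one frequency**: the count times the normalised coefficient. -/
theorem sum_comb (m : ℤ) {t : ℝ} (ht : 0 < t) :
    ∑ j ∈ Finset.range (3 * E), cSh E j * Sm Φ (nG (wSh j) * M) D t m
      = ((Real.exp (-(4 * π * ((m : ℝ) * t / ((3 * E : ℕ) : ℝ)) ^ 2)) : ℝ) : ℂ) *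
          ((kcB E (m : ZMod (3 * E)) : ℂ) *
            (Mult.rho (‖fr E (m : EI)‖ * t) * normC (eCoef D Φ) M (m : EI))) := by
  set γ : ℂ := ((Real.exp (-(4 * π * ((m : ℝ) * t / ((3 * E : ℕ) : ℝ)) ^ 2)) : ℝ) : ℂ)
  simp only [Sm, Finset.mul_sum]
  rw [Finset.sum_comm, kcB, Finset.card_filter, Nat.cast_sum, Finset.sum_mul, Finset.mul_sum]
  -- work with one g in Bs E at a time
  refine Finset.sum_congr rfl fun g hg => ?_
  obtain ⟨r, n, b, hr, hn, hsh⟩ := Bs_shape hg
  have hre : chiC (-(fr E (m : EI) * toC (sR * (b : EI)))) = 1 := by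
    rw [chiC_eq_one_iff]
    refine ⟨0, ?_⟩
    rw [fr, map_intCast, toC_sR_mul, show ((m : ℂ)) / ((3 * E : ℕ) : ℂ) =
        (((m : ℝ) / ((3 * E : ℕ) : ℝ) : ℝ) : ℂ) by
        rw [Complex.ofReal_div, Complex.ofReal_intCast, Complex.ofReal_natCast],
      Complex.neg_re, Complex.re_ofReal_mul]
    simp
  -- moving g past nG (wSh j) pulls out a character
  have hB : ∀ j : ℕ, hCoef D E (Φ (g * (nG (wSh j) * M))) (m : EI) t
      = chiC (-(fr E (m : EI) * toC ((n : EI) * wSh j))) * hCoef D E (Φ (dgN r * M)) (m : EI) t :=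
          fun j => by
    rw [show Φ (g * (nG (wSh j) * M)) = _ from funext (hsh hΦ _),
      hΦ.hCoef_nG D _ _ _ ht, hre, one_mul,
      ← mul_assoc, dgN_mul_nG r n hr, mul_assoc, hΦ.hCoef_nG D _ _ _ ht]
  simp only [hB]
  calc ∑ j ∈ Finset.range (3 * E), cSh E j *
        (γ * (chiC (-(fr E (m : EI) * toC ((n : EI) * wSh j))) *
          hCoef D E (Φ (dgN r * M)) (m : EI) t))
      = γ * hCoef D E (Φ (dgN r * M)) (m : EI) t *
          ∑ j ∈ Finset.range (3 * E),
              cSh E j * chiC (-(fr E (m : EI) * toC ((n : EI) * wSh j))) := by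
        rw [Finset.mul_sum]; exact Finset.sum_congr rfl fun j _ => by ring
    _ = _ := by
        -- the sum over j selects m n = 1, where dgN r matches the normalisation
        rw [sum_mask, Int.cast_mul, hn]
        split_ifs with h
        swap
        · simp
        simp only [Nat.cast_one, mul_one, one_mul]
        congr 1
        have hmu : IsUnit ((m : ℤ) : ZMod (3 * E)) := IsUnit.of_mul_eq_one _ h
        have hm0 : (m : EI) ≠ 0 := Int.cast_ne_zero.2 fun e => by
          rw [e, Int.cast_zero, zero_mul] at h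
          exact zero_ne_one h
        have hru : IsUnit (red (3 * (3 * E)) (m : EI)) := by
          have h1 : Nat.Coprime m.natAbs (3 * E) := by
            refine (ZMod.isUnit_iff_coprime _ _).1 ?_
            rcases Int.natAbs_eq m with hm | hm
            · rw [hm, Int.cast_natCast] at hmu; exact hmu
            · rw [hm, Int.cast_neg, Int.cast_natCast, IsUnit.neg_iff] at hmu; exact hmu
          rcases Int.natAbs_eq m with hm | hm
          · rw [hm, Int.cast_natCast]; exact isUnit_red_nat h1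
          · rw [hm, Int.cast_neg, Int.cast_natCast, map_neg, IsUnit.neg_iff]
            exact isUnit_red_nat h1
        rw [normC, dif_pos hru, eCoef,
          ← hCoef_rho D (hΦ.isEig _) (fun _ h' => hΦ.perC_slice _ h') hm0 ht]
        refine congrArg (fun f => hCoef D E f (m : EI) t) (funext fun w => hΦ.congr ?_ w)
        rw [Units.val_mul, Units.val_mul, Matrix.map_mul, Matrix.map_mul]
        congr 1
        have hrm : redD (r : RN E) = redD ((hru.unit⁻¹ : (RN E)ˣ) : RN E) := by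
          have h1 : redD (r : RN E) * redD (hru.unit : RN E) = 1 := by
            rw [hr, hru.unit_spec, redD_red, redD_red, map_intCast, map_intCast,
              ← map_intCast (algebraMap (ZMod (3 * E)) (R3 E)),
                ← map_intCast (algebraMap (ZMod (3 * E)) (R3 E)),
              ← map_mul, hn, mul_comm (nB g) ((m : ℤ) : ZMod (3 * E)), h, map_one]
          have h2 : redD (hru.unit : RN E) * redD ((hru.unit⁻¹ : (RN E)ˣ) : RN E) = 1 := by
            rw [← map_mul, Units.mul_inv, map_one]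
          calc redD (r : RN E)
              = redD (r : RN E) *
                  (redD (hru.unit : RN E) * redD ((hru.unit⁻¹ : (RN E)ˣ) : RN E)) := by
                rw [h2, mul_one]
            _ = _ := by rw [← mul_assoc, h1, one_mul]
        ext i j : 1
        fin_cases i <;> fin_cases j <;> simp [dgN, hrm]

/-- The archimedean weight `u² hExp (4π u) / hExp (4π)`. -/
noncomputable def rhoR (u : ℝ) : ℝ := u ^ 2 * Mult.hExp (4 * π * u) / Mult.hExp (4 * π)

/-- The weight of `Mult` is real. -/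
lemma rho_eq_rhoR (u : ℝ) : Mult.rho u = ((rhoR u : ℝ) : ℂ) := rfl

/-- The exponential transform is positive. -/
lemma hExp_pos {l : ℝ} (hl : 0 < l) : 0 < Mult.hExp l :=
  lt_of_le_of_ne (integral_nonneg_of_ae (by
    filter_upwards [Mult.ae_pos_hsm] with p hp
    exact mul_nonneg (Mult.ker0_nonneg hp) hp.le)) (Mult.hExp_ne_zero hl).symm

/-- The archimedean weight is nonnegative. -/
lemma rhoR_nonneg {u : ℝ} (hu : 0 < u) : 0 ≤ rhoR u := by
  have h1 := hExp_pos (show 0 < 4 * π * u by positivity)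
  have h2 := hExp_pos (show 0 < 4 * π by positivity)
  unfold rhoR
  positivity

/-- The archimedean weight is at least `u²` near zero. -/
lemma sq_le_rhoR {u : ℝ} (hu : 0 < u) (hu1 : u ≤ 1) : u ^ 2 ≤ rhoR u := by
  rw [rhoR, le_div_iff₀ (hExp_pos (by positivity))]
  refine mul_le_mul_of_nonneg_left
    (integral_mono_ae (Mult.integrable_ker0_mul (by positivity) one_pos)
    (Mult.integrable_ker0_mul (by positivity) one_pos) ?_) (sq_nonneg u)
  filter_upwards [Mult.ae_pos_hsm] with p hp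
  refine mul_le_mul_of_nonneg_right ?_ hp.le
  simp only [Mult.ker0]
  refine mul_le_mul_of_nonneg_left (Real.exp_le_exp.2 ?_) (by positivity)
  have hcd : 0 ≤ cd (0, 1) p := by
    rw [cd]; simp only; positivity [Complex.normSq_nonneg ((0 : ℂ) - p.1)]
  have h4 : 4 * π * u ≤ 4 * π := by nlinarith [Real.pi_pos]
  simp only [neg_mul]
  linarith [mul_le_mul_of_nonneg_right h4 hcd]

/-- The archimedean weight is measurable. -/
lemma measurable_rhoR : Measurable rhoR := by
  refine Measurable.mul (Measurable.mul (by fun_prop) ?_) measurable_const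
  have h : StronglyMeasurable fun q : ℝ × (ℂ × ℝ) => Mult.ker0 (4 * π * q.1) 1 q.2 * q.2.2 := by
    refine Measurable.stronglyMeasurable ?_
    unfold Mult.ker0 cd
    simp only [Complex.normSq_apply]
    fun_prop
  exact h.integral_prod_right'.measurable

/-- The transform of the Gaussian. -/
noncomputable def cM (σ : ℝ) : ℝ :=
  ∫ u in Set.Ioi (0 : ℝ), u ^ (σ - 2) * (Real.exp (-(4 * π * u ^ 2)) * rhoR u)

/-- The transform of the Gaussian converges and is bounded below uniformly in `σ`. -/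
lemma cM_spec {σ B : ℝ} (hσ : 1 < σ) (hσ' : σ ≤ 3 / 2) (hB : ∀ u, 0 < u → rhoR u ≤ B) :
    IntegrableOn (fun u => u ^ (σ - 2) * (Real.exp (-(4 * π * u ^ 2)) * rhoR u)) (Set.Ioi 0) ∧
      Real.exp (-(4 * π)) / 3 ≤ cM σ := by
  have hi : IntegrableOn (fun u => u ^ (σ - 2) * (Real.exp (-(4 * π * u ^ 2)) * rhoR u))
      (Set.Ioi 0) := by
    refine Integrable.mono' ((integrableOn_rpow_mul_exp_neg_mul_sq (b := 4 * π) (by positivity)
      (by linarith : (-1 : ℝ) < σ - 2)).const_mul B)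
      ((Measurable.mul (by fun_prop)
        ((Measurable.mul (by fun_prop) measurable_rhoR))).aestronglyMeasurable)
      ((ae_restrict_mem measurableSet_Ioi).mono fun u (hu : 0 < u) => ?_)
    rw [Real.norm_of_nonneg (mul_nonneg (Real.rpow_nonneg hu.le _)
      (mul_nonneg (Real.exp_pos _).le (rhoR_nonneg hu)))]
    rw [show -(4 * π * u ^ 2) = -(4 * π) * u ^ 2 by ring]
    nlinarith [mul_le_mul_of_nonneg_left (hB u hu)
      (mul_nonneg (Real.rpow_nonneg hu.le (σ - 2)) (Real.exp_pos (-(4 * π) * u ^ 2)).le)]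
  refine ⟨hi, ?_⟩
  have h0 : IntegrableOn (fun u : ℝ => Real.exp (-(4 * π)) * u ^ 2) (Set.Ioc 0 1) :=
    Continuous.integrableOn_Ioc (by fun_prop)
  refine le_trans ?_ (setIntegral_mono_set hi
    ((ae_restrict_mem measurableSet_Ioi).mono fun u (hu : 0 < u) =>
      mul_nonneg (Real.rpow_nonneg hu.le _) (mul_nonneg (Real.exp_pos _).le (rhoR_nonneg hu)))
    (Set.Ioc_subset_Ioi_self : Set.Ioc (0 : ℝ) 1 ⊆ Set.Ioi 0).eventuallyLE)
  refine le_trans (le_of_eq ?_) (setIntegral_mono_on h0 (hi.mono_set Set.Ioc_subset_Ioi_self)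
    measurableSet_Ioc fun u hu => ?_)
  · rw [integral_const_mul, ← intervalIntegral.integral_of_le zero_le_one, integral_pow]
    norm_num
    ring
  · have h1 : 1 ≤ u ^ (σ - 2) := Real.one_le_rpow_of_pos_of_le_one_of_nonpos hu.1 hu.2 (by linarith)
    have h2 : Real.exp (-(4 * π)) ≤ Real.exp (-(4 * π * u ^ 2)) := Real.exp_le_exp.2 (by
      nlinarith [Real.pi_pos, pow_le_one₀ (n := 2) hu.1.le hu.2])
    calc Real.exp (-(4 * π)) * u ^ 2 ≤ Real.exp (-(4 * π * u ^ 2)) * rhoR u :=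
          mul_le_mul h2 (sq_le_rhoR hu.1 hu.2) (sq_nonneg u) (Real.exp_pos _).le
      _ ≤ _ := le_mul_of_one_le_left (mul_nonneg (Real.exp_pos _).le (rhoR_nonneg hu.1)) h1

omit [NeZero E] in
/-- The absolute value of a rational frequency. -/
lemma norm_fr_intCast (m : ℤ) : ‖fr E (m : EI)‖ = |(m : ℝ)| / ((3 * E : ℕ) : ℝ) := by
  rw [fr, map_intCast, norm_div, Complex.norm_intCast, Complex.norm_natCast]

include hΦ in
/-- The sum over the frequencies converges. -/
lemma summable_Sm {t : ℝ} (ht : 0 < t) : Summable fun m : ℤ => Sm Φ M D t m := by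
  obtain ⟨C0, hC0⟩ := hΦ.bound
  have hP : (0 : ℝ) < ((3 * E : ℕ) : ℝ) := Nat.cast_pos.2 (Nat.pos_of_ne_zero three_E_ne_zero)
  refine Summable.of_norm_bounded (g := fun m : ℤ =>
    Real.exp (-(π * (4 * (t / ((3 * E : ℕ) : ℝ)) ^ 2) * (m : ℝ) ^ 2)) * ((Bs E).card * C0))
    ((summable_gauss (by positivity)).mul_right _) fun m => ?_
  rw [Sm, norm_mul, Complex.norm_real, Real.norm_of_nonneg (Real.exp_pos _).le,
    show -(4 * π * ((m : ℝ) * t / ((3 * E : ℕ) : ℝ)) ^ 2)
      = -(π * (4 * (t / ((3 * E : ℕ) : ℝ)) ^ 2) * (m : ℝ) ^ 2) by ring]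
  refine mul_le_mul_of_nonneg_left ?_ (Real.exp_pos _).le
  exact (norm_sum_le _ _).trans ((Finset.sum_le_card_nsmul _ _ _ fun g _ =>
    hΦ.norm_hCoef_le D _ (hC0 _) _ ht).trans_eq (nsmul_eq_mul _ _))

variable [IsPrincipalIdealRing EI] {g : ℕ → ℝ}

/-- The coefficients at the integers prime to the level are the weights times the first one. -/
def SignedCoef (D : KData K) (Φ : GN (3 * E) → H3 → ℂ) (M : GN (3 * E)) (g : ℕ → ℝ) : Prop :=
  ∀ {n : ℕ}, Nat.Coprime n (3 * E) → ∀ m : ℤ, m = n ∨ m = -n →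
    normC (eCoef D Φ) M (m : EI) = ((g n / n : ℝ) : ℂ) * eCoef D Φ M 1

/-- The term of a positive frequency `n` prime to `3E` at height `t`. -/
noncomputable def tF (E : ℕ) (g : ℕ → ℝ) (n : ℕ) (t : ℝ) : ℝ :=
  Real.exp (-(4 * π * ((n : ℝ) * t / ((3 * E : ℕ) : ℝ)) ^ 2)) *
    (rhoR ((n : ℝ) / ((3 * E : ℕ) : ℝ) * t) *
      if Nat.Coprime n (3 * E) then g n / (n : ℝ) else 0)

include hΦ in
/-- The sum of the combination at a height. -/
theorem hasSum_comb (hV : SignedCoef D Φ M g) {t : ℝ} (ht : 0 < t) :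
    HasSum (fun n : ℕ => ((((kcB E 1 + kcB E (-1) : ℕ) : ℝ) * tF E g n t : ℝ) : ℂ) * eCoef D Φ M 1)
      (∑ j ∈ Finset.range (3 * E), cSh E j * ∑' m : ℤ, Sm Φ (nG (wSh j) * M) D t m) := by
  set F : ℤ → ℂ := fun m => ∑ j ∈ Finset.range (3 * E), cSh E j * Sm Φ (nG (wSh j) * M) D t m
  have hFs : HasSum F (∑ j ∈ Finset.range (3 * E), cSh E j * ∑' m : ℤ,
      Sm Φ (nG (wSh j) * M) D t m) :=
    hasSum_sum fun j _ => (summable_Sm hΦ D _ ht).hasSum.mul_left _
  have hF : ∀ m : ℤ, F m = ((Real.exp (-(4 * π * ((m : ℝ) * t / ((3 * E : ℕ) : ℝ)) ^ 2)) : ℝ) : ℂ) *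
      ((kcB E (m : ZMod (3 * E)) : ℂ) *
          (Mult.rho (‖fr E (m : EI)‖ * t) * normC (eCoef D Φ) M (m : EI))) :=
    fun m => sum_comb hΦ D M m ht
  have h0 : F 0 = 0 := by
    rw [hF, normC, dif_neg]
    · simp
    · intro h
      exact ne_zero_of_unit_red h (by simp)
  -- pair `n` with `-n`
  have hn := hFs.nat_add_neg
  rw [h0, add_zero] at hn
  refine hn.congr_fun fun n => ?_
  rw [hF, hF]
  have hfr : ∀ m : ℤ, (m = n ∨ m = -n) → ‖fr E (m : EI)‖ * t = (n : ℝ) / ((3 * E : ℕ) : ℝ) * t := by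
    intro m hm
    rw [norm_fr_intCast]
    rcases hm with rfl | rfl <;> simp
  have hsq : ∀ m : ℤ, (m = n ∨ m = -n) → -(4 * π * ((m : ℝ) * t / ((3 * E : ℕ) : ℝ)) ^ 2)
      = -(4 * π * ((n : ℝ) * t / ((3 * E : ℕ) : ℝ)) ^ 2) := by
    intro m hm
    rcases hm with rfl | rfl <;> push_cast <;> ring
  rw [hfr (n : ℤ) (Or.inl rfl), hfr (-(n : ℤ)) (Or.inr rfl), hsq (n : ℤ) (Or.inl rfl),
    hsq (-(n : ℤ)) (Or.inr rfl), rho_eq_rhoR]
  by_cases hc : Nat.Coprime n (3 * E)
  · rw [hV hc _ (Or.inl rfl), hV hc _ (Or.inr rfl), tF, if_pos hc]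
    have hk := congrArg (fun k : ℕ => (k : ℂ))
      (kcB_add (E := E) (z := ((n : ℤ) : ZMod (3 * E)))
        (by rw [Int.cast_natCast]; exact (ZMod.isUnit_iff_coprime _ _).2 hc))
    push_cast at hk ⊢
    linear_combination (-(Complex.exp (-(4 * (π : ℂ) * ((n : ℂ) * (t : ℂ) / (3 * (E : ℂ))) ^ 2)) *
      (rhoR ((n : ℝ) / (3 * (E : ℝ)) * t) : ℂ) * ((g n : ℂ) / (n : ℂ)) * eCoef D Φ M 1)) * hk
  · have hz : ∀ m : ℤ, (m = n ∨ m = -n) → kcB E (m : ZMod (3 * E)) = 0 := by
      intro m hm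
      refine Finset.card_eq_zero.2 (Finset.filter_eq_empty_iff.2 fun g _ h => hc ?_)
      have hu : IsUnit (m : ZMod (3 * E)) := IsUnit.of_mul_eq_one _ h
      refine (ZMod.isUnit_iff_coprime _ _).1 ?_
      rcases hm with rfl | rfl
      · simpa using hu
      · simpa using hu
    rw [hz _ (Or.inl rfl), hz _ (Or.inr rfl), tF, if_neg hc]
    simp

omit [IsPrincipalIdealRing EI] in
include hΦ in
/-- If the first coefficient does not vanish, the radial profile is bounded. -/
lemma exists_rhoR_le (hB : eCoef D Φ M 1 ≠ 0) : ∃ B, ∀ u, 0 < u → rhoR u ≤ B := by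
  set β := eCoef D Φ M 1
  set Pn : ℝ := ((3 * E : ℕ) : ℝ)
  have hPn : 0 < Pn := Nat.cast_pos.2 (Nat.pos_of_ne_zero three_E_ne_zero)
  have hβ : 0 < ‖β‖ := norm_pos_iff.2 hB
  obtain ⟨C0, hC0⟩ := hΦ.bound
  refine ⟨C0 / ‖β‖, fun u hu => ?_⟩
  rw [le_div_iff₀ hβ]
  have h := hΦ.norm_hCoef_le D M (hC0 M) 1 (t := u * Pn) (by positivity)
  rw [hCoef_rho D (hΦ.isEig _) (fun _ h' => hΦ.perC_slice _ h') one_ne_zero (by positivity)] at h
  have hn : ‖fr E (1 : EI)‖ = 1 / Pn := by
    have := norm_fr_intCast (E := E) 1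
    simpa [Pn] using this
  rw [hn, show 1 / Pn * (u * Pn) = u by field_simp, norm_mul, rho_eq_rhoR, Complex.norm_real,
    Real.norm_of_nonneg (rhoR_nonneg hu)] at h
  have e : hCoef D E (Φ M) 1 (1 / Pn)⁻¹ = β := by simp only [β, eCoef, hn]
  rwa [e] at h

omit [IsPrincipalIdealRing EI] in
/-- The Mellin integral of one positive frequency is a term of the series of the weights. -/
lemma mellin_tF {σ B : ℝ} (hσ : 1 < σ) (hσ' : σ ≤ 3 / 2) (hB : ∀ u, 0 < u → rhoR u ≤ B) (κ : ℕ)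
    (β : ℂ) (n : ℕ) :
    IntegrableOn (fun t => ((t ^ (σ - 2) * ((κ : ℝ) * tF E g n t) : ℝ) : ℂ) * β) (Set.Ioi 0) ∧
      ∫ t in Set.Ioi 0, ((t ^ (σ - 2) * ((κ : ℝ) * tF E g n t) : ℝ) : ℂ) * β
        = ((((3 * E : ℕ) : ℝ) ^ (σ - 1) * cM σ * κ * gSer E g σ n : ℝ) : ℂ) * β ∧
      ∫ t in Set.Ioi 0, ‖((t ^ (σ - 2) * ((κ : ℝ) * tF E g n t) : ℝ) : ℂ) * β‖
        = ((3 * E : ℕ) : ℝ) ^ (σ - 1) * cM σ * κ * |gSer E g σ n| * ‖β‖ := by
  set Pn : ℝ := ((3 * E : ℕ) : ℝ)
  have hPn : 0 < Pn := Nat.cast_pos.2 (Nat.pos_of_ne_zero three_E_ne_zero)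
  obtain ⟨hci, hcl⟩ := cM_spec hσ hσ' hB
  set G : ℝ → ℂ := fun t => ((t ^ (σ - 2) * ((κ : ℝ) * tF E g n t) : ℝ) : ℂ) * β
  change IntegrableOn (G) (Set.Ioi 0) ∧ ∫ t in Set.Ioi 0, G t = _ ∧
    ∫ t in Set.Ioi 0, ‖G t‖ = _
  -- n not prime to 3E: both sides are 0
  by_cases hc : Nat.Coprime n (3 * E)
  swap
  · have hz : G = 0 := funext fun t => by simp [G, tF, hc]
    rw [gSer, if_neg hc, hz]
    refine ⟨integrableOn_zero, ?_, ?_⟩ <;> simp
  have hn : (0 : ℝ) < n := Nat.cast_pos.2 (Nat.pos_of_ne_zero fun e => by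
    rw [e, Nat.coprime_zero_left] at hc
    have := three_le_level (E := E)
    omega)
  -- otherwise substitute u = n t / 3E in the integral defining cM
  set b := (n : ℝ) / Pn
  have hb : 0 < b := by positivity
  set h : ℝ → ℝ := fun u => u ^ (σ - 2) * (Real.exp (-(4 * π * u ^ 2)) * rhoR u)
  set k : ℝ := (b ^ (σ - 2))⁻¹ * κ * (g n / n)
  have e : ∀ t ∈ Set.Ioi (0 : ℝ), G t = ((k * h (b * t) : ℝ) : ℂ) * β :=
      fun t (ht : 0 < t) => by
    simp only [G, tF, if_pos hc, h, k]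
    rw [Real.mul_rpow hb.le ht.le, show (n : ℝ) * t / Pn = b * t by simp only [b]; ring]
    congr 2
    have : b ^ (σ - 2) ≠ 0 := (Real.rpow_pos_of_pos hb _).ne'
    field_simp
    rw [mul_right_comm]
    congr 2
    simp only [b, Pn]
    ring
  have hbi : IntegrableOn (fun t => h (b * t)) (Set.Ioi 0) :=
    (integrableOn_Ioi_comp_mul_left_iff h 0 hb).2 (by rw [mul_zero]; exact hci)
  have hint : ∫ t in Set.Ioi 0, h (b * t) = b⁻¹ * cM σ := by
    rw [integral_comp_mul_left_Ioi _ _ hb, mul_zero, smul_eq_mul]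
    rfl
  -- the constants combine to (3E) ^ (σ - 1) times gSer
  have hk : k * (b⁻¹ * cM σ) = Pn ^ (σ - 1) * cM σ * κ * gSer E g σ n := by
    simp only [k, b, gSer, if_pos hc]
    rw [show σ - 2 = σ - 1 - 1 by ring, Real.rpow_sub_one (by positivity),
      Real.div_rpow hn.le hPn.le, Real.rpow_sub_one hn.ne' σ]
    field_simp
  refine ⟨?_, ?_, ?_⟩
  · exact IntegrableOn.congr_fun (((hbi.const_mul k).ofReal).mul_const β) (fun t ht =>
      (e t ht).symm) measurableSet_Ioi
  · rw [setIntegral_congr_fun measurableSet_Ioi e, integral_mul_const, integral_complex_ofReal,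
      integral_const_mul, hint, hk]
  · rw [setIntegral_congr_fun measurableSet_Ioi (g := fun t => |k| * h (b * t) * ‖β‖)
      fun t ht => ?_, integral_mul_const, integral_const_mul, hint]
    · have hc0 : 0 ≤ cM σ := le_trans (by positivity) hcl
      rw [← abs_of_nonneg (mul_nonneg (inv_nonneg.2 hb.le) hc0), ← abs_mul, hk, abs_mul,
        abs_of_nonneg (by positivity : 0 ≤ Pn ^ (σ - 1) * cM σ * κ)]
    · simp only [e t ht, norm_mul, Complex.norm_real, Real.norm_eq_abs]
      have ht' : 0 < b * t := mul_pos hb ht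
      rw [abs_of_nonneg (show 0 ≤ h (b * t) from mul_nonneg (Real.rpow_nonneg ht'.le _)
        (mul_nonneg (Real.exp_pos _).le (rhoR_nonneg ht')))]

include hΦ in
/-- **The first coefficient vanishes**: if the coefficients along the integers are the weights times
the first one, the series of the weights is unbounded at `1` and the periods vanish. -/
theorem eCoef_one_eq_zero (hV : SignedCoef D Φ M g)
    (hsum : ∀ σ : ℝ, 1 < σ → Summable fun n => ‖gSer E g σ n‖)
    (hunb : ∀ C : ℝ, ∃ᶠ σ : ℝ in 𝓝[>] 1, C ≤ ∑' n, gSer E g σ n)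
    (hPS : ∀ (j : ℕ) (σ : ℝ), 1 < σ → perSum Φ (nG (wSh j) * M) (qS σ) = 0) :
    eCoef D Φ M 1 = 0 := by
  by_contra hB
  set β := eCoef D Φ M 1
  set Pn : ℝ := ((3 * E : ℕ) : ℝ)
  have hPn1 : (1 : ℝ) ≤ Pn := Nat.one_le_cast.2 (Nat.pos_of_ne_zero three_E_ne_zero)
  have hPn : 0 < Pn := by linarith
  have hβ : 0 < ‖β‖ := norm_pos_iff.2 hB
  obtain ⟨B, hrB⟩ := exists_rhoR_le hΦ D M hB
  -- both sides of the Mellin transform of the combination: bounded against unbounded
  choose C hC using fun j => exists_strip_bound (nG (wSh j) * M) hΦ (hPS j)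
  set κ : ℕ := kcB E 1 + kcB E (-1)
  have hκ : (1 : ℝ) ≤ κ := Nat.one_le_cast.2 (le_add_right (kcB_one_pos (E := E)))
  set Ctot := ∑ j ∈ Finset.range (3 * E), ‖cSh E j‖ * C j
  set low := 1 / 3 * (‖β‖ * (Real.exp (-(4 * π)) / 3))
  have hlow : 0 < low := by positivity
  have key : ∀ σ : ℝ, 1 < σ → σ ≤ 3 / 2 → low * |∑' n, gSer E g σ n| ≤ Ctot := by
    intro σ hσ hσ'
    have hσ2 : σ < 2 := by linarith
    obtain ⟨-, hcl⟩ := cM_spec hσ hσ' hrB
    set G : ℕ → ℝ → ℂ := fun n t =>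
      ((t ^ (σ - 2) * ((κ : ℝ) * tF E g n t) : ℝ) : ℂ) * β
    have hGint : ∀ n, IntegrableOn (G n) (Set.Ioi 0) ∧
        ∫ t in Set.Ioi 0, G n t = ((Pn ^ (σ - 1) * cM σ * κ * gSer E g σ n : ℝ) : ℂ) * β ∧
        ∫ t in Set.Ioi 0, ‖G n t‖ = Pn ^ (σ - 1) * cM σ * κ * |gSer E g σ n| * ‖β‖ :=
      mellin_tF hσ hσ' hrB κ β
    have hsum : Summable fun n => ∫ t in Set.Ioi 0, ‖G n t‖ :=
      (((hsum σ hσ).mul_left (Pn ^ (σ - 1) * cM σ * κ)).mul_right ‖β‖).congr fun n => by
        rw [Real.norm_eq_abs]; exact (hGint n).2.2.symm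
    -- exchange sum and integral, and unfold the periods into the strip
    have hswap := integral_tsum_of_summable_integral_norm (fun n => (hGint n).1) hsum
    simp only [(hGint _).2.1] at hswap
    rw [tsum_mul_right, ← Complex.ofReal_tsum, tsum_mul_left] at hswap
    have hcomb : ∀ t ∈ Set.Ioi (0 : ℝ), ∑' n, G n t = ∑ j ∈ Finset.range (3 * E),
        cSh E j * (((t ^ (σ - 2) : ℝ) : ℂ) * ∑' m : ℤ, Sm Φ (nG (wSh j) * M) D t m) :=
            fun t ht => by
      rw [Finset.sum_congr rfl fun j _ => mul_left_comm (cSh E j) _ _, ← Finset.mul_sum,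
        ← (hasSum_comb hΦ D M hV ht).tsum_eq, ← tsum_mul_left]
      exact tsum_congr fun n => by simp only [G, κ, β]; push_cast; ring
    rw [setIntegral_congr_fun measurableSet_Ioi hcomb,
      integral_finsetSum _ fun j _ =>
        ((strip_eq_coef (nG (wSh j) * M) hΦ D hσ hσ2).1.const_mul _)] at hswap
    simp only [integral_const_mul] at hswap
    set μ : ℝ := (3 : ℝ) ^ (-(σ / 2)) * Real.sqrt 3
    have h2 : (μ : ℂ) * ((((Pn ^ (σ - 1) * cM σ * κ) * ∑' n, gSer E g σ n : ℝ) : ℂ) * β)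
        = ∑ j ∈ Finset.range (3 * E),
            cSh E j * ∫ v, (stripW v : ℂ) * aU Φ (nG (wSh j) * M) σ v ∂hmeas := by
      rw [hswap, Finset.mul_sum]
      refine Finset.sum_congr rfl fun j _ => ?_
      rw [(strip_eq_coef (nG (wSh j) * M) hΦ D hσ hσ2).2]
      ring
    have h3 := congrArg (fun z : ℂ => ‖z‖) h2
    simp only [norm_mul, Complex.norm_real, Real.norm_eq_abs] at h3
    have h4 : ‖∑ j ∈ Finset.range (3 * E),
        cSh E j * ∫ v, (stripW v : ℂ) * aU Φ (nG (wSh j) * M) σ v ∂hmeas‖ ≤ Ctot := by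
      refine (norm_sum_le _ _).trans (Finset.sum_le_sum fun j _ => ?_)
      rw [norm_mul]
      exact mul_le_mul_of_nonneg_left (hC j σ hσ hσ') (norm_nonneg _)
    rw [← h3] at h4
    have hμ : 1 / 3 ≤ μ := by
      have h5 : (3 : ℝ) ^ (-(1 : ℝ)) ≤ (3 : ℝ) ^ (-(σ / 2)) :=
        Real.rpow_le_rpow_of_exponent_le (by norm_num) (by linarith)
      rw [Real.rpow_neg_one] at h5
      have h6 : (1 : ℝ) ≤ Real.sqrt 3 := Real.one_le_sqrt.2 (by norm_num)
      calc (1 : ℝ) / 3 = (3 : ℝ)⁻¹ * 1 := by norm_num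
        _ ≤ μ := mul_le_mul h5 h6 zero_le_one (by positivity)
    have hc0 : 0 ≤ cM σ := le_trans (by positivity) hcl
    have hp1 : 1 ≤ Pn ^ (σ - 1) := Real.one_le_rpow hPn1 (by linarith)
    have h7 : Real.exp (-(4 * π)) / 3 ≤ Pn ^ (σ - 1) * cM σ * κ :=
      le_trans hcl
        (le_trans (le_mul_of_one_le_left hc0 hp1) (le_mul_of_one_le_right (by positivity) hκ))
    have hμ0 : 0 ≤ μ := le_trans (by norm_num) hμ
    refine le_trans ?_ h4
    rw [abs_of_nonneg hc0, abs_of_nonneg (by positivity : (0 : ℝ) ≤ Pn ^ (σ - 1)),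
      abs_of_nonneg (by positivity : (0 : ℝ) ≤ κ),
      abs_of_nonneg hμ0]
    calc low * |∑' n, gSer E g σ n| =
           1 / 3 * ((Real.exp (-(4 * π)) / 3 * |∑' n, gSer E g σ n|) * ‖β‖) := by
          simp only [low]; ring
      _ ≤ μ * ((Pn ^ (σ - 1) * cM σ * κ * |∑' n, gSer E g σ n|) * ‖β‖) :=
          mul_le_mul hμ (mul_le_mul_of_nonneg_right (mul_le_mul_of_nonneg_right h7 (abs_nonneg _))
            (norm_nonneg _)) (by positivity) hμ0
      _ = _ := by ring
  obtain ⟨σ, hσC, hσ1, hσ2⟩ := ((hunb (Ctot / low + 1)).and_eventually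
    (Ioo_mem_nhdsGT (show (1 : ℝ) < 3 / 2 by norm_num))).exists
  have h := key σ hσ1 hσ2.le
  rw [mul_comm, ← le_div_iff₀ hlow] at h
  linarith [le_abs_self (∑' n, gSer E g σ n)]

end FirstCoef

variable [IsPrincipalIdealRing EI] {K : Type*} [Field K] [NumberField K] [IsTotallyComplex K]
  (D : KData K)

/-- **The first coefficient of an `Auto` vanishes with the periods.** -/
theorem Bn_one_eq_zero (A : Auto E) (M : GN (3 * E)) (hA : LamOK A) (P : ℕ → Prop)
    (hP : ∀ p, p.Prime → P p → Nat.Coprime p (3 * E) ∧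
      ∃ ϖ : EI, QuadraticAlgebra.norm ϖ = (p : ℤ) ∧
        ∀ ϖ' : EI, QuadraticAlgebra.norm ϖ' = (p : ℤ) → A.lam ϖ' ^ 2 = 4 * p)
    (hdiv : ∀ C : ℝ, ∃ᶠ σ : ℝ in 𝓝[>] 1,
      C ≤ ∑' p : Nat.Primes, if P p then ((p : ℝ) ^ σ)⁻¹ else 0)
    (hPS : ∀ N : GN (3 * E), ndet N = 1 → ∀ σ : ℝ, 1 < σ → PS A N (qS σ) = 0)
    (hM : ndet M = 1) : Bn D A M 1 = 0 :=
  eCoef_one_eq_zero A.invFam D M
    (fun hn m hm => (Vn_signed D A M hn m hm).trans (by rw [Vn_one]; rfl))
    (fun _ hσ => summable_gSer (gN_one A.lam) (abs_gN_pow_le hA.bound) gN_mul hσ)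
    (gSer_unbounded A hA P hP hdiv)
    fun j σ hσ => hPS _ (by rw [ndet_mul, hM, mul_one, nG, ndet_gr]) σ hσ

end Fermat.LT3
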