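import Fermat.Agent.LT3.Per.Stab
import Fermat.Agent.LT3.Series.Spec

/-!
# Periods over the plane of `X₁`

`cI_three`: `κ₃` of a special function is a combination of periods; hence, if all of them vanish,
so do the periods summed over the stabiliser at isotropic classes. `Class` and `Induct` extend the
vanishing to all classes.
-/

set_option autoImplicit false
open Matrix MeasureTheory Filter
open scoped Classical MatrixGroups ENNReal

namespace Fermat.LT3
open Fermat.LT

variable {E : ℕ} [NeZero E]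

/-- The modulus `3E`. -/
abbrev R3 (E : ℕ) : Type := ER (ZMod (3 * E))

/-- Reduction to `3E`. -/
def redD : RN E →+* R3 E := castER (3 * E) (dvd_mul_left _ 3)

/-- Matrices modulo `3E`. -/
noncomputable def mat3 : GN (3 * E) →* GL (Fin 2) (R3 E) := Matrix.GeneralLinearGroup.map redD

/-- The hermitian action. -/
def hAct {R : Type*} [CommRing R] (g X : Matrix (Fin 2) (Fin 2) (ER R)) :
    Matrix (Fin 2) (Fin 2) (ER R) := g * X * gᴴ

/-- The hermitian action respects products. -/
lemma hAct_mul {R : Type*} [CommRing R] (g h X : Matrix (Fin 2) (Fin 2) (ER R)) :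
    hAct (g * h) X = hAct g (hAct h X) := by
  simp only [hAct, Matrix.conjTranspose_mul, Matrix.mul_assoc]

/-- One acts trivially. -/
lemma hAct_one {R : Type*} [CommRing R] (X : Matrix (Fin 2) (Fin 2) (ER R)) : hAct 1 X = X := by
  simp [hAct]

/-- The inverse undoes the action. -/
lemma hAct_inv_cancel {R : Type*} [CommRing R] (g : GL (Fin 2) (ER R))
    (X : Matrix (Fin 2) (Fin 2) (ER R)) : hAct g⁻¹.val (hAct g.val X) = X := by
  rw [← hAct_mul, Units.inv_mul, hAct_one]

/-- The action undoes that of the inverse. -/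
lemma hAct_cancel_inv {R : Type*} [CommRing R] (g : GL (Fin 2) (ER R))
    (X : Matrix (Fin 2) (Fin 2) (ER R)) : hAct g.val (hAct g⁻¹.val X) = X := by
  rw [← hAct_mul, Units.mul_inv, hAct_one]

/-- Reduction commutes with the hermitian action. -/
lemma map_hAct {n : ℕ} (g X : Matrix (Fin 2) (Fin 2) EI) :
    (g * X * gᴴ).map (red n) = hAct (g.map (red n)) (X.map (red n)) := by
  rw [hAct, Matrix.map_mul, Matrix.map_mul]
  congr 1
  ext i j : 1
  simp only [Matrix.map_apply, Matrix.conjTranspose_apply]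
  exact erMap_star _ _

/-- Reduction fixes `antiJ`. -/
lemma map_antiJ (n : ℕ) : (antiJ ℤ).map (red n) = antiJ (ZMod n) := by
  ext i j : 1
  fin_cases i <;> fin_cases j <;> simp [antiJ]

/-- **The finite stabiliser.** The matrices modulo `9E` with determinant of norm one whose reduction
modulo `3E` fixes `antiJ` under the hermitian action. -/
noncomputable def StG (E : ℕ) [NeZero E] : Subgroup (GN (3 * E)) where
  carrier := {g | ndet g = 1 ∧ hAct (mat3 g).val (antiJ (ZMod (3 * E))) = antiJ (ZMod (3 * E))}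
  one_mem' := ⟨ndet_one, by rw [map_one, Units.val_one, hAct_one]⟩
  mul_mem' {a b} ha hb := ⟨by rw [ndet_mul, ha.1, hb.1, mul_one],
    by rw [map_mul, Units.val_mul, hAct_mul, hb.2, ha.2]⟩
  inv_mem' {a} ha := ⟨ndet_inv ha.1, by
    conv_lhs => rw [← ha.2, map_inv, hAct_inv_cancel]⟩

/-- The stabiliser reduces into the finite stabiliser. -/
lemma gr_mem_StG {γ : GL (Fin 2) EI} (h : γ ∈ H1s) :
    (gr (3 * (3 * E)) γ : GN (3 * E)) ∈ StG E := by
  refine ⟨ndet_gr γ, ?_⟩
  have e : (mat3 (gr (3 * (3 * E)) γ : GN (3 * E))).val = γ.val.map (red (3 * E)) := by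
    ext i j : 1
    exact castER_red _ _ _
  rw [e, ← map_antiJ, ← map_hAct, mem_H1s.1 h]

/-- Elements of the finite stabiliser have norm determinant one. -/
lemma StG_ndet {g : GN (3 * E)} (h : g ∈ StG E) : ndet g = 1 := h.1

/-- The height of the base point is invariant under its stabiliser. -/
lemma lin_X1_smul {γ : GL (Fin 2) EI} (h : γ ∈ H1s) (v : H3) :
    lin (vec X1) (gC γ • v) = lin (vec X1) v := by
  conv_lhs => rw [← show dact γ.val X1 = X1 from h]
  exact lin_vec_dact γ X1 v

/-- A sum over the cosets of `H0s` is at most `#ℤ[ω]ˣ` times one over the points of norm `3`. -/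
lemma enorm_lin_sum_le (F : ℝ → ℂ) (u : H3) :
    ∑' q : CosQ H0s ⊤, ‖F (lin (vec X1) (gC (cRep q)⁻¹ • u))‖ₑ
      ≤ (Fintype.card EIˣ : ℝ≥0∞) * ∑' X : {X : Lz // q3 X = 3}, ‖F (lin (vec X.1) u)‖ₑ := by
  have e : ∀ q : CosQ H0s ⊤, ‖F (lin (vec X1) (gC (cRep q)⁻¹ • u))‖ₑ
      = ‖F (lin (vec (cosIdx q).1.1) u)‖ₑ := fun q => by
    rw [← lin_vec_dact (cRep q) X1, smul_smul, ← map_mul, mul_inv_cancel, map_one, one_smul]
    rfl
  rw [tsum_congr e]
  refine (ENNReal.tsum_comp_le_tsum_of_injective cosIdx_injective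
    fun p : {X : Lz // q3 X = 3} × EIˣ => ‖F (lin (vec p.1.1) u)‖ₑ).trans_eq ?_
  rw [ENNReal.tsum_prod', ← ENNReal.tsum_mul_left]
  refine tsum_congr fun X => ?_
  simp [tsum_fintype]

/-- Gaussian functions of the height are integrable on a fundamental domain of `H0s`. -/
theorem integrable_rhoH {G : H3 → ℂ} (hG : Measurable G) {F : ℝ → ℂ} (hF : Samp.Decay F) {K : ℝ}
    (h : ∀ v, ‖G v‖ ≤ K * ‖F (lin (vec X1) v)‖) :
    Integrable (fun v => (rhoH v : ℂ) * G v) hmeas := by
  obtain ⟨hFc, a, D, ha, hD⟩ := hF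
  obtain ⟨C, hC0, hC⟩ := exists_maj_bound (a := a / 2) (half_pos ha)
  set K' := max K 0
  refine ⟨((Complex.measurable_ofReal.comp part_rhoH.meas).mul hG).aestronglyMeasurable, ?_⟩
  rw [hasFiniteIntegral_iff_enorm]
  have hD0 : 0 ≤ D := by have := (norm_nonneg _).trans (hD 0); simpa using this
  have hFm : Measurable fun v => ‖F (lin (vec X1) v)‖ₑ :=
    (hFc.comp (continuous_lin (vec X1))).measurable.enorm
  -- bound G by F, then unfold rhoH to rho0 times a coset sum
  have h1 : ∀ v, ‖(rhoH v : ℂ) * G v‖ₑ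
      ≤ ENNReal.ofReal K' * (ENNReal.ofReal (rhoH v) * ‖F (lin (vec X1) v)‖ₑ) := fun v => by
    rw [enorm_mul, ← ofReal_norm, Complex.norm_real, Real.norm_of_nonneg (part_rhoH.nonneg v),
      mul_left_comm (ENNReal.ofReal K')]
    refine mul_le_mul_right ?_ _
    rw [← ofReal_norm, ← ofReal_norm, ← ENNReal.ofReal_mul (le_max_right _ _)]
    exact ENNReal.ofReal_le_ofReal ((h v).trans (mul_le_mul_of_nonneg_right (le_max_left _ _)
      (norm_nonneg _)))
  refine lt_of_le_of_lt (lintegral_mono h1) ?_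
  rw [lintegral_const_mul _ (part_rhoH.meas.ennreal_ofReal.fun_mul hFm)]
  refine ENNReal.mul_lt_top ENNReal.ofReal_lt_top ?_
  rw [rhoH, part_rho0.lintegral_unfold le_top hFm]
  set S : H3 → ℝ := Sg.indicator fun u => (H3.coord u).2
  set K2 := (Fintype.card EIˣ : ℝ) * (D * Real.exp (a * 3 / 6) * (9 * C))
  have hb : ∀ u, ENNReal.ofReal (rho0 u) *
      ∑' q : CosQ H0s ⊤, ‖F (lin (vec X1) (gC (cRep q)⁻¹ • u))‖ₑ ≤ ENNReal.ofReal (K2 * S u) := by
    intro u
    obtain ⟨hs, hle⟩ := hC (H3.coord u).1 (H3.coord u).2 (H3.coord_pos u)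
    rw [H3.mk_coord] at hs hle
    -- trade the decay of F for exp (-(a / 2) maj) and sum by the lattice bound
    have hterm : ∀ X : {X : Lz // q3 X = 3}, ‖F (lin (vec X.1) u)‖
        ≤ D * Real.exp (a * 3 / 6) * Real.exp (-(a / 2 * maj (vec X.1) u)) := fun X => by
      refine (hD _).trans_eq ?_
      rw [mul_assoc, ← Real.exp_add, maj]
      congr 2
      have hq := q3_eq X.1
      rw [X.2] at hq
      push_cast at hq
      linear_combination (a / 6) * hq
    have hs' := hs.comp_injective (Subtype.val_injective (p := fun X : Lz => q3 X = 3))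
    have hsum : ∑' X : {X : Lz // q3 X = 3}, ‖F (lin (vec X.1) u)‖ₑ
        ≤ ENNReal.ofReal (D * Real.exp (a * 3 / 6) *
          (C * (1 + (H3.coord u).2) * (1 + ((H3.coord u).2)⁻¹))) := by
      simp only [← ofReal_norm]
      rw [← ENNReal.ofReal_tsum_of_nonneg (fun _ => norm_nonneg _)
        ((hs'.mul_left _).of_nonneg_of_le (fun _ => norm_nonneg _) hterm)]
      refine ENNReal.ofReal_le_ofReal ((((hs'.mul_left _).of_nonneg_of_le (fun _ => norm_nonneg _)
        hterm).tsum_le_tsum hterm (hs'.mul_left _)).trans ?_)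
      rw [tsum_mul_left]
      exact mul_le_mul_of_nonneg_left ((Summable.tsum_subtype_le _ _
        (fun _ => (Real.exp_pos _).le) hs).trans hle) (by positivity)
    refine (mul_le_mul_right ((enorm_lin_sum_le F u).trans (mul_le_mul_right hsum _)) _).trans ?_
    rw [← ENNReal.ofReal_natCast, ← ENNReal.ofReal_mul (Nat.cast_nonneg _),
      ← ENNReal.ofReal_mul (part_rho0.nonneg u)]
    refine ENNReal.ofReal_le_ofReal ?_
    have h9 := rho0_mul_le (w := u) hC0
    have hc : 0 ≤ (Fintype.card EIˣ : ℝ) * (D * Real.exp (a * 3 / 6)) := by positivity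
    calc rho0 u * ((Fintype.card EIˣ : ℝ) * (D * Real.exp (a * 3 / 6) *
          (C * (1 + (H3.coord u).2) * (1 + ((H3.coord u).2)⁻¹))))
        = (Fintype.card EIˣ : ℝ) * (D * Real.exp (a * 3 / 6)) *
          (rho0 u * (C * (1 + (H3.coord u).2) * (1 + ((H3.coord u).2)⁻¹))) := by ring
      _ ≤ (Fintype.card EIˣ : ℝ) * (D * Real.exp (a * 3 / 6)) * (9 * C * S u) :=
          mul_le_mul_of_nonneg_left h9 hc
      _ = K2 * S u := by ring
  -- the resulting bound K2 * S is integrable
  refine lt_of_le_of_lt (lintegral_mono hb) ?_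
  have hSm : Measurable S := (continuous_coord.snd.measurable).indicator measurableSet_Sg
  have hS0 : ∀ u, 0 ≤ S u := fun u => Set.indicator_nonneg (fun x _ => (H3.coord_pos x).le) u
  have hi := (integrable_of_le_Sg (f := fun w => ((K2 * S w : ℝ) : ℂ))
    (Complex.measurable_ofReal.comp (hSm.const_mul K2)) (C := |K2|) fun w => by
      rw [Complex.norm_real, Real.norm_eq_abs, abs_mul, abs_of_nonneg (hS0 w)]).re
  exact Integrable.lintegral_lt_top (hi.congr (Eventually.of_forall fun w => Complex.ofReal_re _))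

/-- Bounded continuous functions times Gaussian functions of the height are integrable on a
fundamental domain of `H0s`. -/
lemma integrable_pTerm {f : H3 → ℂ} (hc : Continuous f) (hb : ∃ C, ∀ v, ‖f v‖ ≤ C) {F : ℝ → ℂ}
    (hF : Samp.Decay F) :
    Integrable (fun v => (rhoH v : ℂ) * (f v * F (lin (vec X1) v))) hmeas := by
  obtain ⟨C, hC⟩ := hb
  refine integrable_rhoH (hc.mul (hF.1.comp (continuous_lin (vec X1)))).measurable hF (K := C)
    fun v => ?_
  rw [norm_mul]
  exact mul_le_mul_of_nonneg_right (hC _) (norm_nonneg _)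

/-- Every point with `q3 = 3` lies in the lattice. -/
lemma mem_range_lam_of_q3 {X : Lz} (h : q3 X = 3) : X ∈ Set.range lam := by
  obtain ⟨a, ⟨x, y⟩, d⟩ := X
  simp only [q3, qd] at h
  have h3 : (3 : ℤ) ∣ x + y := by
    have e : ((x + y) ^ 2 : ZMod 3) = 0 := by
      have := congrArg (fun z : ℤ => (z : ZMod 3)) h
      push_cast at this
      rw [show (3 : ZMod 3) = 0 from rfl] at this
      have h0 : (3 : ZMod 3) = 0 := rfl
      linear_combination this + (x : ZMod 3) * y * h0
    have := pow_eq_zero_iff (two_ne_zero) |>.1 e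
    have h4 : ((x + y : ℤ) : ZMod 3) = 0 := by push_cast; exact this
    exact (ZMod.intCast_zmod_eq_zero_iff_dvd _ 3).1 h4
  obtain ⟨k, hk⟩ := h3
  exact ⟨(a, (x - k, y - k), d), by
    simp only [lam, Prod.mk.injEq, true_and, and_true]; omega⟩

/-- `κ₃` of a pairing through integrals over a fundamental domain of `H0s`. -/
theorem pairI_three {ι : Type*} [Fintype ι] {φ : ι → H3 → ℂ} {ψ : ι → Lz → ℂ} (hP : IsEigPair φ ψ)
    {F : ℝ → ℂ} (hF : Samp.Decay F) :
    (Fintype.card EIˣ : ℂ) * pairI φ ψ 3 F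
      = ∑ M : ι, ψ M X1 * ∫ v, (rhoH v : ℂ) * (φ M v * F (lin (vec X1) v)) ∂hmeas := by
  set b : H3 → ℂ := fun v => ∑ M : ι, ψ M X1 * (φ M v * F (lin (vec X1) v)) with hbd
  have hb : Measurable b := Finset.measurable_sum _ fun M _ =>
    ((hP.isEig M).cont.measurable.mul (hF.1.comp (continuous_lin (vec X1))).measurable).const_mul _
  have hterm : ∀ M : ι, Integrable (fun v => (rhoH v : ℂ) * (ψ M X1 * (φ M v * F (lin (vec X1) v))))
      hmeas := fun M =>
    ((integrable_pTerm (hP.isEig M).cont (hP.bound.imp fun _ h => h.2 M) hF).const_mul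
      (ψ M X1)).congr
      (Eventually.of_forall fun v => mul_left_comm _ _ _)
  have hbi : Integrable (fun v => (rhoH v : ℂ) * b v) hmeas := by
    simp only [hbd, Finset.mul_sum]
    exact integrable_finsetSum _ fun M _ => hterm M
  -- unfold rho0 against b
  obtain ⟨-, hu⟩ := part_rho0.unfold le_top hb hbi
  have hrhs : ∑ M : ι, ψ M X1 * (∫ v, (rhoH v : ℂ) * (φ M v * F (lin (vec X1) v)) ∂hmeas)
      = ∫ v, (rhoH v : ℂ) * b v ∂hmeas := by
    simp only [hbd, Finset.mul_sum]
    rw [integral_finsetSum _ fun M _ => hterm M]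
    refine Finset.sum_congr rfl fun M _ => ?_
    rw [← integral_const_mul]
    exact integral_congr_ae (Eventually.of_forall fun v => mul_left_comm _ _ _)
  rw [hrhs, pairI, ← integral_const_mul]
  refine Eq.trans ?_ hu
  refine integral_congr_ae (Eventually.of_forall fun u => ?_)
  simp only
  rw [mul_left_comm]
  congr 1
  set c : {X : Lz // q3 X = 3} → ℂ := fun X =>
    ∑ M : ι, φ M u * (ψ M X.1 * F (lin (vec X.1) u))
  -- each coset term is c at the vector dact (cRep q) X1
  have e : ∀ q : CosQ H0s ⊤, b (gC (cRep q)⁻¹ • u) = c (cosIdx q).1 := fun q => by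
    have hw : gC (cRep q) • (gC (cRep q)⁻¹ • u) = u := by
      rw [smul_smul, ← map_mul, mul_inv_cancel, map_one, one_smul]
    simp only [c, hbd]
    obtain ⟨π', hπ, hπ'⟩ := hP.smul (cRep q)
    conv_rhs => rw [← π'.sum_comp]
    refine Finset.sum_congr rfl fun M _ => ?_
    have h1 := hπ M (gC (cRep q)⁻¹ • u)
    rw [hw] at h1
    have h2 : lin (vec (cosIdx q).1.1) u = lin (vec X1) (gC (cRep q)⁻¹ • u) := by
      conv_lhs => rw [← hw]
      exact lin_vec_dact (cRep q) X1 _
    rw [h1, h2, show (cosIdx q).1.1 = dact (cRep q).val X1 from rfl, hπ']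
    ring
  rw [tsum_congr e]
  have hc : ∀ M : ι, Summable fun X : {X : Lz // q3 X = 3} =>
      φ M u * (ψ M X.1 * F (lin (vec X.1) u)) := fun M => by
    obtain ⟨C, -, hC⟩ := exists_aM_bound hP.wbound 3 hF
    exact (hC M u).1.of_norm.mul_left _
  have hs : Summable fun p : {X : Lz // q3 X = 3} × EIˣ => c p.1 := by
    refine Summable.of_norm ((summable_prod_of_nonneg fun p => norm_nonneg _).2
      ⟨fun X => Summable.of_finite, ?_⟩)
    simp only [tsum_fintype, Finset.sum_const, Finset.card_univ, nsmul_eq_mul]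
    exact ((summable_sum fun M _ => hc M).norm).mul_left _
  -- the cosets correspond to pairs of a vector with q3 = 3 and a unit
  rw [cosIdx_injective.tsum_eq (f := fun p : {X : Lz // q3 X = 3} × EIˣ => c p.1)]
  · rw [hs.tsum_prod]
    simp only [tsum_fintype, Finset.sum_const, Finset.card_univ, nsmul_eq_mul]
    rw [tsum_mul_left, Summable.tsum_finsetSum fun M _ => hc M]
    congr 1
    refine Finset.sum_congr rfl fun M _ => ?_
    rw [tsum_mul_left, aM]
  · intro p _
    exact mem_range_cosIdx (mem_range_lam_of_q3 p.1.2)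

/-- The periods of a family summed over the stabiliser. -/
noncomputable def perSum (Φ : GN (3 * E) → H3 → ℂ) (M : GN (3 * E)) (F : ℝ → ℂ) : ℂ :=
  ∑ g : StG E, ∫ v, (rhoH v : ℂ) * (Φ ((g : GN (3 * E)) * M) v * F (lin (vec X1) v)) ∂hmeas

variable (A : Auto E)

/-- The integrand of a period. -/
noncomputable def pIn (M : GN (3 * E)) (F : ℝ → ℂ) (v : H3) : ℂ :=
  A.Φ M v * F (lin (vec X1) v)

/-- **The periods.** The integral of `pIn` against the weight `rhoH`. -/
noncomputable def Per3 (M : GN (3 * E)) (F : ℝ → ℂ) : ℂ := ∫ v, (rhoH v : ℂ) * pIn A M F v ∂hmeas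

/-- The periods summed over the stabiliser. -/
noncomputable def PS (M : GN (3 * E)) (F : ℝ → ℂ) : ℂ :=
  ∑ g : StG E, Per3 A ((g : GN (3 * E)) * M) F

omit [NeZero E] in
/-- The integrands of the periods are integrable. -/
lemma integrable_pIn (M : GN (3 * E)) {F : ℝ → ℂ} (hF : Samp.Decay F) :
    Integrable (fun v => (rhoH v : ℂ) * pIn A M F v) hmeas :=
  integrable_pTerm (A.cont M) (A.bound.imp fun _ h => h M) hF

/-- **`κ₃` through periods.** The functional at `n = 3` is, up to the number of units, the sum of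
the periods weighted by the twists at `X1`. -/
theorem cI_three (cls : Cl3) (φ : CP E → ℂ) {F : ℝ → ℂ} (hF : Samp.Decay F) :
    (Fintype.card EIˣ : ℂ) * cI A (spec cls φ) 3 F
      = ∑ M : G1 (3 * E), twist (spec cls φ) M.1 X1 * Per3 A M.1 F :=
  pairI_three (A.pair (per_spec cls φ)) hF

end Fermat.LT3
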