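import Fermat.Agent.LT3.Per.Cover
import Fermat.Agent.LT3.Per.EisEst
import Fermat.Agent.LT3.Per.Induct

/-!
# Bottom rows of the stabiliser

The cosets of the translations in the stabiliser which carry a matrix into the
subgroup with vanishing lower left entry are its primitive rows in prescribed classes modulo `3E`;
the classes form a torsor under the units.
-/

set_option autoImplicit false
open Matrix QuadraticAlgebra MeasureTheory Filter
open scoped Classical MatrixGroups

namespace Fermat.LT3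
open Fermat.LT EisEst

/-- The matrix of a translation along the plane. -/
lemma trI_sR_val (b : ℤ) : (trI (sR * (b : EI))).val = !![1, sR * (b : EI); 0, 1] := rfl

/-- Translations along the plane add. -/
lemma trI_sR_mul (b b' : ℤ) :
    trI (sR * (b : EI)) * trI (sR * (b' : EI)) = trI (sR * ((b + b' : ℤ) : EI)) := by
  refine Units.ext ?_
  rw [Units.val_mul, trI_sR_val, trI_sR_val, trI_sR_val, Matrix.mul_fin_two]
  ext i j : 1
  fin_cases i <;> fin_cases j <;> simp
  ring

/-- The translation by zero is one. -/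
lemma trI_sR_zero : trI (sR * ((0 : ℤ) : EI)) = 1 := by
  refine Units.ext ?_
  rw [trI_sR_val, Units.val_one]
  ext i j : 1
  fin_cases i <;> fin_cases j <;> simp

/-- The translations along the plane. -/
noncomputable def Us : Subgroup (GL (Fin 2) EI) where
  carrier := {γ | ∃ b : ℤ, γ = trI (sR * (b : EI))}
  one_mem' := ⟨0, trI_sR_zero.symm⟩
  mul_mem' := by
    rintro _ _ ⟨b, rfl⟩ ⟨b', rfl⟩
    exact ⟨b + b', trI_sR_mul b b'⟩
  inv_mem' := by
    rintro _ ⟨b, rfl⟩
    exact ⟨-b, inv_eq_of_mul_eq_one_right (by rw [trI_sR_mul, add_neg_cancel, trI_sR_zero])⟩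

/-- The translations along the plane lie in `Us`. -/
lemma trI_sR_mem (b : ℤ) : trI (sR * (b : EI)) ∈ Us := ⟨b, rfl⟩

/-- The translations along the plane have determinant one and fix the point. -/
lemma Us_le : Us ≤ H0s := by
  rintro _ ⟨b, rfl⟩
  rw [show trI (sR * (b : EI)) = h0Mat 1 b 0 1 (by ring) from Units.ext (by
    rw [trI_sR_val]
    ext i j : 1
    fin_cases i <;> fin_cases j <;> simp [h0Mat])]
  exact h0Mat_mem _ _ _ _ _

/-- Multiplication by an element of `H0s` permutes the cosets of `Us`, up to `Us`. -/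
theorem exists_cos_reindex {δ : GL (Fin 2) EI} (hδ : δ ∈ H0s) :
    ∃ e : CosQ Us H0s ≃ CosQ Us H0s, ∀ q, ∃ u ∈ Us, (cRep q)⁻¹ * δ = u * (cRep (e q))⁻¹ := by
  refine ⟨MulAction.toPerm ((⟨δ, hδ⟩ : H0s)⁻¹), fun q => ?_⟩
  set g : H0s := (⟨δ, hδ⟩ : H0s)⁻¹
  have hq : g • q = QuotientGroup.mk (g * Quotient.out q) := by
    conv_lhs => rw [← QuotientGroup.out_eq' q]
    rfl
  set q' := MulAction.toPerm g q with hq'
  have hmem : (Quotient.out q' : H0s)⁻¹ * (g * Quotient.out q) ∈ Us.subgroupOf H0s := by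
    refine QuotientGroup.eq.1 ?_
    rw [QuotientGroup.out_eq', hq', ← hq]
    rfl
  rw [Subgroup.mem_subgroupOf] at hmem
  refine ⟨_, Us.inv_mem hmem, ?_⟩
  simp [cRep, g, mul_assoc]

/-- The coordinates of the bottom row. -/
def rowZ (γ : GL (Fin 2) EI) : ℤ × ℤ := (-(γ.val 1 0).re, (γ.val 1 1).re)

/-- The bottom row of an element of `H0s` in coordinates. -/
lemma rowZ_eq {γ : GL (Fin 2) EI} {a b c d : ℤ}
    (h : γ.val = !![(a : EI), sR * (b : EI); sR * (c : EI), (d : EI)]) : rowZ γ = (c, d) := by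
  simp [rowZ, h, sR]

/-- **The height of an image.** The `σ`-th power of the height of `γ • v` is the Eisenstein term of
the row of `γ`. -/
theorem rpow_im_tauC {γ : GL (Fin 2) EI} (hγ : γ ∈ H0s) (σ : ℝ) (v : H3) :
    (tauC (gC γ • v)).im ^ σ = eTerm 3 σ (tauC v) (rowZ γ) := by
  obtain ⟨a, b, c, d, h, hdet⟩ := H0s_form hγ
  rw [tauC_h0 h hdet hγ, rowZ_eq h, eTerm, Complex.div_im, ← sub_div]
  congr 2
  have hdR : (a : ℝ) * d + 3 * ((b : ℝ) * c) = 1 := by exact_mod_cast hdet
  simp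
  linear_combination (tauC v).im * hdR

variable {E : ℕ} [NeZero E]

omit [NeZero E] in
/-- Reductions modulo `9E` and then `3E` compose. -/
lemma redD_red (x : EI) : redD (red (3 * (3 * E)) x) = red (3 * E) x := castER_red _ _ _

/-- The condition on the reduced row. -/
def condW (h : GN (3 * E)) (w : ZMod (3 * E) × ZMod (3 * E)) : Prop :=
  red (3 * E) sR * algebraMap (ZMod (3 * E)) (R3 E) w.1 * redD (h.val 0 0)
    + algebraMap (ZMod (3 * E)) (R3 E) w.2 * redD (h.val 1 0) = 0

/-- The classes of bottom rows satisfying `condW h`. -/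
noncomputable def Wh (h : GN (3 * E)) : Finset (ZMod (3 * E) × ZMod (3 * E)) :=
  Finset.univ.filter fun w => condW h w ∧ ∃ a b : ZMod (3 * E), a * w.2 + 3 * (b * w.1) = 1

/-- Membership in the classes. -/
lemma mem_Wh {h : GN (3 * E)} {w : ZMod (3 * E) × ZMod (3 * E)} :
    w ∈ Wh h ↔ condW h w ∧ ∃ a b : ZMod (3 * E), a * w.2 + 3 * (b * w.1) = 1 := by simp [Wh]

/-- The class modulo `3E` of a row. -/
def clsZ (p : ℤ × ℤ) : ZMod (3 * E) × ZMod (3 * E) := (p.1, p.2)

/-- The coset carries `h` into the subgroup. -/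
def InB (h : GN (3 * E)) (q : CosQ Us H0s) : Prop :=
  redD ((gr (3 * (3 * E)) (cRep q)⁻¹ * h : GN (3 * E)).val 1 0) = 0

/-- The lower left entry vanishes exactly when the class of the row is admissible. -/
lemma inB_iff {γ : GL (Fin 2) EI} (hγ : γ ∈ H0s) (h : GN (3 * E)) :
    redD ((gr (3 * (3 * E)) γ * h : GN (3 * E)).val 1 0) = 0 ↔ clsZ (rowZ γ) ∈ Wh h := by
  obtain ⟨a, b, c, d, hm, hdet⟩ := H0s_form hγ
  have e : redD ((gr (3 * (3 * E)) γ * h : GN (3 * E)).val 1 0)
      = red (3 * E) sR * algebraMap (ZMod (3 * E)) (R3 E) (c : ZMod (3 * E)) * redD (h.val 0 0)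
        + algebraMap (ZMod (3 * E)) (R3 E) (d : ZMod (3 * E)) * redD (h.val 1 0) := by
    rw [Units.val_mul, Matrix.mul_apply, Fin.sum_univ_two]
    simp only [gr_coe, Matrix.map_apply, hm, map_add, map_mul, redD_red, map_intCast]
    simp [map_mul]
  rw [e, rowZ_eq hm, mem_Wh, condW, clsZ]
  refine ⟨fun h' => ⟨h', a, b, ?_⟩, fun h' => h'.1⟩
  have := congrArg (fun z : ℤ => (z : ZMod (3 * E))) hdet
  push_cast at this
  exact this

omit [NeZero E] in
/-- The condition is stable under scalars. -/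
lemma condW_smul {h : GN (3 * E)} {w : ZMod (3 * E) × ZMod (3 * E)} (k : ZMod (3 * E))
    (hw : condW h w) : condW h (k * w.1, k * w.2) := by
  simp only [condW, map_mul] at hw ⊢
  linear_combination algebraMap (ZMod (3 * E)) (R3 E) k * hw

/-- The units act on the classes. -/
lemma Wh_smul {h : GN (3 * E)} {w : ZMod (3 * E) × ZMod (3 * E)} {k : ZMod (3 * E)} (hk : IsUnit k)
    (hw : w ∈ Wh h) : (k * w.1, k * w.2) ∈ Wh h := by
  obtain ⟨hc, a, b, hab⟩ := mem_Wh.1 hw
  obtain ⟨u, rfl⟩ := hk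
  refine mem_Wh.2 ⟨condW_smul _ hc, ((u⁻¹ : (ZMod (3 * E))ˣ) : ZMod (3 * E)) * a,
    ((u⁻¹ : (ZMod (3 * E))ˣ) : ZMod (3 * E)) * b, ?_⟩
  linear_combination hab + (a * w.2 + 3 * (b * w.1)) * u.inv_mul

/-- Inverses of the representatives lie in `H0s`. -/
lemma cRep_inv_mem (q : CosQ Us H0s) : (cRep q)⁻¹ ∈ H0s := H0s.inv_mem (cRep_mem q)

/-- Translations do not change the bottom row. -/
lemma rowZ_translate {γ : GL (Fin 2) EI} {u : GL (Fin 2) EI} (hu : u ∈ Us) :
    rowZ (u * γ) = rowZ γ := by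
  obtain ⟨b, rfl⟩ := hu
  simp [rowZ, trI_sR_val, Units.val_mul, Matrix.mul_apply, Fin.sum_univ_two]

/-- Cosets are determined by their rows. -/
theorem rowZ_injective :
    Function.Injective fun q : CosQ Us H0s => rowZ (cRep q)⁻¹ := by
  intro q q' h
  simp only at h
  obtain ⟨a, b, c, d, hm, hdet⟩ := H0s_form (cRep_inv_mem q)
  obtain ⟨a', b', c', d', hm', hdet'⟩ := H0s_form (cRep_inv_mem q')
  rw [rowZ_eq hm, rowZ_eq hm', Prod.mk.injEq] at h
  obtain ⟨rfl, rfl⟩ := h
  rw [← QuotientGroup.out_eq' q, ← QuotientGroup.out_eq' q', QuotientGroup.eq]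
  refine Subgroup.mem_subgroupOf.2 ?_
  change (cRep q)⁻¹ * cRep q' ∈ Us
  set k : ℤ := a' * b - a * b' with hk
  have e1 : a = a' - 3 * (k * c) := by linear_combination (a' : ℤ) * hdet - a * hdet' + 3 * c * hk
  have e2 : b = b' + k * d := by linear_combination b' * hdet - b * hdet' - d * hk
  have e : (cRep q)⁻¹ = trI (sR * (k : EI)) * (cRep q')⁻¹ := by
    refine Units.ext ?_
    rw [Units.val_mul, trI_sR_val, hm, hm', Matrix.mul_fin_two, e1, e2]
    ext i j : 1
    fin_cases i <;> fin_cases j <;> simp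
    · linear_combination (-((k : EI) * c)) * sR_mul_sR
    · ring
  rw [e, inv_mul_cancel_right]
  exact trI_sR_mem k

/-- Every coprime row occurs. -/
theorem exists_rowZ {c d : ℤ} (h : IsCoprime (3 * c) d) :
    ∃ q : CosQ Us H0s, rowZ (cRep q)⁻¹ = (c, d) := by
  obtain ⟨x, y, hxy⟩ := h
  have hdet : y * d + 3 * (x * c) = 1 := by linarith
  set δ : H0s := ⟨h0Mat y x c d hdet, h0Mat_mem _ _ _ _ _⟩
  refine ⟨QuotientGroup.mk δ⁻¹, ?_⟩
  have hm : (Quotient.out (QuotientGroup.mk δ⁻¹ : CosQ Us H0s) : H0s)⁻¹ * δ⁻¹ ∈ Us.subgroupOf H0s :=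
    QuotientGroup.leftRel_apply.1 (Quotient.exact (QuotientGroup.out_eq' _))
  rw [Subgroup.mem_subgroupOf] at hm
  set u := ((Quotient.out (QuotientGroup.mk δ⁻¹ : CosQ Us H0s) : H0s)⁻¹ * δ⁻¹ : H0s) with hu
  have e : (cRep (QuotientGroup.mk δ⁻¹ : CosQ Us H0s))⁻¹ =
      (u : GL (Fin 2) EI) * (δ : GL (Fin 2) EI) := by
    simp [cRep, hu]
  rw [e, rowZ_translate hm]
  exact rowZ_eq rfl

/-- The level is at least `3`. -/
lemma three_le_level : 3 ≤ 3 * E := Nat.le_mul_of_pos_right 3 (NeZero.pos E)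

/-- `ℤ/3E` is nontrivial. -/
instance instNontrivialR3Z : Nontrivial (ZMod (3 * E)) :=
  haveI : Fact (1 < 3 * E) := ⟨lt_of_lt_of_le (by norm_num) three_le_level⟩
  inferInstance

/-- The scalar factor of a row. -/
noncomputable def zP (E : ℕ) (σ : ℝ) : ℝ :=
  ∑' n : ℕ, if Nat.Coprime n (3 * E) then (n : ℝ) ^ (-(2 * σ)) else 0

omit [NeZero E] in
/-- The scalar factor converges for `σ ≥ 1`. -/
lemma summable_zP {σ : ℝ} (hσ : 1 ≤ σ) :
    Summable fun n : ℕ => if Nat.Coprime n (3 * E) then (n : ℝ) ^ (-(2 * σ)) else 0 := by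
  refine (Real.summable_nat_rpow.2 (show -(2 * σ) < -1 by linarith)).of_nonneg_of_le (fun n => ?_)
    fun n => ?_
  · split_ifs <;> positivity
  · split_ifs
    · exact le_rfl
    · positivity

omit [NeZero E] in
/-- The scalar factor is at least one. -/
lemma one_le_zP {σ : ℝ} (hσ : 1 ≤ σ) : 1 ≤ zP E σ := by
  refine le_trans ?_ ((summable_zP hσ).le_tsum 1 fun n _ => by split_ifs <;> positivity)
  simp

/-- The terms are homogeneous in the row. -/
lemma eTerm_smul {σ : ℝ} {τ : ℂ} (hτ : 0 < τ.im) (n : ℕ) (p : ℤ × ℤ) :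
    eTerm 3 σ τ (n * p.1, n * p.2) = (n : ℝ) ^ (-(2 * σ)) * eTerm 3 σ τ p := by
  rw [eTerm, eTerm]
  have e : Complex.normSq (-((3 : ℕ) : ℂ) * ((n * p.1 : ℤ) : ℂ) * τ + ((n * p.2 : ℤ) : ℂ))
      = (n : ℝ) ^ 2 * Complex.normSq (-((3 : ℕ) : ℂ) * (p.1 : ℂ) * τ + (p.2 : ℂ)) := by
    rw [← Complex.normSq_natCast n |>.trans (sq (n : ℝ)).symm, ← Complex.normSq_mul]
    congr 1
    push_cast
    ring
  rw [e, Real.rpow_neg (Nat.cast_nonneg _), show 2 * σ = ((2 : ℕ) : ℝ) * σ by norm_num,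
    Real.rpow_mul (Nat.cast_nonneg _), Real.rpow_natCast, ← Real.inv_rpow (sq_nonneg _),
    ← Real.mul_rpow (inv_nonneg.2 (sq_nonneg _)) (div_nonneg hτ.le (Complex.normSq_nonneg _))]
  congr 1
  rw [div_mul_eq_div_div_swap, div_eq_mul_inv _ ((n : ℝ) ^ 2)]
  ring

/-- **Sums over cosets are sums over classes of rows.** -/
theorem hasSum_cos {σ : ℝ} (hσ : 1 ≤ σ) {τ : ℂ} (hτ : 0 < τ.im) (h : GN (3 * E))
    (hs : ∀ w ∈ Wh h, Summable fun p : ℤ × ℤ =>
      if ((p.1 : ZMod (3 * E)), (p.2 : ZMod (3 * E))) = w then eTerm 3 σ τ p else 0) :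
    HasSum (fun q : CosQ Us H0s => if InB h q then eTerm 3 σ τ (rowZ (cRep q)⁻¹) else 0)
      ((∑ w ∈ Wh h, eCls 3 σ τ w) / zP E σ) := by
  set F : ℤ × ℤ → ℝ := fun p => if clsZ p ∈ Wh h then eTerm 3 σ τ p else 0 with hF
  have hFs : HasSum F (∑ w ∈ Wh h, eCls 3 σ τ w) := by
    refine (hasSum_sum fun w hw => (hs w hw).hasSum).congr_fun fun p => ?_
    rw [Finset.sum_ite_eq]
    rfl
  -- ι : (n, q) ↦ n • (bottom row of q) parametrises the pairs in the classes of Wh h
  set ι : {n : ℕ // Nat.Coprime n (3 * E)} × {q : CosQ Us H0s // InB h q} → ℤ × ℤ :=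
    fun x => ((x.1.1 : ℤ) * (rowZ (cRep x.2.1)⁻¹).1, (x.1.1 : ℤ) * (rowZ (cRep x.2.1)⁻¹).2)
  have hprim : ∀ q : CosQ Us H0s, Int.gcd (rowZ (cRep q)⁻¹).1 (rowZ (cRep q)⁻¹).2 = 1 := fun q => by
    obtain ⟨a, b, c, d, hm, hdet⟩ := H0s_form (cRep_inv_mem q)
    rw [rowZ_eq hm]
    exact Int.isCoprime_iff_gcd_eq_one.1 ⟨3 * b, a, by linarith⟩
  have hn0 : ∀ n : {n : ℕ // Nat.Coprime n (3 * E)}, n.1 ≠ 0 := fun n e => by
    have h1 := n.2
    rw [e, Nat.coprime_zero_left] at h1
    have := three_le_level (E := E)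
    omega
  have hunit : ∀ n : {n : ℕ // Nat.Coprime n (3 * E)}, IsUnit ((n.1 : ℤ) : ZMod (3 * E)) :=
      fun n => by
    rw [Int.cast_natCast]; exact (ZMod.isUnit_iff_coprime _ _).2 n.2
  have hinj : Function.Injective ι := by
    rintro ⟨n, q⟩ ⟨n', q'⟩ hh
    simp only [ι, Prod.mk.injEq] at hh
    have g := congrArg₂ Int.gcd hh.1 hh.2
    rw [Int.gcd_mul_left, Int.gcd_mul_left, hprim, hprim, mul_one, mul_one, Int.natAbs_natCast,
      Int.natAbs_natCast] at g
    have hn : n = n' := Subtype.ext g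
    subst hn
    have hnz : ((n.1 : ℤ)) ≠ 0 := Int.natCast_ne_zero.2 (hn0 n)
    have := rowZ_injective (a₁ := q.1) (a₂ := q'.1)
      (Prod.ext (mul_left_cancel₀ hnz hh.1) (mul_left_cancel₀ hnz hh.2))
    exact Prod.ext rfl (Subtype.ext this)
  -- F vanishes off its range: divide (c, d) by the gcd
  have hsupp : ∀ p, p ∉ Set.range ι → F p = 0 := by
    rintro ⟨c, d⟩ hp
    simp only [hF]
    refine if_neg fun hw => hp ?_
    obtain ⟨-, a, b, hab⟩ := mem_Wh.1 hw
    simp only [clsZ] at hab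
    set g : ℕ := Int.gcd c d
    obtain ⟨c', hc'⟩ : (g : ℤ) ∣ c := Int.gcd_dvd_left c d
    obtain ⟨d', hd'⟩ : (g : ℤ) ∣ d := Int.gcd_dvd_right c d
    have hgu : IsUnit ((g : ℤ) : ZMod (3 * E)) := IsUnit.of_mul_eq_one
      (a * (d' : ZMod (3 * E)) + 3 * (b * (c' : ZMod (3 * E)))) (by
        rw [← hab, hc', hd']; push_cast; ring)
    have hg0 : g ≠ 0 := fun e => by
      rw [e, Nat.cast_zero, Int.cast_zero] at hgu
      exact not_isUnit_zero hgu
    have hgc : Nat.Coprime g (3 * E) := (ZMod.isUnit_iff_coprime _ _).1 (by simpa using hgu)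
    have hcd : IsCoprime c' d' := by
      rw [Int.isCoprime_iff_gcd_eq_one]
      have e : Int.gcd c d = g := rfl
      rw [hc', hd', Int.gcd_mul_left, Int.natAbs_natCast] at e
      exact Nat.eq_of_mul_eq_mul_left (Nat.pos_of_ne_zero hg0) (e.trans (mul_one g).symm)
    have h3d : IsCoprime (3 : ℤ) d' := by
      refine (Prime.coprime_iff_not_dvd Int.prime_three).2 fun ⟨k, hk⟩ => ?_
      have := congrArg (ZMod.castHom (dvd_mul_right 3 E) (ZMod 3)) hab
      simp only [map_add, map_mul, map_intCast, map_ofNat, map_one, hd', hk] at this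
      push_cast at this
      rw [show (3 : ZMod 3) = 0 from rfl] at this
      simp at this
    obtain ⟨q, hq⟩ := exists_rowZ (h3d.mul_left hcd)
    have hu' := hgu.unit.inv_mul
    rw [IsUnit.unit_spec] at hu'
    have hcls : clsZ (rowZ (cRep q)⁻¹) ∈ Wh h := by
      have := Wh_smul (k := ((hgu.unit⁻¹ : (ZMod (3 * E))ˣ) : ZMod (3 * E))) (Units.isUnit _) hw
      convert this using 1
      rw [hq]
      simp only [clsZ, hc', hd', Int.cast_mul, ← mul_assoc, hu', one_mul]
    refine ⟨(⟨g, hgc⟩, ⟨q, (inB_iff (cRep_inv_mem q) h).2 hcls⟩), ?_⟩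
    simp only [ι, hq, hc', hd']
  -- so the class sums are zP times the coset sum
  have hG : HasSum (fun x : {n : ℕ // Nat.Coprime n (3 * E)} × {q : CosQ Us H0s // InB h q} =>
      (x.1.1 : ℝ) ^ (-(2 * σ)) * eTerm 3 σ τ (rowZ (cRep x.2.1)⁻¹)) (∑ w ∈ Wh h, eCls 3 σ τ w) := by
    refine ((hinj.hasSum_iff hsupp).2 hFs).congr_fun fun x => ?_
    simp only [Function.comp_apply, ι, hF]
    rw [if_pos, eTerm_smul hτ]
    have := Wh_smul (hunit x.1) ((inB_iff (cRep_inv_mem x.2.1) h).1 x.2.2)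
    simpa [clsZ] using this
  have hone : Nat.Coprime 1 (3 * E) := Nat.coprime_one_left _
  have hq : Summable fun q : {q : CosQ Us H0s // InB h q} => eTerm 3 σ τ (rowZ (cRep q.1)⁻¹) := by
    refine (hG.summable.comp_injective (i := fun q : {q : CosQ Us H0s // InB h q} =>
      ((⟨1, hone⟩ : {n : ℕ // Nat.Coprime n (3 * E)}), q))
      fun a b hab => (Prod.ext_iff.1 hab).2).congr fun q => ?_
    simp
  have hz : HasSum (fun n : {n : ℕ // Nat.Coprime n (3 * E)} => (n.1 : ℝ) ^ (-(2 * σ)))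
      (zP E σ) := by
    refine (hasSum_subtype_iff_indicator (s := {n : ℕ | Nat.Coprime n (3 * E)})
      (f := fun n : ℕ => (n : ℝ) ^ (-(2 * σ)))).2 ?_
    refine (summable_zP (E := E) hσ).hasSum.congr_fun fun n => ?_
    simp [Set.indicator_apply]
  have hkey := (hG.prod_fiberwise (g := fun n => (n.1 : ℝ) ^ (-(2 * σ)) * _)
    fun n => hq.hasSum.mul_left ((n.1 : ℝ) ^ (-(2 * σ)))).unique (hz.mul_right _)
  have hzpos : 0 < zP E σ := lt_of_lt_of_le one_pos (one_le_zP hσ)
  rw [hkey, mul_div_cancel_left₀ _ hzpos.ne']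
  have h2 := (hasSum_subtype_iff_indicator (s := {q : CosQ Us H0s | InB h q})
    (f := fun q : CosQ Us H0s => eTerm 3 σ τ (rowZ (cRep q)⁻¹))).1 hq.hasSum
  refine h2.congr_fun fun q => ?_
  simp [Set.indicator_apply]

/-- Reduction of `R3 E` modulo `√-3`. -/
def p3 (E : ℕ) : R3 E →+* ZMod 3 := piHom.comp (castER 3 (dvd_mul_right 3 E))

omit [NeZero E] in
/-- Reduction modulo `√-3` factors through the one modulo `3E`. -/
lemma castPi_eq_p3 (x : RN E) : castPi E x = p3 E (redD x) :=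
  congrArg piHom (castER_castER _ _ x).symm

omit [NeZero E] in
/-- `√-3` vanishes modulo itself. -/
lemma p3_sR : p3 E (red (3 * E) sR) = 0 := by
  change piHom (castER 3 _ (red (3 * E) sR)) = 0
  rw [castER_red]
  change ((sR.re : ℤ) : ZMod 3) - ((sR.im : ℤ) : ZMod 3) = 0
  simp [sR]
  decide

omit [NeZero E] in
/-- Reduction modulo `√-3` ignores conjugation. -/
lemma p3_star (x : R3 E) : p3 E (star x) = p3 E x := by
  obtain ⟨y, rfl⟩ := red_surjective (3 * E) x
  rw [red, ← erMap_star]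
  change piHom (castER 3 _ (red (3 * E) (star y))) = piHom (castER 3 _ (red (3 * E) y))
  rw [castER_red, castER_red]
  change (((star y).re : ℤ) : ZMod 3) - (((star y).im : ℤ) : ZMod 3)
    = ((y.re : ℤ) : ZMod 3) - ((y.im : ℤ) : ZMod 3)
  simp
  have h3 : (3 : ZMod 3) = 0 := rfl
  linear_combination ((y.im : ℤ) : ZMod 3) * h3

omit [NeZero E] in
/-- The determinant one stabiliser preserves vanishing of the lower left entry modulo `√-3`. -/
lemma castPi_gr10 {γ : GL (Fin 2) EI} (hγ : γ ∈ H0s) (h : GN (3 * E)) :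
    castPi E ((gr (3 * (3 * E)) γ * h : GN (3 * E)).val 1 0) = 0 ↔ castPi E (h.val 1 0) = 0 := by
  obtain ⟨a, b, c, d, hm, hdet⟩ := H0s_form hγ
  rw [castPi_eq_p3, castPi_eq_p3, Units.val_mul, Matrix.mul_apply, Fin.sum_univ_two]
  simp only [gr_coe, Matrix.map_apply, hm, map_add, map_mul, redD_red]
  simp [p3_sR]
  intro hd
  exfalso
  have h1 := congrArg (fun z : ℤ => (z : ZMod 3)) hdet
  push_cast at h1
  rw [hd, mul_zero, show (3 : ZMod 3) = 0 from rfl, zero_mul, add_zero] at h1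
  exact zero_ne_one h1

/-- Relations of the first column. -/
lemma StG_col {h : GN (3 * E)} (hh : h ∈ StG E) :
    star (redD (h.val 0 0)) * redD (h.val 1 0) + star (redD (h.val 1 0)) * redD (h.val 0 0) = 0 ∧
      star (redD (h.val 0 1)) * redD (h.val 1 0) + star (redD (h.val 1 1)) *
        redD (h.val 0 0) = 1 := by
  set H := (mat3 h).val with hH
  have e : ∀ i j, H i j = redD (h.val i j) := fun i j => rfl
  have h1 : (H * antiJ (ZMod (3 * E))) * (Hᴴ * antiJ (ZMod (3 * E))) = 1 := by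
    rw [← Matrix.mul_assoc, show H * antiJ (ZMod (3 * E)) * Hᴴ = antiJ (ZMod (3 * E)) from hh.2]
    ext i j : 1
    fin_cases i <;> fin_cases j <;> simp [antiJ, Matrix.mul_apply, Fin.sum_univ_two]
  have h2 := mul_eq_one_comm.1 h1
  have b := congrFun (congrFun h2 0) 1
  simp [antiJ, Matrix.mul_apply, Fin.sum_univ_two, e] at b
  constructor
  · linear_combination b
  · have := congrFun (congrFun h2 1) 1
    simp [antiJ, Matrix.mul_apply, Fin.sum_univ_two, e] at this
    linear_combination this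

omit [NeZero E] in
/-- An element of trace zero modulo `3E` is a multiple of `√-3`. -/
lemma trace_zero_R3 {x : R3 E} (h : star x + x = 0) :
    ∃ w : ZMod (3 * E), x = red (3 * E) sR * algebraMap (ZMod (3 * E)) (R3 E) w := by
  have h2 := congrArg QuadraticAlgebra.re h
  simp at h2
  refine ⟨-x.re, ?_⟩
  apply QuadraticAlgebra.ext <;> simp [sR]
  linear_combination h2

omit [NeZero E] in
/-- The square of `√-3` modulo `3E`. -/
lemma sR3_sq : red (3 * E) sR * red (3 * E) sR = -3 := by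
  rw [← map_mul, sR_mul_sR, map_neg, map_ofNat]

/-- Two classes modulo `n` without a common zero at any prime divisor generate the unit ideal. -/
lemma exists_bezout_zmod {n : ℕ} (x y : ZMod n)
    (h : ∀ ℓ : ℕ, ℓ.Prime → ∀ hl : ℓ ∣ n, ¬ (ZMod.castHom hl (ZMod ℓ) x = 0 ∧
      ZMod.castHom hl (ZMod ℓ) y = 0)) : ∃ a b, a * x + b * y = 1 := by
  obtain ⟨X, rfl⟩ := ZMod.intCast_surjective x
  obtain ⟨Y, rfl⟩ := ZMod.intCast_surjective y
  have hco : Nat.gcd (Int.gcd X Y) n = 1 := by
    by_contra hne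
    obtain ⟨ℓ, hℓ, hdvd⟩ := Nat.exists_prime_and_dvd hne
    have hl : ℓ ∣ n := hdvd.trans (Nat.gcd_dvd_right _ _)
    have hg : (ℓ : ℤ) ∣ (Int.gcd X Y : ℤ) :=
      Int.natCast_dvd_natCast.2 (hdvd.trans (Nat.gcd_dvd_left _ _))
    refine h ℓ hℓ hl ⟨?_, ?_⟩ <;> rw [map_intCast, ZMod.intCast_zmod_eq_zero_iff_dvd]
    exacts [hg.trans (Int.gcd_dvd_left _ _), hg.trans (Int.gcd_dvd_right _ _)]
  have hu : IsUnit ((Int.gcd X Y : ℕ) : ZMod n) := (ZMod.isUnit_iff_coprime _ _).2 hco
  obtain ⟨k, hk⟩ := hu.exists_left_inv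
  have hbz := congrArg (fun z : ℤ => (z : ZMod n)) (Int.gcd_eq_gcd_ab X Y)
  push_cast at hbz
  exact ⟨k * (Int.gcdA X Y : ZMod n), k * (Int.gcdB X Y : ZMod n), by
    linear_combination hk - k * hbz⟩

/-- If `h₁₀` vanishes modulo `√-3`, the class set of `h` is not empty. -/
lemma exists_mem_Wh {h : GN (3 * E)} (hh : h ∈ StG E) (h10 : castPi E (h.val 1 0) = 0) :
    ∃ v, v ∈ Wh h := by
  obtain ⟨hx, hy⟩ := StG_col hh
  set H0 := redD (h.val 0 0)
  set H1 := redD (h.val 1 0)
  set A := algebraMap (ZMod (3 * E)) (R3 E)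
  set S := red (3 * E) sR
  obtain ⟨w, hw⟩ := trace_zero_R3 (x := star H0 * H1) (by
    rw [star_mul', star_star]
    linear_combination hx)
  set N0 := QuadraticAlgebra.norm H0
  set N1 := QuadraticAlgebra.norm H1
  have hN0 : A N0 = H0 * star H0 := QuadraticAlgebra.algebraMap_norm_eq_mul_star H0
  have hN1 : A N1 = H1 * star H1 := QuadraticAlgebra.algebraMap_norm_eq_mul_star H1
  -- β: 3 times the primes of E that do not divide the norm of H0
  set s := E.primeFactors.filter fun ℓ => ¬ (ℓ ∣ N0.val)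
  set β : ZMod (3 * E) := ((3 * ∏ ℓ ∈ s, ℓ : ℕ) : ZMod (3 * E))
  set c : ZMod (3 * E) := -w + β * N1
  set d : ZMod (3 * E) := N0 - 3 * (β * w)
  have hd : A d = (H0 + A β * S * H1) * star H0 := by
    simp only [d, map_sub, map_mul, map_ofNat]
    linear_combination hN0 - (A β * S) * hw - (A β * A w) * (sR3_sq (E := E))
  have hc : S * A c = (H0 + A β * S * H1) * star H1 := by
    simp only [c, map_add, map_neg, map_mul]
    linear_combination (A β * S) * hN1 + hw - hx
  refine ⟨(c, d), mem_Wh.2 ⟨?_, ?_⟩⟩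
  · change S * A c * H0 + A d * H1 = 0
    rw [hc, hd]
    linear_combination (H0 + A β * S * H1) * hx
  -- no prime ℓ divides both d and 3 c: ℓ = 3, ℓ ∈ s, or h would be singular mod ℓ
  have key : ∀ ℓ : ℕ, ℓ.Prime → ∀ hl : ℓ ∣ 3 * E, ¬ (ZMod.castHom hl (ZMod ℓ) d = 0 ∧
      ZMod.castHom hl (ZMod ℓ) (3 * c) = 0) := by
    rintro ℓ hℓ hl ⟨hd0, hc0⟩
    by_cases h3 : ℓ = 3
    · subst h3
      have h31 : p3 E H1 = 0 := by rw [← castPi_eq_p3]; exact h10
      have h30 : p3 E H0 ≠ 0 := fun e => by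
        have := congrArg (p3 E) hy
        rw [map_add, map_mul, map_mul, h31, e, map_one] at this
        simp at this
      have e : p3 E (A d) = 0 := by
        change piHom (castER 3 _ (A d)) = 0
        obtain ⟨z, hz⟩ := ZMod.intCast_surjective d
        rw [← hz, map_intCast, map_intCast, map_intCast]
        rw [← hz, map_intCast] at hd0
        exact hd0
      rw [hd, map_mul, map_add, map_mul, map_mul, h31, mul_zero, add_zero, p3_star] at e
      exact h30 (mul_self_eq_zero.1 e)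
    · have := Fact.mk hℓ
      have hlE : ℓ ∣ E := ((Nat.Prime.dvd_mul hℓ).1 hl).resolve_left fun e =>
        h3 ((Nat.prime_dvd_prime_iff_eq hℓ Nat.prime_three).1 e)
      have h3u : (3 : ZMod ℓ) ≠ 0 := fun e => h3 <| by
        have e' : ((3 : ℕ) : ZMod ℓ) = 0 := by exact_mod_cast e
        rw [ZMod.natCast_eq_zero_iff] at e'
        exact (Nat.prime_dvd_prime_iff_eq hℓ Nat.prime_three).1 e'
      rw [map_mul, map_ofNat] at hc0
      replace hc0 := (mul_eq_zero.1 hc0).resolve_left h3u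
      simp only [c, d, map_sub, map_add, map_neg, map_mul, map_ofNat] at hc0 hd0
      set N0' := ZMod.castHom hl (ZMod ℓ) N0
      set N1' := ZMod.castHom hl (ZMod ℓ) N1
      set w' := ZMod.castHom hl (ZMod ℓ) w
      set β' := ZMod.castHom hl (ZMod ℓ) β with hβ'
      have hv : N0' = ((N0.val : ℕ) : ZMod ℓ) := by
        conv_lhs =>
          rw [show N0' = ZMod.castHom hl (ZMod ℓ) ((N0.val : ℕ) : ZMod (3 * E)) by simp [N0']]
        rw [map_natCast]
      have hβ : β' = 3 * ∏ q ∈ s, (q : ZMod ℓ) := by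
        simp only [hβ', β, map_natCast]; push_cast; rfl
      by_cases hN : ℓ ∈ s
      · rw [hβ, Finset.prod_eq_zero hN (ZMod.natCast_self ℓ), mul_zero] at hd0
        simp at hd0
        refine (Finset.mem_filter.1 hN).2 ?_
        rw [← ZMod.natCast_eq_zero_iff, ← hv]
        exact hd0
      · have hNz : N0' = 0 := by
          rw [hv, ZMod.natCast_eq_zero_iff]
          by_contra hnd
          exact hN (Finset.mem_filter.2 ⟨Nat.mem_primeFactors.2 ⟨hℓ, hlE, NeZero.ne E⟩, hnd⟩)
        have hβ0 : β' ≠ 0 := by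
          rw [hβ]
          refine mul_ne_zero h3u (Finset.prod_ne_zero_iff.2 fun q hq e => hN ?_)
          rw [ZMod.natCast_eq_zero_iff] at e
          have hqp := Nat.prime_of_mem_primeFactors (Finset.mem_filter.1 hq).1
          rwa [(Nat.prime_dvd_prime_iff_eq hℓ hqp).1 e]
        rw [hNz, zero_sub, neg_eq_zero] at hd0
        have hw0 : w' = 0 :=
          (mul_eq_zero.1 ((mul_eq_zero.1 hd0).resolve_left h3u)).resolve_left hβ0
        rw [hw0, neg_zero, zero_add] at hc0
        have hN1' : N1' = 0 := (mul_eq_zero.1 hc0).resolve_left hβ0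
        set P := castER ℓ hl
        have hA : ∀ z : ZMod (3 * E), P (A z) =
            algebraMap (ZMod ℓ) (ER (ZMod ℓ)) (ZMod.castHom hl (ZMod ℓ) z) :=
          fun z => by
            obtain ⟨i, rfl⟩ := ZMod.intCast_surjective z
            simp only [map_intCast]
        have e00 : P H0 * P (star H0) = 0 := by
          rw [← map_mul, ← hN0, hA]; simp only [N0'] at hNz; rw [hNz, map_zero]
        have e11 : P H1 * P (star H1) = 0 := by
          rw [← map_mul, ← hN1, hA]; simp only [N1'] at hN1'; rw [hN1', map_zero]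
        have e01 : P (star H0) * P H1 = 0 := by
          rw [← map_mul, hw, map_mul, hA]; simp only [w'] at hw0; rw [hw0, map_zero, mul_zero]
        have e10 : P (star H1) * P H0 = 0 := by
          have := congrArg P hx
          rw [map_add, map_mul, map_mul, map_zero, e01, zero_add] at this
          exact this
        have hy' := congrArg P hy
        rw [map_add, map_mul, map_mul, map_one] at hy'
        have hs0 : P (star H0) = 0 := by
          linear_combination (-(P (star H0))) * hy' + P (star (redD (h.val 1 1))) * e00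
            + P (star (redD (h.val 0 1))) * e01
        have hs1 : P (star H1) = 0 := by
          linear_combination (-(P (star H1))) * hy' + P (star (redD (h.val 1 1))) * e10
            + P (star (redD (h.val 0 1))) * e11
        have hst : ∀ x : R3 E, P (star x) = star (P x) := fun x => erMap_star _ _
        rw [hst, star_eq_zero] at hs0 hs1
        rw [hs0, hs1, mul_zero, mul_zero, add_zero] at hy'
        exact zero_ne_one (congrArg QuadraticAlgebra.re hy')
  obtain ⟨a, b, hab⟩ := exists_bezout_zmod d (3 * c) key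
  exact ⟨a, b, by linear_combination hab⟩

/-- **The number of classes**: `Wh h` is as large as the group of units modulo `3E` if `h₁₀`
vanishes modulo `√-3`, and empty otherwise. -/
theorem card_Wh {h : GN (3 * E)} (hh : h ∈ StG E) :
    (Wh h).card = if castPi E (h.val 1 0) = 0 then Fintype.card (ZMod (3 * E))ˣ else 0 := by
  set A := algebraMap (ZMod (3 * E)) (R3 E)
  set S := red (3 * E) sR
  split_ifs with h10
  swap
  -- castPi h₁₀ ≠ 0: there is no class
  · refine Finset.card_eq_zero.2 (Finset.eq_empty_of_forall_notMem fun w hw => h10 ?_)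
    obtain ⟨hc, a, b, hab⟩ := mem_Wh.1 hw
    have := congrArg (p3 E) hc
    simp only [map_add, map_mul, map_zero, p3_sR, zero_mul, zero_add, ← castPi_eq_p3] at this
    refine (mul_eq_zero.1 this).resolve_left fun e => ?_
    have e' : ZMod.castHom (dvd_mul_right 3 E) (ZMod 3) w.2 = 0 := by
      obtain ⟨z, hz⟩ := ZMod.intCast_surjective w.2
      rw [← hz, map_intCast]
      rw [← hz, map_intCast, map_intCast] at e
      exact e
    have h1 := congrArg (ZMod.castHom (dvd_mul_right 3 E) (ZMod 3)) hab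
    simp only [map_add, map_mul, map_ofNat, map_one, e', mul_zero, zero_add] at h1
    rw [show (3 : ZMod 3) = 0 from rfl, zero_mul] at h1
    exact zero_ne_one h1
  -- otherwise Wh h is the orbit of one class v under the units
  obtain ⟨v, hv⟩ := exists_mem_Wh hh h10
  obtain ⟨hvc, a, b, hab⟩ := mem_Wh.1 hv
  obtain ⟨-, hy⟩ := StG_col hh
  set f : (ZMod (3 * E))ˣ → ZMod (3 * E) × ZMod (3 * E) :=
    fun u => ((u : ZMod (3 * E)) * v.1, (u : ZMod (3 * E)) * v.2)
  rw [show Wh h = Finset.univ.image f from ?_, Finset.card_image_of_injective, Finset.card_univ]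
  · intro u u' e
    simp only [f, Prod.mk.injEq] at e
    exact Units.ext (by linear_combination ((u' : ZMod (3 * E)) - u) * hab + a * e.2 + 3 * b * e.1)
  ext w
  refine ⟨fun hw => ?_, fun hw => ?_⟩
  swap
  · obtain ⟨u, -, rfl⟩ := Finset.mem_image.1 hw
    exact Wh_smul u.isUnit hv
  obtain ⟨hwc, a', b', hab'⟩ := mem_Wh.1 hw
  set l := a * w.2 + 3 * (b * w.1) with hl
  set Δ := v.1 * w.2 - w.1 * v.2 with hΔ
  -- the determinant Δ of v and w vanishes, so w = l • v
  have hΔ0 : Δ = 0 := by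
    have hP : A Δ * redD (h.val 1 0) = 0 := by
      simp only [condW] at hvc hwc
      simp only [hΔ, map_sub, map_mul]
      linear_combination A v.1 * hwc - A w.1 * hvc
    have hQ : S * A Δ * redD (h.val 0 0) = 0 := by
      simp only [condW] at hvc hwc
      simp only [hΔ, map_sub, map_mul]
      linear_combination A w.2 * hvc - A v.2 * hwc
    have h0 : S * A Δ = 0 := by
      linear_combination (-(S * A Δ)) * hy + S * star (redD (h.val 0 1)) * hP
        + star (redD (h.val 1 1)) * hQ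
    have := congrArg QuadraticAlgebra.re h0
    simp [S, A, sR] at this
    exact this
  have e1 : l * v.1 = w.1 := by
    linear_combination w.1 * hab + a * hΔ0
  have e2 : l * v.2 = w.2 := by
    linear_combination w.2 * hab - 3 * b * hΔ0
  have hlu : IsUnit l := IsUnit.of_mul_eq_one (a' * v.2 + 3 * (b' * v.1)) (by
    rw [← hab', ← e1, ← e2]; ring)
  exact Finset.mem_image.2 ⟨hlu.unit, Finset.mem_univ _, by simp [f, e1, e2]⟩

end Fermat.LT3
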