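import Fermat.Agent.LT3.Per.Weights
import Fermat.Agent.LT3.Coef.Iso
import Fermat.Agent.LT3.Coef.Avg

/-!
# The stabiliser of `X₁`, its part of determinant one, and their shadows modulo `3 E`

`X₁` is the point with hermitian matrix `antidiag (1, 1)`; pairs (translate, unit) parametrise the
cosets of the determinant one stabiliser.
-/

set_option autoImplicit false
open Matrix QuadraticAlgebra MeasureTheory Filter
open scoped MatrixGroups

namespace Fermat.LT3
open Fermat.LT

/-- The matrix `antidiag (1, 1)`. -/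
def antiJ (R : Type*) [CommRing R] : Matrix (Fin 2) (Fin 2) (ER R) := !![0, 1; 1, 0]

/-- The lattice point of `antidiag (1, 1)`. -/
def mu1 : Lz := (0, (1, 0), 0)

/-- The image of the lattice point `mu1` in dual coordinates. -/
def X1 : Lz := lam mu1

/-- The hermitian matrix of `mu1`. -/
lemma hE_mu1 : hE mu1 = antiJ ℤ := by
  ext i j : 1
  fin_cases i <;> fin_cases j <;> simp [hE, mu1, antiJ, QuadraticAlgebra.ext_iff]

/-- The base point has norm `3`. -/
lemma q3_X1 : q3 X1 = 3 := by simp [X1, mu1, q3, lam, qd]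

/-- The stabiliser. -/
def H1s : Subgroup (GL (Fin 2) EI) where
  carrier := {γ | dact γ.val X1 = X1}
  one_mem' := dact_one X1
  mul_mem' {a b} (ha : dact a.val X1 = X1) (hb : dact b.val X1 = X1) := by
    change dact (a * b).val X1 = X1
    rw [Units.val_mul, dact_mul, hb, ha]
  inv_mem' {a} (ha : dact a.val X1 = X1) := by
    change dact (a⁻¹).val X1 = X1
    conv_lhs => rw [← ha, gl_mul_inv_dact]

/-- The stabiliser is the unitary group of `antidiag (1, 1)`. -/
lemma mem_H1s {γ : GL (Fin 2) EI} : γ ∈ H1s ↔ γ.val * antiJ ℤ * γ.valᴴ = antiJ ℤ := by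
  change dact γ.val X1 = X1 ↔ _
  rw [X1, dact_lam, ← hE_mu1, ← hE_lact]
  exact ⟨fun h => by rw [lam_injective h], fun h => by rw [hE_injective h]⟩

/-- The part of determinant one. -/
noncomputable def H0s : Subgroup (GL (Fin 2) EI) := H1s ⊓ Matrix.GeneralLinearGroup.det.ker

/-- The part of determinant one lies in the stabiliser. -/
lemma H0s_le : H0s ≤ H1s := inf_le_left

/-- Membership in the part of determinant one. -/
lemma mem_H0s {γ : GL (Fin 2) EI} :
    γ ∈ H0s ↔ γ ∈ H1s ∧ Matrix.GeneralLinearGroup.det γ = 1 := Subgroup.mem_inf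

/-- The elements of trace zero are the multiples of `√-3`. -/
lemma trace_zero_form {x : EI} (h : x + star x = 0) : ∃ b : ℤ, x = sR * (b : EI) := by
  have h2 := congrArg QuadraticAlgebra.re h
  simp at h2
  exact ⟨-x.re, by apply QuadraticAlgebra.ext <;> simp [sR]; omega⟩

/-- The conjugate of `√-3`. -/
lemma star_sR : star sR = -sR := by apply QuadraticAlgebra.ext <;> simp [sR]

/-- The square of `√-3`. -/
lemma sR_mul_sR : sR * sR = -3 := by apply QuadraticAlgebra.ext <;> simp [sR]

/-- An element of `H0s` is `(a, √-3 b; √-3 c, d)` with integers and `a d + 3 b c = 1`. -/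
theorem H0s_form {γ : GL (Fin 2) EI} (h : γ ∈ H0s) :
    ∃ a b c d : ℤ, γ.val = !![(a : EI), sR * (b : EI); sR * (c : EI), (d : EI)] ∧
      a * d + 3 * (b * c) = 1 := by
  obtain ⟨h1, hdet⟩ := mem_H0s.1 h
  have hd : γ.val.det = 1 := by
    rw [← Matrix.GeneralLinearGroup.val_det_apply, hdet]; rfl
  rw [Matrix.det_fin_two] at hd
  -- the equations of the stabiliser and of the determinant
  have e := mem_H1s.1 h1
  have e00 := congrFun (congrFun e 0) 0
  have e01 := congrFun (congrFun e 0) 1
  have e11 := congrFun (congrFun e 1) 1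
  simp [Matrix.mul_apply, Fin.sum_univ_two, antiJ] at e00 e01 e11
  set p := γ.val 0 0
  set q := γ.val 0 1
  set r := γ.val 1 0
  set s := γ.val 1 1
  -- they make the diagonal real and the other entries purely imaginary
  have hp : star p = p := by
    have hh := congrArg star e01
    simp [star_mul'] at hh
    linear_combination (-(star p)) * hd + p * hh - r * e00
  have hs : star s = s := by
    linear_combination (-(star s)) * hd + s * e01 - q * e11
  have hq : q + star q = 0 := by
    have hh := congrArg star e01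
    simp [star_mul'] at hh
    linear_combination (-(star q)) * hd + s * e00 - q * hh
  have hr : r + star r = 0 := by
    linear_combination (-(star r)) * hd + p * e11 - r * e01
  obtain ⟨b, hb⟩ := trace_zero_form hq
  obtain ⟨c, hc⟩ := trace_zero_form hr
  have him : ∀ x : EI, star x = x → x = (x.re : EI) := fun x hx => by
    have := congrArg QuadraticAlgebra.im hx
    simp at this
    apply QuadraticAlgebra.ext <;> simp; omega
  refine ⟨p.re, b, c, s.re, ?_, ?_⟩
  · rw [← him p hp, ← him s hs, ← hb, ← hc]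
    ext i j : 1
    fin_cases i <;> fin_cases j <;> rfl
  · have hh : ((p.re * s.re + 3 * (b * c) : ℤ) : EI) = ((1 : ℤ) : EI) := by
      push_cast
      rw [← him p hp, ← him s hs]
      linear_combination hd + (sR * (b : EI)) * hc + r * hb + ((b : EI) * (c : EI)) * sR_mul_sR
    exact_mod_cast hh

/-- The elements given by the coordinates. -/
def h0Mat (a b c d : ℤ) (h : a * d + 3 * (b * c) = 1) : GL (Fin 2) EI :=
  Matrix.SpecialLinearGroup.toGL ⟨!![(a : EI), sR * (b : EI); sR * (c : EI), (d : EI)], by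
    rw [Matrix.det_fin_two_of]
    have := congrArg (fun z : ℤ => (z : EI)) h
    push_cast at this
    linear_combination this - ((b : EI) * (c : EI)) * sR_mul_sR⟩

/-- The matrices given by coordinates lie in the determinant one stabiliser. -/
lemma h0Mat_mem (a b c d : ℤ) (h : a * d + 3 * (b * c) = 1) : h0Mat a b c d h ∈ H0s := by
  refine mem_H0s.2 ⟨mem_H1s.2 ?_, Units.ext ?_⟩
  · have h' := congrArg (fun z : ℤ => (z : EI)) h
    push_cast at h'
    ext i j : 1
    fin_cases i <;> fin_cases j <;>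
      simp [h0Mat, antiJ, Matrix.mul_apply, Fin.sum_univ_two, star_sR] <;>
      first
        | linear_combination h' - ((b : EI) * (c : EI)) * sR_mul_sR
        | linear_combination -h' + ((b : EI) * (c : EI)) * sR_mul_sR
        | ring
  · rw [Matrix.GeneralLinearGroup.val_det_apply]
    change Matrix.det !![(a : EI), sR * (b : EI); sR * (c : EI), (d : EI)] = ((1 : EIˣ) : EI)
    rw [Matrix.det_fin_two_of, Units.val_one]
    have := congrArg (fun z : ℤ => (z : EI)) h
    push_cast at this
    linear_combination this - ((b : EI) * (c : EI)) * sR_mul_sR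

/-- The swap fixes the base point. -/
lemma swI_mem : swI ∈ H1s := by
  rw [mem_H1s]
  ext i j : 1
  fin_cases i <;> fin_cases j <;> simp [swI, antiJ, Matrix.mul_apply, Fin.sum_univ_two]

/-- The cube of a unit of `ℤ[ω]` is `±1`. -/
lemma unit_cube (u : EIˣ) : (u : EI) ^ 3 = 1 ∨ (u : EI) ^ 3 = -1 := by
  have h := norm_unit_EI u
  rw [QuadraticAlgebra.norm_def] at h
  obtain ⟨x, hx⟩ : ∃ x : EI, (u : EI) = x := ⟨_, rfl⟩
  rw [hx] at h ⊢
  obtain ⟨a, b⟩ := x
  simp at h
  have h1 : -1 ≤ a ∧ a ≤ 1 := by constructor <;> nlinarith [sq_nonneg (a + 2 * b)]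
  have h2 : -1 ≤ b ∧ b ≤ 1 := by constructor <;> nlinarith [sq_nonneg (2 * a + b)]
  obtain ⟨a1, a2⟩ := h1
  obtain ⟨b1, b2⟩ := h2
  interval_cases a <;> interval_cases b <;> revert h <;>
    simp [QuadraticAlgebra.ext_iff, pow_succ]

/-- `ℤ[ω]` has finitely many units. -/
instance instFiniteUnitsEI : Finite EIˣ := by
  have : Finite {x : EI | ‖toC x‖ ≤ 1} := (finite_toC_le 1).to_subtype
  refine Finite.of_injective (β := {x : EI | ‖toC x‖ ≤ 1}) (fun u => ⟨(u : EI), ?_⟩) fun a b h => ?_
  · change ‖toC (u : EI)‖ ≤ 1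
    rw [Complex.norm_def, normSq_toC, norm_unit_EI]
    simp
  · exact Units.ext (congrArg Subtype.val h)

/-- A `Fintype` structure on the units of `ℤ[ω]`. -/
noncomputable instance instFintypeUnitsEI : Fintype EIˣ := Fintype.ofFinite _

/-- A scalar matrix of norm one. -/
def scGL (v : EIˣ) : GL (Fin 2) EI where
  val := !![(v : EI), 0; 0, (v : EI)]
  inv := !![((v⁻¹ : EIˣ) : EI), 0; 0, ((v⁻¹ : EIˣ) : EI)]
  val_inv := by
    ext i j : 1; fin_cases i <;> fin_cases j <;> simp [Matrix.mul_apply, Fin.sum_univ_two]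
  inv_val := by
    ext i j : 1; fin_cases i <;> fin_cases j <;> simp [Matrix.mul_apply, Fin.sum_univ_two]

/-- Scalar units fix the base point. -/
lemma scGL_mem (v : EIˣ) : scGL v ∈ H1s := by
  have h : (v : EI) * star (v : EI) = 1 := by
    have hn := norm_unit_EI v
    rw [QuadraticAlgebra.norm_def] at hn
    apply QuadraticAlgebra.ext <;> simp <;> linarith
  rw [mem_H1s]
  ext i j : 1
  fin_cases i <;> fin_cases j <;>
    simp [scGL, antiJ, Matrix.mul_apply, Fin.sum_univ_two, h]

/-- The determinant of a scalar unit. -/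
lemma det_scGL (v : EIˣ) : Matrix.GeneralLinearGroup.det (scGL v) = v * v :=
  Units.ext (by simp [Matrix.GeneralLinearGroup.val_det_apply, scGL, Matrix.det_fin_two_of])

/-- Every unit is a determinant. -/
theorem exists_det_H1s (u : EIˣ) : ∃ h ∈ H1s, Matrix.GeneralLinearGroup.det h = u := by
  rcases unit_cube u with h | h
  · refine ⟨scGL (u * u), scGL_mem _, ?_⟩
    rw [det_scGL]
    exact Units.ext (by push_cast; linear_combination (u : EI) * h)
  · refine ⟨scGL (u * u) * swI, H1s.mul_mem (scGL_mem _) swI_mem, ?_⟩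
    rw [map_mul, det_scGL]
    refine Units.ext ?_
    rw [Units.val_mul, Matrix.GeneralLinearGroup.val_det_apply]
    change ((u * u * (u * u) : EIˣ) : EI) * Matrix.det !![(0 : EI), 1; 1, 0] = u
    rw [Matrix.det_fin_two_of]
    push_cast
    linear_combination (-(u : EI)) * h

/-- The index of a coset of the determinant one stabiliser. -/
noncomputable def cosIdx (q : CosQ H0s ⊤) : {X : Lz // q3 X = 3} × EIˣ :=
  (⟨dact (cRep q).val X1, by rw [q3_dact_gl, q3_X1]⟩, Matrix.GeneralLinearGroup.det (cRep q))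

/-- The indices of cosets are injective. -/
lemma cosIdx_injective : Function.Injective cosIdx := by
  intro q q' h
  simp only [cosIdx, Prod.mk.injEq, Subtype.mk.injEq] at h
  have hm : (cRep q)⁻¹ * cRep q' ∈ H0s := by
    refine mem_H0s.2 ⟨?_, ?_⟩
    · change dact ((cRep q)⁻¹ * cRep q').val X1 = X1
      rw [Units.val_mul, dact_mul, ← h.1, gl_mul_inv_dact]
    · rw [map_mul, map_inv, h.2, inv_mul_cancel]
  rw [← QuotientGroup.out_eq' q, ← QuotientGroup.out_eq' q', QuotientGroup.eq]
  exact hm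

/-- The image: translates in `Λ`. -/
lemma mem_range_cosIdx {p : {X : Lz // q3 X = 3} × EIˣ} (h : p.1.1 ∈ Set.range lam) :
    p ∈ Set.range cosIdx := by
  obtain ⟨⟨X, hX⟩, u⟩ := p
  obtain ⟨μ, hμ⟩ := h
  simp only at hμ
  subst hμ
  obtain ⟨γ, hγ⟩ := exists_unimod_reduce hX
  obtain ⟨k, hk, hdk⟩ := exists_det_H1s ((Matrix.GeneralLinearGroup.det γ)⁻¹ * u)
  set g : (⊤ : Subgroup (GL (Fin 2) EI)) := ⟨γ * k, Subgroup.mem_top _⟩
  set q : CosQ H0s ⊤ := QuotientGroup.mk g
  have hg : (Quotient.out q : (⊤ : Subgroup (GL (Fin 2) EI)))⁻¹ * g ∈ H0s.subgroupOf ⊤ :=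
    QuotientGroup.leftRel_apply.1 (Quotient.exact (QuotientGroup.out_eq' q))
  obtain ⟨d, hd, hdq⟩ : ∃ d ∈ H0s, cRep q * d = γ * k :=
    ⟨_, Subgroup.mem_subgroupOf.1 hg, by simp [cRep, g]⟩
  have hq : cRep q = γ * k * d⁻¹ := eq_mul_inv_of_mul_eq hdq
  refine ⟨q, ?_⟩
  simp only [cosIdx, Prod.mk.injEq, Subtype.mk.injEq]
  refine ⟨?_, ?_⟩
  · rw [hq, Units.val_mul, Units.val_mul, dact_mul, dact_mul,
      show dact (d⁻¹ : GL (Fin 2) EI).val X1 = X1 from H1s.inv_mem (H0s_le hd),
      show dact k.val X1 = X1 from hk]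
    exact hγ.symm
  · rw [hq, map_mul, map_mul, hdk, map_inv, (mem_H0s.1 hd).2, inv_one, mul_one, mul_inv_cancel_left]

/-- The weight of `H0s`. -/
noncomputable def rhoH : H3 → ℝ := cosetW H0s ⊤ rho0

/-- `rhoH` is a weight for `H0s`. -/
lemma part_rhoH : Part H0s 1 rhoH := part_rho0.cosets le_top

/-- The swap is an involution. -/
lemma swI_mul_self : swI * swI = (1 : GL (Fin 2) EI) := Units.ext (by
  ext i j : 1; fin_cases i <;> fin_cases j <;> simp [swI, Matrix.mul_apply, Fin.sum_univ_two])

/-- Conjugation by the swap preserves `H0s`. -/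
lemma swI_conj_mem {δ : GL (Fin 2) EI} (h : δ ∈ H0s) : swI * δ * swI ∈ H0s := by
  obtain ⟨h1, h2⟩ := mem_H0s.1 h
  refine mem_H0s.2 ⟨H1s.mul_mem (H1s.mul_mem swI_mem h1) swI_mem, ?_⟩
  rw [map_mul, map_mul, h2, mul_one, ← map_mul, swI_mul_self, map_one]

/-- The swapped weight. -/
lemma part_rhoH_swI : Part H0s 1 fun w => rhoH (gC swI • w) where
  meas := part_rhoH.measurable_comp swI
  nonneg _ := part_rhoH.nonneg _
  hasSum w := by
    let e : H0s ≃ H0s :=
      ⟨fun δ => ⟨swI * δ * swI, swI_conj_mem δ.2⟩, fun δ => ⟨swI * δ * swI, swI_conj_mem δ.2⟩,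
        fun δ => Subtype.ext (by simp [mul_assoc, swI_mul_self, ← mul_assoc swI swI]),
        fun δ => Subtype.ext (by simp [mul_assoc, swI_mul_self, ← mul_assoc swI swI])⟩
    refine ((e.hasSum_iff (f := fun δ : H0s => rhoH (gC (δ : GL (Fin 2) EI) • (gC swI • w)))).2
      (part_rhoH.hasSum _)).congr_fun fun δ => ?_
    simp only [e, Function.comp_apply, Equiv.coe_fn_mk, smul_smul, ← map_mul]
    rw [mul_assoc _ swI swI, swI_mul_self, mul_one]

end Fermat.LT3
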