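import Fermat.Agent.LT3.Per.Unfold
import Mathlib.Analysis.SpecialFunctions.Gaussian.PoissonSummation

/-!
# Fourier expansion of the integral over the strip

Periodising the Gaussian leaves the coefficients at integral frequencies.
-/

set_option autoImplicit false
open Matrix MeasureTheory Filter NumberField
open scoped Classical Real

namespace Fermat.LT3
open Fermat.LT

section Gauss

/-- The character `exp (2πi k x)`. -/
noncomputable def eU (k : ℤ) (u : ℝ) : ℂ := Complex.exp (2 * π * Complex.I * (k : ℂ) * (u : ℂ))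

/-- `eU` takes values on the unit circle. -/
lemma norm_eU (k : ℤ) (u : ℝ) : ‖eU k u‖ = 1 := by
  rw [eU, show 2 * π * Complex.I * (k : ℂ) * (u : ℂ) = ((2 * π * k * u : ℝ) : ℂ) * Complex.I by
    push_cast; ring]
  exact Complex.norm_exp_ofReal_mul_I _

/-- `eU` is continuous. -/
lemma continuous_eU (k : ℤ) : Continuous (eU k) := by unfold eU; fun_prop

/-- A Gaussian is summable over `ℤ`. -/
lemma summable_gauss {a : ℝ} (ha : 0 < a) :
    Summable fun k : ℤ => Real.exp (-(π * a * (k : ℝ) ^ 2)) := by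
  refine (HurwitzKernelBounds.summable_f_int 0 0 ha).congr fun k => ?_
  simp [HurwitzKernelBounds.f_int]
  ring

/-- The periodised Gaussian. -/
theorem tsum_gauss {a : ℝ} (ha : 0 < a) (u : ℝ) :
    ∑' n : ℤ, ((Real.exp (-(π * (u + n) ^ 2 / a)) : ℝ) : ℂ)
      = ((Real.sqrt a : ℝ) : ℂ) * ∑' k : ℤ,
        ((Real.exp (-(π * a * (k : ℝ) ^ 2)) : ℝ) : ℂ) * eU k u := by
  have h := Complex.tsum_exp_neg_quadratic (a := (a : ℂ)) (by simpa using ha) (Complex.I * (u : ℂ))
  have hL : ∀ k : ℤ, ((Real.exp (-(π * a * (k : ℝ) ^ 2)) : ℝ) : ℂ) * eU k u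
      = Complex.exp (-π * a * (k : ℂ) ^ 2 + 2 * π * (Complex.I * u) * k) := fun k => by
    rw [Complex.ofReal_exp, eU, ← Complex.exp_add]
    congr 1
    push_cast
    ring
  have hR : ∀ n : ℤ, Complex.exp (-π / a * ((n : ℂ) + Complex.I * (Complex.I * u)) ^ 2)
      = ((Real.exp (-(π * (u + ((-n : ℤ) : ℝ)) ^ 2 / a)) : ℝ) : ℂ) := fun n => by
    rw [Complex.ofReal_exp, ← mul_assoc Complex.I, Complex.I_mul_I]
    congr 1
    push_cast
    ring
  simp only [← hL, hR] at h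
  rw [show ∑' n : ℤ, ((Real.exp (-(π * (u + ((-n : ℤ) : ℝ)) ^ 2 / a)) : ℝ) : ℂ)
      = ∑' n : ℤ, ((Real.exp (-(π * (u + (n : ℝ)) ^ 2 / a)) : ℝ) : ℂ) from
    (Equiv.neg ℤ).tsum_eq (fun n : ℤ => ((Real.exp (-(π * (u + (n : ℝ)) ^ 2 / a)) : ℝ) : ℂ))] at h
  have hs : (Real.sqrt a : ℂ) = (a : ℂ) ^ (1 / 2 : ℂ) := by
    rw [Real.sqrt_eq_rpow, Complex.ofReal_cpow ha.le]; norm_num
  have hne : (a : ℂ) ^ (1 / 2 : ℂ) ≠ 0 := by
    rw [← hs]; exact_mod_cast (Real.sqrt_pos.2 ha).ne'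
  rw [h, hs, ← mul_assoc, mul_one_div_cancel hne, one_mul]

/-- Integrals against a Gaussian of functions of period one. -/
theorem integral_gauss_periodic {a : ℝ} (ha : 0 < a) {G : ℝ → ℂ} (hc : Continuous G) {B : ℝ}
    (hB : ∀ u, ‖G u‖ ≤ B) (hp : ∀ (u : ℝ) (n : ℤ), G (u + n) = G u) :
    ∫ u : ℝ, ((Real.exp (-(π * u ^ 2 / a)) : ℝ) : ℂ) * G u
      = ((Real.sqrt a : ℝ) : ℂ) * ∑' k : ℤ, ((Real.exp (-(π * a * (k : ℝ) ^ 2)) : ℝ) : ℂ)
          * ∫ u in (0 : ℝ)..1, G u * eU k u := by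
  set w : ℝ → ℂ := fun u => ((Real.exp (-(π * u ^ 2 / a)) : ℝ) : ℂ) * G u
  have hwc : Continuous w := (Complex.continuous_ofReal.comp (by fun_prop)).mul hc
  have hg : Integrable fun u : ℝ => Real.exp (-(π * u ^ 2 / a)) :=
    (integrable_exp_neg_mul_sq (b := π / a) (by positivity)).congr
      (Eventually.of_forall fun u => by simp only; ring_nf)
  have hwb : ∀ u, ‖w u‖ ≤ Real.exp (-(π * u ^ 2 / a)) * B := fun u => by
    simp only [w, norm_mul, Complex.norm_real, Real.norm_of_nonneg (Real.exp_pos _).le]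
    exact mul_le_mul_of_nonneg_left (hB u) (Real.exp_pos _).le
  have hw : Integrable w :=
    (hg.mul_const B).mono' hwc.aestronglyMeasurable (Eventually.of_forall hwb)
  set μ : Measure ℝ := volume.restrict (Set.Ioc 0 1)
  have : IsFiniteMeasure μ :=
    ⟨by rw [Measure.restrict_apply_univ, Real.volume_Ioc]; exact ENNReal.ofReal_lt_top⟩
  have hint : ∀ f : ℝ → ℂ, ∫ u in (0 : ℝ)..1, f u = ∫ u, f u ∂μ :=
    fun f => intervalIntegral.integral_of_le zero_le_one
  -- split ℝ into unit intervals, using periodicity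
  have hsum := hw.hasSum_intervalIntegral_comp_add_int
  have hns := hw.norm.hasSum_intervalIntegral_comp_add_int
  simp only [intervalIntegral.integral_of_le (zero_le_one' ℝ)] at hsum hns
  have hwi : ∀ n : ℤ, Integrable (fun u => w (u + n)) μ := fun n =>
    (hw.comp_add_right (n : ℝ)).restrict
  rw [← hsum.tsum_eq, integral_tsum_of_summable_integral_norm hwi hns.summable]
  set e : ℤ → ℝ → ℂ := fun k u => ((Real.sqrt a : ℝ) : ℂ) *
    (((Real.exp (-(π * a * (k : ℝ) ^ 2)) : ℝ) : ℂ) * (G u * eU k u))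
  -- Poisson summation for the Gaussian
  have hk : ∀ u, ∑' n : ℤ, w (u + n) = ∑' k, e k u := fun u => by
    simp only [w, e, hp]
    rw [tsum_mul_right, tsum_gauss ha, mul_assoc, ← tsum_mul_right, ← tsum_mul_left]
    exact tsum_congr fun k => by ring
  simp only [hk]
  have hei : ∀ k, Integrable (e k) μ := fun k =>
    Integrable.of_bound
      (continuous_const.mul (continuous_const.mul (hc.mul (continuous_eU k)))).aestronglyMeasurable
      (Real.sqrt a * (Real.exp (-(π * a * (k : ℝ) ^ 2)) * B)) (Eventually.of_forall fun u => by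
        simp only [e, norm_mul, Complex.norm_real, Real.norm_of_nonneg (Real.sqrt_nonneg _),
          Real.norm_of_nonneg (Real.exp_pos _).le, norm_eU, mul_one]
        gcongr
        exact hB u)
  -- the new series may be integrated term by term
  have hes : Summable fun k => ∫ u, ‖e k u‖ ∂μ := by
    refine Summable.of_nonneg_of_le (fun k => integral_nonneg fun u => norm_nonneg _) (fun k => ?_)
      (((summable_gauss ha).mul_right B).mul_left (Real.sqrt a * μ.real Set.univ))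
    refine (integral_mono_of_nonneg (Eventually.of_forall fun u => norm_nonneg _)
      (integrable_const (Real.sqrt a * (Real.exp (-(π * a * (k : ℝ) ^ 2)) * B)))
      (Eventually.of_forall fun u => ?_)).trans_eq ?_
    · simp only [e, norm_mul, Complex.norm_real, Real.norm_of_nonneg (Real.sqrt_nonneg _),
        Real.norm_of_nonneg (Real.exp_pos _).le, norm_eU, mul_one]
      gcongr
      exact hB u
    · rw [integral_const, smul_eq_mul]; ring
  rw [← integral_tsum_of_summable_integral_norm hei hes, ← tsum_mul_left]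
  refine tsum_congr fun k => ?_
  simp only [e, integral_const_mul, hint]

end Gauss

variable {E : ℕ} [NeZero E]

/-- The image of `ω` in `ℂ`. -/
lemma toC_omega : toC (⟨0, 1⟩ : EI) = ⟨1 / 2, Real.sqrt 3 / 2⟩ := by
  rw [toC_apply]
  apply Complex.ext <;> simp [emb_re, emb_im]

/-- The translations along the plane reduce into the finite stabiliser. -/
lemma gr_trI_mem_StG (b : ℤ) : (gr (3 * (3 * E)) (trI (sR * (b : EI))) : GN (3 * E)) ∈ StG E :=
  gr_mem_StG (H0s_le (Us_le (trI_sR_mem b)))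

/-- One dimensional characters on the plane. -/
noncomputable def chiK (E : ℕ) (k : ℤ) (z : ℂ) : ℂ := eU k (z.re / ((3 * E : ℕ) : ℝ))

/-- `chiK` has the periods `6E ℤ[ω]`. -/
lemma perC_chiK (k : ℤ) : PerC (3 * E * 2) (chiK E k) := by
  refine ⟨(continuous_eU k).comp (Complex.continuous_re.div_const _), fun z x => ?_⟩
  simp only [chiK, eU]
  rw [Complex.exp_eq_exp_iff_exists_int]
  refine ⟨k * (2 * x.re + x.im), ?_⟩
  rw [toC_apply]
  simp [emb_re]
  have hE' : (E : ℂ) ≠ 0 := Nat.cast_ne_zero.2 (NeZero.ne E)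
  field_simp

omit [NeZero E] in
/-- `chiK` at an even frequency is a character of the plane. -/
lemma chiK_even (m : ℤ) (z : ℂ) : chiK E (-2 * m) z = chiC (-(fr E (m : EI) * z)) := by
  rw [chiK, eU, chiC, fr, map_intCast]
  congr 1
  rw [show ((m : ℂ)) / ((3 * E : ℕ) : ℂ) = (((m : ℝ) / ((3 * E : ℕ) : ℝ) : ℝ) : ℂ) by
    rw [Complex.ofReal_div, Complex.ofReal_intCast, Complex.ofReal_natCast]]
  simp only [Complex.neg_re, Complex.re_ofReal_mul]
  push_cast
  ring

variable {Φ : GN (3 * E) → H3 → ℂ} (M : GN (3 * E)) (hΦ : IsInvFam Φ)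

/-- The sum over the upper triangular part on a horosphere. -/
noncomputable def fB (Φ : GN (3 * E) → H3 → ℂ) (M : GN (3 * E)) (t : ℝ) (z : ℂ) : ℂ :=
  ∑ g ∈ Bs E, Φ (g * M) (H3.mk z t)

include hΦ

/-- The sum on a horosphere has the periods `3E ℤ[ω]`. -/
lemma perC_fB {t : ℝ} (ht : 0 < t) : PerC (3 * E) (fB Φ M t) :=
  PerC.sum _ fun g _ => hΦ.perC_slice (g * M) ht

/-- The sum on a horosphere is periodic under `√3 i`. -/
lemma fB_sqrt3 {t : ℝ} (ht : 0 < t) (z : ℂ) :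
    fB Φ M t (z + Real.sqrt 3 * Complex.I) = fB Φ M t z := by
  set u : GL (Fin 2) EI := trI (sR * ((1 : ℤ) : EI))
  have hz : z + Real.sqrt 3 * Complex.I = z + toC (sR * ((1 : ℤ) : EI)) := by
    rw [toC_sR_mul]; apply Complex.ext <;> simp
  have h10 : ∀ g : GN (3 * E), ((nG (sR * ((1 : ℤ) : EI)) * g : GN (3 * E))).val 1 0 = g.val 1 0 :=
    fun g => by rw [Units.val_mul, Matrix.mul_apply, Fin.sum_univ_two, nG_val]; simp
  rw [fB, fB, hz]
  have hu : (nG (sR * ((1 : ℤ) : EI)) : GN (3 * E)) ∈ StG E := gr_trI_mem_StG 1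
  refine (Finset.sum_bij' (fun g _ => (nG (sR * ((1 : ℤ) : EI)) : GN (3 * E)) * g)
    (fun g _ => (nG (sR * ((1 : ℤ) : EI)) : GN (3 * E))⁻¹ * g) (fun g hg => ?_) (fun g hg => ?_)
    (fun g _ => by simp) (fun g _ => by simp) (fun g _ => ?_)).symm
  · obtain ⟨h1, h2⟩ := mem_Bs.1 hg
    exact mem_Bs.2 ⟨(StG E).mul_mem hu h1, by rw [h10]; exact h2⟩
  · obtain ⟨h1, h2⟩ := mem_Bs.1 hg
    refine mem_Bs.2 ⟨(StG E).mul_mem ((StG E).inv_mem hu) h1, ?_⟩
    rw [← h10, mul_inv_cancel_left]; exact h2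
  · rw [mul_assoc, hΦ.translate _ _ z ht]

/-- The sum on a horosphere is periodic under `√3 E i`. -/
lemma fB_sqrt3E {t : ℝ} (ht : 0 < t) (z : ℂ) :
    fB Φ M t (z + ((Real.sqrt 3 * E : ℝ) : ℂ) * Complex.I) = fB Φ M t z := by
  have h := (Function.Periodic.nat_mul (f := fun y : ℂ => fB Φ M t (z + y))
    (fun y => by simp only; rw [← add_assoc, fB_sqrt3 M hΦ ht]) E) 0
  simp only [zero_add, add_zero] at h
  rw [← h]
  congr 1
  push_cast
  ring

/-- The sum on a horosphere is periodic under `3E ℤ`. -/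
lemma fB_level {t : ℝ} (ht : 0 < t) (z : ℂ) (n : ℤ) :
    fB Φ M t (z + ((3 * E : ℕ) : ℂ) * (n : ℂ)) = fB Φ M t z := by
  rw [← map_intCast toC]
  exact (perC_fB M hΦ ht).2 z n

variable {K : Type*} [Field K] [NumberField K] [IsTotallyComplex K] (D : KData K)

/-- The integrand of a strip coefficient has the periods `6E ℤ[ω]`. -/
lemma perC_fB_chiK {t : ℝ} (ht : 0 < t) (k : ℤ) :
    PerC (3 * E * 2) fun z => fB Φ M t z * chiK E k z :=
  ((perC_fB M hΦ ht).mul_right 2).mul (perC_chiK k)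

/-- The coefficients at odd frequencies vanish. -/
lemma mC_odd {t : ℝ} (ht : 0 < t) {k : ℤ} (hk : Odd k) :
    mC D (fun z => fB Φ M t z * chiK E k z) = 0 := by
  set c : ℂ := ((3 * E : ℕ) : ℂ) * toC (⟨0, 1⟩ : EI)
  have hN : (3 * E * 2) ≠ 0 := mul_ne_zero three_E_ne_zero two_ne_zero
  have hc : c.re = (3 * E : ℝ) / 2 := by
    simp only [c, toC_omega]
    simp
    ring
  obtain ⟨j, rfl⟩ := hk
  have e : ∀ z, fB Φ M t (z + c) * chiK E (2 * j + 1) (z + c)
      = (-1) * (fB Φ M t z * chiK E (2 * j + 1) z) := fun z => by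
    rw [(perC_fB M hΦ ht).2 z ⟨0, 1⟩, chiK, chiK, Complex.add_re, hc, eU, eU]
    have harg : 2 * π * Complex.I * ((2 * j + 1 : ℤ) : ℂ)
          * (((z.re + (3 * E : ℝ) / 2) / ((3 * E : ℕ) : ℝ) : ℝ) : ℂ)
        = 2 * π * Complex.I * ((2 * j + 1 : ℤ) : ℂ) * (((z.re / ((3 * E : ℕ) : ℝ)) : ℝ) : ℂ)
          + (π * Complex.I + ((j : ℤ) : ℂ) * (2 * π * Complex.I)) := by
      have hE' : (E : ℂ) ≠ 0 := Nat.cast_ne_zero.2 (NeZero.ne E)
      push_cast
      field_simp
      ring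
    rw [harg, Complex.exp_add, Complex.exp_add, Complex.exp_int_mul_two_pi_mul_I,
      Complex.exp_pi_mul_I]
    ring
  have h := mC_translate D hN (perC_fB_chiK M hΦ ht (2 * j + 1)) c
  simp only [e] at h
  rw [mC_const_mul D hN (perC_fB_chiK M hΦ ht _)] at h
  linear_combination (-1 / 2 : ℂ) * h

/-- The coefficient at an even frequency is a sum of coefficients of the translates. -/
lemma mC_even {t : ℝ} (ht : 0 < t) (m : ℤ) :
    mC D (fun z => fB Φ M t z * chiK E (-2 * m) z) = ∑ g ∈ Bs E, hCoef D E (Φ (g * M))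
      (m : EI) t := by
  simp only [hCoef, fB, Finset.sum_mul, chiK_even]
  exact mC_sum D three_E_ne_zero _ fun g _ => (hΦ.perC_slice _ ht).mul (perC_chi E _)

/-- The inner sum at height `t`. -/
noncomputable def Sm (Φ : GN (3 * E) → H3 → ℂ) (M : GN (3 * E)) (D : KData K) (t : ℝ) (m : ℤ) : ℂ :=
  ((Real.exp (-(4 * π * ((m : ℝ) * t / ((3 * E : ℕ) : ℝ)) ^ 2)) : ℝ) : ℂ)
    * ∑ g ∈ Bs E, hCoef D E (Φ (g * M)) (m : EI) t

/-- The Fourier coefficients of the strip, rescaled to period one, are averages against `chiK`. -/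
theorem integral_strip_eU {t : ℝ} (ht : 0 < t) (k : ℤ) :
    ∫ u in (0 : ℝ)..1, (∫ y in (0 : ℝ)..Real.sqrt 3,
        fB Φ M t (((((3 * E : ℕ) : ℝ) * u : ℝ) : ℂ) + (y : ℂ) * Complex.I)) * eU k u
      = ((Real.sqrt 3 : ℝ) : ℂ) * mC D (fun z => fB Φ M t z * chiK E k z) := by
  set P : ℝ := ((3 * E : ℕ) : ℝ) with hP
  have hP0 : 0 < P := Nat.cast_pos.2 (Nat.mul_pos three_pos (NeZero.pos E))
  have hE0 : (0 : ℝ) < E := Nat.cast_pos.2 (NeZero.pos E)
  have hfc : Continuous (fB Φ M t) := (perC_fB M hΦ ht).1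
  set G1 : ℝ → ℂ := fun x => ∫ y in (0 : ℝ)..Real.sqrt 3, fB Φ M t ((x : ℂ) + (y : ℂ) * Complex.I)
  set G : ℝ → ℂ := fun u => G1 (P * u)
  change ∫ u in (0 : ℝ)..1, G u * eU k u = _
  have hN : (3 * E * 2) ≠ 0 := mul_ne_zero three_E_ne_zero two_ne_zero
  have hY : (0 : ℝ) < Real.sqrt 3 * E := by positivity
  -- the twisted function is periodic, so `mC` is its average over a rectangle
  have hr := rectI_eq_mC D hN (perC_fB_chiK M hΦ ht k) hP0 hY (fun z => ?_) (fun z => ?_)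
  rotate_left
  · have h1 : fB Φ M t (z + (P : ℂ)) = fB Φ M t z := by
      have := fB_level M hΦ ht z 1
      simp only [Int.cast_one, mul_one] at this
      rw [← this, hP]; norm_cast
    rw [h1]
    congr 1
    simp only [chiK, eU, Complex.add_re, Complex.ofReal_re, ← hP]
    rw [Complex.exp_eq_exp_iff_exists_int]
    refine ⟨k, ?_⟩
    have : (P : ℂ) ≠ 0 := by exact_mod_cast hP0.ne'
    push_cast
    field_simp
  · rw [fB_sqrt3E M hΦ ht]
    simp [chiK]
  -- the inner integral is `E` copies of one period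
  have hin : ∀ x : ℝ, ∫ y in (0 : ℝ)..Real.sqrt 3 * E,
      fB Φ M t ((x : ℂ) + (y : ℂ) * Complex.I) * chiK E k ((x : ℂ) + (y : ℂ) * Complex.I)
        = (E : ℂ) * (G1 x * eU k (x / P)) := fun x => by
    have hpy : Function.Periodic (fun y : ℝ => fB Φ M t ((x : ℂ) + (y : ℂ) * Complex.I))
        (Real.sqrt 3) :=
      fun y => by
        simp only
        rw [← fB_sqrt3 M hΦ ht ((x : ℂ) + (y : ℂ) * Complex.I)]
        congr 1; push_cast; ring
    have e : ∀ y : ℝ, chiK E k ((x : ℂ) + (y : ℂ) * Complex.I) = eU k (x / P) := fun y => by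
      simp [chiK, hP]
    simp only [e, intervalIntegral.integral_mul_const]
    have hz := hpy.intervalIntegral_add_zsmul_eq ((E : ℕ) : ℤ) 0
      (fun a b => (hfc.comp (by fun_prop)).intervalIntegrable a b)
    rw [zero_add, zero_add, zsmul_eq_mul, zsmul_eq_mul, Int.cast_natCast, Int.cast_natCast,
      mul_comm ((E : ℕ) : ℝ)] at hz
    rw [hz]
    ring
  simp only [rectI, hin, intervalIntegral.integral_const_mul] at hr
  -- substitute `x = P u` in the outer integral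
  have hs : ∫ x in (0 : ℝ)..P, G1 x * eU k (x / P) =
      (P : ℂ) * ∫ u in (0 : ℝ)..1, G u * eU k u := by
    have h := intervalIntegral.smul_integral_comp_mul_left (a := 0) (b := 1)
      (fun x => G1 x * eU k (x / P)) P
    rw [mul_zero, mul_one, Complex.real_smul] at h
    rw [← h]
    congr 1
    refine intervalIntegral.integral_congr fun u _ => ?_
    simp only [G]
    rw [mul_div_cancel_left₀ _ hP0.ne']
  rw [hs] at hr
  have hne : (E : ℂ) * (P : ℂ) ≠ 0 :=
    mul_ne_zero (Nat.cast_ne_zero.2 (NeZero.ne E)) (Complex.ofReal_ne_zero.2 hP0.ne')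
  refine mul_left_cancel₀ hne ?_
  rw [mul_assoc, hr]
  push_cast
  ring

/-- **The Gaussian average of the strip.** The Gaussian average over the strip at height `t` is
`√3 t` times the sum of the inner sums `Sm`. -/
theorem integral_gauss_strip {t : ℝ} (ht : 0 < t) :
    ∫ x : ℝ, ((Real.exp (-(π * (x / t) ^ 2)) : ℝ) : ℂ) *
        ∫ y in (0 : ℝ)..Real.sqrt 3, fB Φ M t ((x : ℂ) + (y : ℂ) * Complex.I)
      = ((Real.sqrt 3 * t : ℝ) : ℂ) * ∑' m : ℤ, Sm Φ M D t m := by
  set P : ℝ := ((3 * E : ℕ) : ℝ) with hP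
  have hP0 : 0 < P := Nat.cast_pos.2 (Nat.mul_pos three_pos (NeZero.pos E))
  have hfc : Continuous (fB Φ M t) := (perC_fB M hΦ ht).1
  obtain ⟨C0, hC0⟩ := hΦ.bound
  have hfb : ∀ z, ‖fB Φ M t z‖ ≤ (Bs E).card * C0 := fun z =>
    (norm_sum_le _ _).trans ((Finset.sum_le_card_nsmul _ _ _ fun g _ => hC0 _ _).trans_eq
      (nsmul_eq_mul _ _))
  set G1 : ℝ → ℂ := fun x => ∫ y in (0 : ℝ)..Real.sqrt 3, fB Φ M t ((x : ℂ) + (y : ℂ) * Complex.I)
  have hG1 : Continuous G1 :=
    intervalIntegral.continuous_parametric_intervalIntegral_of_continuous'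
      (f := fun (x : ℝ) (y : ℝ) => fB Φ M t ((x : ℂ) + (y : ℂ) * Complex.I))
        (hfc.comp (by fun_prop)) _ _
  -- rescale x = P u to a 1-periodic G
  set G : ℝ → ℂ := fun u => G1 (P * u)
  have hGb : ∀ u, ‖G u‖ ≤ (Bs E).card * C0 * |Real.sqrt 3 - 0| := fun u =>
    intervalIntegral.norm_integral_le_of_norm_le_const fun y _ => hfb _
  have hGp : ∀ (u : ℝ) (n : ℤ), G (u + n) = G u := fun u n => by
    refine intervalIntegral.integral_congr fun y _ => ?_
    rw [← fB_level M hΦ ht (((P * u : ℝ) : ℂ) + (y : ℂ) * Complex.I) n]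
    congr 1
    simp only [hP]
    push_cast
    ring
  have ha : 0 < (t / P) ^ 2 := by positivity
  have hscale : ∫ x : ℝ, ((Real.exp (-(π * (x / t) ^ 2)) : ℝ) : ℂ) * G1 x
      = (P : ℂ) * ∫ u : ℝ, ((Real.exp (-(π * u ^ 2 / (t / P) ^ 2)) : ℝ) : ℂ) * G u := by
    have h := Measure.integral_comp_mul_left
      (fun x : ℝ => ((Real.exp (-(π * (x / t) ^ 2)) : ℝ) : ℂ) * G1 x) P
    rw [abs_of_pos (inv_pos.2 hP0), Complex.real_smul] at h
    have e : ∀ u : ℝ, π * (P * u / t) ^ 2 = π * u ^ 2 / (t / P) ^ 2 := fun u => by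
      field_simp
    simp only [e] at h
    rw [h, ← mul_assoc, ← Complex.ofReal_mul, mul_inv_cancel₀ hP0.ne', Complex.ofReal_one, one_mul]
  -- the Fourier coefficients of G are mC of fB against chiK
  have hcoef : ∀ k : ℤ, ∫ u in (0 : ℝ)..1, G u * eU k u
      = ((Real.sqrt 3 : ℝ) : ℂ) * mC D (fun z => fB Φ M t z * chiK E k z) :=
    integral_strip_eU M hΦ D ht
  rw [hscale,
    integral_gauss_periodic ha (G := G) (hG1.comp (continuous_const.mul continuous_id)) hGb hGp]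
  simp only [hcoef]
  rw [Real.sqrt_sq (by positivity : (0 : ℝ) ≤ t / P)]
  -- odd k contribute 0; k = -2 m gives Sm
  have hinj : Function.Injective fun m : ℤ => -2 * m := fun a b h => by simp only at h; omega
  rw [← hinj.tsum_eq (f := fun k : ℤ => ((Real.exp (-(π * (t / P) ^ 2 * (k : ℝ) ^ 2)) : ℝ) : ℂ) *
    (((Real.sqrt 3 : ℝ) : ℂ) * mC D fun z => fB Φ M t z * chiK E k z))]
  · rw [← tsum_mul_left, ← tsum_mul_left, ← tsum_mul_left]
    refine tsum_congr fun m => ?_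
    rw [mC_even M hΦ D ht, Sm]
    have hPc : (P : ℂ) ≠ 0 := by exact_mod_cast hP0.ne'
    rw [show -(π * (t / P) ^ 2 * ((-2 * m : ℤ) : ℝ) ^ 2) = -(4 * π * ((m : ℝ) * t / P) ^ 2) by
      push_cast; ring]
    push_cast
    field_simp
    simp only [hP]; push_cast; ring
  · intro k hk
    by_contra hout
    refine hk ?_
    have hodd : Odd k := by
      rcases Int.even_or_odd k with ⟨j, hj⟩ | h
      · exact absurd ⟨-j, by simp only; omega⟩ hout
      · exact h
    simp only [mC_odd M hΦ D ht hodd, mul_zero]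

/-- **The strip integral through coefficients.** -/
theorem strip_eq_coef {σ : ℝ} (hσ : 1 < σ) (hσ' : σ < 2) :
    IntegrableOn (fun t => ((t ^ (σ - 2) : ℝ) : ℂ) * ∑' m : ℤ, Sm Φ M D t m) (Set.Ioi 0) ∧
    ∫ v, (stripW v : ℂ) * aU Φ M σ v ∂hmeas
      = (((3 : ℝ) ^ (-(σ / 2)) * Real.sqrt 3 : ℝ) : ℂ) *
          ∫ t in Set.Ioi (0 : ℝ), ((t ^ (σ - 2) : ℝ) : ℂ) * ∑' m : ℤ, Sm Φ M D t m := by
  obtain ⟨hi, he⟩ :=
    integral_xyt ((Complex.measurable_ofReal.comp part_stripW.meas).mul (measurable_aU M hΦ σ))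
    (integrable_strip M hΦ hσ hσ')
  set κ : ℂ := (((3 : ℝ) ^ (-(σ / 2)) * Real.sqrt 3 : ℝ) : ℂ) with hκ
  have hκ0 : κ ≠ 0 := Complex.ofReal_ne_zero.2 (by positivity)
  -- in (x, y, t) coordinates, compute the (x, y)-integral for each t
  suffices key : Set.EqOn (fun t => ∫ x : ℝ, ∫ y : ℝ, (((t ^ 3)⁻¹ : ℝ) : ℂ) *
      ((Complex.ofReal ∘ stripW * aU Φ M σ) (H3.mk ⟨x, y⟩ t)))
      (fun t => κ * (((t ^ (σ - 2) : ℝ) : ℂ) * ∑' m : ℤ, Sm Φ M D t m)) (Set.Ioi 0) by
    refine ⟨((hi.congr_fun key measurableSet_Ioi).const_mul κ⁻¹).congr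
      (Eventually.of_forall fun t => ?_), ?_⟩
    · simp [← mul_assoc, inv_mul_cancel₀ hκ0]
    · rw [← integral_const_mul, ← setIntegral_congr_fun measurableSet_Ioi key]
      exact he
  intro t (ht : 0 < t)
  simp only [hκ]
  set c : ℂ := (((t ^ 3)⁻¹ : ℝ) : ℂ) * (((3 : ℝ) ^ (-(σ / 2)) * t ^ σ : ℝ) : ℂ)
  -- the integrand is a Gaussian in x times fB on the strip
  have hpt : ∀ x y : ℝ, (((t ^ 3)⁻¹ : ℝ) : ℂ) *
      ((Complex.ofReal ∘ stripW * aU Φ M σ) (H3.mk ⟨x, y⟩ t))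
      = (Set.Ico 0 (Real.sqrt 3)).indicator (fun y : ℝ => c *
          (((Real.exp (-(π * (x / t) ^ 2)) : ℝ) : ℂ) * fB Φ M t ((x : ℂ) + (y : ℂ) * Complex.I)))
              y := by
    intro x y
    rw [Pi.mul_apply, Function.comp_apply, stripW, aU, rpow_mul_qS, H3.coord_mk_of_pos _ ht,
      lin_X1_mk _ ht]
    by_cases hy : y ∈ Set.Ico 0 (Real.sqrt 3)
    · rw [Set.indicator_of_mem hy, Set.indicator_of_mem hy, Complex.mk_eq_add_mul_I]
      simp only [c, fB, Pi.one_apply, Complex.ofReal_one, one_mul, Complex.add_re,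
        Complex.ofReal_re,
        Complex.mul_re, Complex.I_re, Complex.I_im, mul_zero, Complex.ofReal_im, zero_mul, sub_zero,
        add_zero, neg_div, neg_sq]
      push_cast
      ring
    · rw [Set.indicator_of_notMem hy, Set.indicator_of_notMem hy]
      simp
  simp only [hpt, integral_indicator measurableSet_Ico, integral_const_mul]
  have hy : ∀ x : ℝ, ∫ y in Set.Ico 0 (Real.sqrt 3), fB Φ M t ((x : ℂ) + (y : ℂ) * Complex.I)
      = ∫ y in (0 : ℝ)..Real.sqrt 3, fB Φ M t ((x : ℂ) + (y : ℂ) * Complex.I) := fun x => by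
    rw [intervalIntegral.integral_of_le (Real.sqrt_nonneg _), integral_Ico_eq_integral_Ioc]
  simp only [hy, integral_gauss_strip M hΦ D ht, c]
  -- collect the powers of t
  have e : (t ^ 3)⁻¹ * ((3 : ℝ) ^ (-(σ / 2)) * t ^ σ) * (Real.sqrt 3 * t)
      = (3 : ℝ) ^ (-(σ / 2)) * Real.sqrt 3 * t ^ (σ - 2) := by
    rw [show t ^ (σ - 2) =
      t ^ σ / t ^ (2 : ℕ) by rw [Real.rpow_sub ht, ← Real.rpow_natCast t 2]; norm_num]
    field_simp
  rw [← mul_assoc, ← mul_assoc, ← Complex.ofReal_mul, ← Complex.ofReal_mul, e]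
  push_cast
  ring

end Fermat.LT3
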