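import Fermat.Agent.LT3.TAuto

/-!
# Translates of a typed function

Right translation by `diag(δ, 1)` gives a typed function with the same eigenvalues; every matrix is
such a translate of one with determinant of norm one.
-/

set_option autoImplicit false
open Matrix
open scoped Classical

namespace Fermat.LT3
open Fermat.LT

variable {E : ℕ} [NeZero E]

omit [NeZero E] in
/-- The entries of the inverse of `dgN`. -/
lemma dgN_inv_val (δ : (RN E)ˣ) :
    (dgN δ : GN (3 * E))⁻¹.val = !![((δ⁻¹ : (RN E)ˣ) : RN E), 0; 0, 1] := rfl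

omit [NeZero E] in
/-- Reduction of a conjugate. -/
lemma map_conj {R : Type*} [CommRing R] (f : RN E →+* R) (g k : GN (3 * E)) :
    (g * k * g⁻¹).val.map f = g.val.map f * k.val.map f * g⁻¹.val.map f := by
  rw [Units.val_mul, Units.val_mul, Matrix.map_mul, Matrix.map_mul]

omit [NeZero E] in
/-- Reduction of an inverse. -/
lemma map_val_mul_inv {R : Type*} [CommRing R] (f : RN E →+* R) (g : GN (3 * E)) :
    g.val.map f * g⁻¹.val.map f = 1 := by
  rw [← Matrix.map_mul, ← Units.val_mul, mul_inv_cancel, Units.val_one,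
    Matrix.map_one _ (map_zero f) (map_one f)]

omit [NeZero E] in
/-- The congruence condition at a prime is invariant under conjugation. -/
lemma SLpi.conj {π : EI} {k : GN (3 * E)} (h : SLpi E π k) (g : GN (3 * E)) :
    SLpi E π (g * k * g⁻¹) := by
  obtain ⟨h3, hd, hπ⟩ := h
  refine ⟨?_, ?_, ?_⟩
  · rw [map_conj, h3, Matrix.mul_one, map_val_mul_inv]
  · have := congrArg Matrix.det (map_val_mul_inv (castEh E) g)
    rw [Matrix.det_mul, Matrix.det_one] at this
    rw [map_conj, Matrix.det_mul, Matrix.det_mul, hd, mul_one, this]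
  · have e : (g * k * g⁻¹).val.map (castEh E) - 1
        = g.val.map (castEh E) * (k.val.map (castEh E) - 1) * g⁻¹.val.map (castEh E) := by
      rw [map_conj, Matrix.mul_sub, Matrix.mul_one, Matrix.sub_mul, map_val_mul_inv]
    rw [e, ← Matrix.smul_mul, ← Matrix.mul_smul, hπ, Matrix.mul_zero, Matrix.zero_mul]

/-- **The translate** by `diag (δ, 1)` on the right. -/
noncomputable def TAuto.rtr (A : TAuto E) (δ : (RN E)ˣ) : TAuto E where
  Φ M w := A.Φ (M * dgN δ) w
  nonzero := by
    obtain ⟨M, w, h⟩ := A.nonzero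
    exact ⟨M * (dgN δ)⁻¹, w, by rwa [inv_mul_cancel_right]⟩
  inv γ M w := by simp only [mul_assoc]; exact A.inv γ _ w
  scal z M w := by simp only [mul_assoc]; exact A.scal z _ w
  level k M h1 h2 w := by
    -- conjugation by `dgN δ` preserves the level conditions
    rw [show M * k * dgN δ = M * dgN δ * ((dgN δ)⁻¹ * k * (dgN δ)⁻¹⁻¹) by group]
    refine A.level _ _ ?_ ?_ w
    · rw [map_conj, h1, Matrix.mul_one, map_val_mul_inv]
    · rw [map_conj, h2, Matrix.mul_one, map_val_mul_inv]
  cont M := A.cont _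
  bound := A.bound.imp fun C hC M w => hC _ w
  arch k hk hs M w := A.arch k hk hs _ w
  lam := A.lam
  hecke π hπ hu T hT M w := by simp only [mul_assoc]; exact A.hecke π hπ hu T hT _ w
  cusp M w := by simp only [mul_assoc]; exact A.cusp _ w
  θ := A.θ
  θ_cube := A.θ_cube
  borel k M h1 h10 w := by
    rw [show M * k * dgN δ = M * dgN δ * ((dgN δ)⁻¹ * k * (dgN δ)⁻¹⁻¹) by group]
    -- it scales the off-diagonal entries, so the character is unchanged
    have e : ∀ i j, ((dgN δ)⁻¹ * k * (dgN δ)⁻¹⁻¹).val i j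
        = (!![k.val 0 0, ((δ⁻¹ : (RN E)ˣ) : RN E) * k.val 0 1;
            k.val 1 0 * (δ : RN E), k.val 1 1] : Matrix (Fin 2) (Fin 2) (RN E)) i j := fun i j => by
      rw [inv_inv, Units.val_mul, Units.val_mul, dgN_inv_val, Matrix.eta_fin_two k.val,
        show (dgN δ : GN (3 * E)).val = !![(δ : RN E), 0; 0, 1] from rfl, Matrix.mul_fin_two,
        Matrix.mul_fin_two]
      fin_cases i <;> fin_cases j <;> simp
      linear_combination (k.val 0 0) * Units.inv_mul δ
    rw [A.borel _ _ ?_ ?_ w, e, e]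
    · rfl
    · rw [map_conj, h1, Matrix.mul_one, map_val_mul_inv]
    · rw [e]; simp [h10]
  slZero π hπ hπE M w := by
    set s : GN (3 * E) := (dgN δ)⁻¹
    -- and permutes the summands at `π`
    rw [← A.slZero π hπ hπE (M * dgN δ) w]
    refine Finset.sum_bij (fun k _ => s * k * s⁻¹) (fun k hk => ?_) (fun a _ b _ h => ?_)
      (fun k hk => ⟨s⁻¹ * k * s⁻¹⁻¹, ?_, by group⟩) fun k _ => by simp [s, mul_assoc]
    · exact Finset.mem_filter.2 ⟨Finset.mem_univ _, (Finset.mem_filter.1 hk).2.conj s⟩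
    · exact mul_left_cancel (mul_right_cancel h)
    · exact Finset.mem_filter.2 ⟨Finset.mem_univ _, (Finset.mem_filter.1 hk).2.conj s⁻¹⟩
  dich := A.dich

/-- The translate has the same eigenvalues. -/
@[simp] lemma TAuto.rtr_lam (A : TAuto E) (δ : (RN E)ˣ) : (A.rtr δ).lam = A.lam := rfl

omit [NeZero E] in
/-- Every matrix is a translate of one of norm one determinant. -/
lemma exists_eq_mul_dgN (M : GN (3 * E)) :
    ∃ (M1 : GN (3 * E)) (δ : (RN E)ˣ), ndet M1 = 1 ∧ M = M1 * dgN δ := by
  refine ⟨M * (dgN (Matrix.GeneralLinearGroup.det M))⁻¹, _, ?_, (inv_mul_cancel_right _ _).symm⟩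
  rw [ndet, Units.val_mul, Matrix.det_mul, dgN_inv_val, Matrix.det_fin_two_of,
    ← Matrix.GeneralLinearGroup.val_det_apply, mul_zero, sub_zero, mul_one, Units.mul_inv, map_one]

end Fermat.LT3
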