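import Fermat.Agent.LT3.Per.Coord
import Fermat.Agent.LT3.Per.InvFam

/-!
# The unfolded integral over the strip stays bounded

If the periods of an `IsInvFam` summed over the stabiliser (`perSum`) vanish, the integral over the
strip against `t ^ σ` is bounded as `σ → 1`.
-/

set_option autoImplicit false
open Matrix MeasureTheory Filter
open scoped Classical MatrixGroups ENNReal

namespace Fermat.LT3
open Fermat.LT EisEst

/-- The weight along the plane. -/
noncomputable def qS (σ s : ℝ) : ℂ :=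
  ((((1 + s ^ 2) ^ (σ / 2))⁻¹ * Real.exp (-(Real.pi * s ^ 2)) : ℝ) : ℂ)

/-- The weight along the plane is continuous. -/
lemma continuous_qS (σ : ℝ) : Continuous (qS σ) := by
  refine Complex.continuous_ofReal.comp (Continuous.mul ?_ ?_)
  · exact Continuous.inv₀ (Continuous.rpow_const (by fun_prop) fun s => Or.inl (by positivity))
      fun s => (Real.rpow_pos_of_pos (by positivity) _).ne'
  · fun_prop

/-- The weight along the plane is bounded by a Gaussian. -/
lemma norm_qS_le {σ : ℝ} (hσ : 0 ≤ σ) (s : ℝ) : ‖qS σ s‖ ≤ Real.exp (-(Real.pi * s ^ 2)) := by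
  rw [qS, Complex.norm_real, Real.norm_of_nonneg (by positivity)]
  exact mul_le_of_le_one_left (Real.exp_pos _).le
    (inv_le_one_of_one_le₀ (Real.one_le_rpow (by nlinarith) (by positivity)))

/-- The weight along the plane decays. -/
lemma decay_qS {σ : ℝ} (hσ : 0 ≤ σ) : Samp.Decay (qS σ) :=
  ⟨continuous_qS σ, Real.pi, 1, Real.pi_pos, fun s => by rw [one_mul]; exact norm_qS_le hσ s⟩

/-- The weight along the plane is even. -/
lemma isEven_qS (σ : ℝ) : IsEvenF (qS σ) := fun s => by simp [qS]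

/-- The Gaussian with `π` lies below the one with `1`. -/
lemma exp_pi_le (s : ℝ) : Real.exp (-(Real.pi * s ^ 2)) ≤ Real.exp (-s ^ 2) :=
  Real.exp_le_exp.2 (by nlinarith [Real.pi_gt_three, sq_nonneg s])

/-- The height and the weight together. -/
lemma rpow_mul_qS (σ : ℝ) (v : H3) :
    (((tauC v).im ^ σ : ℝ) : ℂ) * qS σ (lin (vec X1) v)
      = (((3 : ℝ) ^ (-(σ / 2)) * ((H3.coord v).2 ^ σ *
          Real.exp (-(Real.pi * lin (vec X1) v ^ 2))) : ℝ) : ℂ) := by
  rw [qS, ← Complex.ofReal_mul]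
  congr 1
  rw [im_tauC_eq]
  set t := (H3.coord v).2
  set s := lin (vec X1) v
  have ht : 0 < t := H3.coord_pos v
  have hs : 0 < 1 + s ^ 2 := by positivity
  rw [Real.div_rpow (by positivity) (Real.sqrt_nonneg _), Real.mul_rpow ht.le (Real.sqrt_nonneg _),
    Real.sqrt_eq_rpow, Real.sqrt_eq_rpow, ← Real.rpow_mul hs.le, ← Real.rpow_mul (by norm_num),
    show 1 / 2 * σ = σ / 2 by ring, Real.rpow_neg (by norm_num)]
  field_simp [(Real.rpow_pos_of_pos hs (σ / 2)).ne']

/-- The indicator of the strip `0 ≤ im z < √3`. -/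
noncomputable def stripW (v : H3) : ℝ :=
  Set.indicator (Set.Ico 0 (Real.sqrt 3)) 1 (H3.coord v).1.im

/-- A translation along the plane shifts the imaginary part by a multiple of `√3`. -/
lemma im_coord_trI (b : ℤ) (v : H3) :
    (H3.coord (gC (trI (sR * (b : EI))) • v)).1.im = (H3.coord v).1.im + Real.sqrt 3 * b := by
  rw [coord_trI_smul, toC_sR_mul]
  simp

/-- The strip weight has mass one for the translations along the plane. -/
lemma part_stripW : Part Us 1 stripW where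
  meas := (measurable_one.indicator measurableSet_Ico).comp
    (Complex.continuous_im.comp continuous_coord.fst).measurable
  nonneg _ := Set.indicator_nonneg (fun _ _ => zero_le_one) _
  hasSum w := by
    have h3 : (0 : ℝ) < Real.sqrt 3 := Real.sqrt_pos.2 (by norm_num)
    set y := (H3.coord w).1.im
    set b : ℤ := -⌊y / Real.sqrt 3⌋ with hb
    have hmem : ∀ k : ℤ, y + Real.sqrt 3 * k ∈ Set.Ico 0 (Real.sqrt 3) ↔ k = b := fun k => by
      rw [Set.mem_Ico, hb, eq_neg_iff_add_eq_zero, add_comm k, ← eq_neg_iff_add_eq_zero,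
        Int.floor_eq_iff]
      push_cast
      rw [le_div_iff₀ h3, div_lt_iff₀ h3]
      constructor <;> intro h <;> constructor <;> linarith
    have h1 : (fun δ : Us => stripW (gC (δ : GL (Fin 2) EI) • w))
        ⟨trI (sR * (b : EI)), trI_sR_mem b⟩ = 1 := by
      simp only [stripW, im_coord_trI]
      rw [Set.indicator_of_mem ((hmem b).2 rfl)]
      rfl
    rw [← h1]
    refine hasSum_single _ fun δ hδ => ?_
    obtain ⟨δ, k, rfl⟩ := δ
    simp only [stripW, im_coord_trI]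
    refine Set.indicator_of_notMem (fun hk => hδ ?_) _
    rw [(hmem k).1 hk]

variable {E : ℕ} [NeZero E]

/-- The upper triangular part of the stabiliser. -/
noncomputable def Bs (E : ℕ) [NeZero E] : Finset (GN (3 * E)) :=
  Finset.univ.filter fun g => g ∈ StG E ∧ redD (g.val 1 0) = 0

/-- Membership in the upper triangular part. -/
lemma mem_Bs {g : GN (3 * E)} : g ∈ Bs E ↔ g ∈ StG E ∧ redD (g.val 1 0) = 0 := by simp [Bs]

/-- The stabiliser as a finite set. -/
noncomputable def stF (E : ℕ) [NeZero E] : Finset (GN (3 * E)) :=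
  Finset.univ.filter fun g => g ∈ StG E

/-- Membership in the finite stabiliser as a finite set. -/
lemma mem_stF {g : GN (3 * E)} : g ∈ stF E ↔ g ∈ StG E := by simp [stF]

/-- The matrices with `√-3 ∣ h₁₀`. -/
noncomputable def st0 (E : ℕ) [NeZero E] : Finset (GN (3 * E)) :=
  (stF E).filter fun h => castPi E (h.val 1 0) = 0

/-- In the stabiliser exactly one entry of the first column vanishes modulo `√-3`. -/
lemma mem_stF_not_st0 {h : GN (3 * E)} (hh : h ∈ StG E) :
    castPi E (h.val 1 0) = 0 ↔ ¬ castPi E (h.val 0 0) = 0 := by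
  obtain ⟨hx, hy⟩ := StG_col hh
  have a := congrArg (p3 E) hx
  have b := congrArg (p3 E) hy
  simp only [map_add, map_mul, p3_star, map_zero, map_one, ← castPi_eq_p3] at a b
  constructor
  · intro h1 h0
    rw [h1, h0, mul_zero, mul_zero, add_zero] at b
    exact zero_ne_one b
  · intro h0
    have : (2 : ZMod 3) * (castPi E (h.val 0 0) * castPi E (h.val 1 0)) = 0 := by
      linear_combination a
    exact (mul_eq_zero.1 ((mul_eq_zero.1 this).resolve_left (by decide))).resolve_left h0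

omit [NeZero E] in
/-- The swap exchanges the entries of the first column. -/
lemma gr_swI_mul_apply (h : GN (3 * E)) (i : Fin 2) :
    ((gr (3 * (3 * E)) swI * h : GN (3 * E))).val i 0 = h.val (1 - i) 0 := by
  rw [Units.val_mul, Matrix.mul_apply, Fin.sum_univ_two, gr_coe]
  fin_cases i <;> simp [swI]

/-- An elementary integrability statement for the unfolding. -/
lemma integrableOn_phi :
    IntegrableOn (fun t : ℝ => t ^ (1 / 2 : ℝ) * min 1 (t ^ 2) * (t ^ 2)⁻¹) (Set.Ioi 0) := by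
  rw [← Set.Ioc_union_Ioi_eq_Ioi zero_le_one]
  have hm : Measurable fun t : ℝ => t ^ (1 / 2 : ℝ) * min 1 (t ^ 2) * (t ^ 2)⁻¹ := by fun_prop
  refine IntegrableOn.union ?_ ?_
  · refine Integrable.mono' (g := fun _ => (1 : ℝ)) (integrableOn_const (by simp))
      hm.aestronglyMeasurable ((ae_restrict_mem measurableSet_Ioc).mono fun t ht => ?_)
    rw [Real.norm_of_nonneg (by positivity [ht.1.le]), mul_assoc]
    refine (mul_le_mul (Real.rpow_le_one ht.1.le ht.2 (by norm_num))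
      (mul_le_mul_of_nonneg_right (min_le_right _ _) (by positivity)) (by positivity)
        zero_le_one).trans ?_
    rw [one_mul, mul_inv_cancel₀ (pow_ne_zero _ ht.1.ne')]
  · refine Integrable.mono' (g := fun t => t ^ (-(3 / 2) : ℝ))
      (integrableOn_Ioi_rpow_of_lt (by norm_num) one_pos) hm.aestronglyMeasurable
      ((ae_restrict_mem measurableSet_Ioi).mono fun t (ht : 1 < t) => ?_)
    have ht0 : 0 < t := by linarith
    rw [Real.norm_of_nonneg (by positivity)]
    refine (mul_le_mul_of_nonneg_right (mul_le_of_le_one_right (by positivity) (min_le_left _ _))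
      (by positivity)).trans_eq ?_
    rw [← Real.rpow_natCast t 2, ← Real.rpow_neg ht0.le, ← Real.rpow_add ht0]
    norm_num

/-- The dominating function on the strip is integrable for `1 < σ < 2`. -/
lemma integrableOn_strip {σ : ℝ} (hσ : 1 < σ) (hσ' : σ < 2) :
    IntegrableOn (fun t : ℝ => t ^ σ * min 1 t⁻¹ * (t ^ 2)⁻¹) (Set.Ioi 0) := by
  rw [← Set.Ioc_union_Ioi_eq_Ioi zero_le_one]
  have hm : Measurable fun t : ℝ => t ^ σ * min 1 t⁻¹ * (t ^ 2)⁻¹ := by fun_prop
  refine IntegrableOn.union ?_ ?_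
  · refine Integrable.mono' (g := fun t => t ^ (σ - 2))
      ((intervalIntegral.intervalIntegrable_rpow' (a := 0) (b := 1) (by linarith)).1)
        hm.aestronglyMeasurable
      ((ae_restrict_mem measurableSet_Ioc).mono fun t ht => ?_)
    rw [Real.norm_of_nonneg (by positivity [ht.1.le])]
    refine (mul_le_mul_of_nonneg_right (mul_le_of_le_one_right (by positivity [ht.1.le])
      (min_le_left _ _)) (by positivity)).trans_eq ?_
    rw [← Real.rpow_natCast t 2, ← Real.rpow_neg ht.1.le, ← Real.rpow_add ht.1]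
    norm_num [sub_eq_add_neg]
  · refine Integrable.mono' (g := fun t => t ^ (σ - 3))
      (integrableOn_Ioi_rpow_of_lt (by linarith) one_pos) hm.aestronglyMeasurable
      ((ae_restrict_mem measurableSet_Ioi).mono fun t (ht : 1 < t) => ?_)
    have ht0 : 0 < t := by linarith
    rw [Real.norm_of_nonneg (by positivity)]
    refine (mul_le_mul_of_nonneg_right
      (mul_le_mul_of_nonneg_left (min_le_right _ _) (by positivity)) (by positivity)).trans_eq ?_
    rw [mul_assoc, ← mul_inv, show t * t ^ 2 = t ^ (3 : ℕ) by ring, ← Real.rpow_natCast t 3,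
      ← Real.rpow_neg ht0.le, ← Real.rpow_add ht0]
    norm_num [sub_eq_add_neg]

/-- A point over the first sheet has bounded `y`. -/
lemma mem_Icc_of_mem_Sd {x y t : ℝ} (ht : 0 < t) (hv : H3.mk ⟨x, y⟩ t ∈ Sd) :
    y ∈ Set.Icc (-(Real.sqrt 3 / 2)) (Real.sqrt 3 / 2) := by
  have h3 : 0 < Real.sqrt 3 := Real.sqrt_pos.2 (by norm_num)
  have hX := hv.1
  rw [tauC_mk _ ht] at hX
  simp only at hX
  rw [abs_div, abs_of_pos h3, div_le_iff₀ h3] at hX
  exact abs_le.1 (hX.trans_eq (by ring))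

/-- The height on the first sheet grows at most like `t (1 + s ^ 2)`. -/
lemma one_add_rpow_le {t s : ℝ} (ht : 0 < t)
    (hT : 1 / 4 ≤ t * Real.sqrt (1 + s ^ 2) / Real.sqrt 3) :
    (1 + t * Real.sqrt (1 + s ^ 2) / Real.sqrt 3) ^ (3 / 2 : ℝ)
      ≤ 25 * (t ^ (3 / 2 : ℝ) * (1 + s ^ 2)) := by
  set T := t * Real.sqrt (1 + s ^ 2) / Real.sqrt 3
  calc (1 + T) ^ (3 / 2 : ℝ) ≤ (5 * T) ^ (3 / 2 : ℝ) :=
        Real.rpow_le_rpow (by linarith) (by linarith) (by norm_num)
    _ ≤ (5 * (t * Real.sqrt (1 + s ^ 2))) ^ (3 / 2 : ℝ) :=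
        Real.rpow_le_rpow (by linarith) (mul_le_mul_of_nonneg_left
          (div_le_self (by positivity) (Real.one_le_sqrt.2 (by norm_num))) (by norm_num)) (by
            norm_num)
    _ = (5 : ℝ) ^ (3 / 2 : ℝ) * (t ^ (3 / 2 : ℝ) * (1 + s ^ 2) ^ (3 / 4 : ℝ)) := by
        rw [Real.mul_rpow (by norm_num) (by positivity), Real.mul_rpow ht.le (Real.sqrt_nonneg _),
          Real.sqrt_eq_rpow, ← Real.rpow_mul (by positivity)]
        norm_num
    _ ≤ 25 * (t ^ (3 / 2 : ℝ) * (1 + s ^ 2)) := by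
        refine mul_le_mul ?_ (mul_le_mul_of_nonneg_left ?_ (by positivity))
          (by positivity) (by norm_num)
        · exact (Real.rpow_le_rpow_of_exponent_le (by norm_num)
            (by norm_num : (3 / 2 : ℝ) ≤ 2)).trans_eq (by norm_num)
        · exact Real.rpow_le_self_of_one_le (by nlinarith) (by norm_num)

/-- The Gaussian absorbs `1 + s ^ 2`, and `t⁻²` as well on the first sheet. -/
lemma one_add_sq_mul_exp_le {t s : ℝ}
    (hT : 1 / 4 ≤ t * Real.sqrt (1 + s ^ 2) / Real.sqrt 3) :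
    (1 + s ^ 2) * Real.exp (-(Real.pi * s ^ 2)) ≤ 6 * min 1 (t ^ 2) * Real.exp (-s ^ 2) := by
  have h16 : 3 / 16 ≤ t ^ 2 * (1 + s ^ 2) := by
    have h2 := pow_le_pow_left₀ (by norm_num) hT 2
    rw [div_pow (t * _), mul_pow, Real.sq_sqrt (by positivity : (0 : ℝ) ≤ 1 + s ^ 2),
      Real.sq_sqrt (by norm_num : (0 : ℝ) ≤ 3)] at h2
    linarith
  have h1 : 1 + s ^ 2 ≤ Real.exp (s ^ 2) := by linarith [Real.add_one_le_exp (s ^ 2)]
  have h2 : (1 + s ^ 2) * Real.exp (-(Real.pi * s ^ 2)) ≤ Real.exp (-s ^ 2) *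
      Real.exp (-s ^ 2) := by
    refine (mul_le_mul_of_nonneg_right h1 (Real.exp_pos _).le).trans ?_
    rw [← Real.exp_add, ← Real.exp_add]
    exact Real.exp_le_exp.2 (by nlinarith [Real.pi_gt_three, sq_nonneg s])
  refine h2.trans (mul_le_mul_of_nonneg_right ?_ (Real.exp_pos _).le)
  rcases le_total 1 (t ^ 2) with h | h
  · rw [min_eq_left h, mul_one]
    exact (Real.exp_le_one_iff.2 (by nlinarith)).trans (by norm_num)
  · rw [min_eq_right h, Real.exp_neg]
    refine (inv_anti₀ (by positivity) h1).trans ?_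
    rw [inv_le_iff_one_le_mul₀ (by positivity)]
    nlinarith

/-- The shape of the bounds at a point of the first sheet. -/
noncomputable def sheetMaj (v : H3) : ℝ :=
  Real.exp (-(Real.pi * lin (vec X1) v ^ 2)) * ((1 + (tauC v).im) ^ (3 / 2 : ℝ) / (H3.coord v).2)

/-- The majorant in the coordinates. -/
lemma sheetMaj_le {x y t : ℝ} (ht : 0 < t) (hv : H3.mk ⟨x, y⟩ t ∈ Sd) :
    sheetMaj (H3.mk ⟨x, y⟩ t) ≤ 150 * (t ^ (1 / 2 : ℝ) * min 1 (t ^ 2)) *
      Real.exp (-(x / t) ^ 2) := by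
  have hT := hv.2
  rw [im_tauC_eq, H3.coord_mk_of_pos _ ht] at hT
  rw [sheetMaj, im_tauC_eq, H3.coord_mk_of_pos _ ht]
  set s := lin (vec X1) (H3.mk ⟨x, y⟩ t) with hsd
  have hs : s = -x / t := lin_X1_mk _ ht
  have ht2 : t ^ (3 / 2 : ℝ) / t = t ^ (1 / 2 : ℝ) := by
    rw [← Real.rpow_sub_one ht.ne']; norm_num
  calc Real.exp (-(Real.pi * s ^ 2)) *
         ((1 + t * Real.sqrt (1 + s ^ 2) / Real.sqrt 3) ^ (3 / 2 : ℝ) / t)
      ≤ Real.exp (-(Real.pi * s ^ 2)) * (25 * (t ^ (3 / 2 : ℝ) * (1 + s ^ 2)) / t) :=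
        mul_le_mul_of_nonneg_left (div_le_div_of_nonneg_right (one_add_rpow_le ht hT) ht.le)
          (Real.exp_pos _).le
    _ = 25 * (t ^ (1 / 2 : ℝ) * ((1 + s ^ 2) * Real.exp (-(Real.pi * s ^ 2)))) := by
      rw [← ht2]; ring
    _ ≤ 25 * (t ^ (1 / 2 : ℝ) * (6 * min 1 (t ^ 2) * Real.exp (-s ^ 2))) :=
        mul_le_mul_of_nonneg_left (mul_le_mul_of_nonneg_left (one_add_sq_mul_exp_le hT)
          (by positivity)) (by norm_num)
    _ = _ := by rw [hs, neg_div, neg_sq]; ring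

/-- Both sheets folded onto the first one. -/
lemma lintegral_Sd2_le {a : H3 → ℝ≥0∞} (ha : Measurable a) :
    ∫⁻ v, Sd2.indicator a v ∂hmeas ≤ ∫⁻ v, Sd.indicator (fun w => a w + a (gC swI • w))
      v ∂hmeas := by
  have h1 : Measurable (Sd.indicator a) := ha.indicator measurableSet_Sd
  have h2 : Measurable (Sd.indicator fun v => a (gC swI • v)) :=
    (ha.comp (continuous_const_smul (gC swI)).measurable).indicator measurableSet_Sd
  calc ∫⁻ v, Sd2.indicator a v ∂hmeas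
      ≤ ∫⁻ v, Sd.indicator a v + Sd.indicator (fun w => a (gC swI • w)) (gC swI • v) ∂hmeas := by
        refine lintegral_mono fun v => ?_
        by_cases hv : v ∈ Sd
        · rw [Set.indicator_of_mem (show v ∈ Sd2 from Or.inl hv), Set.indicator_of_mem hv]
          exact le_self_add
        by_cases hv2 : gC swI • v ∈ Sd
        · rw [Set.indicator_of_mem (show v ∈ Sd2 from Or.inr hv2),
            Set.indicator_of_mem hv2, smul_smul, ← map_mul, swI_mul_self, map_one, one_smul]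
          exact le_add_self
        rw [Set.indicator_of_notMem (show v ∉ Sd2 from fun h => h.elim hv hv2)]
        exact bot_le
    _ = ∫⁻ v, Sd.indicator (fun w => a w + a (gC swI • w)) v ∂hmeas := by
        rw [lintegral_add_left h1, lintegral_gC_smul swI h2, ← lintegral_add_left h1]
        exact lintegral_congr fun v => (congrFun (Set.indicator_add _ _ _) v).symm

/-- **A bound for invariant functions majorised on both sheets.** -/
theorem exists_rhoH_bound {W : ℝ} (hW : 0 ≤ W) : ∃ C, ∀ g : H3 → ℂ, Measurable g →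
    (∀ δ ∈ H0s, ∀ v, g (gC δ • v) = g v) → Integrable (fun v => (rhoH v : ℂ) * g v) hmeas →
    (∀ v ∈ Sd, ‖g v‖ ≤ W * sheetMaj v ∧ ‖g (gC swI • v)‖ ≤ W * sheetMaj v) →
    ‖∫ v, (rhoH v : ℂ) * g v ∂hmeas‖ ≤ C := by
  set φ : ℝ → ℝ := fun t => 300 * W * (t ^ (1 / 2 : ℝ) * min 1 (t ^ 2))
  set Y := Real.sqrt 3 / 2
  refine ⟨(∫ t in Set.Ioi 0, φ t * (t ^ 2)⁻¹) * Real.sqrt Real.pi * max (Y - -Y) 0,
    fun g hm hinv hgi hb => ?_⟩
  have hφ : IntegrableOn (fun t => φ t * (t ^ 2)⁻¹) (Set.Ioi 0) :=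
    (Integrable.const_mul integrableOn_phi (300 * W)).congr
      (Eventually.of_forall fun t => by simp only [φ]; ring)
  -- the majorant on the first sheet
  set G : H3 → ℂ := fun v =>
    Sd.indicator (fun v => ((‖g v‖ + ‖g (gC swI • v)‖ : ℝ) : ℂ)) v
  have hGm : Measurable G := ((Complex.measurable_ofReal.comp
    (hm.norm.add (hm.comp (continuous_const_smul (gC swI)).measurable).norm))).indicator
      measurableSet_Sd
  have hpt : ∀ x y t : ℝ, 0 < t → ‖G (H3.mk ⟨x, y⟩ t)‖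
      ≤ φ t * (Real.exp (-(x / t) ^ 2) * (Set.Icc (-Y) Y).indicator 1 y) := by
    intro x y t ht
    by_cases hv : H3.mk ⟨x, y⟩ t ∈ Sd
    swap
    · simp only [G, Set.indicator_of_notMem hv, _root_.norm_zero]
      exact mul_nonneg (by positivity)
        (mul_nonneg (Real.exp_pos _).le (Set.indicator_nonneg (fun _ _ => zero_le_one) _))
    simp only [G, Set.indicator_of_mem hv,
      Set.indicator_of_mem (show y ∈ Set.Icc (-Y) Y from mem_Icc_of_mem_Sd ht hv),
      Complex.norm_real, Pi.one_apply, mul_one, φ]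
    rw [Real.norm_of_nonneg (by positivity)]
    linarith [(hb _ hv).1, (hb _ hv).2, mul_le_mul_of_nonneg_left (sheetMaj_le ht hv) hW]
  obtain ⟨hGi, hGb⟩ := integrable_of_xyt_bound hGm (fun t ht => by positivity) hφ hpt
  refine ((norm_integral_le_integral_norm _).trans ?_).trans hGb
  rw [← ENNReal.ofReal_le_ofReal_iff (integral_nonneg fun v => norm_nonneg _),
    ofReal_integral_norm_eq_lintegral_enorm hgi, ofReal_integral_norm_eq_lintegral_enorm hGi]
  have he : ∀ v, ‖(rhoH v : ℂ) * g v‖ₑ = ENNReal.ofReal (rhoH v) * ‖g v‖ₑ :=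
    fun v => by
      rw [enorm_mul, ← ofReal_norm, Complex.norm_real, Real.norm_of_nonneg (part_rhoH.nonneg v)]
  simp only [he]
  refine (lintegral_rhoH_le hm.enorm fun δ hδ v => by rw [hinv δ hδ]).trans
    ((lintegral_Sd2_le hm.enorm).trans (lintegral_mono fun v => le_of_eq ?_))
  by_cases hv : v ∈ Sd
  · simp only [G, Set.indicator_of_mem hv]
    rw [← ofReal_norm, ← ofReal_norm, ← ofReal_norm, Complex.norm_real,
      Real.norm_of_nonneg (by positivity), ENNReal.ofReal_add (norm_nonneg _) (norm_nonneg _)]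
  · simp only [G, Set.indicator_of_notMem hv, _root_.enorm_zero]

variable {Φ : GN (3 * E) → H3 → ℂ} (M : GN (3 * E)) (hΦ : IsInvFam Φ)

/-- The unfolded integrand: a power of `im τ`, the profile and the sum of translates. -/
noncomputable def aU (Φ : GN (3 * E) → H3 → ℂ) (M : GN (3 * E)) (σ : ℝ) (v : H3) : ℂ :=
  (((tauC v).im ^ σ : ℝ) : ℂ) * qS σ (lin (vec X1) v) * ∑ g ∈ Bs E, Φ (g * M) v

include hΦ

/-- The unfolded integrand is measurable. -/
lemma measurable_aU (σ : ℝ) : Measurable (aU Φ M σ) := by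
  refine Measurable.mul (Measurable.mul ?_ ?_) (Finset.measurable_sum _ fun g _ =>
    (hΦ.isEig _).cont.measurable)
  · exact Complex.measurable_ofReal.comp
      ((Complex.continuous_im.comp continuous_tauC).measurable.pow_const σ)
  · exact ((continuous_qS σ).comp (continuous_lin (vec X1))).measurable

/-- The unfolded integrand at an image. -/
lemma aU_smul {δ : GL (Fin 2) EI} (hδ : δ ∈ H0s) (σ : ℝ) (v : H3) :
    aU Φ M σ (gC δ • v) = qS σ (lin (vec X1) v) * (((eTerm 3 σ (tauC v) (rowZ δ) : ℝ) : ℂ)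
      * ∑ h ∈ stF E, if redD ((gr (3 * (3 * E)) δ * h : GN (3 * E)).val 1 0) = 0
          then Φ (h * M) v else 0) := by
  have hg := gr_mem_StG (E := E) (H0s_le hδ)
  rw [aU, rpow_im_tauC hδ, lin_X1_smul (H0s_le hδ), ← Finset.sum_filter]
  rw [show ∑ g ∈ Bs E, Φ (g * M) (gC δ • v)
    = ∑ h ∈ (stF E).filter (fun h => redD ((gr (3 * (3 * E)) δ * h : GN (3 * E)).val 1 0) = 0),
        Φ (h * M) v from ?_]
  · ring
  refine Finset.sum_bij' (fun g _ => (gr (3 * (3 * E)) δ : GN (3 * E))⁻¹ * g)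
    (fun h _ => gr (3 * (3 * E)) δ * h) (fun g hgm => ?_) (fun h hh => ?_) (fun g _ => by simp)
    (fun h _ => by simp) (fun g _ => by rw [hΦ.inv_apply, map_inv, mul_assoc])
  · obtain ⟨h1, h2⟩ := mem_Bs.1 hgm
    exact Finset.mem_filter.2 ⟨mem_stF.2 ((StG E).mul_mem ((StG E).inv_mem hg) h1),
      by rw [mul_inv_cancel_left]; exact h2⟩
  · obtain ⟨h1, h2⟩ := Finset.mem_filter.1 hh
    exact mem_Bs.2 ⟨(StG E).mul_mem hg (mem_stF.1 h1), h2⟩

/-- The unfolded integrand is invariant under the translations along the plane. -/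
lemma aU_inv (σ : ℝ) {u : GL (Fin 2) EI} (hu : u ∈ Us) (v : H3) :
    aU Φ M σ (gC u • v) = aU Φ M σ v := by
  have e1 := aU_smul M hΦ (Us_le hu) σ v
  have e2 := aU_smul M hΦ (one_mem H0s) σ v
  rw [map_one, one_smul] at e2
  rw [e1, e2]
  have hr : rowZ u = rowZ (1 : GL (Fin 2) EI) := by
    simpa using rowZ_translate (γ := 1) hu
  have hc : ∀ h : GN (3 * E), (gr (3 * (3 * E)) u * h : GN (3 * E)).val 1 0
      = (gr (3 * (3 * E)) (1 : GL (Fin 2) EI) * h : GN (3 * E)).val 1 0 := fun h => by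
    obtain ⟨b, rfl⟩ := hu
    simp [Units.val_mul, Matrix.mul_apply, Fin.sum_univ_two, gr_coe, trI_sR_val]
  simp only [hr, hc]

/-- The sum over the cosets. -/
noncomputable def cosA (Φ : GN (3 * E) → H3 → ℂ) (M : GN (3 * E)) (σ : ℝ) (v : H3) :
    ℂ := ∑' q : CosQ Us H0s, aU Φ M σ (gC (cRep q)⁻¹ • v)

/-- An element of `H0s` permutes the terms of the sum over the cosets. -/
lemma exists_reindex_aU {δ : GL (Fin 2) EI} (hδ : δ ∈ H0s) (σ : ℝ) :
    ∃ e : CosQ Us H0s ≃ CosQ Us H0s, ∀ q v,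
      aU Φ M σ (gC (cRep q)⁻¹ • gC δ • v) = aU Φ M σ (gC (cRep (e q))⁻¹ • v) := by
  obtain ⟨e, he⟩ := exists_cos_reindex hδ
  refine ⟨e, fun q v => ?_⟩
  obtain ⟨u, hu, h⟩ := he q
  rw [smul_smul, ← map_mul, h, map_mul, mul_smul, aU_inv M hΦ σ hu]

/-- The sum over the cosets is invariant under `H0s`. -/
lemma cosA_inv {δ : GL (Fin 2) EI} (hδ : δ ∈ H0s) (σ : ℝ) (v : H3) :
    cosA Φ M σ (gC δ • v) = cosA Φ M σ v := by
  obtain ⟨e, he⟩ := exists_reindex_aU M hΦ hδ σ
  rw [cosA, cosA, ← e.tsum_eq (fun q => aU Φ M σ (gC (cRep q)⁻¹ • v))]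
  exact tsum_congr fun q => he q v

/-- **The sum over the cosets through classes of rows.** -/
theorem hasSum_cosA {σ : ℝ} (hσ : 1 ≤ σ) (v : H3)
    (hs : ∀ w : ZMod (3 * E) × ZMod (3 * E), Summable fun p : ℤ × ℤ =>
      if ((p.1 : ZMod (3 * E)), (p.2 : ZMod (3 * E))) = w then eTerm 3 σ (tauC v) p else 0) :
    HasSum (fun q : CosQ Us H0s => aU Φ M σ (gC (cRep q)⁻¹ • v))
      (qS σ (lin (vec X1) v) * ∑ h ∈ stF E,
        ((((∑ w ∈ Wh h, eCls 3 σ (tauC v) w) / zP E σ : ℝ)) : ℂ) * Φ (h * M) v) := by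
  have h1 : ∀ h ∈ stF E, HasSum (fun q : CosQ Us H0s =>
      (((if InB h q then eTerm 3 σ (tauC v) (rowZ (cRep q)⁻¹) else 0 : ℝ)) : ℂ) * Φ (h * M) v)
      (((((∑ w ∈ Wh h, eCls 3 σ (tauC v) w) / zP E σ : ℝ)) : ℂ) * Φ (h * M) v) := fun h _ =>
    (((hasSum_cos hσ (tauC_im_pos v) h fun w _ => hs w).map Complex.ofRealCLM
      Complex.ofRealCLM.continuous).mul_right _)
  refine ((hasSum_sum h1).mul_left _).congr_fun fun q => ?_
  rw [aU_smul M hΦ (cRep_inv_mem q), Finset.mul_sum]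
  congr 1
  refine Finset.sum_congr rfl fun h _ => ?_
  rw [show InB h q = (redD ((gr (3 * (3 * E)) (cRep q)⁻¹ * h : GN (3 * E)).val 1 0) = 0) from rfl]
  split_ifs <;> simp

/-- The sum of `aU` over the cosets converges at every point for `1 < σ ≤ 3/2`. -/
lemma summable_cosA {σ : ℝ} (hσ : 1 < σ) (hσ' : σ ≤ 3 / 2) (v : H3) :
    Summable fun q : CosQ Us H0s => aU Φ M σ (gC (cRep q)⁻¹ • v) := by
  obtain ⟨δ, hδ, hv⟩ := exists_mem_Sd2 v
  obtain ⟨e, he⟩ := exists_reindex_aU M hΦ hδ σ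
  suffices h : Summable fun q : CosQ Us H0s => aU Φ M σ (gC (cRep q)⁻¹ • gC δ • v) by
    refine e.summable_iff.1 (h.congr fun q => he q v)
  obtain ⟨C, -, hC⟩ := exists_eCls_bound2 (3 * E)
  refine (hasSum_cosA M hΦ hσ.le _ fun w => ?_).summable
  rcases hv with hv | hv
  · exact (hC σ hσ hσ' _ hv.2 w).1.1
  · have h2 := (hC σ hσ hσ' _ hv.2 w).2.1
    rwa [← tauC_swI, smul_smul (gC swI), ← map_mul, swI_mul_self, map_one, one_smul] at h2

/-- The sum of the translates over `S` against `F` at the height of `X1`. -/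
noncomputable def pSum (Φ : GN (3 * E) → H3 → ℂ) (M : GN (3 * E)) (S : Finset (GN (3 * E)))
    (F : ℝ → ℂ) (v : H3) : ℂ :=
  ∑ h ∈ S, Φ (h * M) v * F (lin (vec X1) v)

/-- The isotropic part is invariant under `H0s`. -/
lemma pSum_inv {δ : GL (Fin 2) EI} (hδ : δ ∈ H0s) (F : ℝ → ℂ) (v : H3) :
    pSum Φ M (st0 E) F (gC δ • v) = pSum Φ M (st0 E) F v := by
  have hg := gr_mem_StG (E := E) (H0s_le hδ)
  refine Finset.sum_bij' (fun h _ => (gr (3 * (3 * E)) δ : GN (3 * E))⁻¹ * h)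
    (fun h _ => gr (3 * (3 * E)) δ * h) (fun h hh => ?_) (fun h hh => ?_) (fun g _ => by simp)
    (fun h _ => by simp) (fun g _ => ?_)
  · obtain ⟨h1, h2⟩ := Finset.mem_filter.1 hh
    have h3 := (StG E).mul_mem ((StG E).inv_mem hg) (mem_stF.1 h1)
    refine Finset.mem_filter.2 ⟨mem_stF.2 h3, (castPi_gr10 hδ _).1 ?_⟩
    rwa [mul_inv_cancel_left]
  · obtain ⟨h1, h2⟩ := Finset.mem_filter.1 hh
    exact Finset.mem_filter.2 ⟨mem_stF.2 ((StG E).mul_mem hg (mem_stF.1 h1)),
      (castPi_gr10 hδ _).2 h2⟩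
  · rw [lin_X1_smul (H0s_le hδ), hΦ.inv_apply, map_inv, mul_assoc]

/-- Half of the periods vanish if all do. -/
theorem integral_pSum {F : ℝ → ℂ} (hF : Samp.Decay F)
    (hPS : perSum Φ M F = 0) :
    Integrable (fun v => (rhoH v : ℂ) * pSum Φ M (st0 E) F v) hmeas ∧
      ∫ v, (rhoH v : ℂ) * pSum Φ M (st0 E) F v ∂hmeas = 0 := by
  set P := fun h v => (rhoH v : ℂ) * (Φ (h * M) v * F (lin (vec X1) v)) with hP
  have hi : ∀ h, Integrable (P h) hmeas := fun h =>
    integrable_pTerm (hΦ.isEig _).cont (hΦ.isEig _).bound hF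
  have hint : ∀ S : Finset (GN (3 * E)),
      Integrable (fun v => (rhoH v : ℂ) * pSum Φ M S F v) hmeas :=
    fun S => by
    simp only [pSum, Finset.mul_sum]
    exact integrable_finsetSum _ fun h _ => hi h
  have hper : ∀ S : Finset (GN (3 * E)),
      ∫ v, (rhoH v : ℂ) * pSum Φ M S F v ∂hmeas = ∑ h ∈ S, ∫ v, P h v ∂hmeas := fun S => by
    simp only [pSum, Finset.mul_sum]
    exact integral_finsetSum _ fun h _ => hi h
  refine ⟨hint _, ?_⟩
  -- S1: the part with castPi h₁₀ ≠ 0, which swI exchanges with st0 E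
  set S1 := (stF E).filter fun h => ¬ castPi E (h.val 1 0) = 0
  have hm : Measurable (pSum Φ M (st0 E) F) := Finset.measurable_sum _ fun h _ =>
    ((hΦ.isEig _).cont.mul (hF.1.comp (continuous_lin (vec X1)))).measurable
  obtain ⟨-, h2⟩ :=
    part_rhoH.integral_eq part_rhoH_swI hm (fun δ hδ w => pSum_inv M hΦ hδ F w) one_pos (hint _)
  simp only [Complex.ofReal_one, one_mul] at h2
  have hswG : (gr (3 * (3 * E)) swI : GN (3 * E)) ∈ StG E := gr_mem_StG swI_mem
  have hsw : ∀ v, pSum Φ M (st0 E) F (gC swI • v) = pSum Φ M S1 F v := fun v => by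
    have hinv : (swI : GL (Fin 2) EI)⁻¹ = swI := inv_eq_of_mul_eq_one_right swI_mul_self
    have hself : (gr (3 * (3 * E)) swI : GN (3 * E)) * gr (3 * (3 * E)) swI = 1 := by
      rw [← map_mul, swI_mul_self, map_one]
    refine Finset.sum_bij' (fun h _ => (gr (3 * (3 * E)) swI : GN (3 * E)) * h)
      (fun h _ => gr (3 * (3 * E)) swI * h) (fun h hh => ?_) (fun h hh => ?_)
      (fun g _ => by rw [← mul_assoc, hself, one_mul])
        (fun h _ => by rw [← mul_assoc, hself, one_mul])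
      (fun g _ => ?_)
    · obtain ⟨h1, h3⟩ := Finset.mem_filter.1 hh
      have h4 := (StG E).mul_mem hswG (mem_stF.1 h1)
      refine Finset.mem_filter.2 ⟨mem_stF.2 h4, ?_⟩
      rw [gr_swI_mul_apply]
      exact (mem_stF_not_st0 (mem_stF.1 h1)).1 h3
    · obtain ⟨h1, h3⟩ := Finset.mem_filter.1 hh
      have h4 := (StG E).mul_mem hswG (mem_stF.1 h1)
      refine Finset.mem_filter.2 ⟨mem_stF.2 h4, ?_⟩
      rw [gr_swI_mul_apply]
      change castPi E (h.val 0 0) = 0
      by_contra h5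
      exact h3 ((mem_stF_not_st0 (mem_stF.1 h1)).2 h5)
    · rw [lin_X1_smul swI_mem, hΦ.inv_apply, hinv, mul_assoc]
  -- so the involution makes the two integrals equal
  have h3 : ∫ v, (rhoH (gC swI • v) : ℂ) * pSum Φ M (st0 E) F v ∂hmeas
      = ∫ v, (rhoH v : ℂ) * pSum Φ M S1 F v ∂hmeas := by
    rw [integral_ofReal_smul swI rhoH, inv_eq_of_mul_eq_one_right swI_mul_self]
    exact integral_congr_ae (Eventually.of_forall fun v => by simp only [hsw])
  rw [h3] at h2
  -- and their total is perSum = 0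
  have hsum : ∑ h ∈ st0 E, ∫ v, P h v ∂hmeas + ∑ h ∈ S1, ∫ v, P h v ∂hmeas = 0 := by
    rw [st0, Finset.sum_filter_add_sum_filter_not, ← hPS]
    exact Finset.sum_subtype _ (fun g => mem_stF) (fun g => ∫ v, P g v ∂hmeas)
  rw [hper, hper] at h2
  rw [hper]
  linear_combination (1 / 2 : ℂ) * hsum + (1 / 2 : ℂ) * h2

/-- The integrand is integrable over the strip. -/
theorem integrable_strip {σ : ℝ} (hσ : 1 < σ) (hσ' : σ < 2) :
    Integrable (fun v => (stripW v : ℂ) * aU Φ M σ v) hmeas := by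
  obtain ⟨C0, hC0⟩ := hΦ.bound
  obtain ⟨C1, hC10, hC1⟩ := hΦ.decay
  have hC00 : 0 ≤ C0 := (norm_nonneg _).trans (hC0 1 base)
  set K : ℝ := (Bs E).card * (C0 + C1)
  -- dominate by `t ^ σ * min 1 t⁻¹` times a Gaussian in `x / t`
  refine (integrable_of_xyt_bound (φ := fun t => K * (t ^ σ * min 1 t⁻¹)) (c := 0)
    (d := Real.sqrt 3)
    ((Complex.measurable_ofReal.comp part_stripW.meas).mul (measurable_aU M hΦ σ))
    (fun t ht => by positivity) ?_ fun x y t ht => ?_).1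
  · exact (Integrable.const_mul (integrableOn_strip hσ hσ') K).congr
      (Eventually.of_forall fun t => by ring)
  rw [Pi.mul_apply, Function.comp_apply, norm_mul]
  simp only [Complex.norm_real, stripW,
    H3.coord_mk_of_pos _ ht]
  -- outside the strip the integrand vanishes
  by_cases hy : y ∈ Set.Ico 0 (Real.sqrt 3)
  swap
  · rw [Set.indicator_of_notMem hy, _root_.norm_zero, zero_mul]
    exact mul_nonneg (by positivity) (mul_nonneg (Real.exp_pos _).le
      (Set.indicator_nonneg (fun _ _ => zero_le_one) _))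
  rw [Set.indicator_of_mem hy, Set.indicator_of_mem (Set.Ico_subset_Icc_self hy), Pi.one_apply,
    NormOneClass.norm_one, one_mul, mul_one]
  rw [aU, rpow_mul_qS, lin_X1_mk _ ht, H3.coord_mk_of_pos _ ht, norm_mul, Complex.norm_real,
    Real.norm_of_nonneg (by positivity), show (⟨x, y⟩ : ℂ).re = x from rfl, neg_div, neg_sq]
  -- the sum over `Bs E` by the uniform bound and the decay
  have hsum : ‖∑ g ∈ Bs E, Φ (g * M) (H3.mk ⟨x, y⟩ t)‖ ≤ K * min 1 t⁻¹ := by
    refine (norm_sum_le _ _).trans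
      ((Finset.sum_le_card_nsmul _ _ ((C0 + C1) * min 1 t⁻¹) fun g _ => ?_).trans_eq
      (by simp only [K, nsmul_eq_mul]; ring))
    rcases le_total (1 : ℝ) t⁻¹ with h | h
    · rw [min_eq_left h, mul_one]; linarith [hC0 (g * M) (H3.mk ⟨x, y⟩ t)]
    · rw [min_eq_right h, ← div_eq_mul_inv]
      exact (hC1 _ _ t ht).trans (div_le_div_of_nonneg_right (by linarith) ht.le)
  calc (3 : ℝ) ^ (-(σ / 2)) * (t ^ σ * Real.exp (-(Real.pi * (x / t) ^ 2))) *
        ‖∑ g ∈ Bs E, Φ (g * M) (H3.mk ⟨x, y⟩ t)‖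
      ≤ 1 * (t ^ σ * Real.exp (-(x / t) ^ 2)) * (K * min 1 t⁻¹) :=
        mul_le_mul (mul_le_mul (Real.rpow_le_one_of_one_le_of_nonpos (by norm_num) (by linarith))
          (mul_le_mul_of_nonneg_left (exp_pi_le _) (by positivity)) (by positivity) zero_le_one)
          hsum (norm_nonneg _) (by positivity)
    _ = K * (t ^ σ * min 1 t⁻¹) * Real.exp (-(x / t) ^ 2) := by ring

/-- **The strip integral is the period against the series.** -/
theorem strip_unfold {σ : ℝ} (hσ : 1 < σ) (hσ' : σ < 2) :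
    Integrable (fun v => (rhoH v : ℂ) * cosA Φ M σ v) hmeas ∧
      ∫ v, (rhoH v : ℂ) * cosA Φ M σ v ∂hmeas = ∫ v, (stripW v : ℂ) * aU Φ M σ v ∂hmeas := by
  obtain ⟨hi, he⟩ := part_stripW.integral_eq (part_rhoH.cosets Us_le) (measurable_aU M hΦ σ)
    (fun δ hδ w => aU_inv M hΦ σ hδ w) one_pos (integrable_strip M hΦ hσ hσ')
  obtain ⟨h1, h2⟩ := part_rhoH.unfold Us_le (measurable_aU M hΦ σ) hi
  simp only [Complex.ofReal_one, one_mul] at he
  exact ⟨h1, h2.trans he.symm⟩

/-- The difference from the main term. -/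
noncomputable def gDiff (Φ : GN (3 * E) → H3 → ℂ) (M : GN (3 * E)) (σ : ℝ) (v : H3) : ℂ :=
  cosA Φ M σ v - ((((Fintype.card (ZMod (3 * E))ˣ : ℝ) * A0 (3 * E) 3 σ / zP E σ : ℝ)) : ℂ)
    * pSum Φ M (st0 E) (qS σ) v

/-- The difference from the main term is measurable. -/
lemma measurable_gDiff {σ : ℝ} (hσ : 1 < σ) (hσ' : σ ≤ 3 / 2) : Measurable (gDiff Φ M σ) := by
  refine Measurable.sub ?_ ((Finset.measurable_sum _ fun h _ =>
    ((hΦ.isEig _).cont.mul ((continuous_qS σ).comp (continuous_lin (vec X1)))).measurable).const_mul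
      _)
  exact measurable_of_tendsto_metrizable' (u := (atTop : Filter (Finset (CosQ Us H0s))))
    (f := fun s v => ∑ q ∈ s, aU Φ M σ (gC (cRep q)⁻¹ • v))
    (fun s => Finset.measurable_sum _ fun q _ =>
      (measurable_aU M hΦ σ).comp (continuous_const_smul _).measurable)
    (tendsto_pi_nhds.2 fun v => (summable_cosA M hΦ hσ hσ' v).hasSum)

/-- A bound for the difference from the main term. -/
lemma norm_gDiff_le {σ : ℝ} (hσ : 1 ≤ σ) (v : H3) {D B : ℝ} (hD : 0 ≤ D)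
    (hs : ∀ w : ZMod (3 * E) × ZMod (3 * E),
      (Summable fun p : ℤ × ℤ =>
        if ((p.1 : ZMod (3 * E)), (p.2 : ZMod (3 * E))) = w then eTerm 3 σ (tauC v) p else 0) ∧
      |eCls 3 σ (tauC v) w - A0 (3 * E) 3 σ| ≤ D)
    (hB : ∀ h : GN (3 * E), ‖Φ (h * M) v‖ ≤ B) :
    ‖gDiff Φ M σ v‖ ≤ Real.exp (-(Real.pi * lin (vec X1) v ^ 2))
      * ((stF E).card * ((Fintype.card (ZMod (3 * E) × ZMod (3 * E)) : ℝ) * D * B)) := by
  have hz := one_le_zP (E := E) hσ
  have hz0 : 0 < zP E σ := by linarith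
  have e : gDiff Φ M σ v = qS σ (lin (vec X1) v) * ∑ h ∈ stF E,
      (((∑ w ∈ Wh h, (eCls 3 σ (tauC v) w - A0 (3 * E) 3 σ)) / zP E σ : ℝ) : ℂ) * Φ (h * M) v := by
    rw [gDiff, cosA, (hasSum_cosA M hΦ hσ v fun w => (hs w).1).tsum_eq, pSum, st0,
      Finset.sum_filter, Finset.mul_sum, Finset.mul_sum, Finset.mul_sum, ← Finset.sum_sub_distrib]
    refine Finset.sum_congr rfl fun h hh => ?_
    rw [Finset.sum_sub_distrib, Finset.sum_const, nsmul_eq_mul, card_Wh (mem_stF.1 hh)]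
    split_ifs <;> push_cast <;> ring
  rw [e, norm_mul]
  refine mul_le_mul (norm_qS_le (by linarith) _) ((norm_sum_le _ _).trans
    ((Finset.sum_le_card_nsmul _ _ _ fun h hh => ?_).trans_eq (nsmul_eq_mul _ _))) (norm_nonneg _)
    (Real.exp_pos _).le
  rw [norm_mul, Complex.norm_real, Real.norm_eq_abs, abs_div, abs_of_pos hz0]
  refine mul_le_mul ?_ (hB h) (norm_nonneg _) (by positivity)
  refine (div_le_self (abs_nonneg _) hz).trans ((Finset.abs_sum_le_sum_abs _ _).trans ?_)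
  refine (Finset.sum_le_card_nsmul _ _ _ fun w _ => (hs w).2).trans ?_
  rw [nsmul_eq_mul]
  exact mul_le_mul_of_nonneg_right (Nat.cast_le.2 (Finset.card_le_univ _)) hD

/-- The difference from the main term is invariant under `H0s`. -/
lemma gDiff_inv {δ : GL (Fin 2) EI} (hδ : δ ∈ H0s) (σ : ℝ) (v : H3) :
    gDiff Φ M σ (gC δ • v) = gDiff Φ M σ v := by
  rw [gDiff, gDiff, cosA_inv M hΦ hδ, pSum_inv M hΦ hδ]

/-- **The bound**: if the periods of `qS σ` vanish, the integral of `aU` over the strip is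
bounded for `1 < σ ≤ 3/2`. -/
theorem exists_strip_bound (hPS : ∀ σ : ℝ, 1 < σ → perSum Φ M (qS σ) = 0) :
    ∃ C, ∀ σ : ℝ, 1 < σ → σ ≤ 3 / 2 → ‖∫ v, (stripW v : ℂ) * aU Φ M σ v ∂hmeas‖ ≤ C := by
  obtain ⟨Ce, hCe, hce⟩ := exists_eCls_bound2 (3 * E)
  obtain ⟨C1, hC10, hC1⟩ := hΦ.decay
  set W : ℝ := (stF E).card * ((Fintype.card (ZMod (3 * E) × ZMod (3 * E)) : ℝ) * Ce * C1) with hW
  obtain ⟨C, hC⟩ := exists_rhoH_bound (W := W) (by positivity)
  refine ⟨C, fun σ hσ hσ' => ?_⟩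
  obtain ⟨hi, hu⟩ := strip_unfold M hΦ hσ (by linarith)
  obtain ⟨hpi, hp0⟩ := integral_pSum M hΦ (decay_qS (by linarith : (0 : ℝ) ≤ σ)) (hPS σ hσ)
  set κ : ℂ := ((((Fintype.card (ZMod (3 * E))ˣ : ℝ) * A0 (3 * E) 3 σ / zP E σ : ℝ)) : ℂ)
  have hg : ∀ v, (rhoH v : ℂ) * gDiff Φ M σ v
      = (rhoH v : ℂ) * cosA Φ M σ v - κ * ((rhoH v : ℂ) * pSum Φ M (st0 E) (qS σ) v) := fun v => by
    rw [gDiff]; ring
  have hgi : Integrable (fun v => (rhoH v : ℂ) * gDiff Φ M σ v) hmeas :=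
    (hi.sub (hpi.const_mul κ)).congr (Eventually.of_forall fun v => (hg v).symm)
  have hval : ∫ v, (stripW v : ℂ) * aU Φ M σ v ∂hmeas =
      ∫ v, (rhoH v : ℂ) * gDiff Φ M σ v ∂hmeas := by
    simp only [hg]
    rw [integral_sub hi (hpi.const_mul κ), integral_const_mul, hp0, mul_zero, sub_zero, hu]
  rw [hval]
  refine hC _ (measurable_gDiff M hΦ hσ hσ') (fun δ hδ v => gDiff_inv M hΦ hδ σ v) hgi
    fun v hv => ?_
  have ht := H3.coord_pos v
  have hB : ∀ N, ‖Φ N v‖ ≤ C1 / (H3.coord v).2 := fun N => by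
    simpa only [H3.mk_coord] using hC1 N (H3.coord v).1 (H3.coord v).2 ht
  refine ⟨(norm_gDiff_le M hΦ hσ.le v (D := Ce * (1 + (tauC v).im) ^ (3 / 2 : ℝ))
      (by positivity [tauC_im_pos v]) (fun w => (hce σ hσ hσ' _ hv.2 w).1)
        (fun h => hB _)).trans_eq ?_,
    (norm_gDiff_le M hΦ hσ.le (gC swI • v) (D := Ce * (1 + (tauC v).im) ^ (3 / 2 : ℝ))
      (by positivity [tauC_im_pos v]) (fun w => by rw [tauC_swI]; exact (hce σ hσ hσ' _ hv.2 w).2)
      (B := C1 / (H3.coord v).2) (fun h => by rw [hΦ.inv_apply, ← mul_assoc]; exact hB _)).trans_eq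
        ?_⟩
  · rw [hW, sheetMaj]; ring
  · rw [hW, sheetMaj, lin_X1_smul swI_mem]; ring

end Fermat.LT3
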