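import Fermat.Agent.LT3.Part

/-!
# Weights of subgroups and unfolding along cosets

For `H ≤ H'` the translates of a weight of `H'` by representatives of `H' / H` form a weight of `H`;
a series over the cosets of an `H`-invariant function unfolds against it.
-/

set_option autoImplicit false
open MeasureTheory Filter
open scoped MatrixGroups ENNReal

namespace Fermat.LT3
open Fermat.LT

variable {H H' : Subgroup (GL (Fin 2) EI)}

/-- The cosets of `H` in `H'`. -/
abbrev CosQ (H H' : Subgroup (GL (Fin 2) EI)) : Type := H' ⧸ H.subgroupOf H'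

/-- The representative of a coset. -/
noncomputable def cRep (q : CosQ H H') : GL (Fin 2) EI := ((Quotient.out q : H') : GL (Fin 2) EI)

/-- There are countably many cosets. -/
instance instCountableCosQ : Countable (CosQ H H') :=
  Function.Surjective.countable (f := QuotientGroup.mk) QuotientGroup.mk_surjective

/-- The representatives lie in the larger group. -/
lemma cRep_mem (q : CosQ H H') : cRep q ∈ H' := (Quotient.out q : H').2

/-- Every element is a representative times an element of `H`, uniquely. -/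
noncomputable def cosEquiv (h : H ≤ H') : CosQ H H' × H ≃ H' :=
  Equiv.ofBijective (fun p => (Quotient.out p.1 : H') * ⟨(p.2 : GL (Fin 2) EI), h p.2.2⟩)
    ⟨fun p p' hp => by
      have hm : ∀ r : CosQ H H' × H,
          QuotientGroup.mk (((Quotient.out r.1 : H') * ⟨(r.2 : GL (Fin 2) EI), h r.2.2⟩) : H') =
              r.1 :=
        fun r => by rw [QuotientGroup.mk_mul_of_mem _ (show _ ∈ H.subgroupOf H' from r.2.2),
          QuotientGroup.out_eq']
      have h1 : p.1 = p'.1 := by
        have e := congrArg (QuotientGroup.mk (s := H.subgroupOf H')) hp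
        simp only at e
        rwa [hm, hm] at e
      simp only [h1, mul_right_inj, Subtype.mk.injEq] at hp
      exact Prod.ext h1 (Subtype.ext hp),
    fun g => by
      set q : CosQ H H' := QuotientGroup.mk g
      have hg : (Quotient.out q : H')⁻¹ * g ∈ H.subgroupOf H' :=
        QuotientGroup.leftRel_apply.1 (Quotient.exact (QuotientGroup.out_eq' q))
      exact ⟨(q, ⟨_, hg⟩), Subtype.ext (by simp)⟩⟩

/-- The element attached to a coset and an element of `H`. -/
lemma cosEquiv_coe (h : H ≤ H') (p : CosQ H H' × H) :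
    ((cosEquiv h p : H') : GL (Fin 2) EI) = cRep p.1 * p.2 := rfl

/-- The weight of the smaller group. -/
noncomputable def cosetW (H H' : Subgroup (GL (Fin 2) EI)) (ρ : H3 → ℝ) (w : H3) : ℝ :=
  ∑' q : CosQ H H', ρ (gC (cRep q) • w)

variable {n : ℝ} {ρ : H3 → ℝ}

/-- The translates of a weight by the representatives are summable. -/
lemma Part.summable_cosets (hP : Part H' n ρ) (h : H ≤ H') (w : H3) :
    Summable fun q : CosQ H H' => ρ (gC (cRep q) • w) := by
  have hs := ((cosEquiv h).summable_iff.2 (hP.hasSum w).summable).comp_injective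
    (i := fun q : CosQ H H' => (q, (1 : H))) fun a b hab => (Prod.ext_iff.1 hab).1
  exact hs.congr fun q => by simp [cosEquiv_coe]

/-- **The weight of a subgroup.** A partition of unity of a group summed over cosets is one of the
subgroup. -/
theorem Part.cosets (hP : Part H' n ρ) (h : H ≤ H') : Part H n (cosetW H H' ρ) where
  meas := by
    have hm : ∀ q : CosQ H H', Measurable fun w => ρ (gC (cRep q) • w) := fun q =>
      hP.measurable_comp _
    have e : cosetW H H' ρ
        = fun w => (∑' q : CosQ H H', ENNReal.ofReal (ρ (gC (cRep q) • w))).toReal := by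
      funext w
      rw [cosetW, ← ENNReal.ofReal_tsum_of_nonneg (fun q => hP.nonneg _) (hP.summable_cosets h w),
        ENNReal.toReal_ofReal (tsum_nonneg fun q => hP.nonneg _)]
    rw [e]
    exact (Measurable.tsum fun q => (hm q).ennreal_ofReal).ennreal_toReal
  nonneg w := tsum_nonneg fun q => hP.nonneg _
  hasSum w := by
    have h2 : HasSum ((fun p : CosQ H H' × H => ρ (gC (cRep p.1) • gC (p.2 : GL (Fin 2) EI) • w))
        ∘ Equiv.prodComm H (CosQ H H')) n := by
      refine (Equiv.prodComm H (CosQ H H')).hasSum_iff.2 ?_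
      refine ((cosEquiv h).hasSum_iff.2 (hP.hasSum w)).congr_fun fun p => ?_
      rw [Function.comp_apply, cosEquiv_coe, map_mul, mul_smul]
    exact h2.prod_fiberwise fun δ => (hP.summable_cosets h _).hasSum

/-- An integral against a translated weight is the one of the inverse translate of the function. -/
lemma integral_ofReal_smul (γ : GL (Fin 2) EI) (ρ : H3 → ℝ) (f : H3 → ℂ) :
    ∫ w, (ρ (gC γ • w) : ℂ) * f w ∂hmeas = ∫ u, (ρ u : ℂ) * f (gC γ⁻¹ • u) ∂hmeas := by
  conv_rhs => rw [← integral_gC_smul γ]
  refine integral_congr_ae (Eventually.of_forall fun w => ?_)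
  simp only
  rw [smul_smul, ← map_mul, inv_mul_cancel, map_one, one_smul]

variable {b : H3 → ℂ}

/-- Unfolding of nonnegative functions. -/
theorem Part.lintegral_unfold (hP : Part H' n ρ) (h : H ≤ H') {a : H3 → ℝ≥0∞} (ha : Measurable a) :
    ∫⁻ w, ENNReal.ofReal (cosetW H H' ρ w) * a w ∂hmeas
      = ∫⁻ u, ENNReal.ofReal (ρ u) * ∑' q : CosQ H H', a (gC (cRep q)⁻¹ • u) ∂hmeas := by
  have hm : ∀ q : CosQ H H', Measurable fun u => ENNReal.ofReal (ρ u) * a (gC (cRep q)⁻¹ • u) :=
    fun q => hP.meas.ennreal_ofReal.mul (ha.comp (continuous_const_smul _).measurable)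
  have hm' : ∀ q : CosQ H H', Measurable fun w => ENNReal.ofReal (ρ (gC (cRep q) • w)) * a w :=
    fun q => (hP.measurable_comp _).ennreal_ofReal.mul ha
  simp only [← ENNReal.tsum_mul_left]
  rw [lintegral_tsum fun q => (hm q).aemeasurable, tsum_congr fun q =>
    (lintegral_gC_smul (cRep q) (hm q)).symm]
  simp only [smul_smul, ← map_mul, inv_mul_cancel, map_one, one_smul]
  rw [← lintegral_tsum fun q => (hm' q).aemeasurable]
  refine lintegral_congr fun w => ?_
  rw [ENNReal.tsum_mul_right, cosetW,
    ENNReal.ofReal_tsum_of_nonneg (fun q => hP.nonneg _) (hP.summable_cosets h w)]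

/-- **Unfolding.** An integral against the coset weight unfolds to one of the sum over the
cosets. -/
theorem Part.unfold (hP : Part H' n ρ) (h : H ≤ H') (hb : Measurable b)
    (hint : Integrable (fun w => (cosetW H H' ρ w : ℂ) * b w) hmeas) :
    Integrable (fun u => (ρ u : ℂ) * ∑' q : CosQ H H', b (gC (cRep q)⁻¹ • u)) hmeas ∧
      ∫ u, (ρ u : ℂ) * ∑' q : CosQ H H', b (gC (cRep q)⁻¹ • u) ∂hmeas
        = ∫ w, (cosetW H H' ρ w : ℂ) * b w ∂hmeas := by
  set t : CosQ H H' → H3 → ℂ := fun q u => (ρ u : ℂ) * b (gC (cRep q)⁻¹ • u) with ht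
  have htm : ∀ q, Measurable (t q) := fun q => (Complex.measurable_ofReal.comp hP.meas).mul
    (hb.comp (continuous_const_smul _).measurable)
  have hwm : ∀ q : CosQ H H', Measurable fun w => (ρ (gC (cRep q) • w) : ℂ) * b w := fun q =>
    (Complex.measurable_ofReal.comp (hP.measurable_comp _)).mul hb
  -- the coset sum of ρ is cosetW, and translations preserve the measure
  have hnorm : ∀ w, ∑' q : CosQ H H', ‖(ρ (gC (cRep q) • w) : ℂ) * b w‖ₑ
      = ‖(cosetW H H' ρ w : ℂ) * b w‖ₑ := fun w => by
    have hr : ∀ r : ℝ, 0 ≤ r → ‖(r : ℂ)‖ₑ = ENNReal.ofReal r := fun r hr => by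
      rw [← ofReal_norm, Complex.norm_real, Real.norm_of_nonneg hr]
    simp only [enorm_mul, hr _ (hP.nonneg _),
      hr _ (show 0 ≤ cosetW H H' ρ w from tsum_nonneg fun q => hP.nonneg _)]
    rw [ENNReal.tsum_mul_right, cosetW,
      ENNReal.ofReal_tsum_of_nonneg (fun q => hP.nonneg _) (hP.summable_cosets h w)]
  have heq : ∀ q, ∫⁻ u, ‖t q u‖ₑ ∂hmeas
      = ∫⁻ w, ‖(ρ (gC (cRep q) • w) : ℂ) * b w‖ₑ ∂hmeas := fun q => by
    rw [← lintegral_gC_smul (cRep q) (htm q).enorm]
    refine lintegral_congr fun w => ?_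
    simp only [ht, smul_smul, ← map_mul, inv_mul_cancel, map_one, one_smul]
  have htot : ∫⁻ u, ∑' q, ‖t q u‖ₑ ∂hmeas ≠ ∞ := by
    rw [lintegral_tsum fun q => (htm q).enorm.aemeasurable, tsum_congr heq,
      ← lintegral_tsum fun q => (hwm q).enorm.aemeasurable, lintegral_congr hnorm]
    exact hint.2.ne
  -- so the series converges absolutely almost everywhere
  have hsum : ∀ᵐ u ∂hmeas, Summable fun q => ‖t q u‖ := by
    filter_upwards [ae_lt_top (Measurable.tsum fun q => (htm q).enorm) htot] with u hu
    have := ENNReal.summable_toReal hu.ne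
    exact this.congr fun q => toReal_enorm _
  have hgi : ∀ q, Integrable (t q) hmeas := fun q =>
    ⟨(htm q).aestronglyMeasurable, lt_of_le_of_lt (lintegral_mono fun u => ENNReal.le_tsum q)
      htot.lt_top⟩
  -- exchange sum and integral on both sides
  have h1 : ∫ u, ∑' q, t q u ∂hmeas = ∑' q, ∫ u, t q u ∂hmeas :=
    integral_tsum (fun q => (hgi q).1) (by
      rw [← lintegral_tsum fun q => (htm q).enorm.aemeasurable]; exact htot)
  have h2 : ∫ w, ∑' q : CosQ H H', (ρ (gC (cRep q) • w) : ℂ) * b w ∂hmeas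
      = ∑' q : CosQ H H', ∫ w, (ρ (gC (cRep q) • w) : ℂ) * b w ∂hmeas :=
    integral_tsum (fun q => (hwm q).aestronglyMeasurable) (by
      rw [← lintegral_tsum fun q => (hwm q).enorm.aemeasurable, lintegral_congr hnorm]
      exact hint.2.ne)
  have hts : (fun u => (ρ u : ℂ) * ∑' q : CosQ H H', b (gC (cRep q)⁻¹ • u))
      = fun u => ∑' q, t q u := funext fun u => tsum_mul_left.symm
  rw [hts]
  refine ⟨⟨aestronglyMeasurable_of_tendsto_ae atTop
      (f := fun (s : Finset (CosQ H H')) u => ∑ q ∈ s, t q u)
      (fun s => (Finset.measurable_sum s fun q _ => htm q).aestronglyMeasurable) (by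
        filter_upwards [hsum] with u hu using hu.of_norm.hasSum), ?_⟩, ?_⟩
  · rw [hasFiniteIntegral_iff_enorm]
    refine lt_of_le_of_lt (lintegral_mono_ae ?_) htot.lt_top
    filter_upwards [hsum] with u hu
    exact enorm_tsum_le_tsum_enorm
  · rw [h1, tsum_congr fun q => (integral_ofReal_smul (cRep q) ρ b).symm, ← h2]
    refine integral_congr_ae (Eventually.of_forall fun w => ?_)
    simp only
    rw [tsum_mul_right, cosetW, Complex.ofReal_tsum]

end Fermat.LT3
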